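import Mathlib

/-!
# A weight function on the upper half plane for the action of `Γ₀(N)`
-/

set_option autoImplicit false

noncomputable section

namespace Fermat.Agent.H24

open MeasureTheory UpperHalfPlane ModularGroup CongruenceSubgroup Filter
open scoped MatrixGroups ENNReal NNReal Modular

/-- an upper bound for the imaginary part along an orbit -/
lemma im_smul_le (g : SL(2, ℤ)) (τ : ℍ) : (g • τ).im ≤ max τ.im (1 / τ.im) := by
  rw [show (g • τ).im = τ.im / Complex.normSq (denom g τ) from by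
    rw [ModularGroup.im_smul_eq_div_normSq]]
  rw [denom_apply]
  have hpos := τ.im_pos
  by_cases hg : g 1 0 = 0
  · have : g 1 1 ≠ 0 := fun hg' ↦ zero_ne_one <| by
      simpa only [Matrix.det_fin_two, hg, hg', mul_zero, mul_zero, sub_zero] using g.det_coe
    have : (1 : ℝ) ≤ g 1 1 ^ 2 := mod_cast (one_le_sq_iff_one_le_abs _).mpr (Int.one_le_abs this)
    refine le_trans ?_ <| le_max_left _ _
    rw [show Complex.normSq ((g 1 0) * τ + (g 1 1)) = (g 1 1) ^ 2 by simp [hg, sq]]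
    exact div_le_self hpos.le this
  · refine le_trans ?_ <| le_max_right _ _
    rw [show 1 / τ.im = τ.im / τ.im ^ 2 by field_simp]
    gcongr
    rw [show Complex.normSq ((g 1 0) * τ + (g 1 1)) =
      ((g 1 0) * τ.re + (g 1 1)) ^ 2 + (g 1 0) ^ 2 * τ.im ^ 2 by simp [Complex.normSq_apply]; ring]
    have : (1 : ℝ) ≤ g 1 0 ^ 2 := mod_cast (one_le_sq_iff_one_le_abs _).mpr (Int.one_le_abs hg)
    nlinarith

lemma finite_smul_mem_fd (τ : ℍ) : {g : SL(2, ℤ) | g • τ ∈ 𝒟}.Finite := by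
  have h := (Subgroup.properlyDiscontinuousSMul_iff (α := ℍ) (𝒮ℒ : Subgroup (GL (Fin 2) ℝ))).mp
    inferInstance (isCompact_singleton (x := τ))
    (isCompact_truncatedFundamentalDomain (max τ.im (1 / τ.im)))
  refine Set.Finite.of_finite_image (f := Matrix.SpecialLinearGroup.mapGL ℝ) (h.subset ?_) ?_
  · rintro _ ⟨g, hg, rfl⟩
    refine ⟨⟨g, rfl⟩, ⟨g • τ, ?_, hg, im_smul_le g τ⟩⟩
    exact ⟨τ, rfl, rfl⟩
  · exact Matrix.SpecialLinearGroup.mapGL_injective.injOn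

lemma measurableSet_fd : MeasurableSet (𝒟 : Set ℍ) := by
  refine IsClosed.measurableSet ?_
  have h1 : IsClosed {z : ℍ | 1 ≤ Complex.normSq (z : ℂ)} :=
    isClosed_le continuous_const (Complex.continuous_normSq.comp continuous_coe)
  have h2 : IsClosed {z : ℍ | |z.re| ≤ (1 : ℝ) / 2} :=
    isClosed_le (continuous_re.abs) continuous_const
  exact h1.inter h2

lemma volume_fd_lt_top : (volume : Measure ℍ) 𝒟 < ∞ := by
  rw [volume_eq_lintegral]
  -- bounded by a strip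
  have hsub : (UpperHalfPlane.coe '' 𝒟 : Set ℂ) ⊆
      Complex.measurableEquivRealProd ⁻¹' (Set.Icc (-1 : ℝ) 1 ×ˢ Set.Ioi (1 / 2 : ℝ)) := by
    rintro _ ⟨z, hz, rfl⟩
    have h3 := three_le_four_mul_im_sq_of_mem_fd hz
    have h4 := hz.2
    rw [Set.mem_preimage, Complex.measurableEquivRealProd_apply, Set.mem_prod]
    refine ⟨?_, ?_⟩
    · show -1 ≤ z.re ∧ z.re ≤ 1
      have := abs_le.mp h4
      constructor <;> linarith [this.1, this.2]
    · show 1 / 2 < z.im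
      have := z.im_pos
      nlinarith
  refine lt_of_le_of_lt (lintegral_mono_set hsub) ?_
  have hmp := Complex.volume_preserving_equiv_real_prod
  have e1 : ∫⁻ z : ℂ in Complex.measurableEquivRealProd ⁻¹'
      (Set.Icc (-1 : ℝ) 1 ×ˢ Set.Ioi (1 / 2 : ℝ)), ↑((1 / ‖z.im‖₊) ^ 2 : NNReal) =
      ∫⁻ p : ℝ × ℝ in Set.Icc (-1 : ℝ) 1 ×ˢ Set.Ioi (1 / 2 : ℝ),
        ((↑((1 / ‖p.2‖₊) ^ 2 : NNReal) : ℝ≥0∞)) := by
    rw [← hmp.setLIntegral_comp_preimage_emb Complex.measurableEquivRealProd.measurableEmbedding]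
    rfl
  rw [e1, Measure.volume_eq_prod, ← Measure.prod_restrict]
  have hm : Measurable fun y : ℝ => ((↑((1 / ‖y‖₊) ^ 2 : NNReal) : ℝ≥0∞)) := by fun_prop
  rw [show (fun p : ℝ × ℝ => ((↑((1 / ‖p.2‖₊) ^ 2 : NNReal) : ℝ≥0∞))) =
    fun p : ℝ × ℝ => (fun _ : ℝ => (1 : ℝ≥0∞)) p.1 *
      (fun y : ℝ => ((↑((1 / ‖y‖₊) ^ 2 : NNReal) : ℝ≥0∞))) p.2 from by ext p; simp]
  rw [lintegral_prod_mul aemeasurable_const hm.aemeasurable]
  refine ENNReal.mul_lt_top ?_ ?_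
  · simp
  · have h5 : IntegrableOn (fun y : ℝ => y ^ (-2 : ℝ)) (Set.Ioi (1 / 2)) :=
      integrableOn_Ioi_rpow_of_lt (by norm_num) (by norm_num)
    have h6 := h5.hasFiniteIntegral
    rw [HasFiniteIntegral] at h6
    refine lt_of_eq_of_lt ?_ h6
    refine setLIntegral_congr_fun measurableSet_Ioi fun y hy => ?_
    have hy0 : (0 : ℝ) < y := lt_trans (by norm_num) hy
    rw [enorm_eq_nnnorm]
    congr 1
    ext
    push_cast
    rw [Real.norm_of_nonneg (Real.rpow_nonneg hy0.le _), Real.rpow_neg hy0.le]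
    simp [abs_of_pos hy0]

section weight

instance : Countable SL(2, ℤ) :=
  inferInstanceAs (Countable {A : Fin 2 → Fin 2 → ℤ // Matrix.det A = 1})

lemma continuous_smul_SL (g : SL(2, ℤ)) : Continuous fun τ : ℍ => g • τ :=
  continuous_const_smul (Matrix.SpecialLinearGroup.mapGL ℝ g)

variable (Γ : Subgroup SL(2, ℤ)) [Γ.FiniteIndex]

/-- a set meeting every orbit of `Γ` -/
def DN : Set ℍ := ⋃ q : SL(2, ℤ) ⧸ Γ, {τ : ℍ | q.out • τ ∈ 𝒟}

instance : Finite (SL(2, ℤ) ⧸ Γ) := Γ.finite_quotient_of_finiteIndex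

lemma mem_DN {τ : ℍ} : τ ∈ DN Γ ↔ ∃ q : SL(2, ℤ) ⧸ Γ, q.out • τ ∈ 𝒟 := by
  simp [DN]

lemma measurableSet_DN : MeasurableSet (DN Γ) := by
  refine MeasurableSet.iUnion fun q => ?_
  exact measurableSet_fd.preimage (continuous_smul_SL _).measurable

lemma volume_DN_lt_top : (volume : Measure ℍ) (DN Γ) < ∞ := by
  refine (measure_iUnion_le _).trans_lt ?_
  have : Fintype (SL(2, ℤ) ⧸ Γ) := Fintype.ofFinite _
  rw [tsum_fintype]
  refine ENNReal.sum_lt_top.mpr fun q _ => ?_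
  have : (volume : Measure ℍ) {τ : ℍ | q.out • τ ∈ 𝒟} = volume (𝒟 : Set ℍ) := by
    have h := measure_preimage_smul (μ := (volume : Measure ℍ))
      (Matrix.SpecialLinearGroup.mapGL ℝ q.out) (𝒟 : Set ℍ)
    exact h
  rw [this]
  exact volume_fd_lt_top

lemma exists_smul_mem_DN (τ : ℍ) : ∃ γ : Γ, (γ : SL(2, ℤ)) • τ ∈ DN Γ := by
  obtain ⟨g, hg⟩ := exists_smul_mem_fd τ
  obtain ⟨h, hh⟩ : ∃ h : Γ, (QuotientGroup.mk g : SL(2, ℤ) ⧸ Γ).out = g * h :=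
    QuotientGroup.mk_out_eq_mul Γ g
  refine ⟨h⁻¹, (mem_DN Γ).mpr ⟨QuotientGroup.mk g, ?_⟩⟩
  rw [hh, ← mul_smul, mul_assoc, Subgroup.coe_inv, mul_inv_cancel, mul_one]
  exact hg

lemma finite_smul_mem_DN (τ : ℍ) : {γ : Γ | (γ : SL(2, ℤ)) • τ ∈ DN Γ}.Finite := by
  have h1 : {γ : Γ | (γ : SL(2, ℤ)) • τ ∈ DN Γ} =
      ⋃ q : SL(2, ℤ) ⧸ Γ, {γ : Γ | q.out • (γ : SL(2, ℤ)) • τ ∈ 𝒟} := by
    ext γ
    simp only [Set.mem_ofPred_eq, mem_DN, Set.mem_iUnion]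
  rw [h1]
  refine Set.finite_iUnion fun q => ?_
  refine Set.Finite.of_finite_image (f := fun γ : Γ => q.out * (γ : SL(2, ℤ)))
    ((finite_smul_mem_fd τ).subset ?_) ?_
  · rintro _ ⟨γ, hγ, rfl⟩
    show (q.out * (γ : SL(2, ℤ))) • τ ∈ 𝒟
    rw [mul_smul]; exact hγ
  · intro a _ b _ hab
    exact Subtype.ext (mul_left_cancel hab)

/-- number of elements of `Γ` moving `τ` into `DN` -/
def cnt (τ : ℍ) : ℝ≥0∞ := ∑' γ : Γ, (DN Γ).indicator (fun _ => (1 : ℝ≥0∞)) ((γ : SL(2, ℤ)) • τ)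

lemma measurable_cnt : Measurable (cnt Γ) := by
  refine Measurable.tsum fun γ => ?_
  exact (measurable_const.indicator (measurableSet_DN Γ)).comp
    (continuous_smul_SL (γ : SL(2, ℤ))).measurable

lemma cnt_smul (γ : Γ) (τ : ℍ) : cnt Γ ((γ : SL(2, ℤ)) • τ) = cnt Γ τ := by
  rw [cnt, cnt, ← (Equiv.mulRight γ).tsum_eq
    (fun g : Γ => (DN Γ).indicator (fun _ => (1 : ℝ≥0∞)) ((g : SL(2, ℤ)) • τ))]
  refine tsum_congr fun g => ?_
  rw [Equiv.coe_mulRight, Subgroup.coe_mul, mul_smul]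

lemma cnt_ne_top (τ : ℍ) : cnt Γ τ ≠ ∞ := by
  have hfin := finite_smul_mem_DN Γ τ
  rw [cnt, tsum_eq_sum (s := hfin.toFinset) (fun γ hγ => by
    rw [Set.Finite.mem_toFinset, Set.mem_ofPred_eq] at hγ
    rw [Set.indicator_of_notMem hγ])]
  refine (ENNReal.sum_lt_top.mpr fun γ _ => ?_).ne
  exact lt_of_le_of_lt (Set.indicator_le_self' (fun _ _ => zero_le) _) ENNReal.one_lt_top

lemma cnt_ne_zero (τ : ℍ) : cnt Γ τ ≠ 0 := by
  obtain ⟨γ, hγ⟩ := exists_smul_mem_DN Γ τ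
  intro h
  rw [cnt, ENNReal.tsum_eq_zero] at h
  have := h γ
  rw [Set.indicator_of_mem hγ] at this
  exact one_ne_zero this

/-- the weight, with values in `[0, ∞]` -/
def wE (τ : ℍ) : ℝ≥0∞ := (DN Γ).indicator (fun _ => (1 : ℝ≥0∞)) τ / cnt Γ τ

lemma measurable_wE : Measurable (wE Γ) :=
  (measurable_const.indicator (measurableSet_DN Γ)).div (measurable_cnt Γ)

lemma tsum_wE (τ : ℍ) : ∑' γ : Γ, wE Γ ((γ : SL(2, ℤ)) • τ) = 1 := by
  have : ∀ γ : Γ, wE Γ ((γ : SL(2, ℤ)) • τ) =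
      (DN Γ).indicator (fun _ => (1 : ℝ≥0∞)) ((γ : SL(2, ℤ)) • τ) * (cnt Γ τ)⁻¹ := by
    intro γ
    rw [wE, cnt_smul, div_eq_mul_inv]
  simp_rw [this]
  rw [ENNReal.tsum_mul_right]
  exact ENNReal.mul_inv_cancel (cnt_ne_zero Γ τ) (cnt_ne_top Γ τ)

lemma wE_le_one (τ : ℍ) : wE Γ τ ≤ 1 := by
  have h := ENNReal.le_tsum (f := fun γ : Γ => wE Γ ((γ : SL(2, ℤ)) • τ)) 1
  rw [tsum_wE] at h
  simpa using h

lemma wE_eq_zero {τ : ℍ} (h : τ ∉ DN Γ) : wE Γ τ = 0 := by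
  rw [wE, Set.indicator_of_notMem h, ENNReal.zero_div]

/-- **the weight function** -/
def wt (τ : ℍ) : ℝ := (wE Γ τ).toReal

lemma wt_nonneg (τ : ℍ) : 0 ≤ wt Γ τ := ENNReal.toReal_nonneg

lemma wt_le_one (τ : ℍ) : wt Γ τ ≤ 1 :=
  ENNReal.toReal_le_of_le_ofReal zero_le_one (by simpa using wE_le_one Γ τ)

lemma measurable_wt : Measurable (wt Γ) := (measurable_wE Γ).ennreal_toReal

lemma hasSum_wt (τ : ℍ) : HasSum (fun γ : Γ => wt Γ ((γ : SL(2, ℤ)) • τ)) 1 := by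
  have h := ENNReal.hasSum_toReal (f := fun γ : Γ => wE Γ ((γ : SL(2, ℤ)) • τ))
    (by rw [tsum_wE]; exact ENNReal.one_ne_top)
  have e : ∑' γ : Γ, (wE Γ ((γ : SL(2, ℤ)) • τ)).toReal = 1 := by
    rw [← ENNReal.tsum_toReal_eq (fun γ => ((wE_le_one Γ _).trans_lt ENNReal.one_lt_top).ne),
      tsum_wE, ENNReal.toReal_one]
  rw [e] at h
  exact h

lemma integrable_wt : Integrable (wt Γ) := by
  have h1 : Integrable ((DN Γ).indicator fun _ => (1 : ℝ)) :=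
    (integrable_indicator_iff (measurableSet_DN Γ)).mpr
      (integrableOn_const (hs := (volume_DN_lt_top Γ).ne))
  refine h1.mono (measurable_wt Γ).aestronglyMeasurable (Eventually.of_forall fun τ => ?_)
  rw [Real.norm_of_nonneg (wt_nonneg Γ τ)]
  by_cases h : τ ∈ DN Γ
  · rw [Set.indicator_of_mem h, norm_one]
    exact wt_le_one Γ τ
  · rw [wt, wE_eq_zero Γ h, ENNReal.toReal_zero]
    exact norm_nonneg _

end weight

end Fermat.Agent.H24
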