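import Mathlib
import Fermat.Agent.H24.PetW
import Fermat.Prelude.Def_ModularForm_HeckeOperatorForms

/-!
# Hecke operators are self adjoint for the Petersson product
-/

set_option autoImplicit false

noncomputable section

namespace Fermat.Agent.H24

open MeasureTheory UpperHalfPlane ModularGroup CongruenceSubgroup Filter Matrix
open scoped MatrixGroups ENNReal NNReal Modular ModularForm ComplexConjugate

/-- integral matrices of determinant `p` with lower left entry divisible by `N` -/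
def Dl (N p : ℕ) : Type := {A : Matrix (Fin 2) (Fin 2) ℤ // A.det = p ∧ (N : ℤ) ∣ A 1 0}

namespace Dl

variable {N p : ℕ}

lemma ext' {A B : Dl N p} (h : A.1 = B.1) : A = B := Subtype.ext h

instance : Countable (Dl N p) :=
  inferInstanceAs (Countable {A : Fin 2 → Fin 2 → ℤ // Matrix.det A = p ∧ (N : ℤ) ∣ A 1 0})

lemma det_cast (A : Dl N p) : (A.1.map (Int.cast : ℤ → ℝ)).det = p := by
  have h := congrArg (Int.cast : ℤ → ℝ) A.2.1
  rw [Int.cast_det] at h
  simpa using h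

/-- the associated element of `GL₂(ℝ)` -/
def gl [hp : Fact p.Prime] (A : Dl N p) : GL (Fin 2) ℝ :=
  Matrix.GeneralLinearGroup.mkOfDetNeZero (A.1.map (Int.cast : ℤ → ℝ)) (by
    rw [A.det_cast]; exact_mod_cast hp.out.ne_zero)

variable [hp : Fact p.Prime]

lemma val_gl (A : Dl N p) : (A.gl : Matrix (Fin 2) (Fin 2) ℝ) = A.1.map (Int.cast : ℤ → ℝ) := rfl

lemma det_gl (A : Dl N p) : (A.gl.det : ℝ) = p := by
  rw [Matrix.GeneralLinearGroup.val_det_apply, val_gl, det_cast]

lemma det_gl_pos (A : Dl N p) : 0 < (A.gl.det : ℝ) := by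
  rw [det_gl]; exact_mod_cast hp.out.pos

/-- left multiplication -/
def lmul (γ : Gamma0 N) (A : Dl N p) : Dl N p :=
  ⟨(γ : SL(2, ℤ)).1 * A.1, by
    rw [Matrix.det_mul, (γ : SL(2, ℤ)).2, one_mul]; exact A.2.1, by
    rw [Matrix.mul_apply, Fin.sum_univ_two]
    have h : (N : ℤ) ∣ (γ : SL(2, ℤ)).1 1 0 :=
      (ZMod.intCast_zmod_eq_zero_iff_dvd _ _).mp (Gamma0_mem.mp γ.2)
    exact dvd_add (h.mul_right _) (A.2.2.mul_left _)⟩

/-- right multiplication -/
def rmul (A : Dl N p) (γ : Gamma0 N) : Dl N p :=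
  ⟨A.1 * (γ : SL(2, ℤ)).1, by
    rw [Matrix.det_mul, (γ : SL(2, ℤ)).2, mul_one]; exact A.2.1, by
    rw [Matrix.mul_apply, Fin.sum_univ_two]
    have h : (N : ℤ) ∣ (γ : SL(2, ℤ)).1 1 0 :=
      (ZMod.intCast_zmod_eq_zero_iff_dvd _ _).mp (Gamma0_mem.mp γ.2)
    exact dvd_add (A.2.2.mul_right _) (h.mul_left _)⟩

/-- the adjugate -/
def adj (A : Dl N p) : Dl N p :=
  ⟨A.1.adjugate, by
    rw [Matrix.det_adjugate]; simp [A.2.1], by
    rw [Matrix.adjugate_fin_two]
    simpa using A.2.2⟩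

lemma adj_adj (A : Dl N p) : A.adj.adj = A := by
  apply ext'
  show A.1.adjugate.adjugate = A.1
  rw [Matrix.adjugate_adjugate _ (by simp)]
  simp

/-- the adjugate as an equivalence -/
def adjEquiv : Dl N p ≃ Dl N p := ⟨adj, adj, adj_adj, adj_adj⟩

lemma gl_lmul (γ : Gamma0 N) (A : Dl N p) :
    (lmul γ A).gl = Matrix.SpecialLinearGroup.mapGL ℝ (γ : SL(2, ℤ)) * A.gl := by
  apply Units.ext
  rw [Units.val_mul, val_gl, val_gl]
  show ((γ : SL(2, ℤ)).1 * A.1).map (Int.castRingHom ℝ) = _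
  rw [Matrix.map_mul]
  rfl

lemma gl_rmul (γ : Gamma0 N) (A : Dl N p) :
    (rmul A γ).gl = A.gl * Matrix.SpecialLinearGroup.mapGL ℝ (γ : SL(2, ℤ)) := by
  apply Units.ext
  rw [Units.val_mul, val_gl, val_gl]
  show (A.1 * (γ : SL(2, ℤ)).1).map (Int.castRingHom ℝ) = _
  rw [Matrix.map_mul]
  rfl

lemma val_adj_mul (A : Dl N p) : ((A.adj.gl * A.gl : GL (Fin 2) ℝ) : Matrix (Fin 2) (Fin 2) ℝ) =
    (p : ℝ) • (1 : Matrix (Fin 2) (Fin 2) ℝ) := by
  rw [Units.val_mul, val_gl, val_gl]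
  show A.1.adjugate.map (Int.castRingHom ℝ) * A.1.map (Int.castRingHom ℝ) = _
  rw [← Matrix.map_mul, Matrix.adjugate_mul, A.2.1]
  ext i j
  rw [Matrix.map_apply, Matrix.smul_apply, Matrix.smul_apply, Matrix.one_apply, Matrix.one_apply]
  split_ifs <;> simp

lemma adj_smul_smul (A : Dl N p) (τ : ℍ) : A.adj.gl • A.gl • τ = τ := by
  rw [← mul_smul]
  ext
  have hp0 : (p : ℂ) ≠ 0 := by exact_mod_cast hp.out.ne_zero
  rw [UpperHalfPlane.coe_smul_of_det_pos (by
    rw [map_mul, Units.val_mul]; exact mul_pos A.adj.det_gl_pos A.det_gl_pos)]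
  rw [UpperHalfPlane.num, UpperHalfPlane.denom, val_adj_mul]
  simp
  field_simp

lemma smul_adj_smul (A : Dl N p) (τ : ℍ) : A.gl • A.adj.gl • τ = τ := by
  have h := adj_smul_smul A.adj τ
  rwa [adj_adj] at h

lemma slash_adj_mul (k : ℤ) (A : Dl N p) (g : ℍ → ℂ) :
    g ∣[k] (A.adj.gl * A.gl) = ((p : ℂ) ^ (k - 2)) • g := by
  ext τ
  have hp0 : (p : ℂ) ≠ 0 := by exact_mod_cast hp.out.ne_zero
  have hpos : 0 < ((A.adj.gl * A.gl).det : ℝ) := by
    rw [map_mul, Units.val_mul]; exact mul_pos A.adj.det_gl_pos A.det_gl_pos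
  rw [ModularForm.slash_apply, mul_smul, adj_smul_smul, UpperHalfPlane.σ, if_pos hpos]
  have hdet : (((A.adj.gl * A.gl).det : ℝˣ) : ℝ) = p * p := by
    rw [map_mul, Units.val_mul, det_gl, det_gl]
  rw [hdet, UpperHalfPlane.denom, val_adj_mul]
  simp only [ContinuousAlgEquiv.refl_apply, Pi.smul_apply, smul_eq_mul]
  have e1 : ((|(p : ℝ) * p| : ℝ) : ℂ) = (p : ℂ) * p := by
    rw [abs_of_nonneg (by positivity)]; push_cast; ring
  rw [e1]
  have e2 : (((p : ℝ) • (1 : Matrix (Fin 2) (Fin 2) ℝ)) 1 0 : ℂ) * τ +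
      (((p : ℝ) • (1 : Matrix (Fin 2) (Fin 2) ℝ)) 1 1 : ℂ) = p := by
    simp
  rw [e2, mul_zpow, mul_assoc, mul_assoc, ← zpow_add₀ hp0, ← zpow_add₀ hp0]
  rw [show k - 1 + (k - 1 + -k) = k - 2 by ring]
  ring

/-- the representatives -/
def rep (N p : ℕ) [hp : Fact p.Prime] : Option (Fin p) → Dl N p
  | none => ⟨!![(p : ℤ), 0; 0, 1], by simp, by simp⟩
  | some j => ⟨!![1, (j : ℤ); 0, (p : ℤ)], by simp, by simp⟩

lemma rep_none_gl : (rep N p none).gl = ModularForm.heckeDiagMatrix p := by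
  apply Units.ext
  rw [ModularForm.val_heckeDiagMatrix hp.out.ne_zero, val_gl]
  ext i j
  fin_cases i <;> fin_cases j <;> simp [rep]

lemma rep_some_gl (j : Fin p) : (rep N p (some j)).gl = ModularForm.heckeMatrix p j := by
  apply Units.ext
  rw [ModularForm.val_heckeMatrix hp.out.ne_zero, val_gl]
  ext i j
  fin_cases i <;> fin_cases j <;> simp [rep]

lemma heckeT_eq (k : ℤ) (f : ℍ → ℂ) :
    ModularForm.heckeT k p f = ∑ i, f ∣[k] (rep N p i).gl := by
  rw [ModularForm.heckeT_def, Fintype.sum_option, rep_none_gl, add_comm]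
  congr 1
  rw [Finset.sum_range]
  exact Finset.sum_congr rfl fun j _ => by rw [rep_some_gl]

/-- the map `(i, γ) ↦ γ δ_i` -/
def toDl (x : Option (Fin p) × Gamma0 N) : Dl N p := lmul x.2 (rep N p x.1)

lemma toDl_some (j : Fin p) (γ : Gamma0 N) : (toDl (some j, γ)).1 =
    !![(γ : SL(2, ℤ)) 0 0, (γ : SL(2, ℤ)) 0 0 * j + (γ : SL(2, ℤ)) 0 1 * p;
      (γ : SL(2, ℤ)) 1 0, (γ : SL(2, ℤ)) 1 0 * j + (γ : SL(2, ℤ)) 1 1 * p] := by
  show (γ : SL(2, ℤ)).1 * !![1, (j : ℤ); 0, (p : ℤ)] = _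
  ext i j
  fin_cases i <;> fin_cases j <;> simp [Matrix.mul_apply, Fin.sum_univ_two]

lemma toDl_none (γ : Gamma0 N) : (toDl (p := p) (none, γ)).1 =
    !![(γ : SL(2, ℤ)) 0 0 * p, (γ : SL(2, ℤ)) 0 1;
      (γ : SL(2, ℤ)) 1 0 * p, (γ : SL(2, ℤ)) 1 1] := by
  show (γ : SL(2, ℤ)).1 * !![(p : ℤ), 0; 0, 1] = _
  ext i j
  fin_cases i <;> fin_cases j <;> simp [Matrix.mul_apply, Fin.sum_univ_two]

lemma toDl_injective : Function.Injective (toDl : Option (Fin p) × Gamma0 N → Dl N p) := by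
  have hp0 : (p : ℤ) ≠ 0 := by exact_mod_cast hp.out.ne_zero
  have key : ∀ γ : Gamma0 N, ¬ ((p : ℤ) ∣ (γ : SL(2, ℤ)) 0 0 ∧ (p : ℤ) ∣ (γ : SL(2, ℤ)) 1 0) := by
    rintro γ ⟨h1, h2⟩
    have h3 := (γ : SL(2, ℤ)).det_coe
    rw [Matrix.det_fin_two] at h3
    have h4 : (p : ℤ) ∣ 1 := by
      rw [← h3]
      exact dvd_sub (h1.mul_right _) (h2.mul_left _)
    have h5 := Int.isUnit_iff.mp (isUnit_of_dvd_one h4)
    have := hp.out.two_le
    omega
  rintro ⟨i, γ⟩ ⟨i', γ'⟩ h
  have h' := congrArg Subtype.val h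
  cases i with
  | none =>
    cases i' with
    | none =>
      rw [toDl_none, toDl_none] at h'
      have e00 := congrFun (congrFun h' 0) 0
      have e01 := congrFun (congrFun h' 0) 1
      have e10 := congrFun (congrFun h' 1) 0
      have e11 := congrFun (congrFun h' 1) 1
      simp only [Matrix.of_apply, Matrix.cons_val', Matrix.cons_val_zero, Matrix.cons_val_one,
        Matrix.cons_val_fin_one] at e00 e01 e10 e11
      have : γ = γ' := by
        apply Subtype.ext
        ext i j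
        fin_cases i <;> fin_cases j
        · exact mul_right_cancel₀ hp0 e00
        · exact e01
        · exact mul_right_cancel₀ hp0 e10
        · exact e11
      rw [this]
    | some j' =>
      exfalso
      rw [toDl_none, toDl_some] at h'
      have e00 := congrFun (congrFun h' 0) 0
      have e10 := congrFun (congrFun h' 1) 0
      simp only [Matrix.of_apply, Matrix.cons_val', Matrix.cons_val_zero, Matrix.cons_val_one,
        Matrix.cons_val_fin_one] at e00 e10
      exact key γ' ⟨⟨_, by rw [← e00, mul_comm]⟩, ⟨_, by rw [← e10, mul_comm]⟩⟩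
  | some j =>
    cases i' with
    | none =>
      exfalso
      rw [toDl_none, toDl_some] at h'
      have e00 := congrFun (congrFun h' 0) 0
      have e10 := congrFun (congrFun h' 1) 0
      simp only [Matrix.of_apply, Matrix.cons_val', Matrix.cons_val_zero, Matrix.cons_val_one,
        Matrix.cons_val_fin_one] at e00 e10
      exact key γ ⟨⟨_, by rw [e00, mul_comm]⟩, ⟨_, by rw [e10, mul_comm]⟩⟩
    | some j' =>
      rw [toDl_some, toDl_some] at h'
      have e00 := congrFun (congrFun h' 0) 0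
      have e01 := congrFun (congrFun h' 0) 1
      have e10 := congrFun (congrFun h' 1) 0
      have e11 := congrFun (congrFun h' 1) 1
      simp only [Matrix.of_apply, Matrix.cons_val', Matrix.cons_val_zero, Matrix.cons_val_one,
        Matrix.cons_val_fin_one] at e00 e01 e10 e11
      rw [← e00] at e01
      rw [← e10] at e11
      have hjj : j = j' := by
        have h1 : (p : ℤ) ∣ (γ : SL(2, ℤ)) 0 0 * ((j : ℤ) - j') :=
          ⟨(γ' : SL(2, ℤ)) 0 1 - (γ : SL(2, ℤ)) 0 1, by linear_combination e01⟩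
        have h2 : (p : ℤ) ∣ (γ : SL(2, ℤ)) 1 0 * ((j : ℤ) - j') :=
          ⟨(γ' : SL(2, ℤ)) 1 1 - (γ : SL(2, ℤ)) 1 1, by linear_combination e11⟩
        have hpp : Prime (p : ℤ) := Nat.prime_iff_prime_int.mp hp.out
        have h3 : (p : ℤ) ∣ (j : ℤ) - j' := by
          rcases hpp.dvd_or_dvd h1 with h | h
          · rcases hpp.dvd_or_dvd h2 with h' | h'
            · exact absurd ⟨h, h'⟩ (key γ)
            · exact h'
          · exact h
        obtain ⟨c, hc⟩ := h3
        have hj := j.2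
        have hj' := j'.2
        have hc0 : c = 0 := by
          by_contra hc0
          rcases lt_or_gt_of_ne hc0 with h | h
          · have : (p : ℤ) * c ≤ -p := by nlinarith
            omega
          · have : (p : ℤ) * c ≥ p := by nlinarith
            omega
        rw [hc0] at hc
        exact Fin.ext (by omega)
      subst hjj
      have : γ = γ' := by
        apply Subtype.ext
        ext a b
        fin_cases a <;> fin_cases b
        · exact e00
        · show (γ : SL(2, ℤ)) 0 1 = (γ' : SL(2, ℤ)) 0 1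
          exact mul_right_cancel₀ hp0 (by linear_combination e01)
        · exact e10
        · show (γ : SL(2, ℤ)) 1 1 = (γ' : SL(2, ℤ)) 1 1
          exact mul_right_cancel₀ hp0 (by linear_combination e11)
      rw [this]

lemma toDl_surjective (hpN : ¬ p ∣ N) :
    Function.Surjective (toDl : Option (Fin p) × Gamma0 N → Dl N p) := by
  have hp0 : (p : ℤ) ≠ 0 := by exact_mod_cast hp.out.ne_zero
  have hpp : Prime (p : ℤ) := Nat.prime_iff_prime_int.mp hp.out
  intro A
  obtain ⟨A, hdet, hN⟩ := A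
  have hdet' : A 0 0 * A 1 1 - A 0 1 * A 1 0 = p := by rw [← hdet, Matrix.det_fin_two]
  by_cases hdiv : (p : ℤ) ∣ A 0 0 ∧ (p : ℤ) ∣ A 1 0
  · obtain ⟨⟨a, ha⟩, ⟨c, hc⟩⟩ := hdiv
    have h1 : a * A 1 1 - A 0 1 * c = 1 := by
      apply mul_left_cancel₀ hp0
      rw [ha, hc] at hdet'
      linear_combination hdet'
    have hNc : (N : ℤ) ∣ c := by
      rw [hc] at hN
      refine IsCoprime.dvd_of_dvd_mul_left ?_ hN
      rw [Nat.isCoprime_iff_coprime, Nat.coprime_comm]
      exact (hp.out.coprime_iff_not_dvd).mpr hpN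
    refine ⟨(none, ⟨⟨!![a, A 0 1; c, A 1 1], by rw [Matrix.det_fin_two_of]; exact h1⟩, ?_⟩), ?_⟩
    · exact Gamma0_mem.mpr ((ZMod.intCast_zmod_eq_zero_iff_dvd _ _).mpr hNc)
    · apply ext'
      rw [toDl_none]
      ext i j
      fin_cases i <;> fin_cases j
      · show a * p = A 0 0
        rw [ha, mul_comm]
      · rfl
      · show c * p = A 1 0
        rw [hc, mul_comm]
      · rfl
  · -- find j
    obtain ⟨j, hj⟩ : ∃ j : Fin p, (p : ℤ) ∣ A 0 1 - A 0 0 * j ∧ (p : ℤ) ∣ A 1 1 - A 1 0 * j := by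
      have hsolve : ∀ x y : ℤ, ¬ (p : ℤ) ∣ x → ∃ j : Fin p, (p : ℤ) ∣ y - x * j := by
        intro x y hx
        have hcop : IsCoprime (p : ℤ) x := (hpp.coprime_iff_not_dvd).mpr hx
        obtain ⟨u, v, huv⟩ := hcop
        have hpos : (0 : ℤ) < p := by exact_mod_cast hp.out.pos
        refine ⟨⟨((v * y) % p).toNat, ?_⟩, ?_⟩
        · have h1 := Int.emod_nonneg (v * y) hp0
          have h2 := Int.emod_lt_of_pos (v * y) hpos
          omega
        · have h1 := Int.emod_nonneg (v * y) hp0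
          show (p : ℤ) ∣ y - x * (((v * y) % p).toNat : ℤ)
          rw [Int.toNat_of_nonneg h1]
          have h3 := Int.emod_add_mul_ediv (v * y) p
          refine ⟨u * y + x * (v * y / p), ?_⟩
          linear_combination (-y) * huv + (-x) * h3
      have hmul : ∀ {x y : ℤ}, (p : ℤ) ∣ x * y → ¬ (p : ℤ) ∣ x → (p : ℤ) ∣ y := fun h hx =>
        (hpp.dvd_or_dvd h).resolve_left hx
      by_cases h0 : (p : ℤ) ∣ A 0 0
      · have h1 : ¬ (p : ℤ) ∣ A 1 0 := fun h => hdiv ⟨h0, h⟩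
        obtain ⟨j, hj⟩ := hsolve (A 1 0) (A 1 1) h1
        refine ⟨j, ?_, hj⟩
        apply hmul (x := A 1 0) _ h1
        obtain ⟨t, ht⟩ := hj
        exact ⟨A 0 0 * t - 1, by linear_combination (-1) * hdet' + (A 0 0) * ht⟩
      · obtain ⟨j, hj⟩ := hsolve (A 0 0) (A 0 1) h0
        refine ⟨j, hj, ?_⟩
        apply hmul (x := A 0 0) _ h0
        obtain ⟨t, ht⟩ := hj
        exact ⟨1 + A 1 0 * t, by linear_combination hdet' + (A 1 0) * ht⟩
    obtain ⟨⟨b, hb⟩, ⟨d, hd⟩⟩ := hj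
    refine ⟨(some j, ⟨⟨!![A 0 0, b; A 1 0, d], ?_⟩, ?_⟩), ?_⟩
    · rw [Matrix.det_fin_two_of]
      apply mul_left_cancel₀ hp0
      linear_combination hdet' - (A 0 0) * hd + (A 1 0) * hb
    · exact Gamma0_mem.mpr ((ZMod.intCast_zmod_eq_zero_iff_dvd _ _).mpr hN)
    · apply ext'
      rw [toDl_some]
      ext i k
      fin_cases i <;> fin_cases k
      · rfl
      · show A 0 0 * j + b * p = A 0 1
        linear_combination (-1) * hb
      · rfl
      · show A 1 0 * j + d * p = A 1 1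
        linear_combination (-1) * hd

/-- every element of `Dl` is uniquely `γ δ_i`. -/
def equivDl (hpN : ¬ p ∣ N) : Option (Fin p) × Gamma0 N ≃ Dl N p :=
  Equiv.ofBijective toDl ⟨toDl_injective, toDl_surjective hpN⟩

end Dl

end Fermat.Agent.H24
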