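import Mathlib
import Fermat.Agent.H24.PetH

/-!
# Hecke operators are self adjoint for the Petersson product
-/

set_option autoImplicit false

noncomputable section

namespace Fermat.Agent.H24

open MeasureTheory UpperHalfPlane ModularGroup CongruenceSubgroup Filter Matrix
open scoped MatrixGroups ENNReal NNReal Modular ModularForm ComplexConjugate

variable {N : ℕ} [NeZero N] {k : ℤ}

section Psi

variable {p : ℕ} [hp : Fact p.Prime] (f g : CuspForm (Gamma0 N) k)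

/-- the function `⟨f, g | A⟩ (τ)` -/
def Psi (A : Dl N p) (τ : ℍ) : ℂ := petersson k f (⇑g ∣[k] A.gl) τ

lemma slash_gamma (γ : Gamma0 N) :
    (⇑g ∣[k] (Matrix.SpecialLinearGroup.mapGL ℝ (γ : SL(2, ℤ)))) = ⇑g :=
  SlashInvariantFormClass.slash_action_eq g _ ⟨γ, γ.2, rfl⟩

lemma Psi_lmul (γ : Gamma0 N) (A : Dl N p) (τ : ℍ) : Psi f g (Dl.lmul γ A) τ = Psi f g A τ := by
  rw [Psi, Psi, Dl.gl_lmul, SlashAction.slash_mul, slash_gamma]

lemma Psi_rmul (γ : Gamma0 N) (A : Dl N p) (τ : ℍ) :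
    Psi f g (Dl.rmul A γ) τ = Psi f g A ((γ : SL(2, ℤ)) • τ) := by
  rw [Psi, Psi, Dl.gl_rmul, SlashAction.slash_mul]
  have h := petersson_slash_SL k (⇑f) (⇑g ∣[k] A.gl) (γ : SL(2, ℤ)) τ
  rw [← h]
  congr 1
  exact (slash_gamma f γ).symm

lemma Psi_adj (A : Dl N p) (τ : ℍ) :
    petersson k (⇑f ∣[k] A.gl) g τ = Psi f g A.adj (A.gl • τ) := by
  have hp0 : (p : ℂ) ≠ 0 := by exact_mod_cast hp.out.ne_zero
  have h := petersson_slash k (⇑f) (⇑g ∣[k] A.adj.gl) A.gl τ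
  rw [← SlashAction.slash_mul, Dl.slash_adj_mul, UpperHalfPlane.σ, if_pos A.det_gl_pos,
    ContinuousAlgEquiv.refl_apply, A.det_gl] at h
  have e1 : ((|(p : ℝ)| : ℝ) : ℂ) = (p : ℂ) := by
    rw [abs_of_nonneg (by positivity)]; push_cast; ring
  rw [e1] at h
  have e2 : petersson k (⇑f ∣[k] A.gl) ((p : ℂ) ^ (k - 2) • ⇑g) τ =
      (p : ℂ) ^ (k - 2) * petersson k (⇑f ∣[k] A.gl) g τ := by
    simp only [petersson, Pi.smul_apply, smul_eq_mul]
    ring
  rw [e2] at h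
  exact mul_left_cancel₀ (zpow_ne_zero _ hp0) h

lemma continuous_slash (A : Dl N p) : Continuous (⇑g ∣[k] A.gl) := by
  have h1 : (⇑g ∣[k] A.gl) = fun τ : ℍ => g (A.gl • τ) * ((p : ℝ) : ℂ) ^ (k - 1) *
      denom A.gl τ ^ (-k) := by
    ext τ
    rw [ModularForm.slash_apply, UpperHalfPlane.σ, if_pos A.det_gl_pos,
      ContinuousAlgEquiv.refl_apply, A.det_gl, abs_of_nonneg (by positivity)]
  rw [h1]
  have hg : Continuous g := ModularFormClass.continuous g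
  have h2 : Continuous fun τ : ℍ => A.gl • τ := continuous_const_smul _
  have h3 : Continuous fun τ : ℍ => denom A.gl τ := by
    unfold denom
    fun_prop
  refine ((hg.comp h2).mul continuous_const).mul (h3.zpow₀ _ fun τ => Or.inl (denom_ne_zero _ _))

lemma continuous_Psi (A : Dl N p) : Continuous (Psi f g A) := by
  have hf : Continuous f := ModularFormClass.continuous f
  exact petersson_continuous k hf (continuous_slash g A)

lemma norm_petersson_le (h1 h2 : ℍ → ℂ) (τ : ℍ) :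
    ‖petersson k h1 h2 τ‖ ≤ ‖petersson k h1 h1 τ‖ + ‖petersson k h2 h2 τ‖ := by
  simp only [petersson, norm_mul, Complex.norm_conj]
  have hy : 0 ≤ ‖(τ.im : ℂ) ^ k‖ := norm_nonneg _
  nlinarith [sq_nonneg (‖h1 τ‖ - ‖h2 τ‖), norm_nonneg (h1 τ), norm_nonneg (h2 τ),
    mul_nonneg (sq_nonneg (‖h1 τ‖ - ‖h2 τ‖)) hy, mul_nonneg (mul_nonneg (norm_nonneg (h1 τ))
      (norm_nonneg (h1 τ))) hy, mul_nonneg (mul_nonneg (norm_nonneg (h2 τ))
      (norm_nonneg (h2 τ))) hy]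

lemma exists_bound_Psi (A : Dl N p) : ∃ C, ∀ τ, ‖Psi f g A τ‖ ≤ C := by
  obtain ⟨C1, h1⟩ := CuspFormClass.petersson_bounded_left k
    ((Gamma0 N : Subgroup SL(2, ℤ)) : Subgroup (GL (Fin 2) ℝ)) f f
  obtain ⟨C2, h2⟩ := CuspFormClass.petersson_bounded_left k
    ((Gamma0 N : Subgroup SL(2, ℤ)) : Subgroup (GL (Fin 2) ℝ)) g g
  refine ⟨C1 + |(p : ℝ)| ^ (k - 2) * C2, fun τ => ?_⟩
  refine (norm_petersson_le _ _ τ).trans (add_le_add (h1 τ) ?_)
  rw [petersson_slash, norm_mul, norm_σ, A.det_gl, norm_zpow, Complex.norm_real, Real.norm_eq_abs,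
    abs_abs]
  exact mul_le_mul_of_nonneg_left (h2 _) (zpow_nonneg (abs_nonneg _) _)

end Psi

section ip

/-- the Petersson product -/
def ip (f g : CuspForm (Gamma0 N) k) : ℂ := ∫ τ : ℍ, (wt (Gamma0 N) τ : ℂ) * petersson k f g τ

lemma integrable_wt_mul {h : ℍ → ℂ} (hc : Continuous h) {C : ℝ} (hC : ∀ τ, ‖h τ‖ ≤ C) :
    Integrable fun τ : ℍ => (wt (Gamma0 N) τ : ℂ) * h τ := by
  have h1 : Integrable fun τ : ℍ => (wt (Gamma0 N) τ : ℂ) := (integrable_wt (Gamma0 N)).ofReal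
  have h2 := h1.bdd_mul (f := h) hc.aestronglyMeasurable (Eventually.of_forall hC)
  refine h2.congr (Eventually.of_forall fun τ => ?_)
  exact mul_comm _ _

lemma exists_bound_pet (f g : CuspForm (Gamma0 N) k) : ∃ C, ∀ τ, ‖petersson k f g τ‖ ≤ C :=
  CuspFormClass.petersson_bounded_left k
    ((Gamma0 N : Subgroup SL(2, ℤ)) : Subgroup (GL (Fin 2) ℝ)) f g

lemma continuous_pet (f g : CuspForm (Gamma0 N) k) : Continuous (petersson k f g) :=
  petersson_continuous k (ModularFormClass.continuous f) (ModularFormClass.continuous g)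

lemma integrable_pet (f g : CuspForm (Gamma0 N) k) :
    Integrable fun τ : ℍ => (wt (Gamma0 N) τ : ℂ) * petersson k f g τ := by
  obtain ⟨C, hC⟩ := exists_bound_pet f g
  exact integrable_wt_mul (continuous_pet f g) hC

/-- insertion of the partition of unity -/
lemma hasSum_insert {h : ℍ → ℂ} (hint : Integrable h) {φ : ℍ → ℍ} (hφ : Measurable φ) :
    HasSum (fun γ : Gamma0 N => ∫ τ : ℍ, (wt (Gamma0 N) ((γ : SL(2, ℤ)) • φ τ) : ℂ) * h τ)
      (∫ τ : ℍ, h τ) := by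
  have hm : ∀ γ : Gamma0 N, Measurable fun τ : ℍ => wt (Gamma0 N) ((γ : SL(2, ℤ)) • φ τ) :=
    fun γ => (measurable_wt (Gamma0 N)).comp
      ((continuous_smul_SL (γ : SL(2, ℤ))).measurable.comp hφ)
  refine hasSum_integral_of_dominated_convergence
    (bound := fun γ τ => wt (Gamma0 N) ((γ : SL(2, ℤ)) • φ τ) * ‖h τ‖) ?_ ?_ ?_ ?_ ?_
  · intro γ
    exact (Complex.measurable_ofReal.comp (hm γ)).aestronglyMeasurable.mul
      hint.aestronglyMeasurable
  · intro γ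
    refine Eventually.of_forall fun τ => ?_
    rw [norm_mul, Complex.norm_real, Real.norm_of_nonneg (wt_nonneg _ _)]
  · exact Eventually.of_forall fun τ => ((hasSum_wt (Gamma0 N) (φ τ)).mul_right _).summable
  · refine hint.norm.congr (Eventually.of_forall fun τ => ?_)
    show ‖h τ‖ = ∑' γ : Gamma0 N, wt (Gamma0 N) ((γ : SL(2, ℤ)) • φ τ) * ‖h τ‖
    rw [((hasSum_wt (Gamma0 N) (φ τ)).mul_right ‖h τ‖).tsum_eq, one_mul]
  · refine Eventually.of_forall fun τ => ?_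
    have h1 : HasSum (fun γ : Gamma0 N => (wt (Gamma0 N) ((γ : SL(2, ℤ)) • φ τ) : ℂ)) 1 := by
      rw [← Complex.ofReal_one]
      exact Complex.hasSum_ofReal.mpr (hasSum_wt (Gamma0 N) (φ τ))
    simpa using h1.mul_right (h τ)

variable {p : ℕ} [hp : Fact p.Prime] (f g : CuspForm (Gamma0 N) k)

/-- the symmetric kernel -/
def Sk (A : Dl N p) : ℂ :=
  ∫ τ : ℍ, (wt (Gamma0 N) (A.gl • τ) : ℂ) * ((wt (Gamma0 N) τ : ℂ) * Psi f g A τ)

lemma lmul_smul (γ : Gamma0 N) (A : Dl N p) (τ : ℍ) :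
    (Dl.lmul γ A).gl • τ = (γ : SL(2, ℤ)) • A.gl • τ := by
  rw [Dl.gl_lmul, mul_smul]; rfl

lemma rmul_smul (γ : Gamma0 N) (A : Dl N p) (τ : ℍ) :
    (Dl.rmul A γ).gl • τ = A.gl • (γ : SL(2, ℤ)) • τ := by
  rw [Dl.gl_rmul, mul_smul]; rfl

lemma hasSum_B (A : Dl N p) :
    HasSum (fun γ : Gamma0 N => Sk f g (Dl.lmul γ A))
      (∫ τ : ℍ, (wt (Gamma0 N) τ : ℂ) * Psi f g A τ) := by
  obtain ⟨C, hC⟩ := exists_bound_Psi f g A
  have h1 := hasSum_insert (N := N) (integrable_wt_mul (N := N) (continuous_Psi f g A) hC)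
    (φ := fun τ => A.gl • τ) (continuous_const_smul _).measurable
  refine Eq.mp (congrArg (fun F => HasSum F _) (funext fun γ => ?_)) h1
  symm
  rw [Sk]
  refine integral_congr_ae (Eventually.of_forall fun τ => ?_)
  show (wt (Gamma0 N) ((Dl.lmul γ A).gl • τ) : ℂ) *
    ((wt (Gamma0 N) τ : ℂ) * Psi f g (Dl.lmul γ A) τ) = _
  rw [lmul_smul, Psi_lmul]

lemma lmul_adj (γ : Gamma0 N) (A : Dl N p) : (Dl.lmul γ A).adj = Dl.rmul A.adj γ⁻¹ := by
  apply Dl.ext'
  show ((γ : SL(2, ℤ)).1 * A.1).adjugate = A.1.adjugate * ((γ⁻¹ : Gamma0 N) : SL(2, ℤ)).1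
  rw [Matrix.adjugate_mul_distrib]
  congr 1

lemma hasSum_A (A : Dl N p) :
    HasSum (fun γ : Gamma0 N => Sk f g (Dl.lmul γ A).adj)
      (∫ τ : ℍ, (wt (Gamma0 N) τ : ℂ) * Psi f g A.adj (A.gl • τ)) := by
  obtain ⟨C, hC⟩ := exists_bound_Psi f g A.adj
  have e1 : (∫ τ : ℍ, (wt (Gamma0 N) τ : ℂ) * Psi f g A.adj (A.gl • τ)) =
      ∫ τ : ℍ, (wt (Gamma0 N) (A.adj.gl • τ) : ℂ) * Psi f g A.adj τ := by
    rw [← integral_smul_eq_self (μ := (volume : Measure ℍ))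
      (fun τ : ℍ => (wt (Gamma0 N) τ : ℂ) * Psi f g A.adj (A.gl • τ)) (g := A.adj.gl)]
    refine integral_congr_ae (Eventually.of_forall fun τ => ?_)
    simp only [Dl.smul_adj_smul]
  rw [e1]
  have hw : Integrable fun τ : ℍ => (wt (Gamma0 N) (A.adj.gl • τ) : ℂ) := by
    have h1 : Integrable fun τ : ℍ => (wt (Gamma0 N) τ : ℂ) := (integrable_wt (Gamma0 N)).ofReal
    exact (measurePreserving_smul A.adj.gl (volume : Measure ℍ)).integrable_comp_of_integrable h1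
  have hint : Integrable fun τ : ℍ => (wt (Gamma0 N) (A.adj.gl • τ) : ℂ) * Psi f g A.adj τ := by
    have h2 := hw.bdd_mul (f := Psi f g A.adj) (continuous_Psi f g A.adj).aestronglyMeasurable
      (Eventually.of_forall hC)
    exact h2.congr (Eventually.of_forall fun τ => mul_comm _ _)
  refine Eq.mp (congrArg (fun F => HasSum F _) (funext fun γ => ?_))
    (hasSum_insert (N := N) hint measurable_id)
  symm
  rw [lmul_adj, Sk]
  rw [← integral_smul_eq_self (μ := (volume : Measure ℍ))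
      (fun τ : ℍ => (wt (Gamma0 N) ((γ : SL(2, ℤ)) • id τ) : ℂ) *
        ((wt (Gamma0 N) (A.adj.gl • τ) : ℂ) * Psi f g A.adj τ))
      (g := Matrix.SpecialLinearGroup.mapGL ℝ ((γ⁻¹ : Gamma0 N) : SL(2, ℤ)))]
  refine integral_congr_ae (Eventually.of_forall fun τ => ?_)
  show (wt (Gamma0 N) ((Dl.rmul A.adj γ⁻¹).gl • τ) : ℂ) *
    ((wt (Gamma0 N) τ : ℂ) * Psi f g (Dl.rmul A.adj γ⁻¹) τ) =
    (wt (Gamma0 N) ((γ : SL(2, ℤ)) • ((γ⁻¹ : Gamma0 N) : SL(2, ℤ)) • τ) : ℂ) *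
        ((wt (Gamma0 N) (A.adj.gl • ((γ⁻¹ : Gamma0 N) : SL(2, ℤ)) • τ) : ℂ) *
          Psi f g A.adj (((γ⁻¹ : Gamma0 N) : SL(2, ℤ)) • τ))
  rw [rmul_smul, Psi_rmul, Subgroup.coe_inv, smul_inv_smul]
  ring

omit [NeZero N] hp in
lemma hasSum_prod_finite {ι β : Type*} [Fintype ι] {F : ι × β → ℂ} {a : ι → ℂ}
    (h : ∀ i, HasSum (fun b => F (i, b)) (a i)) : HasSum F (∑ i, a i) := by
  have hs : Summable F := by
    rw [← summable_norm_iff]
    refine (summable_prod_of_nonneg fun _ => norm_nonneg _).mpr ⟨fun i => (h i).summable.norm, ?_⟩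
    exact Summable.of_finite
  have h1 := hs.hasSum.prod_fiberwise h
  have h2 := hs.hasSum
  rwa [h1.unique (hasSum_fintype a)] at h2

lemma petersson_sum_right {ι : Type*} (s : Finset ι) (h : ℍ → ℂ) (G : ι → ℍ → ℂ) (τ : ℍ) :
    petersson k h (∑ i ∈ s, G i) τ = ∑ i ∈ s, petersson k h (G i) τ := by
  simp only [petersson, Finset.sum_apply, Finset.mul_sum, Finset.sum_mul]

lemma petersson_sum_left {ι : Type*} (s : Finset ι) (h : ℍ → ℂ) (G : ι → ℍ → ℂ) (τ : ℍ) :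
    petersson k (∑ i ∈ s, G i) h τ = ∑ i ∈ s, petersson k (G i) h τ := by
  simp only [petersson, Finset.sum_apply, map_sum, Finset.sum_mul]

/-- **`T_p` is self adjoint for the Petersson product.** -/
theorem ip_heckeT (hpN : ¬ p ∣ N) :
    ip (CuspForm.heckeTLin k hp.out hpN f) g = ip f (CuspForm.heckeTLin k hp.out hpN g) := by
  have hB : ip f (CuspForm.heckeTLin k hp.out hpN g) =
      ∑ i, ∫ τ : ℍ, (wt (Gamma0 N) τ : ℂ) * Psi f g (Dl.rep N p i) τ := by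
    rw [ip, CuspForm.coe_heckeTLin_apply, Dl.heckeT_eq (N := N), ← integral_finsetSum]
    · refine integral_congr_ae (Eventually.of_forall fun τ => ?_)
      show (wt (Gamma0 N) τ : ℂ) * petersson k f (∑ i, ⇑g ∣[k] (Dl.rep N p i).gl) τ = _
      rw [petersson_sum_right, Finset.mul_sum]
      rfl
    · intro i _
      obtain ⟨C, hC⟩ := exists_bound_Psi f g (Dl.rep N p i)
      exact integrable_wt_mul (continuous_Psi f g _) hC
  have hA : ip (CuspForm.heckeTLin k hp.out hpN f) g =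
      ∑ i, ∫ τ : ℍ, (wt (Gamma0 N) τ : ℂ) *
        Psi f g (Dl.rep N p i).adj ((Dl.rep N p i).gl • τ) := by
    rw [ip, CuspForm.coe_heckeTLin_apply, Dl.heckeT_eq (N := N), ← integral_finsetSum]
    · refine integral_congr_ae (Eventually.of_forall fun τ => ?_)
      show (wt (Gamma0 N) τ : ℂ) * petersson k (∑ i, ⇑f ∣[k] (Dl.rep N p i).gl) g τ = _
      rw [petersson_sum_left, Finset.mul_sum]
      exact Finset.sum_congr rfl fun i _ => by rw [Psi_adj]
    · intro i _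
      obtain ⟨C, hC⟩ := exists_bound_Psi f g (Dl.rep N p i).adj
      exact integrable_wt_mul ((continuous_Psi f g _).comp (continuous_const_smul _))
        fun τ => hC _
  have h1 : HasSum (fun x : Option (Fin p) × Gamma0 N => Sk f g (Dl.equivDl hpN x))
      (∑ i, ∫ τ : ℍ, (wt (Gamma0 N) τ : ℂ) * Psi f g (Dl.rep N p i) τ) :=
    hasSum_prod_finite fun i => hasSum_B f g (Dl.rep N p i)
  have h2 : HasSum (fun x : Option (Fin p) × Gamma0 N => Sk f g (Dl.equivDl hpN x).adj)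
      (∑ i, ∫ τ : ℍ, (wt (Gamma0 N) τ : ℂ) *
        Psi f g (Dl.rep N p i).adj ((Dl.rep N p i).gl • τ)) :=
    hasSum_prod_finite fun i => hasSum_A f g (Dl.rep N p i)
  rw [hA, hB]
  have h1' := (Equiv.hasSum_iff (Dl.equivDl hpN) (f := fun A => Sk f g A)).mp h1
  have h2' := (Equiv.hasSum_iff (Dl.equivDl hpN) (f := fun A => Sk f g (Dl.adj A))).mp h2
  have h3' := (Equiv.hasSum_iff (Dl.adjEquiv (N := N) (p := p))
    (f := fun A => Sk f g A)).mp h2'
  exact h3'.unique h1'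

end ip

end Fermat.Agent.H24
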