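import Mathlib
import Fermat.Agent.H24.PetA
import Fermat.Agent.H22.Hecke

/-!
# Hecke operators away from the level are simultaneously diagonalizable
-/

set_option autoImplicit false

noncomputable section

namespace Fermat.Agent.H24

open MeasureTheory UpperHalfPlane ModularGroup CongruenceSubgroup Filter Matrix
open scoped MatrixGroups ENNReal NNReal Modular ModularForm ComplexConjugate

variable {N : ℕ} [NeZero N] {k : ℤ}

/-- nonempty open subsets of the upper half plane have positive measure -/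
lemma volume_pos_of_isOpen {U : Set ℍ} (hU : IsOpen U) (hne : U.Nonempty) :
    (volume : Measure ℍ) U ≠ 0 := by
  rw [volume_eq_lintegral]
  intro h
  have hopen : IsOpen (UpperHalfPlane.coe '' U) := isOpenEmbedding_coe.isOpenMap U hU
  have hm : Measurable fun z : ℂ => ((↑((1 / ‖z.im‖₊) ^ 2 : NNReal) : ℝ≥0∞)) := by fun_prop
  rw [lintegral_eq_zero_iff hm, Filter.EventuallyEq, ae_restrict_iff' hopen.measurableSet] at h
  have h2 : (UpperHalfPlane.coe '' U) ⊆
      {z : ℂ | ¬ (z ∈ UpperHalfPlane.coe '' U → ((↑((1 / ‖z.im‖₊) ^ 2 : NNReal) : ℝ≥0∞)) = 0)} := by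
    rintro _ ⟨τ, hτ, rfl⟩ h3
    have h4 := h3 ⟨τ, hτ, rfl⟩
    have : ((τ : ℂ).im) ≠ 0 := τ.im_ne_zero
    simp at h4
    exact this h4
  have h3 := measure_mono_null h2 h
  exact hopen.measure_ne_zero volume (hne.image _) h3

lemma petersson_self (f : CuspForm (Gamma0 N) k) (τ : ℍ) :
    petersson k f f τ = ((‖f τ‖ ^ 2 * τ.im ^ k : ℝ) : ℂ) := by
  rw [petersson, ← Complex.normSq_eq_conj_mul_self, Complex.normSq_eq_norm_sq]
  push_cast
  ring

lemma ip_self (f : CuspForm (Gamma0 N) k) :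
    ip f f = ((∫ τ : ℍ, wt (Gamma0 N) τ * (‖f τ‖ ^ 2 * τ.im ^ k) : ℝ) : ℂ) := by
  rw [ip, ← integral_complex_ofReal]
  refine integral_congr_ae (Eventually.of_forall fun τ => ?_)
  show (wt (Gamma0 N) τ : ℂ) * petersson k f f τ = _
  rw [petersson_self]
  push_cast
  ring

lemma ip_definite (f : CuspForm (Gamma0 N) k) (h : ip f f = 0) : f = 0 := by
  have h1 : ∫ τ : ℍ, wt (Gamma0 N) τ * (‖f τ‖ ^ 2 * τ.im ^ k) = 0 := by
    rw [ip_self] at h; exact_mod_cast h
  have hnn : ∀ τ : ℍ, 0 ≤ ‖f τ‖ ^ 2 * τ.im ^ k := fun τ =>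
    mul_nonneg (sq_nonneg _) (zpow_nonneg τ.im_pos.le _)
  have hint : Integrable fun τ : ℍ => wt (Gamma0 N) τ * (‖f τ‖ ^ 2 * τ.im ^ k) := by
    have h2 := (integrable_pet f f).re
    refine h2.congr (Eventually.of_forall fun τ => ?_)
    show RCLike.re ((wt (Gamma0 N) τ : ℂ) * petersson k f f τ) = _
    rw [petersson_self, ← Complex.ofReal_mul]
    exact Complex.ofReal_re _
  rw [integral_eq_zero_iff_of_nonneg (fun τ => mul_nonneg (wt_nonneg _ τ) (hnn τ)) hint] at h1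
  -- translate
  have hinv : ∀ (γ : Gamma0 N) (τ : ℍ), ‖f ((γ : SL(2, ℤ)) • τ)‖ ^ 2 *
      ((γ : SL(2, ℤ)) • τ).im ^ k = ‖f τ‖ ^ 2 * τ.im ^ k := by
    intro γ τ
    have h3 := petersson_slash_SL k (⇑f) (⇑f) (γ : SL(2, ℤ)) τ
    have h4 : (⇑f ∣[k] (γ : SL(2, ℤ))) = ⇑f := slash_gamma f γ
    rw [h4, petersson_self, petersson_self] at h3
    exact_mod_cast h3.symm
  have h2 : ∀ᵐ τ : ℍ, ∀ γ : Gamma0 N, wt (Gamma0 N) ((γ : SL(2, ℤ)) • τ) *
      (‖f τ‖ ^ 2 * τ.im ^ k) = 0 := by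
    rw [ae_all_iff]
    intro γ
    have h3 := (measurePreserving_smul (Matrix.SpecialLinearGroup.mapGL ℝ (γ : SL(2, ℤ)))
      (volume : Measure ℍ)).quasiMeasurePreserving.ae h1
    filter_upwards [h3] with τ hτ
    rw [← hinv γ τ]
    exact hτ
  have h3 : ∀ᵐ τ : ℍ, ‖f τ‖ ^ 2 * τ.im ^ k = 0 := by
    filter_upwards [h2] with τ hτ
    have h4 := (hasSum_wt (Gamma0 N) τ).mul_right (‖f τ‖ ^ 2 * τ.im ^ k)
    rw [one_mul] at h4
    refine h4.unique ?_
    rw [show (fun γ : Gamma0 N => wt (Gamma0 N) ((γ : SL(2, ℤ)) • τ) * (‖f τ‖ ^ 2 * τ.im ^ k)) =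
      fun _ => 0 from funext hτ]
    exact hasSum_zero
  have hcont : Continuous f := ModularFormClass.continuous f
  have h4 : {τ : ℍ | f τ ≠ 0} = ∅ := by
    by_contra hne
    have hopen : IsOpen {τ : ℍ | f τ ≠ 0} := isOpen_ne_fun hcont continuous_const
    refine volume_pos_of_isOpen hopen (Set.nonempty_iff_ne_empty.mpr hne) ?_
    refine measure_mono_null (fun τ hτ => ?_) h3
    intro h5
    rcases mul_eq_zero.mp h5 with h6 | h6
    · exact hτ (by simpa using h6)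
    · exact (zpow_ne_zero _ τ.im_ne_zero) h6
  ext τ
  by_contra h5
  have : τ ∈ ({τ : ℍ | f τ ≠ 0} : Set ℍ) := h5
  rw [h4] at this
  exact this

/-- the Petersson inner product -/
def petCore : InnerProductSpace.Core ℂ (CuspForm (Gamma0 N) k) where
  inner f g := ip f g
  conj_inner_symm f g := by
    show conj (ip g f) = ip f g
    rw [ip, ip, ← integral_conj]
    refine integral_congr_ae (Eventually.of_forall fun τ => ?_)
    show conj ((wt (Gamma0 N) τ : ℂ) * petersson k g f τ) = (wt (Gamma0 N) τ : ℂ) *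
      petersson k f g τ
    rw [map_mul, Complex.conj_ofReal, ← petersson_symm]
  re_inner_nonneg f := by
    show 0 ≤ RCLike.re (ip f f)
    rw [ip_self]
    show 0 ≤ (((∫ τ : ℍ, wt (Gamma0 N) τ * (‖f τ‖ ^ 2 * τ.im ^ k) : ℝ) : ℂ)).re
    rw [Complex.ofReal_re]
    exact integral_nonneg fun τ => mul_nonneg (wt_nonneg _ _)
      (mul_nonneg (sq_nonneg _) (zpow_nonneg τ.im_pos.le _))
  add_left f g h := by
    show ip (f + g) h = ip f h + ip g h
    rw [ip, ip, ip, ← integral_add (integrable_pet f h) (integrable_pet g h)]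
    refine integral_congr_ae (Eventually.of_forall fun τ => ?_)
    simp only [petersson, FunLike.coe_add, Pi.add_apply, map_add]
    ring
  smul_left f g r := by
    show ip (r • f) g = conj r * ip f g
    rw [ip, ip, ← integral_const_mul]
    refine integral_congr_ae (Eventually.of_forall fun τ => ?_)
    simp only [petersson, FunLike.coe_smul, Pi.smul_apply, smul_eq_mul, map_mul]
    ring
  definite f h := ip_definite f h

/-- index set of the good Hecke operators -/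
abbrev GoodPr (N : ℕ) : Type := {ℓ : ℕ // ℓ.Prime ∧ ¬ ℓ ∣ N}

/-- the Hecke operators away from the level -/
def Tgood (N : ℕ) (k : ℤ) (ℓ : GoodPr N) : Module.End ℂ (CuspForm (Gamma0 N) k) :=
  CuspForm.heckeTLin k ℓ.2.1 ℓ.2.2

omit [NeZero N] in
lemma Tgood_comm : Pairwise fun ℓ ℓ' : GoodPr N => Commute (Tgood N k ℓ) (Tgood N k ℓ') := by
  intro ℓ ℓ' _
  exact CuspForm.heckeTLin_comm k ℓ.2.1 ℓ.2.2 ℓ'.2.1 ℓ'.2.2

/-- **simultaneous diagonalization** of the Hecke operators away from the level. -/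
theorem iSup_iInf_eigenspace_heckeT (N : ℕ) [NeZero N] (k : ℤ) :
    ⨆ χ : GoodPr N → ℂ, ⨅ ℓ, (Tgood N k ℓ).eigenspace (χ ℓ) = ⊤ := by
  have hfd := Fermat.Agent.H22.finiteDimensional_cuspForm N k
  letI := (petCore (N := N) (k := k)).toNormedAddCommGroup
  letI : InnerProductSpace ℂ (CuspForm (Gamma0 N) k) :=
    InnerProductSpace.ofCore (petCore (N := N) (k := k)).toCore
  refine LinearMap.IsSymmetric.iSup_iInf_eq_top_of_commute (fun ℓ => ?_) Tgood_comm
  intro f g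
  haveI : Fact ℓ.1.Prime := ⟨ℓ.2.1⟩
  exact ip_heckeT f g ℓ.2.2

/-- a single Hecke operator away from the level is diagonalizable -/
theorem iSup_eigenspace_heckeT (N : ℕ) [NeZero N] (k : ℤ) {ℓ : ℕ} (hℓ : ℓ.Prime)
    (hℓN : ¬ ℓ ∣ N) :
    ⨆ μ : ℂ, Module.End.eigenspace (CuspForm.heckeTLin (N := N) k hℓ hℓN) μ = ⊤ := by
  have h := iSup_iInf_eigenspace_heckeT N k
  rw [eq_top_iff, ← h]
  refine iSup_le fun χ => (iInf_le _ (⟨ℓ, hℓ, hℓN⟩ : GoodPr N)).trans ?_
  exact le_iSup (fun μ : ℂ => Module.End.eigenspace (CuspForm.heckeTLin (N := N) k hℓ hℓN) μ)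
    (χ ⟨ℓ, hℓ, hℓN⟩)

/-- the eigenvalues are real -/
theorem conj_eigenvalue {ℓ : ℕ} (hℓ : ℓ.Prime) (hℓN : ¬ ℓ ∣ N) {f : CuspForm (Gamma0 N) k}
    (hf : f ≠ 0) {μ : ℂ} (h : CuspForm.heckeTLin k hℓ hℓN f = μ • f) : conj μ = μ := by
  haveI : Fact ℓ.Prime := ⟨hℓ⟩
  have h1 := ip_heckeT f f hℓN
  rw [h] at h1
  have e1 : ip (μ • f) f = conj μ * ip f f := (petCore (N := N) (k := k)).smul_left f f μ
  have e2 : ip f (μ • f) = μ * ip f f := by
    have h2 := (petCore (N := N) (k := k)).conj_inner_symm f (μ • f)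
    have h3 := (petCore (N := N) (k := k)).conj_inner_symm f f
    change conj (ip (μ • f) f) = ip f (μ • f) at h2
    change conj (ip f f) = ip f f at h3
    rw [← h2, e1, map_mul, Complex.conj_conj, h3]
  rw [e1, e2] at h1
  exact mul_right_cancel₀ (fun h0 => hf (ip_definite f h0)) h1

/-- **a basis of simultaneous eigenvectors.** -/
theorem exists_eigenbasis (N : ℕ) [NeZero N] (k : ℤ) :
    ∃ (ι : Type) (_ : Finite ι) (b : Module.Basis ι ℂ (CuspForm (Gamma0 N) k)),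
      ∀ (i : ι) {ℓ : ℕ} (hℓ : ℓ.Prime) (hℓN : ¬ ℓ ∣ N), ∃ μ : ℂ,
        CuspForm.heckeTLin k hℓ hℓN (b i) = μ • b i := by
  have hfd := Fermat.Agent.H22.finiteDimensional_cuspForm N k
  let E : Set (CuspForm (Gamma0 N) k) := {v | ∀ ℓ : GoodPr N, ∃ μ : ℂ, Tgood N k ℓ v = μ • v}
  have hE : Submodule.span ℂ E = ⊤ := by
    rw [eq_top_iff, ← iSup_iInf_eigenspace_heckeT N k]
    refine iSup_le fun χ v hv => Submodule.subset_span fun ℓ => ⟨χ ℓ, ?_⟩
    exact Module.End.mem_eigenspace_iff.mp ((Submodule.mem_iInf _).mp hv ℓ)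
  obtain ⟨B, hBE, hBs, hBl⟩ := exists_linearIndependent ℂ E
  let b : Module.Basis B ℂ (CuspForm (Gamma0 N) k) := Module.Basis.mk hBl (by
    rw [Subtype.range_coe, hBs, hE])
  have hfin : Finite B := Module.Finite.finite_basis b
  let e := Finite.equivFin B
  refine ⟨Fin (Nat.card B), inferInstance, b.reindex e, ?_⟩
  intro i ℓ hℓ hℓN
  have h1 : b.reindex e i ∈ E := by
    rw [Module.Basis.reindex_apply, Module.Basis.mk_apply]
    exact hBE (e.symm i).2
  exact h1 ⟨ℓ, hℓ, hℓN⟩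

end Fermat.Agent.H24
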