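import Mathlib

/-!
# The explicit family of elliptic curves 5-congruent to a given one

All formulas are polynomial in `c = c₄`, `d = c₆` and the parameter `m`.
-/

set_option autoImplicit false

namespace Fermat.Agent.H24

variable {R : Type*} [CommRing R]

/-- `c₄` of the Tate normal form with parameters `A, B`. -/
def c4f (A B : R) : R := A^4+12*A^3*B+14*A^2*B^2-12*A*B^3+B^4

/-- `c₆` of the Tate normal form with parameters `A, B`. -/
def c6f (A B : R) : R := -((A^2+B^2)*(A^4+18*A^3*B+74*A^2*B^2-18*A*B^3+B^4))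

/-- the quadratic form whose zeros are the cusps of width one. -/
def qf (A B : R) : R := B^2-11*A*B-A^2

def P4_17 (c d m : R) : R :=
  ((361881600*c^2*d^5-715080960*c^5*d^3+353200500*c^8*d)
    +m*((-622592000*c*d^6+2026391040*c^4*d^4-2182917600*c^7*d^2+779118750*c^10)
    +m*((-655360000*d^7+2005401600*c^3*d^5-2044414080*c^6*d^3+694372500*c^9*d)
    +m*(-180224000*c^2*d^6+544997376*c^5*d^4-549301500*c^8*d^2+184528125*c^11))))

def P4_9 (c d m : R) : R :=
  ((7904000*c*d^3-7736040*c^4*d)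
    +m*((15808000*d^4-5619744*c^3*d^2-10003500*c^6)
    +m*((54853760*c^2*d^3-54685800*c^5*d)
    +m*((37939200*c*d^4+7202520*c^4*d^2-45015750*c^7)
    +m*((58368000*d^5-23201280*c^3*d^3-35089200*c^6*d)
    +m*((287462400*c^2*d^4-495188640*c^5*d^2+207765000*c^8)
    +m*((466944000*c*d^5-882458496*c^4*d^3+415530000*c^7*d)
    +m*((583680000*d^6-1220474880*c^3*d^4+714711600*c^6*d^2-77911875*c^9)+m*P4_17 c d m))))))))

def P4 (c d m : R) : R :=
  ((20*d)
    +m*((190*c^2)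
    +m*((1140*c*d)
    +m*((5700*d^2-855*c^3)
    +m*((15504*c^2*d)
    +m*((-63840*c*d^2+102600*c^4)
    +m*((-182400*d^3+259920*c^3*d)
    +m*((1126320*c^2*d^2-1000350*c^5)+m*P4_9 c d m))))))))

def P6_25 (c d m : R) : R :=
  ((-18216714240000*c^2*d^8+71274600677376*c^5*d^6-105528606261120*c^8*d^4+70097953635000*c^11*d^2-17627233668750*c^14)
    +m*((-41051750400000*c*d^9+163803539865600*c^4*d^7-245438120632320*c^7*d^5+163672057566000*c^10*d^3-40985726371875*c^13*d)
    +m*((-30408704000000*d^10+111934439424000*c^3*d^8-143803576074240*c^6*d^6+63806176396800*c^9*d^4+8104032382500*c^12*d^2-9632368125000*c^15)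
    +m*((-21438136320000*c^2*d^9+85731449241600*c^5*d^7-128580522647040*c^8*d^5+85719228804000*c^11*d^3-21432019078125*c^14*d)
    +m*((5033164800000*c*d^10-31344427008000*c^4*d^8+75042714746880*c^7*d^6-87394892457600*c^10*d^4+49873523512500*c^13*d^2-11210083593750*c^16)
    +m*(3355443200000*d^11-17532190720000*c^3*d^9+36574189977600*c^6*d^7-38083944628224*c^9*d^5+19796866155000*c^12*d^3-4110363984375*c^15*d))))))

def P6_17 (c d m : R) : R :=
  ((-700766208000*c*d^6+935084908800*c^4*d^4+77604382800*c^7*d^2-311803323750*c^10)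
    +m*((-778629120000*d^7-303665356800*c^3*d^5+2776512362400*c^6*d^3-1694131392375*c^9*d)
    +m*((-4290656256000*c^2*d^6+8100765158400*c^5*d^4-3481840250100*c^8*d^2-328214025000*c^11)
    +m*((-3442360320000*c*d^7+3892110842880*c^4*d^5+2424887357760*c^7*d^3-2874607835625*c^10*d)
    +m*((-3278438400000*d^8+5125838438400*c^3*d^6-2709129888000*c^6*d^4+3077188825500*c^9*d^2-2215444668750*c^12)
    +m*((-4573421568000*c^2*d^7+7701051801600*c^5*d^5-1724509423800*c^8*d^3-1403114956875*c^11*d)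
    +m*((6157762560000*c*d^8-30337884979200*c^4*d^6+49888700928000*c^7*d^4-33414470973000*c^10*d^2+7705894500000*c^13)
    +m*((5131468800000*d^9-22779445248000*c^3*d^7+35246094796800*c^6*d^5-22687218914400*c^9*d^3+5089101159375*c^12*d)+m*P6_25 c d m))))))))

def P6_9 (c d m : R) : R :=
  ((32016000*d^4-42021000*c^3*d^2+24312150*c^6)
    +m*((-216588240*c^2*d^3+246633255*c^5*d)
    +m*((-1459929600*c*d^4+1352475900*c^4*d^2+162081000*c^7)
    +m*((-2433216000*d^5-1612005600*c^3*d^3+4131714825*c^6*d)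
    +m*((-12044419200*c^2*d^4+5235216300*c^5*d^2+6928962750*c^8)
    +m*((-43045111800*c^4*d^3+43190534475*c^7*d)
    +m*((-79420170240*c^3*d^4+79575287760*c^6*d^2)
    +m*((-297825638400*c^2*d^5+474659611200*c^5*d^3-176688550125*c^8*d)+m*P6_17 c d m))))))))

def P6 (c d m : R) : R :=
  ((30*c^2)
    +m*((435*c*d)
    +m*((2900*d^2+1160*c^3)
    +m*((27405*c^2*d)
    +m*((46980*c*d^2+95526*c^4)
    +m*((156600*d^3+437175*c^3*d)
    +m*((3915000*c^2*d^2-1879200*c^5)
    +m*((14407200*c*d^3-8554275*c^4*d)+m*P6_9 c d m))))))))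

def PD (c d m : R) : R :=
  (0
    +m*((-66*c)
    +m*((-440*d)
    +m*((-1485*c^2)
    +m*((-3168*c*d)
    +m*((-10560*d^2+5940*c^3)
    +m*((-4752*c^2*d)
    +m*((63360*c*d^2-66825*c^4)
    +m*((140800*d^3-142560*c^3*d)
    +m*((133056*c^2*d^2-133650*c^5)
    +m*((61440*c*d^3-61560*c^4*d)
    +m*(102400*d^4-193536*c^3*d^2+91125*c^6))))))))))))


/-- `c₄` of the member `m` of the family. -/
def C4 (c d m : R) : R := c + m * P4 c d m

/-- `c₆` of the member `m` of the family. -/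
def C6 (c d m : R) : R := d + m * P6 c d m

/-- the fifth root of `Δ(m)/Δ`. -/
def DD (c d m : R) : R := 1 + m * PD c d m

def TT (A B m : R) : R := 1 - m*(A^2+B^2)
def dl (A B m : R) : R := 6*A*B*m
def VV (A B m : R) : R := TT A B m ^4 + 10*TT A B m^2*dl A B m^2+5*dl A B m^4
def UU (A B m : R) : R := TT A B m ^5 + 50*TT A B m^3*dl A B m^2+125*TT A B m*dl A B m^4

/-- The new Tate parameters. -/
def NA (A B m : R) : R := A*(UU A B m + 6*B*m*(2*B-11*A)*VV A B m)
def NB (A B m : R) : R := B*(UU A B m + 6*A*m*(2*A+11*B)*VV A B m)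

theorem c4f_c6f (A B : R) : c4f A B^3 - c6f A B^2 = 1728*(A^5*B^5*qf A B) := by
  unfold c4f c6f qf; ring

theorem qf_N (A B m : R) : qf (NA A B m) (NB A B m) =
    qf A B * (TT A B m^2-5*dl A B m^2)^5 := by
  have h : ∀ (T d A B : R), (B*(T^5+50*T^3*d^2+125*T*d^4)+(2*A+11*B)*d*(T^4+10*T^2*d^2+5*d^4))^2
      -11*(A*(T^5+50*T^3*d^2+125*T*d^4)+(2*B-11*A)*d*(T^4+10*T^2*d^2+5*d^4))*
        (B*(T^5+50*T^3*d^2+125*T*d^4)+(2*A+11*B)*d*(T^4+10*T^2*d^2+5*d^4))
      -(A*(T^5+50*T^3*d^2+125*T*d^4)+(2*B-11*A)*d*(T^4+10*T^2*d^2+5*d^4))^2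
      = (B^2-11*A*B-A^2)*(T^2-5*d^2)^5 := by
    intro T d A B; ring
  have h1 : NA A B m = A*(TT A B m^5+50*TT A B m^3*dl A B m^2+125*TT A B m*dl A B m^4)
      +(2*B-11*A)*dl A B m*(TT A B m^4+10*TT A B m^2*dl A B m^2+5*dl A B m^4) := by
    rw [NA, UU, VV]; generalize TT A B m = T; rw [dl]; ring
  have h2 : NB A B m = B*(TT A B m^5+50*TT A B m^3*dl A B m^2+125*TT A B m*dl A B m^4)
      +(2*A+11*B)*dl A B m*(TT A B m^4+10*TT A B m^2*dl A B m^2+5*dl A B m^4) := by
    rw [NB, UU, VV]; generalize TT A B m = T; rw [dl]; ring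
  rw [qf, h1, h2, h, qf]

theorem DD_eq (A B m : R) : DD (c4f A B) (c6f A B) m =
    (UU A B m + 6*B*m*(2*B-11*A)*VV A B m)*(UU A B m + 6*A*m*(2*A+11*B)*VV A B m)*
      (TT A B m^2-5*dl A B m^2) := by
  unfold DD PD UU VV TT dl c4f c6f; ring

end Fermat.Agent.H24
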