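import Mathlib
import Fermat.Agent.H24.Forms

/-!
# The family of Weierstrass curves `fam W n`
-/

set_option autoImplicit false

namespace Fermat.Agent.H24

open WeierstrassCurve

universe u v

variable {R : Type u} [CommRing R] {S : Type v} [CommRing S]

/-- The member with parameter `m = 1728 n` of the family of curves 5-congruent to `W`. -/
def fam (W : WeierstrassCurve R) (n : R) : WeierstrassCurve R where
  a₁ := W.a₁
  a₂ := W.a₂
  a₃ := W.a₃
  a₄ := W.a₄ - 36 * n * P4 W.c₄ W.c₆ (1728 * n)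
  a₆ := W.a₆ - n * (3 * W.b₂ * P4 W.c₄ W.c₆ (1728 * n) + 2 * P6 W.c₄ W.c₆ (1728 * n))

theorem fam_b₂ (W : WeierstrassCurve R) (n : R) : (fam W n).b₂ = W.b₂ := rfl

theorem fam_c₄ (W : WeierstrassCurve R) (n : R) :
    (fam W n).c₄ = C4 W.c₄ W.c₆ (1728 * n) := by
  unfold C4
  have h : (fam W n).a₄ = W.a₄ - 36 * n * P4 W.c₄ W.c₆ (1728 * n) := rfl
  generalize P4 W.c₄ W.c₆ (1728 * n) = p at *
  have h1 : (fam W n).a₁ = W.a₁ := rfl
  have h2 : (fam W n).a₂ = W.a₂ := rfl
  have h3 : (fam W n).a₃ = W.a₃ := rfl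
  simp only [WeierstrassCurve.c₄, WeierstrassCurve.b₂, WeierstrassCurve.b₄, h, h1, h2, h3]
  ring

theorem fam_c₆ (W : WeierstrassCurve R) (n : R) :
    (fam W n).c₆ = C6 W.c₄ W.c₆ (1728 * n) := by
  unfold C6
  simp only [WeierstrassCurve.c₆, WeierstrassCurve.b₂, WeierstrassCurve.b₄, WeierstrassCurve.b₆,
    fam]
  ring

theorem fam_Δ (W : WeierstrassCurve R) (n : R) :
    1728 * (fam W n).Δ = C4 W.c₄ W.c₆ (1728 * n) ^ 3 - C6 W.c₄ W.c₆ (1728 * n) ^ 2 := by
  rw [← fam_c₄, ← fam_c₆]; exact WeierstrassCurve.c_relation _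

theorem map_P4 (f : R →+* S) (c d m : R) : f (P4 c d m) = P4 (f c) (f d) (f m) := by
  simp only [P4, P4_9, P4_17, map_add, map_mul, map_pow, map_sub, map_ofNat, map_neg]

theorem map_P6 (f : R →+* S) (c d m : R) : f (P6 c d m) = P6 (f c) (f d) (f m) := by
  simp only [P6, P6_9, P6_17, P6_25, map_add, map_mul, map_pow, map_sub, map_ofNat, map_neg]

theorem map_PD (f : R →+* S) (c d m : R) : f (PD c d m) = PD (f c) (f d) (f m) := by
  simp only [PD, map_add, map_mul, map_pow, map_sub, map_ofNat, map_neg, map_zero]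

theorem map_C4 (f : R →+* S) (c d m : R) : f (C4 c d m) = C4 (f c) (f d) (f m) := by
  simp only [C4, map_add, map_mul, map_P4]

theorem map_C6 (f : R →+* S) (c d m : R) : f (C6 c d m) = C6 (f c) (f d) (f m) := by
  simp only [C6, map_add, map_mul, map_P6]

theorem map_DD (f : R →+* S) (c d m : R) : f (DD c d m) = DD (f c) (f d) (f m) := by
  simp only [DD, map_add, map_mul, map_PD, map_one]

theorem fam_map (f : R →+* S) (W : WeierstrassCurve R) (n : R) :
    (fam W n).map f = fam (W.map f) (f n) := by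
  ext
  · rfl
  · rfl
  · rfl
  · simp only [fam, WeierstrassCurve.map, map_sub, map_mul, map_ofNat, map_P4]
    rw [← WeierstrassCurve.map_c₄, ← WeierstrassCurve.map_c₆]; rfl
  · simp only [fam, WeierstrassCurve.map, map_sub, map_mul, map_ofNat, map_add, map_P4, map_P6]
    rw [← WeierstrassCurve.map_c₄, ← WeierstrassCurve.map_c₆, ← WeierstrassCurve.map_b₂]; rfl

theorem fam_zero (W : WeierstrassCurve R) : fam W 0 = W := by
  ext <;> simp [fam]

end Fermat.Agent.H24
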