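import Mathlib
import Fermat.Agent.H24.Forms

/-!
# Verification of two large polynomial identities by reflection
-/

set_option autoImplicit false

namespace Fermat.Agent.H24

set_option linter.constructorNameAsVariable false

/-- arithmetic expressions in two variables -/
inductive E where
  | num (n : Nat) : E
  | b : E
  | m : E
  | add (x y : E) : E
  | sub (x y : E) : E
  | neg (x : E) : E
  | mul (x y : E) : E
  | pow (x : E) (n : Nat) : E

namespace E

instance : Add E := ⟨E.add⟩
instance : Sub E := ⟨E.sub⟩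
instance : Neg E := ⟨E.neg⟩
instance : Mul E := ⟨E.mul⟩
instance : Pow E Nat := ⟨E.pow⟩
instance (n : Nat) : OfNat E n := ⟨E.num n⟩

section denote
variable {R : Type*} [CommRing R]

def den (b m : R) : E → R
  | .num n => (n : R)
  | .b => b
  | .m => m
  | .add x y => den b m x + den b m y
  | .sub x y => den b m x - den b m y
  | .neg x => - den b m x
  | .mul x y => den b m x * den b m y
  | .pow x n => den b m x ^ n

variable (b m : R) (x y : E)

lemma den_add : den b m (x + y) = den b m x + den b m y := rfl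
lemma den_sub : den b m (x - y) = den b m x - den b m y := rfl
lemma den_neg : den b m (-x) = - den b m x := rfl
lemma den_mul : den b m (x * y) = den b m x * den b m y := rfl
lemma den_pow (n : Nat) : den b m (x ^ n) = den b m x ^ n := rfl
lemma den_b : den b m .b = b := rfl
lemma den_m : den b m .m = m := rfl
lemma den_zero : den b m (OfNat.ofNat 0) = 0 := Nat.cast_zero
lemma den_one : den b m (OfNat.ofNat 1) = 1 := Nat.cast_one
lemma den_ofNat (n : Nat) [n.AtLeastTwo] :
    den b m (OfNat.ofNat n : E) = (OfNat.ofNat n : R) := Nat.cast_ofNat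

end denote

end E

/-! ### dense polynomial arithmetic -/

def add1 : List Int → List Int → List Int
  | [], l => l
  | a :: s, [] => a :: s
  | a :: s, b :: t => (a + b) :: add1 s t

def smul1 (a : Int) : List Int → List Int
  | [] => []
  | b :: t => (a * b) :: smul1 a t

def mul1 : List Int → List Int → List Int
  | [], _ => []
  | a :: s, l => add1 (smul1 a l) (0 :: mul1 s l)

def add2 : List (List Int) → List (List Int) → List (List Int)
  | [], l => l
  | a :: s, [] => a :: s
  | a :: s, b :: t => (add1 a b) :: add2 s t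

def smul2 (a : List Int) : List (List Int) → List (List Int)
  | [] => []
  | b :: t => (mul1 a b) :: smul2 a t

def mul2 : List (List Int) → List (List Int) → List (List Int)
  | [], _ => []
  | a :: s, l => add2 (smul2 a l) ([] :: mul2 s l)

def pow2 (x : List (List Int)) : Nat → List (List Int)
  | 0 => [[1]]
  | n + 1 => mul2 x (pow2 x n)

def isZero1 : List Int → Bool
  | [] => true
  | a :: s => (a == 0) && isZero1 s

def isZero2 : List (List Int) → Bool
  | [] => true
  | a :: s => isZero1 a && isZero2 s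

def E.norm : E → List (List Int)
  | .num n => [[(n : Int)]]
  | .b => [[0, 1]]
  | .m => [[], [1]]
  | .add x y => add2 x.norm y.norm
  | .sub x y => add2 x.norm (smul2 [-1] y.norm)
  | .neg x => smul2 [-1] x.norm
  | .mul x y => mul2 x.norm y.norm
  | .pow x n => pow2 x.norm n

section eval
variable {R : Type*} [CommRing R] (b m : R)

def ev1 : List Int → R
  | [] => 0
  | a :: s => (a : R) + b * ev1 s

def evL2 : List (List Int) → R
  | [] => 0
  | a :: s => ev1 b a + m * evL2 s

lemma ev1_add (s t : List Int) : ev1 b (add1 s t) = ev1 b s + ev1 b t := by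
  induction s generalizing t with
  | nil => simp [add1, ev1]
  | cons a s ih =>
    cases t with
    | nil => simp [add1, ev1]
    | cons c t => simp only [add1, ev1, ih]; push_cast; ring

lemma ev1_smul (a : Int) (t : List Int) : ev1 b (smul1 a t) = a * ev1 b t := by
  induction t with
  | nil => simp [smul1, ev1]
  | cons c t ih => simp only [smul1, ev1, ih]; push_cast; ring

lemma ev1_mul (s t : List Int) : ev1 b (mul1 s t) = ev1 b s * ev1 b t := by
  induction s with
  | nil => simp [mul1, ev1]
  | cons a s ih =>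
    simp only [mul1, ev1_add, ev1_smul, ev1, ih]; push_cast; ring

lemma ev2_add (s t : List (List Int)) : evL2 b m (add2 s t) = evL2 b m s + evL2 b m t := by
  induction s generalizing t with
  | nil => simp [add2, evL2]
  | cons a s ih =>
    cases t with
    | nil => simp [add2, evL2]
    | cons c t => simp only [add2, evL2, ih, ev1_add]; ring

lemma ev2_smul (a : List Int) (t : List (List Int)) :
    evL2 b m (smul2 a t) = ev1 b a * evL2 b m t := by
  induction t with
  | nil => simp [smul2, evL2]
  | cons c t ih => simp only [smul2, evL2, ih, ev1_mul]; ring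

lemma ev2_mul (s t : List (List Int)) : evL2 b m (mul2 s t) = evL2 b m s * evL2 b m t := by
  induction s with
  | nil => simp [mul2, evL2]
  | cons a s ih =>
    simp only [mul2, ev2_add, ev2_smul, evL2, ih, ev1]; ring

lemma ev2_pow (s : List (List Int)) (n : Nat) : evL2 b m (pow2 s n) = evL2 b m s ^ n := by
  induction n with
  | zero => simp [pow2, evL2, ev1]
  | succ n ih => rw [pow2, ev2_mul, ih, pow_succ, mul_comm]

lemma ev_norm (e : E) : evL2 b m e.norm = E.den b m e := by
  induction e with
  | num n => simp [E.norm, evL2, ev1, E.den]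
  | b => simp [E.norm, evL2, ev1, E.den]
  | m => simp [E.norm, evL2, ev1, E.den]
  | add x y hx hy => simp [E.norm, ev2_add, E.den, hx, hy]
  | sub x y hx hy => simp [E.norm, ev2_add, ev2_smul, ev1, E.den, hx, hy]; ring
  | neg x hx => simp [E.norm, ev2_smul, ev1, E.den, hx]
  | mul x y hx hy => simp [E.norm, ev2_mul, E.den, hx, hy]
  | pow x n hx => simp [E.norm, ev2_pow, E.den, hx]

lemma ev1_zero (s : List Int) (h : isZero1 s = true) : ev1 b s = 0 := by
  induction s with
  | nil => rfl
  | cons a s ih =>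
    simp only [isZero1, Bool.and_eq_true, beq_iff_eq] at h
    simp [ev1, h.1, ih h.2]

lemma ev2_zero (s : List (List Int)) (h : isZero2 s = true) : evL2 b m s = 0 := by
  induction s with
  | nil => rfl
  | cons a s ih =>
    simp only [isZero2, Bool.and_eq_true] at h
    simp [evL2, ev1_zero b a h.1, ih h.2]

theorem den_eq_of_norm (x y : E) (h : isZero2 (E.norm (x - y)) = true) :
    E.den b m x = E.den b m y := by
  have := ev2_zero b m _ h
  rw [ev_norm] at this
  exact sub_eq_zero.mp this

end eval

def P4_17E (c d m : E) : E :=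
  ((361881600*c^2*d^5-715080960*c^5*d^3+353200500*c^8*d)
    +m*((-622592000*c*d^6+2026391040*c^4*d^4-2182917600*c^7*d^2+779118750*c^10)
    +m*((-655360000*d^7+2005401600*c^3*d^5-2044414080*c^6*d^3+694372500*c^9*d)
    +m*(-180224000*c^2*d^6+544997376*c^5*d^4-549301500*c^8*d^2+184528125*c^11))))

def P4_9E (c d m : E) : E :=
  ((7904000*c*d^3-7736040*c^4*d)
    +m*((15808000*d^4-5619744*c^3*d^2-10003500*c^6)
    +m*((54853760*c^2*d^3-54685800*c^5*d)
    +m*((37939200*c*d^4+7202520*c^4*d^2-45015750*c^7)
    +m*((58368000*d^5-23201280*c^3*d^3-35089200*c^6*d)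
    +m*((287462400*c^2*d^4-495188640*c^5*d^2+207765000*c^8)
    +m*((466944000*c*d^5-882458496*c^4*d^3+415530000*c^7*d)
    +m*((583680000*d^6-1220474880*c^3*d^4+714711600*c^6*d^2-77911875*c^9)+m*P4_17E c d m))))))))

def P4E (c d m : E) : E :=
  ((20*d)
    +m*((190*c^2)
    +m*((1140*c*d)
    +m*((5700*d^2-855*c^3)
    +m*((15504*c^2*d)
    +m*((-63840*c*d^2+102600*c^4)
    +m*((-182400*d^3+259920*c^3*d)
    +m*((1126320*c^2*d^2-1000350*c^5)+m*P4_9E c d m))))))))

def P6_25E (c d m : E) : E :=
  ((-18216714240000*c^2*d^8+71274600677376*c^5*d^6-105528606261120*c^8*d^4+70097953635000*c^11*d^2-17627233668750*c^14)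
    +m*((-41051750400000*c*d^9+163803539865600*c^4*d^7-245438120632320*c^7*d^5+163672057566000*c^10*d^3-40985726371875*c^13*d)
    +m*((-30408704000000*d^10+111934439424000*c^3*d^8-143803576074240*c^6*d^6+63806176396800*c^9*d^4+8104032382500*c^12*d^2-9632368125000*c^15)
    +m*((-21438136320000*c^2*d^9+85731449241600*c^5*d^7-128580522647040*c^8*d^5+85719228804000*c^11*d^3-21432019078125*c^14*d)
    +m*((5033164800000*c*d^10-31344427008000*c^4*d^8+75042714746880*c^7*d^6-87394892457600*c^10*d^4+49873523512500*c^13*d^2-11210083593750*c^16)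
    +m*(3355443200000*d^11-17532190720000*c^3*d^9+36574189977600*c^6*d^7-38083944628224*c^9*d^5+19796866155000*c^12*d^3-4110363984375*c^15*d))))))

def P6_17E (c d m : E) : E :=
  ((-700766208000*c*d^6+935084908800*c^4*d^4+77604382800*c^7*d^2-311803323750*c^10)
    +m*((-778629120000*d^7-303665356800*c^3*d^5+2776512362400*c^6*d^3-1694131392375*c^9*d)
    +m*((-4290656256000*c^2*d^6+8100765158400*c^5*d^4-3481840250100*c^8*d^2-328214025000*c^11)
    +m*((-3442360320000*c*d^7+3892110842880*c^4*d^5+2424887357760*c^7*d^3-2874607835625*c^10*d)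
    +m*((-3278438400000*d^8+5125838438400*c^3*d^6-2709129888000*c^6*d^4+3077188825500*c^9*d^2-2215444668750*c^12)
    +m*((-4573421568000*c^2*d^7+7701051801600*c^5*d^5-1724509423800*c^8*d^3-1403114956875*c^11*d)
    +m*((6157762560000*c*d^8-30337884979200*c^4*d^6+49888700928000*c^7*d^4-33414470973000*c^10*d^2+7705894500000*c^13)
    +m*((5131468800000*d^9-22779445248000*c^3*d^7+35246094796800*c^6*d^5-22687218914400*c^9*d^3+5089101159375*c^12*d)+m*P6_25E c d m))))))))

def P6_9E (c d m : E) : E :=
  ((32016000*d^4-42021000*c^3*d^2+24312150*c^6)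
    +m*((-216588240*c^2*d^3+246633255*c^5*d)
    +m*((-1459929600*c*d^4+1352475900*c^4*d^2+162081000*c^7)
    +m*((-2433216000*d^5-1612005600*c^3*d^3+4131714825*c^6*d)
    +m*((-12044419200*c^2*d^4+5235216300*c^5*d^2+6928962750*c^8)
    +m*((-43045111800*c^4*d^3+43190534475*c^7*d)
    +m*((-79420170240*c^3*d^4+79575287760*c^6*d^2)
    +m*((-297825638400*c^2*d^5+474659611200*c^5*d^3-176688550125*c^8*d)+m*P6_17E c d m))))))))

def P6E (c d m : E) : E :=
  ((30*c^2)
    +m*((435*c*d)
    +m*((2900*d^2+1160*c^3)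
    +m*((27405*c^2*d)
    +m*((46980*c*d^2+95526*c^4)
    +m*((156600*d^3+437175*c^3*d)
    +m*((3915000*c^2*d^2-1879200*c^5)
    +m*((14407200*c*d^3-8554275*c^4*d)+m*P6_9E c d m))))))))

def c4E (A B : E) : E := A^4+12*A^3*B+14*A^2*B^2-12*A*B^3+B^4
def c6E (A B : E) : E := -((A^2+B^2)*(A^4+18*A^3*B+74*A^2*B^2-18*A*B^3+B^4))
def C4E (c d m : E) : E := c + m * P4E c d m
def C6E (c d m : E) : E := d + m * P6E c d m
def TTE (A B m : E) : E := 1 - m*(A^2+B^2)
def dlE (A B m : E) : E := 6*A*B*m
def VVE (A B m : E) : E := TTE A B m ^4 + 10*TTE A B m^2*dlE A B m^2+5*dlE A B m^4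
def UUE (A B m : E) : E := TTE A B m ^5 + 50*TTE A B m^3*dlE A B m^2+125*TTE A B m*dlE A B m^4
def NAE (A B m : E) : E := A*(UUE A B m + 6*B*m*(2*B-11*A)*VVE A B m)
def NBE (A B m : E) : E := B*(UUE A B m + 6*A*m*(2*A+11*B)*VVE A B m)

set_option maxRecDepth 100000 in
theorem check4 : isZero2 (E.norm (C4E (c4E 1 .b) (c6E 1 .b) .m - c4E (NAE 1 .b .m) (NBE 1 .b .m)))
    = true := by decide +kernel

set_option maxRecDepth 100000 in
theorem check6 : isZero2 (E.norm (C6E (c4E 1 .b) (c6E 1 .b) .m - c6E (NAE 1 .b .m) (NBE 1 .b .m)))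
    = true := by decide +kernel


open E in
theorem C4_eq_one {R : Type*} [CommRing R] (b m : R) :
    C4 (c4f 1 b) (c6f 1 b) m = c4f (NA 1 b m) (NB 1 b m) := by
  have h := den_eq_of_norm b m _ _ check4
  simp only [C4E, c4E, c6E, NAE, NBE, UUE, VVE, TTE, dlE, P4E, P4_9E, P4_17E, den_add, den_sub,
    den_neg, den_mul, den_pow, den_b, den_m, den_one, den_ofNat] at h
  simp only [C4, c4f, c6f, NA, NB, UU, VV, TT, dl, P4, P4_9, P4_17]
  exact h

open E in
theorem C6_eq_one {R : Type*} [CommRing R] (b m : R) :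
    C6 (c4f 1 b) (c6f 1 b) m = c6f (NA 1 b m) (NB 1 b m) := by
  have h := den_eq_of_norm b m _ _ check6
  simp only [C6E, c4E, c6E, NAE, NBE, UUE, VVE, TTE, dlE, P6E, P6_9E, P6_17E, P6_25E, den_add,
    den_sub, den_neg, den_mul, den_pow, den_b, den_m, den_one, den_ofNat] at h
  simp only [C6, c4f, c6f, NA, NB, UU, VV, TT, dl, P6, P6_9, P6_17, P6_25]
  exact h

end Fermat.Agent.H24
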