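import Mathlib
import Fermat.Agent.H24.Forms
import Fermat.Agent.H24.Refl

set_option autoImplicit false

namespace Fermat.Agent.H24

variable {R : Type*} [CommRing R]

theorem P4_scale (A c d m : R) : P4 (A^4*c) (A^6*d) m = A^6 * P4 c d (A^2*m) := by
  unfold P4 P4_9 P4_17; ring

theorem P6_scale (A c d m : R) : P6 (A^4*c) (A^6*d) m = A^8 * P6 c d (A^2*m) := by
  unfold P6 P6_9 P6_17 P6_25; ring

theorem C4_scale (A c d m : R) : C4 (A^4*c) (A^6*d) m = A^4 * C4 c d (A^2*m) := by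
  unfold C4; rw [P4_scale]; ring

theorem C6_scale (A c d m : R) : C6 (A^4*c) (A^6*d) m = A^6 * C6 c d (A^2*m) := by
  unfold C6; rw [P6_scale]; ring

theorem NA_scale (A b m : R) : NA A (A*b) m = A * NA 1 b (A^2*m) := by
  unfold NA UU VV TT dl; ring

theorem NB_scale (A b m : R) : NB A (A*b) m = A * NB 1 b (A^2*m) := by
  unfold NB UU VV TT dl; ring

theorem C4_eq' (A b m : R) :
    C4 (c4f A (A*b)) (c6f A (A*b)) m = c4f (NA A (A*b) m) (NB A (A*b) m) := by
  have e4 : c4f A (A*b) = A^4 * c4f 1 b := by unfold c4f; ring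
  have e6 : c6f A (A*b) = A^6 * c6f 1 b := by unfold c6f; ring
  rw [e4, e6, C4_scale, C4_eq_one, NA_scale, NB_scale]
  unfold c4f; ring

theorem C6_eq' (A b m : R) :
    C6 (c4f A (A*b)) (c6f A (A*b)) m = c6f (NA A (A*b) m) (NB A (A*b) m) := by
  have e4 : c4f A (A*b) = A^4 * c4f 1 b := by unfold c4f; ring
  have e6 : c6f A (A*b) = A^6 * c6f 1 b := by unfold c6f; ring
  rw [e4, e6, C6_scale, C6_eq_one, NA_scale, NB_scale]
  unfold c6f; ring

theorem C4_eq {F : Type*} [Field F] {A : F} (hA : A ≠ 0) (B m : F) :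
    C4 (c4f A B) (c6f A B) m = c4f (NA A B m) (NB A B m) := by
  have : B = A * (B / A) := by field_simp
  rw [this, C4_eq']

theorem C6_eq {F : Type*} [Field F] {A : F} (hA : A ≠ 0) (B m : F) :
    C6 (c4f A B) (c6f A B) m = c6f (NA A B m) (NB A B m) := by
  have : B = A * (B / A) := by field_simp
  rw [this, C6_eq']

end Fermat.Agent.H24
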