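import Mathlib
import Fermat.Agent.H08.Congruence
import Fermat.Agent.H24.Forms

/-!
# Tate parameters of points of order five

`W` is a Weierstrass curve over a field in which `6 ≠ 0`.  A point `P ≠ 0` with `5 P = 0` is
described by two parameters `A, B`.
-/

set_option autoImplicit false

namespace Fermat.Agent.H24

open WeierstrassCurve WeierstrassCurve.Affine WeierstrassCurve.Affine.Point Fermat.Agent.H08

universe u

variable {F : Type u} [Field F] {W : WeierstrassCurve.Affine F}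

/-- normalised `x`-coordinate -/
def bX (P : W.Point) : F := 36 * px P + 3 * W.b₂

/-- normalised `y`-coordinate -/
def bY (P : W.Point) : F := 108 * (2 * py P + W.a₁ * px P + W.a₃)

lemma bXY {P : W.Point} (hP : P ≠ 0) :
    bY P ^ 2 = bX P ^ 3 - 27 * W.c₄ * bX P - 54 * W.c₆ := by
  have h := eqn_of_ne_zero hP
  simp only [bX, bY, WeierstrassCurve.c₄, WeierstrassCurve.c₆, WeierstrassCurve.b₂,
    WeierstrassCurve.b₄, WeierstrassCurve.b₆]
  linear_combination 46656 * h

lemma bX_neg (P : W.Point) : bX (-P) = bX P := by rw [bX, bX, px_neg]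

lemma bY_neg {P : W.Point} (hP : P ≠ 0) : bY (-P) = - bY P := by
  rw [bY, bY, px_neg, py_neg hP]; ring

lemma ext_bXY (h6 : (6 : F) ≠ 0) {P Q : W.Point} (hP : P ≠ 0) (hQ : Q ≠ 0)
    (hX : bX P = bX Q) (hY : bY P = bY Q) : P = Q := by
  obtain ⟨x, y, h, rfl⟩ := exists_eq_some hP
  obtain ⟨x', y', h', rfl⟩ := exists_eq_some hQ
  simp only [bX, bY, px_some, py_some] at hX hY
  have h2 : (2 : F) ≠ 0 := fun h => h6 (by rw [show (6 : F) = 2 * 3 by norm_num, h, zero_mul])
  have h3 : (3 : F) ≠ 0 := fun h => h6 (by rw [show (6 : F) = 2 * 3 by norm_num, h, mul_zero])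
  have hx : x = x' := by
    have : (36 : F) * (x - x') = 0 := by linear_combination hX
    rcases mul_eq_zero.mp this with h | h
    · exact absurd h (by rw [show (36 : F) = 6 * 6 by norm_num]; exact mul_ne_zero h6 h6)
    · exact sub_eq_zero.mp h
  subst hx
  have hy : y = y' := by
    have : (6 : F) * (6 * 6) * (y - y') = 0 := by linear_combination hY
    rcases mul_eq_zero.mp this with h | h
    · exact absurd h (mul_ne_zero h6 (mul_ne_zero h6 h6))
    · exact sub_eq_zero.mp h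
  subst hy
  rfl

/-- `P` is a point of order five with Tate parameters `A, B`. -/
structure Rep (P : W.Point) (A B : F) : Prop where
  hA : A ≠ 0
  hB : B ≠ 0
  hc4 : W.c₄ = c4f A B
  hc6 : W.c₆ = c6f A B
  ne : P ≠ 0
  hX : bX P = 3 * (A^2 - 6*A*B + B^2)
  hY : bY P = -108 * A^2 * B

lemma two_ne (h6 : (6 : F) ≠ 0) : (2 : F) ≠ 0 :=
  fun h => h6 (by rw [show (6 : F) = 2 * 3 by norm_num, h, zero_mul])

lemma three_ne (h6 : (6 : F) ≠ 0) : (3 : F) ≠ 0 :=
  fun h => h6 (by rw [show (6 : F) = 2 * 3 by norm_num, h, mul_zero])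

variable [DecidableEq F]

theorem exists_rep (h6 : (6 : F) ≠ 0) {P : W.Point} (hP : P ≠ 0) (h5 : 5 • P = 0) :
    ∃ A B : F, Rep P A B := by
  have h2 := two_ne h6
  have h3 := three_ne h6
  set Q := P + P with hQdef
  have e5 : Q + Q + P = 0 := by rw [hQdef, ← h5]; abel
  have hQ : Q ≠ 0 := by
    intro h
    apply hP
    rw [h] at e5; simpa using e5
  have hQP : px Q ≠ px P := by
    intro h
    rcases (px_eq_iff hQ hP).mp h with h' | h'
    · rw [hQdef] at h'; exact hP (by simpa using h')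
    · -- 2P = -P, so 3P = 0
      have e3 : Q + P = 0 := by rw [h']; simp
      have : Q = 0 := by
        have := e5; rw [add_assoc, e3, add_zero] at this; exact this
      exact hQ this
  obtain ⟨l, hl, hlx⟩ := px_sub_of_px_ne hQ hP hQP
  have hQP' : px Q ≠ px (-P) := by rwa [px_neg]
  obtain ⟨l', hl', hlx'⟩ := px_sub_of_px_ne hQ (neg_ne_zero.mpr hP) hQP'
  have e1 : Q - P = P := by rw [hQdef]; abel
  have e2 : Q - (-P) = -Q := by
    rw [sub_neg_eq_add]
    have : Q + P + Q = 0 := by rw [← e5]; abel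
    exact eq_neg_of_add_eq_zero_left this
  rw [e1] at hlx
  rw [e2, px_neg, px_neg] at hlx'
  rw [px_neg, py_neg hP] at hl'
  have hS : px Q - px P ≠ 0 := sub_ne_zero.mpr hQP
  -- `px Q - px P = (l' - l) * (l + l' + a₁)`
  have hprod : px Q - px P = (l' - l) * (l + l' + W.a₁) := by
    linear_combination hlx' - hlx
  have hA : l' - l ≠ 0 := fun h => hS (by rw [hprod, h, zero_mul])
  have hB : l + l' + W.a₁ ≠ 0 := fun h => hS (by rw [hprod, h, mul_zero])
  have hX1 : bX P = 3 * ((l' - l)^2 - 6*(l' - l)*(l + l' + W.a₁) + (l + l' + W.a₁)^2) := by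
    have : 3 * px P = (l^2 + W.a₁*l - W.a₂) - (px Q - px P) := by linear_combination hlx
    rw [bX, WeierstrassCurve.b₂]
    linear_combination 12 * this - 12 * hprod
  have hX2 : bX Q = 3 * ((l' - l)^2 + 6*(l' - l)*(l + l' + W.a₁) + (l + l' + W.a₁)^2) := by
    have : bX Q = bX P + 36 * (px Q - px P) := by rw [bX, bX]; ring
    rw [this, hX1, hprod]; ring
  -- y coordinates
  have hY1 : bY P = -108 * (l' - l)^2 * (l + l' + W.a₁) := by
    have : 2 * py P + W.a₁ * px P + W.a₃ = (l - l') * (px Q - px P) := by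
      linear_combination hl' - hl
    rw [bY, this, hprod]; ring
  have hY2 : bY Q = 108 * (l' - l) * (l + l' + W.a₁)^2 := by
    have : 2 * py Q + W.a₁ * px Q + W.a₃ = (l + l' + W.a₁) * (px Q - px P) := by
      linear_combination -hl' - hl
    rw [bY, this, hprod]; ring
  generalize l' - l = A at *
  generalize l + l' + W.a₁ = B at *
  have q1 := bXY hP
  have q2 := bXY hQ
  rw [hX1, hY1] at q1
  rw [hX2, hY2] at q2
  have hAB : A * B ≠ 0 := mul_ne_zero hA hB
  have hc4 : W.c₄ = c4f A B := by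
    have : (6*6*(3*(3*3))) * (A * B) * (W.c₄ - c4f A B) = 0 := by
      unfold c4f
      linear_combination (q2 - q1)
    rcases mul_eq_zero.mp this with h | h
    · exact absurd h (mul_ne_zero (mul_ne_zero (mul_ne_zero h6 h6)
        (mul_ne_zero h3 (mul_ne_zero h3 h3))) hAB)
    · exact sub_eq_zero.mp h
  have hc6 : W.c₆ = c6f A B := by
    have : (6*3*3) * (W.c₆ - c6f A B) = 0 := by
      rw [hc4] at q1
      unfold c4f at q1
      unfold c6f
      linear_combination q1
    rcases mul_eq_zero.mp this with h | h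
    · exact absurd h (mul_ne_zero (mul_ne_zero h6 h3) h3)
    · exact sub_eq_zero.mp h
  exact ⟨A, B, hA, hB, hc4, hc6, hP, hX1, hY1⟩

theorem Rep.neg {P : W.Point} {A B : F} (h : Rep P A B) : Rep (-P) (-A) (-B) where
  hA := neg_ne_zero.mpr h.hA
  hB := neg_ne_zero.mpr h.hB
  hc4 := by rw [h.hc4, c4f, c4f]; ring
  hc6 := by rw [h.hc6, c6f, c6f]; ring
  ne := neg_ne_zero.mpr h.ne
  hX := by rw [bX_neg, h.hX]; ring
  hY := by rw [bY_neg h.ne, h.hY]; ring

omit [DecidableEq F] in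
theorem Rep.hY_ne (h6 : (6 : F) ≠ 0) {P : W.Point} {A B : F} (h : Rep P A B) : bY P ≠ 0 := by
  rw [h.hY]
  have h3 := three_ne h6
  refine mul_ne_zero (mul_ne_zero ?_ (pow_ne_zero 2 h.hA)) h.hB
  rw [show (-108 : F) = -(6 * (6 * 3)) by norm_num]
  exact neg_ne_zero.mpr (mul_ne_zero h6 (mul_ne_zero h6 h3))

theorem Rep.double (h6 : (6 : F) ≠ 0) {P : W.Point} {A B : F} (h : Rep P A B) :
    Rep (P + P) B (-A) := by
  have h3 := three_ne h6
  have h2 := two_ne h6
  have hYne := h.hY_ne h6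
  obtain ⟨x, y, hn, rfl⟩ := exists_eq_some h.ne
  have hX := h.hX
  have hY := h.hY
  have hc4 := h.hc4
  have hA := h.hA
  have hB := h.hB
  simp only [bX, bY, px_some, py_some] at hX hY hYne
  have hψ : y - W.negY x y = 2 * y + W.a₁ * x + W.a₃ := by rw [negY]; ring
  have hψ0 : 2 * y + W.a₁ * x + W.a₃ ≠ 0 := fun h => hYne (by rw [h, mul_zero])
  have hy : y ≠ W.negY x y := by
    rw [← sub_ne_zero, hψ]; exact hψ0
  have hdbl := add_self_of_Y_ne (h₁ := hn) hy
  -- the slope
  have hsl : 2 * W.slope x x y y + W.a₁ = A - B := by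
    have e : W.slope x x y y * (2 * y + W.a₁ * x + W.a₃) =
        3 * x ^ 2 + 2 * W.a₂ * x + W.a₄ - W.a₁ * y := by
      rw [slope_of_Y_ne rfl hy, ← hψ, div_mul_cancel₀]
      rw [hψ]; exact hψ0
    have hψv : 108 * (2 * y + W.a₁ * x + W.a₃) = -108 * A^2 * B := hY
    have h108 : (108 : F) ≠ 0 := by
      rw [show (108 : F) = 6 * (6 * 3) by norm_num]; exact mul_ne_zero h6 (mul_ne_zero h6 h3)
    have hψ' : 2 * y + W.a₁ * x + W.a₃ = - (A^2 * B) := by
      apply mul_left_cancel₀ h108; rw [hψv]; ring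
    have hkey : (6*6*(3*3)) * ((2 * W.slope x x y y + W.a₁) * (2 * y + W.a₁ * x + W.a₃)
        - (A - B) * (-(A^2*B))) = 0 := by
      have e2 : (2 * W.slope x x y y + W.a₁) * (2 * y + W.a₁ * x + W.a₃) =
          6 * x^2 + W.b₂ * x + W.b₄ := by
        rw [WeierstrassCurve.b₂, WeierstrassCurve.b₄]; linear_combination 2 * e
      rw [e2]
      have e3 : 2 * (324 * (6 * x^2 + W.b₂ * x + W.b₄)) =
          3 * (36 * x + 3 * W.b₂)^2 - 27 * W.c₄ := by
        rw [WeierstrassCurve.c₄]; ring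
      rw [hX, hc4, c4f] at e3
      have : 2 * (324 * (6 * x^2 + W.b₂ * x + W.b₄) - 324 * ((A - B) * (-(A^2*B)))) = 0 := by
        linear_combination e3
      have := (mul_eq_zero.mp this).resolve_left h2
      linear_combination this
    have h324 : (6*6*(3*3) : F) ≠ 0 := mul_ne_zero (mul_ne_zero h6 h6) (mul_ne_zero h3 h3)
    have := (mul_eq_zero.mp hkey).resolve_left h324
    rw [hψ'] at this
    have h5 : (2 * W.slope x x y y + W.a₁ - (A - B)) * (-(A^2*B)) = 0 := by
      linear_combination this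
    rcases mul_eq_zero.mp h5 with h | h
    · linear_combination h
    · exact absurd h (neg_ne_zero.mpr (mul_ne_zero (pow_ne_zero 2 hA) hB))
  have hX2 : bX (Point.some x y hn + Point.some x y hn) = 3 * (A^2 + 6*A*B + B^2) := by
    rw [hdbl, bX, px_some, addX]
    have : W.slope x x y y ^ 2 * 4 = (A - B - W.a₁)^2 := by rw [← hsl]; ring
    have hb2 : W.b₂ = W.a₁^2 + 4 * W.a₂ := rfl
    linear_combination 9 * (2 * W.slope x x y y + W.a₁ + (A - B)) * hsl - 2 * hX + 9 * hb2
  have hY2 : bY (Point.some x y hn + Point.some x y hn) = 108 * A * B^2 := by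
    have hX2' := hX2
    rw [hdbl, bX, px_some] at hX2'
    rw [hdbl, bY, px_some, py_some, addY, negAddY, negY]
    set s := W.slope x x y y
    set X3 := W.addX x x s
    have h3' : 3 * (36 * (X3 - x)) = 3 * (36 * (A * B)) := by linear_combination 3 * hX2' - 3 * hX
    have h36 : (36 : F) ≠ 0 := by
      rw [show (36 : F) = 6 * 6 by norm_num]; exact mul_ne_zero h6 h6
    have h4 : X3 - x = A * B := mul_left_cancel₀ h36 (mul_left_cancel₀ h3 h3')
    linear_combination -108 * (2 * s + W.a₁) * h4 - 108 * (A * B) * hsl - hY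
  refine ⟨hB, neg_ne_zero.mpr hA, ?_, ?_, ?_, ?_, ?_⟩
  · rw [h.hc4, c4f, c4f]; ring
  · rw [h.hc6, c6f, c6f]; ring
  · rw [hdbl]; exact some_ne_zero _
  · rw [hX2]; ring
  · rw [hY2]; ring

theorem Rep.five_nsmul (h6 : (6 : F) ≠ 0) {P : W.Point} {A B : F} (h : Rep P A B) :
    5 • P = 0 := by
  -- `4P = -P` by comparing coordinates
  have h4 := (h.double h6).double h6
  have hn := h.neg
  have e : (P + P) + (P + P) = -P := by
    apply ext_bXY h6 h4.ne hn.ne
    · rw [h4.hX, hn.hX]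
    · rw [h4.hY, hn.hY]
  have : 5 • P = (P + P) + (P + P) + P := by abel
  rw [this, e]; simp

theorem Rep.unique (h6 : (6 : F) ≠ 0) {P : W.Point} {A B A' B' : F} (h : Rep P A B)
    (h' : Rep P A' B') : A = A' ∧ B = B' := by
  have h3 := three_ne h6
  have h36 : (36 : F) ≠ 0 := by
    rw [show (36 : F) = 6 * 6 by norm_num]; exact mul_ne_zero h6 h6
  have e1 : bX (P + P) - bX P = 36 * (A * B) := by
    rw [(h.double h6).hX, h.hX]; ring
  have e2 : bX (P + P) - bX P = 36 * (A' * B') := by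
    rw [(h'.double h6).hX, h'.hX]; ring
  have e3 : A * B = A' * B' := mul_left_cancel₀ h36 (e1.symm.trans e2)
  have e4 : (36 : F) * (3 * (A * (A * B))) = 36 * (3 * (A' * (A' * B'))) := by
    have := h.hY.symm.trans h'.hY
    linear_combination -this
  have e5 := mul_left_cancel₀ h3 (mul_left_cancel₀ h36 e4)
  rw [← e3] at e5
  have hA : A = A' := mul_right_cancel₀ (mul_ne_zero h.hA h.hB) e5
  subst hA
  exact ⟨rfl, mul_left_cancel₀ h.hA e3⟩

omit [DecidableEq F] in
theorem exists_point_of_params (h6 : (6 : F) ≠ 0) {A B : F} (hA : A ≠ 0) (hB : B ≠ 0)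
    (hc4 : W.c₄ = c4f A B) (hc6 : W.c₆ = c6f A B) : ∃ P : W.Point, Rep P A B := by
  have h3 := three_ne h6
  have h2 := two_ne h6
  have h36 : (36 : F) ≠ 0 := by
    rw [show (36 : F) = 6 * 6 by norm_num]; exact mul_ne_zero h6 h6
  obtain ⟨x, hx⟩ : ∃ x : F, 36 * x + 3 * W.b₂ = 3 * (A^2 - 6*A*B + B^2) :=
    ⟨(3 * (A^2 - 6*A*B + B^2) - 3 * W.b₂) / 36, by field_simp; ring⟩
  obtain ⟨y, hy⟩ : ∃ y : F, 2 * y + W.a₁ * x + W.a₃ = -(A^2*B) :=
    ⟨(-(A^2*B) - W.a₁ * x - W.a₃) / 2, by field_simp; ring⟩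
  have heq : W.Equation x y := by
    rw [equation_iff]
    have h1 : (6*6*6*6*6*6) * ((y ^ 2 + W.a₁ * x * y + W.a₃ * y) -
        (x ^ 3 + W.a₂ * x ^ 2 + W.a₄ * x + W.a₆)) = 0 := by
      have e1 : (46656 : F) * ((y ^ 2 + W.a₁ * x * y + W.a₃ * y) -
        (x ^ 3 + W.a₂ * x ^ 2 + W.a₄ * x + W.a₆)) = (108 * (2 * y + W.a₁ * x + W.a₃))^2 -
          ((36 * x + 3 * W.b₂)^3 - 27 * W.c₄ * (36 * x + 3 * W.b₂) - 54 * W.c₆) := by
        simp only [WeierstrassCurve.c₄, WeierstrassCurve.c₆, WeierstrassCurve.b₂,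
          WeierstrassCurve.b₄, WeierstrassCurve.b₆]
        ring
      rw [hx, hy, hc4, hc6, c4f, c6f] at e1
      linear_combination e1
    have h66 : (6*6*6*6*6*6 : F) ≠ 0 := by
      repeat first | exact h6 | apply mul_ne_zero
    exact sub_eq_zero.mp ((mul_eq_zero.mp h1).resolve_left h66)
  have hψ : 2 * y + W.a₁ * x + W.a₃ ≠ 0 := by
    rw [hy]; exact neg_ne_zero.mpr (mul_ne_zero (pow_ne_zero 2 hA) hB)
  have hns : W.Nonsingular x y := by
    rw [nonsingular_iff]
    refine ⟨heq, Or.inr ?_⟩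
    intro h
    apply hψ
    linear_combination h
  refine ⟨Point.some x y hns, hA, hB, hc4, hc6, some_ne_zero hns, ?_, ?_⟩
  · rw [bX, px_some, hx]
  · rw [bY, px_some, py_some, hy]; ring

end Fermat.Agent.H24
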