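import Mathlib
import Fermat.Agent.H24.Forms
import Fermat.Agent.H24.Fam
import Fermat.Agent.H24.FormsId
import Fermat.Agent.H24.Tate
import Fermat.Agent.H09.TorsionCount

/-!
# Discriminant identities for the family
-/

set_option autoImplicit false

namespace Fermat.Agent.H24

open WeierstrassCurve WeierstrassCurve.Affine Polynomial

section

variable {R : Type*} [CommRing R]

/-- derivative of `DD` with respect to `m` -/
def DDp (c d m : R) : R :=
  m*((-132*c)
    +m*((-1320*d)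
    +m*((-5940*c^2)
    +m*((-15840*c*d)
    +m*((-63360*d^2+35640*c^3)
    +m*((-33264*c^2*d)
    +m*((506880*c*d^2-534600*c^4)
    +m*((1267200*d^3-1283040*c^3*d)
    +m*((1330560*c^2*d^2-1336500*c^5)
    +m*((675840*c*d^3-677160*c^4*d)
    +m*(1228800*d^4-2322432*c^3*d^2+1093500*c^6)))))))))))

def DDe (c d m : R) : R :=
  ((-12*c)
    +m*((-240*d)
    +m*((-1620*c^2)
    +m*((-5760*c*d)
    +m*((-28800*d^2+16200*c^3)
    +m*((-18144*c^2*d)
    +m*((322560*c*d^2-340200*c^4)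
    +m*((921600*d^3-933120*c^3*d)
    +m*((1088640*c^2*d^2-1093500*c^5)
    +m*((614400*c*d^3-615600*c^4*d)
    +m*(1228800*d^4-2322432*c^3*d^2+1093500*c^6)))))))))))

theorem DDp_sq (c d m : R) : DDp c d m ^ 2 - 144 * C4 c d m = 12 * DD c d m * DDe c d m := by
  unfold DDp DDe C4 P4 P4_9 P4_17 DD PD; ring

/-- The polynomial `DD` in the variable `m`. -/
noncomputable def polyDD (c d : R) : R[X] := DD (C c) (C d) X

theorem polyDD_eval (c d m : R) : (polyDD c d).eval m = DD c d m := by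
  have := map_DD (evalRingHom m) (C c) (C d) X
  simpa [polyDD] using this

theorem polyDD_derivative (c d : R) : derivative (polyDD c d) = DDp (C c) (C d) X := by
  unfold polyDD DD PD DDp
  simp only [derivative_add, derivative_mul, derivative_X, derivative_one, derivative_pow,
    derivative_C, derivative_ofNat, derivative_sub, derivative_neg, map_neg, derivative_zero]
  ring

theorem map_DDp {S : Type*} [CommRing S] (f : R →+* S) (c d m : R) :
    f (DDp c d m) = DDp (f c) (f d) (f m) := by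
  simp only [DDp, map_add, map_mul, map_pow, map_sub, map_ofNat, map_neg]

theorem polyDD_derivative_eval (c d m : R) : (derivative (polyDD c d)).eval m = DDp c d m := by
  rw [polyDD_derivative]
  have := map_DDp (evalRingHom m) (C c) (C d) X
  simpa using this

/-- Taylor expansion to second order -/
theorem DD_add (c d m h : R) : ∃ r : R, DD c d (m + h) = DD c d m + DDp c d m * h + r * h ^ 2 := by
  obtain ⟨r, hr⟩ := (polyDD c d).binomExpansion m h
  exact ⟨r, by rw [← polyDD_eval, hr, polyDD_eval, polyDD_derivative_eval]⟩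

theorem qf_NA_NB (A B m : R) :
    c4f (NA A B m) (NB A B m)^3 - c6f (NA A B m) (NB A B m)^2 =
      (c4f A B ^ 3 - c6f A B ^ 2) * DD (c4f A B) (c6f A B) m ^ 5 := by
  rw [c4f_c6f, c4f_c6f, qf_N, DD_eq, NA, NB]; ring

end

section field

variable {k : Type*} [Field k] [IsAlgClosed k]

theorem exists_params (h6 : (6 : k) ≠ 0) (h5 : (5 : k) ≠ 0) (c d : k) (h : c ^ 3 - d ^ 2 ≠ 0) :
    ∃ A B : k, A ≠ 0 ∧ B ≠ 0 ∧ c = c4f A B ∧ d = c6f A B := by
  classical
  have h2 := two_ne h6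
  have h3 := three_ne h6
  let W : WeierstrassCurve.Affine k := ⟨0, 0, 0, -c / 48, -d / 864⟩
  have h48 : (48 : k) ≠ 0 := by
    rw [show (48 : k) = 6 * (2 * (2 * 2)) by norm_num]
    exact mul_ne_zero h6 (mul_ne_zero h2 (mul_ne_zero h2 h2))
  have h864 : (864 : k) ≠ 0 := by
    rw [show (864 : k) = 6 * 6 * 6 * (2 * 2) by norm_num]
    exact mul_ne_zero (mul_ne_zero (mul_ne_zero h6 h6) h6) (mul_ne_zero h2 h2)
  have hc4 : WeierstrassCurve.c₄ W = c := by
    simp only [WeierstrassCurve.c₄, WeierstrassCurve.b₂, WeierstrassCurve.b₄, W]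
    field_simp; ring
  have hc6 : WeierstrassCurve.c₆ W = d := by
    simp only [WeierstrassCurve.c₆, WeierstrassCurve.b₂, WeierstrassCurve.b₄,
      WeierstrassCurve.b₆, W]
    field_simp; ring
  have hΔ : WeierstrassCurve.Δ W ≠ 0 := by
    intro h0
    apply h
    rw [← hc4, ← hc6, ← WeierstrassCurve.c_relation, h0, mul_zero]
  obtain ⟨P, hP, hP5⟩ := Fermat.Agent.H09.exists_torsion (W := W) hΔ (n := 5) (by decide)
    (by norm_num) (by exact_mod_cast h5)
  obtain ⟨A, B, hr⟩ := exists_rep h6 hP hP5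
  exact ⟨A, B, hr.hA, hr.hB, hc4.symm.trans hr.hc4, hc6.symm.trans hr.hc6⟩

/-- `C4³ - C6² = (c³ - d²) DD⁵` -/
theorem disc_field (h6 : (6 : k) ≠ 0) (h5 : (5 : k) ≠ 0) (c d m : k) (h : c ^ 3 - d ^ 2 ≠ 0) :
    C4 c d m ^ 3 - C6 c d m ^ 2 = (c ^ 3 - d ^ 2) * DD c d m ^ 5 := by
  obtain ⟨A, B, hA, hB, rfl, rfl⟩ := exists_params h6 h5 c d h
  rw [C4_eq hA, C6_eq hA, qf_NA_NB]

omit [IsAlgClosed k] in
lemma c4f_qf_coprime (h5 : (5 : k) ≠ 0) {A B : k} (h4 : c4f A B = 0) (hq : qf A B = 0) :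
    A = 0 ∧ B = 0 := by
  have e : 5 * (A^3 * (A + 11 * B)) = 0 := by
    have : 5 * (A^3 * (A + 11 * B)) = c4f A B - qf A B * (B^2 - A * B + 4 * A^2) := by
      unfold c4f qf; ring
    rw [this, h4, hq]; ring
  have e' := (mul_eq_zero.mp e).resolve_left h5
  rcases mul_eq_zero.mp e' with hA | hA
  · have hA0 : A = 0 := by simpa using hA
    subst hA0
    refine ⟨rfl, ?_⟩
    unfold qf at hq
    have : B ^ 2 = 0 := by linear_combination hq
    simpa using this
  · have hB : B ^ 2 = 0 := by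
      unfold qf at hq
      have hA' : A = -11 * B := by linear_combination hA
      subst hA'
      linear_combination hq
    have hB0 : B = 0 := by simpa using hB
    subst hB0
    exact ⟨by linear_combination hA, rfl⟩

theorem C4_ne_zero_of_DD (h6 : (6 : k) ≠ 0) (h5 : (5 : k) ≠ 0) (c d m : k)
    (h : c ^ 3 - d ^ 2 ≠ 0) (hD : DD c d m = 0) : C4 c d m ≠ 0 := by
  have h2 := two_ne h6
  have h3 := three_ne h6
  intro h4
  obtain ⟨A, B, hA, hB, rfl, rfl⟩ := exists_params h6 h5 c d h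
  rw [C4_eq hA] at h4
  rw [DD_eq] at hD
  set α := UU A B m + 6*B*m*(2*B-11*A)*VV A B m with hα
  set β := UU A B m + 6*A*m*(2*A+11*B)*VV A B m with hβ
  have hNA : NA A B m = A * α := rfl
  have hNB : NB A B m = B * β := rfl
  -- all cases give α = β = 0
  have key : α = 0 ∧ β = 0 := by
    rcases mul_eq_zero.mp hD with hD | hD
    · rcases mul_eq_zero.mp hD with hD | hD
      · rw [hNA, hD, mul_zero] at h4
        have : NB A B m ^ 4 = 0 := by rw [← h4]; unfold c4f; ring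
        have : NB A B m = 0 := by simpa using this
        rw [hNB] at this
        exact ⟨hD, (mul_eq_zero.mp this).resolve_left hB⟩
      · rw [hNB, hD, mul_zero] at h4
        have : NA A B m ^ 4 = 0 := by rw [← h4]; unfold c4f; ring
        have : NA A B m = 0 := by simpa using this
        rw [hNA] at this
        exact ⟨(mul_eq_zero.mp this).resolve_left hA, hD⟩
    · have hq : qf (NA A B m) (NB A B m) = 0 := by rw [qf_N, hD]; ring
      obtain ⟨h1, h2⟩ := c4f_qf_coprime h5 h4 hq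
      rw [hNA] at h1; rw [hNB] at h2
      exact ⟨(mul_eq_zero.mp h1).resolve_left hA, (mul_eq_zero.mp h2).resolve_left hB⟩
  obtain ⟨ha, hb⟩ := key
  have hqf : qf A B ≠ 0 := by
    intro h0
    apply h
    rw [c4f_c6f, h0]; ring
  have e1 : (6 * 2) * (m * VV A B m * qf A B) = 0 := by
    have : (6 * 2) * (m * VV A B m * qf A B) = α - β := by rw [hα, hβ, qf]; ring
    rw [this, ha, hb, sub_zero]
  have e2 := (mul_eq_zero.mp ((mul_eq_zero.mp e1).resolve_left (mul_ne_zero h6 h2))).resolve_right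
    hqf
  have hm0 : m ≠ 0 := by
    rintro rfl
    rw [hα] at ha
    simp [UU, TT, dl] at ha
  have hV := (mul_eq_zero.mp e2).resolve_left hm0
  have hU : UU A B m = 0 := by rw [hα, hV] at ha; linear_combination ha
  -- T, δ
  set T := TT A B m with hT
  set δ := dl A B m with hδ
  have hδ0 : δ ≠ 0 := by
    rw [hδ, dl]; exact mul_ne_zero (mul_ne_zero (mul_ne_zero h6 hA) hB) hm0
  have hV' : T ^ 4 + 10 * T^2 * δ^2 + 5 * δ^4 = 0 := hV
  have hU' : T * (T ^ 4 + 50 * T^2 * δ^2 + 125 * δ^4) = 0 := by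
    rw [← hU, UU]; ring
  rcases mul_eq_zero.mp hU' with h0 | h0
  · rw [h0] at hV'
    have : 5 * δ ^ 4 = 0 := by linear_combination hV'
    exact (mul_ne_zero h5 (pow_ne_zero 4 hδ0)) this
  · have e3 : (2 * 2 * 2 * 5) * (δ ^ 2 * (T^2 + 3 * δ^2)) = 0 := by
      linear_combination h0 - hV'
    have h40 : (2 * 2 * 2 * 5 : k) ≠ 0 :=
      mul_ne_zero (mul_ne_zero (mul_ne_zero h2 h2) h2) h5
    have e4 := (mul_eq_zero.mp ((mul_eq_zero.mp e3).resolve_left h40)).resolve_left
      (pow_ne_zero 2 hδ0)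
    have e5 : (2 * 2 * 2 * 2) * δ ^ 4 = 0 := by
      have hT2 : T^2 = -3 * δ^2 := by linear_combination e4
      have : T ^ 4 = 9 * δ^4 := by
        calc T ^ 4 = (T^2)^2 := by ring
          _ = _ := by rw [hT2]; ring
      linear_combination -hV' + this + 10 * δ^2 * hT2
    exact (mul_ne_zero (mul_ne_zero (mul_ne_zero (mul_ne_zero h2 h2) h2) h2)
      (pow_ne_zero 4 hδ0)) e5

end field

section int

/-- (i) discriminant formula over `ℤ`. -/
theorem disc_int (c d D m : ℤ) (h : c ^ 3 - d ^ 2 = 1728 * D) (hD : D ≠ 0) :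
    C4 c d m ^ 3 - C6 c d m ^ 2 = 1728 * (D * DD c d m ^ 5) := by
  have hc : ((c : ℂ)) ^ 3 - (d : ℂ) ^ 2 ≠ 0 := by
    have : ((c ^ 3 - d ^ 2 : ℤ) : ℂ) ≠ 0 := by
      rw [h]; exact_mod_cast mul_ne_zero (by norm_num) hD
    exact_mod_cast this
  have := disc_field (k := ℂ) (by norm_num) (by norm_num) c d m hc
  have e4 := map_C4 (Int.castRingHom ℂ) c d m
  have e6 := map_C6 (Int.castRingHom ℂ) c d m
  have eD := map_DD (Int.castRingHom ℂ) c d m
  simp only [eq_intCast] at e4 e6 eD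
  rw [← e4, ← e6, ← eD] at this
  have h2 : C4 c d m ^ 3 - C6 c d m ^ 2 = (c ^ 3 - d ^ 2) * DD c d m ^ 5 := by
    exact_mod_cast this
  rw [h2, h]; ring

/-- (iii) `DD` and `C4` have no common prime factor outside `30 D`. -/
theorem not_dvd_C4 (c d D m : ℤ) (h : c ^ 3 - d ^ 2 = 1728 * D) {p : ℕ} (hp : p.Prime)
    (hpD : ¬ (p : ℤ) ∣ 30 * D) (hDD : (p : ℤ) ∣ DD c d m) : ¬ (p : ℤ) ∣ C4 c d m := by
  have := Fact.mk hp
  intro h4
  let k := AlgebraicClosure (ZMod p)
  let f : ℤ →+* k := (algebraMap (ZMod p) k).comp (Int.castRingHom (ZMod p))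
  have hf : ∀ z : ℤ, f z = 0 ↔ (p : ℤ) ∣ z := by
    intro z
    rw [eq_intCast]
    exact CharP.intCast_eq_zero_iff k p z
  have h30 : f 30 ≠ 0 := fun h0 => hpD (Dvd.dvd.mul_right ((hf 30).mp h0) D)
  have h6 : (6 : k) ≠ 0 := by
    intro h0
    apply h30
    have : f 30 = 6 * 5 := by
      rw [show (30 : ℤ) = 6 * 5 by norm_num, map_mul, map_ofNat, map_ofNat]
    rw [this, h0, zero_mul]
  have h5 : (5 : k) ≠ 0 := by
    intro h0
    apply h30
    have : f 30 = 6 * 5 := by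
      rw [show (30 : ℤ) = 6 * 5 by norm_num, map_mul, map_ofNat, map_ofNat]
    rw [this, h0, mul_zero]
  have hD : f (c ^ 3 - d ^ 2) ≠ 0 := by
    rw [h, Ne, hf]
    intro h0
    rcases (Nat.prime_iff_prime_int.mp hp).dvd_or_dvd h0 with h1 | h1
    · apply h30
      rw [hf]
      have h2 : (p : ℤ) ∣ 6 := by
        have h3 : (p : ℤ) ∣ 6 ^ 6 := h1.trans ⟨27, by norm_num⟩
        exact (Nat.prime_iff_prime_int.mp hp).dvd_of_dvd_pow h3
      exact h2.trans ⟨5, by norm_num⟩
    · exact hpD (Dvd.dvd.mul_left h1 30)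
  rw [map_sub, map_pow, map_pow] at hD
  have := C4_ne_zero_of_DD h6 h5 (f c) (f d) (f m) hD
    (by rw [← map_DD, hf]; exact hDD)
  apply this
  rw [← map_C4, hf]; exact h4

theorem not_dvd_DDp (c d D m : ℤ) (h : c ^ 3 - d ^ 2 = 1728 * D) {p : ℕ} (hp : p.Prime)
    (hpD : ¬ (p : ℤ) ∣ 30 * D) (hDD : (p : ℤ) ∣ DD c d m) : ¬ (p : ℤ) ∣ DDp c d m := by
  intro h0
  have hp' := Nat.prime_iff_prime_int.mp hp
  have h1 := DDp_sq c d m
  have h2 : (p : ℤ) ∣ 144 * C4 c d m := by
    have : 144 * C4 c d m = DDp c d m ^ 2 - 12 * DD c d m * DDe c d m := by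
      linear_combination -h1
    rw [this]
    exact dvd_sub (dvd_pow h0 two_ne_zero)
      (Dvd.dvd.mul_right (Dvd.dvd.mul_left hDD 12) _)
  rcases hp'.dvd_or_dvd h2 with h3 | h3
  · have h4 : (p : ℤ) ∣ 6 := hp'.dvd_of_dvd_pow (h3.trans ⟨9, by norm_num⟩ : (p : ℤ) ∣ 6 ^ 4)
    exact hpD (Dvd.dvd.mul_right (h4.trans ⟨5, by norm_num⟩) D)
  · exact not_dvd_C4 c d D m h hp hpD hDD h3

end int

end Fermat.Agent.H24
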