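import Mathlib
import Fermat.Agent.H08.Congruence
import Fermat.Agent.H24.Forms
import Fermat.Agent.H24.Fam
import Fermat.Agent.H24.Tate
import Fermat.Agent.H24.FormsId

/-!
# Additivity of the 5-congruence, via the generic member of the family
-/

set_option autoImplicit false

namespace Fermat.Agent.H24

open WeierstrassCurve WeierstrassCurve.Affine WeierstrassCurve.Affine.Point Fermat.Agent.H08
open Polynomial IsDedekindDomain

universe u v

section add

variable {F : Type u} [Field F] [DecidableEq F] {W : WeierstrassCurve.Affine F}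

/-- The addition law in normalised coordinates. -/
lemma bX_add {P Q : W.Point} (hP : P ≠ 0) (hQ : Q ≠ 0) (h : px P ≠ px Q) :
    (bX (P + Q) + bX P + bX Q) * (bX P - bX Q) ^ 2 = (bY P - bY Q) ^ 2 ∧
    (bY (P + Q) + bY P) * (bX P - bX Q) = -((bY P - bY Q) * (bX (P + Q) - bX P)) := by
  obtain ⟨x, y, h1, rfl⟩ := exists_eq_some hP
  obtain ⟨x', y', h2, rfl⟩ := exists_eq_some hQ
  simp only [px_some] at h
  have hd : x - x' ≠ 0 := sub_ne_zero.mpr h
  have hs : W.slope x x' y y' * (x - x') = y - y' := by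
    rw [slope_of_X_ne h, div_mul_cancel₀ _ hd]
  rw [add_of_X_ne h]
  simp only [bX, bY, px_some, py_some, addX, addY, negAddY, negY]
  set s := W.slope x x' y y'
  have hb2 : W.b₂ = W.a₁ ^ 2 + 4 * W.a₂ := rfl
  constructor
  · rw [hb2]
    linear_combination 46656 * (s * (x - x') + (y - y') + W.a₁ * (x - x')) * hs
  · rw [hb2]
    linear_combination (-7776 * (s ^ 2 + W.a₁ * s - W.a₂ - 2 * x - x')) * hs

end add

section generic

variable {k : Type u} [Field k]

/-- The place `X = c` of the rational function field. -/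
noncomputable def plc (c : k) : HeightOneSpectrum k[X] where
  asIdeal := Ideal.span {X - C c}
  isPrime := by
    rw [Ideal.span_singleton_prime (X_sub_C_ne_zero c)]; exact prime_X_sub_C c
  ne_bot := by
    rw [Ne, Ideal.span_singleton_eq_bot]; exact X_sub_C_ne_zero c

variable {K : Type v} [Field K] [Algebra k[X] K] [IsFractionRing k[X] K]

lemma plc_lt_one (c : k) (p : k[X]) :
    (plc c).valuation K (algebraMap k[X] K p) < 1 ↔ p.eval c = 0 := by
  rw [HeightOneSpectrum.valuation_lt_one_iff_mem]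
  show p ∈ Ideal.span {X - C c} ↔ _
  rw [Ideal.mem_span_singleton, dvd_iff_isRoot, IsRoot.def]

lemma plc_le_one (c : k) (p : k[X]) : (plc c).valuation K (algebraMap k[X] K p) ≤ 1 :=
  HeightOneSpectrum.valuation_le_one _ _

lemma plc_eq_one (c : k) {p : k[X]} (hp : p.eval c ≠ 0) :
    (plc c).valuation K (algebraMap k[X] K p) = 1 := by
  refine le_antisymm (plc_le_one c p) (not_lt.mp ?_)
  rw [plc_lt_one]; exact hp

lemma plc_const (c : k) {a : k} (ha : a ≠ 0) :
    (plc c).valuation K (algebraMap k[X] K (C a)) = 1 :=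
  plc_eq_one c (by simpa using ha)

/-- The generic member of the family, over `k[X]`. -/
noncomputable def Wt (W : WeierstrassCurve k) : WeierstrassCurve k[X] := fam (W.map C) X

variable (K) in
/-- The generic member of the family, over `k(X)`. -/
noncomputable def WK (W : WeierstrassCurve k) : WeierstrassCurve K :=
  (Wt W).map (algebraMap k[X] K)

lemma Wt_eval (W : WeierstrassCurve k) (c : k) : (Wt W).map (evalRingHom c) = fam W c := by
  rw [Wt, fam_map, WeierstrassCurve.map_map]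
  congr 1
  · have : (evalRingHom c).comp C = RingHom.id k := by ext; simp
    rw [this, WeierstrassCurve.map_id]
  · simp

lemma WK_integral (W : WeierstrassCurve k) (c : k) :
    IsIntegralFor ((plc c).valuation K) (WK K W) :=
  ⟨plc_le_one _ _, plc_le_one _ _, plc_le_one _ _, plc_le_one _ _, plc_le_one _ _⟩

/-- generic parameters -/
noncomputable def nA (A B : k) : k[X] := NA (C A) (C B) (1728 * X)
noncomputable def nB (A B : k) : k[X] := NB (C A) (C B) (1728 * X)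

lemma map_NA {R S : Type*} [CommRing R] [CommRing S] (f : R →+* S) (A B m : R) :
    f (NA A B m) = NA (f A) (f B) (f m) := by
  simp only [NA, UU, VV, TT, dl, map_add, map_mul, map_pow, map_sub, map_ofNat, map_one]

lemma map_NB {R S : Type*} [CommRing R] [CommRing S] (f : R →+* S) (A B m : R) :
    f (NB A B m) = NB (f A) (f B) (f m) := by
  simp only [NB, UU, VV, TT, dl, map_add, map_mul, map_pow, map_sub, map_ofNat, map_one]

lemma nA_eval (A B c : k) : (nA A B).eval c = NA A B (1728 * c) := by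
  have := map_NA (evalRingHom c) (C A) (C B) (1728 * X)
  simpa [nA] using this

lemma nB_eval (A B c : k) : (nB A B).eval c = NB A B (1728 * c) := by
  have := map_NB (evalRingHom c) (C A) (C B) (1728 * X)
  simpa [nB] using this

/-- generic normalised coordinates -/
noncomputable def pX (A B : k) : k[X] := 3 * ((nA A B)^2 - 6 * nA A B * nB A B + (nB A B)^2)
noncomputable def pY (A B : k) : k[X] := -108 * (nA A B)^2 * nB A B

lemma NA_zero {R : Type*} [CommRing R] (A B : R) : NA A B 0 = A := by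
  simp [NA, UU, VV, TT, dl]
lemma NB_zero {R : Type*} [CommRing R] (A B : R) : NB A B 0 = B := by
  simp [NB, UU, VV, TT, dl]

lemma six_ne_K (h6 : (6 : k) ≠ 0) : (6 : K) ≠ 0 := by
  have h : (algebraMap k[X] K) (C 6) = 6 := by
    have : (C 6 : k[X]) = 6 := rfl
    rw [this, map_ofNat]
  rw [← h]
  intro h0
  rw [FaithfulSMul.algebraMap_eq_zero_iff, C_eq_zero] at h0
  exact h6 h0

lemma WK_eq (W : WeierstrassCurve k) :
    WK K W = fam (W.map ((algebraMap k[X] K).comp C)) (algebraMap k[X] K X) := by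
  rw [WK, Wt, fam_map, WeierstrassCurve.map_map]

section reps

variable {W : WeierstrassCurve k}

lemma WK_c₄ {A B : k} (hA : A ≠ 0) (h4 : W.c₄ = c4f A B) (h6 : W.c₆ = c6f A B) :
    (WK K W).c₄ = c4f (algebraMap k[X] K (nA A B)) (algebraMap k[X] K (nB A B)) := by
  have hA' : ((algebraMap k[X] K).comp C) A ≠ 0 := by
    rw [Ne, map_eq_zero]; exact hA
  have e4 : ((algebraMap k[X] K).comp C) (c4f A B) =
    c4f (((algebraMap k[X] K).comp C) A) (((algebraMap k[X] K).comp C) B) := by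
    simp only [c4f, map_add, map_mul, map_pow, map_sub, map_ofNat]
  have e6 : ((algebraMap k[X] K).comp C) (c6f A B) =
    c6f (((algebraMap k[X] K).comp C) A) (((algebraMap k[X] K).comp C) B) := by
    simp only [c6f, map_add, map_mul, map_pow, map_sub, map_ofNat, map_neg]
  rw [WK_eq, fam_c₄, WeierstrassCurve.map_c₄, WeierstrassCurve.map_c₆, h4, h6, e4, e6,
    C4_eq hA', nA, nB, map_NA, map_NB, map_mul, map_ofNat]
  rfl

lemma WK_c₆ {A B : k} (hA : A ≠ 0) (h4 : W.c₄ = c4f A B) (h6 : W.c₆ = c6f A B) :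
    (WK K W).c₆ = c6f (algebraMap k[X] K (nA A B)) (algebraMap k[X] K (nB A B)) := by
  have hA' : ((algebraMap k[X] K).comp C) A ≠ 0 := by
    rw [Ne, map_eq_zero]; exact hA
  have e4 : ((algebraMap k[X] K).comp C) (c4f A B) =
    c4f (((algebraMap k[X] K).comp C) A) (((algebraMap k[X] K).comp C) B) := by
    simp only [c4f, map_add, map_mul, map_pow, map_sub, map_ofNat]
  have e6 : ((algebraMap k[X] K).comp C) (c6f A B) =
    c6f (((algebraMap k[X] K).comp C) A) (((algebraMap k[X] K).comp C) B) := by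
    simp only [c6f, map_add, map_mul, map_pow, map_sub, map_ofNat, map_neg]
  rw [WK_eq, fam_c₆, WeierstrassCurve.map_c₄, WeierstrassCurve.map_c₆, h4, h6, e4, e6,
    C6_eq hA', nA, nB, map_NA, map_NB, map_mul, map_ofNat]
  rfl

lemma nA_ne_zero {A : k} (hA : A ≠ 0) (B : k) : nA A B ≠ 0 := by
  intro h
  have := nA_eval A B 0
  rw [h, mul_zero, NA_zero, eval_zero] at this
  exact hA this.symm

lemma nB_ne_zero (A : k) {B : k} (hB : B ≠ 0) : nB A B ≠ 0 := by
  intro h
  have := nB_eval A B 0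
  rw [h, mul_zero, NB_zero, eval_zero] at this
  exact hB this.symm

theorem exists_lift (h6 : (6 : k) ≠ 0) {P : W.toAffine.Point} {A B : k}
    (h : Rep P A B) : ∃ T : (WK K W).toAffine.Point,
      Rep T (algebraMap k[X] K (nA A B)) (algebraMap k[X] K (nB A B)) := by
  apply exists_point_of_params (six_ne_K h6)
  · rw [Ne, FaithfulSMul.algebraMap_eq_zero_iff]; exact nA_ne_zero h.hA B
  · rw [Ne, FaithfulSMul.algebraMap_eq_zero_iff]; exact nB_ne_zero A h.hB
  · exact WK_c₄ h.hA h.hc4 h.hc6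
  · exact WK_c₆ h.hA h.hc4 h.hc6

lemma Rep.bX_lift {A B : k} {T : (WK K W).toAffine.Point}
    (h : Rep T (algebraMap k[X] K (nA A B)) (algebraMap k[X] K (nB A B))) :
    bX T = algebraMap k[X] K (pX A B) := by
  rw [h.hX, pX]; simp only [map_add, map_mul, map_pow, map_sub, map_ofNat]

lemma Rep.bY_lift {A B : k} {T : (WK K W).toAffine.Point}
    (h : Rep T (algebraMap k[X] K (nA A B)) (algebraMap k[X] K (nB A B))) :
    bY T = algebraMap k[X] K (pY A B) := by
  rw [h.hY, pY]; simp only [map_mul, map_pow, map_neg, map_ofNat]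

lemma Rep.pX_eval {c : k} {A B : k} {V : WeierstrassCurve k} {S : V.toAffine.Point}
    (h : Rep S (NA A B (1728 * c)) (NB A B (1728 * c))) : (pX A B).eval c = bX S := by
  rw [h.hX, pX]; simp [nA_eval, nB_eval]

lemma Rep.pY_eval {c : k} {A B : k} {V : WeierstrassCurve k} {S : V.toAffine.Point}
    (h : Rep S (NA A B (1728 * c)) (NB A B (1728 * c))) : (pY A B).eval c = bY S := by
  rw [h.hY, pY]; simp [nA_eval, nB_eval]

lemma Rep.pX_eval_zero {A B : k} {P : W.toAffine.Point}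
    (h : Rep P A B) : (pX A B).eval 0 = bX P := by
  rw [h.hX, pX]; simp [nA_eval, nB_eval, NA_zero, NB_zero]

lemma Rep.pY_eval_zero {A B : k} {P : W.toAffine.Point}
    (h : Rep P A B) : (pY A B).eval 0 = bY P := by
  rw [h.hY, pY]; simp [nA_eval, nB_eval, NA_zero, NB_zero]

end reps

section main

variable [DecidableEq k] [DecidableEq K] {W : WeierstrassCurve k}

lemma px_ne_of_bX_ne {F : Type*} [Field F] {W : WeierstrassCurve.Affine F} {P Q : W.Point}
    (h : bX P ≠ bX Q) : px P ≠ px Q := fun h' => h (by rw [bX, bX, h'])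

lemma bX_ne_of_px_ne {F : Type*} [Field F] (h6 : (6 : F) ≠ 0) {W : WeierstrassCurve.Affine F}
    {P Q : W.Point} (h : px P ≠ px Q) : bX P ≠ bX Q := by
  intro h'
  apply h
  rw [bX, bX] at h'
  have : (6 * 6 : F) * px P = 6 * 6 * px Q := by linear_combination h'
  exact mul_left_cancel₀ (mul_ne_zero h6 h6) this

lemma plc_natCast (c : k) {n : ℕ} (hn : (n : k) ≠ 0) :
    (plc c).valuation K (n : K) = 1 := by
  have : (n : K) = algebraMap k[X] K (C (n : k)) := by simp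
  rw [this]; exact plc_const c hn

theorem lift_add (h6 : (6 : k) ≠ 0) (h5 : (5 : k) ≠ 0)
    {P₁ P₂ P₃ : W.toAffine.Point} {A₁ B₁ A₂ B₂ A₃ B₃ : k}
    (h₁ : Rep P₁ A₁ B₁) (h₂ : Rep P₂ A₂ B₂) (h₃ : Rep P₃ A₃ B₃) (hadd : P₁ + P₂ = P₃)
    (hne : px P₁ ≠ px P₂) {T₁ T₂ T₃ : (WK K W).toAffine.Point}
    (t₁ : Rep T₁ (algebraMap k[X] K (nA A₁ B₁)) (algebraMap k[X] K (nB A₁ B₁)))
    (t₂ : Rep T₂ (algebraMap k[X] K (nA A₂ B₂)) (algebraMap k[X] K (nB A₂ B₂)))
    (t₃ : Rep T₃ (algebraMap k[X] K (nA A₃ B₃)) (algebraMap k[X] K (nB A₃ B₃))) :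
    px T₁ ≠ px T₂ ∧ T₁ + T₂ = T₃ := by
  have h6K : (6 : K) ≠ 0 := six_ne_K h6
  set v := (plc (0 : k)).valuation K with hv
  have hW : IsIntegralFor v (WK K W) := WK_integral W 0
  have inj := FaithfulSMul.algebraMap_injective k[X] K
  have hbne : bX P₁ ≠ bX P₂ := bX_ne_of_px_ne h6 hne
  have hD0 : (pX A₁ B₁ - pX A₂ B₂).eval 0 ≠ 0 := by
    rw [eval_sub, h₁.pX_eval_zero, h₂.pX_eval_zero]; exact sub_ne_zero.mpr hbne
  have hTne : px T₁ ≠ px T₂ := by
    apply px_ne_of_bX_ne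
    rw [t₁.bX_lift, t₂.bX_lift]
    intro h
    apply hD0
    rw [inj h, sub_self, eval_zero]
  refine ⟨hTne, ?_⟩
  have hSne : T₁ + T₂ ≠ 0 := add_ne_zero_of_px_ne hTne
  have hv5 : v ((5 : ℕ) : K) = 1 := plc_natCast 0 (by exact_mod_cast h5)
  have hS5 : 5 • (T₁ + T₂) = 0 := by
    rw [nsmul_add, t₁.five_nsmul h6K, t₂.five_nsmul h6K, add_zero]
  have hT35 : 5 • T₃ = 0 := t₃.five_nsmul h6K
  have hSx : v (px (T₁ + T₂)) ≤ 1 := val_px_le_one_of_torsion hW hS5 hv5
  have v36 : v (36 : K) = 1 := by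
    have := plc_natCast (K := K) (0 : k) (n := 36)
      (by rw [show ((36 : ℕ) : k) = 6 * 6 by norm_num]; exact mul_ne_zero h6 h6)
    exact_mod_cast this
  have v216 : v (216 : K) = 1 := by
    have := plc_natCast (K := K) (0 : k) (n := 216)
      (by rw [show ((216 : ℕ) : k) = 6 * 6 * 6 by norm_num]
          exact mul_ne_zero (mul_ne_zero h6 h6) h6)
    exact_mod_cast this
  have vDX : v (algebraMap k[X] K (pX A₁ B₁ - pX A₂ B₂)) = 1 := plc_eq_one 0 hD0
  obtain ⟨eX, eY⟩ := bX_add t₁.ne t₂.ne hTne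
  obtain ⟨fX, fY⟩ := bX_add h₁.ne h₂.ne hne
  rw [hadd] at fX fY
  rw [t₁.bX_lift, t₂.bX_lift, t₁.bY_lift, t₂.bY_lift] at eX eY
  -- the x-coordinate
  have kX : v (bX (T₁ + T₂) - bX T₃) < 1 := by
    have e : (bX (T₁ + T₂) - algebraMap k[X] K (C (bX P₃))) *
        (algebraMap k[X] K (pX A₁ B₁ - pX A₂ B₂)) ^ 2 =
        algebraMap k[X] K ((pY A₁ B₁ - pY A₂ B₂)^2 -
          (pX A₁ B₁ + pX A₂ B₂ + C (bX P₃)) * (pX A₁ B₁ - pX A₂ B₂)^2) := by
      simp only [map_sub, map_mul, map_pow, map_add]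
      linear_combination eX
    have h1 : v ((bX (T₁ + T₂) - algebraMap k[X] K (C (bX P₃))) *
        (algebraMap k[X] K (pX A₁ B₁ - pX A₂ B₂)) ^ 2) < 1 := by
      rw [e, hv, plc_lt_one]
      simp only [eval_sub, eval_pow, eval_mul, eval_add, eval_C, h₁.pX_eval_zero,
        h₂.pX_eval_zero, h₁.pY_eval_zero, h₂.pY_eval_zero]
      linear_combination -fX
    rw [map_mul, map_pow, vDX, one_pow, mul_one] at h1
    have h2 : v (algebraMap k[X] K (C (bX P₃)) - bX T₃) < 1 := by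
      rw [t₃.bX_lift, ← map_sub, hv, plc_lt_one]
      simp [h₃.pX_eval_zero]
    have : bX (T₁ + T₂) - bX T₃ = (bX (T₁ + T₂) - algebraMap k[X] K (C (bX P₃))) +
      (algebraMap k[X] K (C (bX P₃)) - bX T₃) := by ring
    rw [this]; exact v_add_lt_one h1 h2
  have kX' : v (bX (T₁ + T₂) - algebraMap k[X] K (C (bX P₃))) < 1 := by
    have h2 : v (bX T₃ - algebraMap k[X] K (C (bX P₃))) < 1 := by
      rw [t₃.bX_lift, ← map_sub, hv, plc_lt_one]
      simp [h₃.pX_eval_zero]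
    have : bX (T₁ + T₂) - algebraMap k[X] K (C (bX P₃)) = (bX (T₁ + T₂) - bX T₃) +
      (bX T₃ - algebraMap k[X] K (C (bX P₃))) := by ring
    rw [this]; exact v_add_lt_one kX h2
  -- the y-coordinate
  have kY : v (bY (T₁ + T₂) - bY T₃) < 1 := by
    have e : (bY (T₁ + T₂) - algebraMap k[X] K (C (bY P₃))) *
        (algebraMap k[X] K (pX A₁ B₁ - pX A₂ B₂)) =
        - (algebraMap k[X] K (pY A₁ B₁ - pY A₂ B₂)) *
          (bX (T₁ + T₂) - algebraMap k[X] K (C (bX P₃))) +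
        algebraMap k[X] K (-(pY A₁ B₁ - pY A₂ B₂) * (C (bX P₃) - pX A₁ B₁) -
          (pY A₁ B₁ + C (bY P₃)) * (pX A₁ B₁ - pX A₂ B₂)) := by
      simp only [map_sub, map_mul, map_neg, map_add]
      linear_combination eY
    have h1 : v ((bY (T₁ + T₂) - algebraMap k[X] K (C (bY P₃))) *
        (algebraMap k[X] K (pX A₁ B₁ - pX A₂ B₂))) < 1 := by
      rw [e]
      refine v_add_lt_one (v_mul_lt_one_right (v_neg_le_one (plc_le_one _ _)) kX') ?_
      rw [hv, plc_lt_one]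
      simp only [eval_sub, eval_neg, eval_mul, eval_add, eval_C, h₁.pX_eval_zero,
        h₂.pX_eval_zero, h₁.pY_eval_zero, h₂.pY_eval_zero]
      linear_combination -fY
    rw [map_mul, vDX, mul_one] at h1
    have h2 : v (algebraMap k[X] K (C (bY P₃)) - bY T₃) < 1 := by
      rw [t₃.bY_lift, ← map_sub, hv, plc_lt_one]
      simp [h₃.pY_eval_zero]
    have : bY (T₁ + T₂) - bY T₃ = (bY (T₁ + T₂) - algebraMap k[X] K (C (bY P₃))) +
      (algebraMap k[X] K (C (bY P₃)) - bY T₃) := by ring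
    rw [this]; exact v_add_lt_one h1 h2
  have hx : v (px (T₁ + T₂) - px T₃) < 1 := by
    have : v (36 * (px (T₁ + T₂) - px T₃)) < 1 := by
      have e : 36 * (px (T₁ + T₂) - px T₃) = bX (T₁ + T₂) - bX T₃ := by rw [bX, bX]; ring
      rw [e]; exact kX
    rwa [map_mul, v36, one_mul] at this
  have hy : v (py (T₁ + T₂) - py T₃) < 1 := by
    have : v (216 * (py (T₁ + T₂) - py T₃)) < 1 := by
      have e : 216 * (py (T₁ + T₂) - py T₃) = (bY (T₁ + T₂) - bY T₃) -
          108 * (WK K W).a₁ * (px (T₁ + T₂) - px T₃) := by rw [bY, bY]; ring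
      rw [e]
      exact v_sub_lt_one kY (v_mul_lt_one_right (v_mul_le_one (v_ofNat_le_one v 108) hW.h₁) hx)
    rwa [map_mul, v216, one_mul] at this
  have v108 : v (108 : K) = 1 := by
    have := plc_natCast (K := K) (0 : k) (n := 108)
      (by rw [show ((108 : ℕ) : k) = 6 * (6 * 3) by norm_num]
          exact mul_ne_zero h6 (mul_ne_zero h6 (three_ne h6)))
    exact_mod_cast this
  have hns : NonsingularRed v (T₁ + T₂) := by
    left
    have h1 : v (bY T₃) = 1 := by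
      rw [t₃.bY_lift]
      apply plc_eq_one
      rw [h₃.pY_eval_zero]; exact h₃.hY_ne h6
    have h2 : v (bY (T₁ + T₂)) = 1 := by
      refine v_eq_one_of_sub (x := bY T₃) h1 ?_
      have := v_neg_lt_one kY
      rwa [neg_sub] at this
    have h3 : bY (T₁ + T₂) = 108 * psi2 (T₁ + T₂) := rfl
    rw [h3, map_mul, v108, one_mul] at h2
    exact h2
  have hE := inE1_sub_of_congr hW hSne t₃.ne hSx hx hy hns
  have h0 : T₁ + T₂ - T₃ = 0 := by
    refine InE1.eq_zero_of_torsion hW hE (n := 5) ?_ hv5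
    rw [nsmul_sub, hS5, hT35, sub_zero]
  exact sub_eq_zero.mp h0

theorem lift_add_at (h6 : (6 : k) ≠ 0) (h5 : (5 : k) ≠ 0) (c : k)
    {P₁ P₂ P₃ : W.toAffine.Point} {A₁ B₁ A₂ B₂ A₃ B₃ : k}
    (h₁ : Rep P₁ A₁ B₁) (h₂ : Rep P₂ A₂ B₂) (h₃ : Rep P₃ A₃ B₃) (hadd : P₁ + P₂ = P₃)
    (hne : px P₁ ≠ px P₂) {V : WeierstrassCurve k} {S₁ S₂ S₃ : V.toAffine.Point}
    (s₁ : Rep S₁ (NA A₁ B₁ (1728 * c)) (NB A₁ B₁ (1728 * c)))
    (s₂ : Rep S₂ (NA A₂ B₂ (1728 * c)) (NB A₂ B₂ (1728 * c)))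
    (s₃ : Rep S₃ (NA A₃ B₃ (1728 * c)) (NB A₃ B₃ (1728 * c))) :
    S₁ + S₂ = S₃ := by
  letI : DecidableEq (RatFunc k) := Classical.decEq _
  have h6K : (6 : RatFunc k) ≠ 0 := six_ne_K h6
  obtain ⟨T₁, t₁⟩ := exists_lift (K := RatFunc k) h6 h₁
  obtain ⟨T₂, t₂⟩ := exists_lift (K := RatFunc k) h6 h₂
  obtain ⟨T₃, t₃⟩ := exists_lift (K := RatFunc k) h6 h₃
  obtain ⟨hTne, hT⟩ := lift_add h6 h5 h₁ h₂ h₃ hadd hne t₁ t₂ t₃
  have inj := FaithfulSMul.algebraMap_injective k[X] (RatFunc k)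
  obtain ⟨eX, eY⟩ := bX_add t₁.ne t₂.ne hTne
  rw [hT, t₁.bX_lift, t₂.bX_lift, t₁.bY_lift, t₂.bY_lift, t₃.bX_lift] at eX eY
  rw [t₃.bY_lift] at eY
  have gX : (pX A₃ B₃ + pX A₁ B₁ + pX A₂ B₂) * (pX A₁ B₁ - pX A₂ B₂) ^ 2 =
      (pY A₁ B₁ - pY A₂ B₂) ^ 2 := by
    apply inj; simpa only [map_sub, map_mul, map_pow, map_add] using eX
  have gY : (pY A₃ B₃ + pY A₁ B₁) * (pX A₁ B₁ - pX A₂ B₂) =
      -((pY A₁ B₁ - pY A₂ B₂) * (pX A₃ B₃ - pX A₁ B₁)) := by
    apply inj; simpa only [map_sub, map_mul, map_pow, map_add, map_neg] using eY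
  have gX' := congrArg (Polynomial.eval c) gX
  have gY' := congrArg (Polynomial.eval c) gY
  simp only [eval_sub, eval_pow, eval_mul, eval_add, eval_neg, s₁.pX_eval, s₂.pX_eval,
    s₃.pX_eval, s₁.pY_eval, s₂.pY_eval, s₃.pY_eval] at gX' gY'
  -- distinctness at `c`
  set v := (plc c).valuation (RatFunc k) with hv
  have hW : IsIntegralFor v (WK (RatFunc k) W) := WK_integral W c
  have hv5 : v ((5 : ℕ) : RatFunc k) = 1 := plc_natCast c (by exact_mod_cast h5)
  have v36 : v (36 : RatFunc k) = 1 := by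
    have := plc_natCast (K := RatFunc k) c (n := 36)
      (by rw [show ((36 : ℕ) : k) = 6 * 6 by norm_num]; exact mul_ne_zero h6 h6)
    exact_mod_cast this
  have v108 : v (108 : RatFunc k) = 1 := by
    have := plc_natCast (K := RatFunc k) c (n := 108)
      (by rw [show ((108 : ℕ) : k) = 6 * (6 * 3) by norm_num]
          exact mul_ne_zero h6 (mul_ne_zero h6 (three_ne h6)))
    exact_mod_cast this
  have hbS : bX S₁ ≠ bX S₂ := by
    intro heq
    have hx : v (px T₁ - px T₂) < 1 := by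
      have : v (36 * (px T₁ - px T₂)) < 1 := by
        have e : 36 * (px T₁ - px T₂) = bX T₁ - bX T₂ := by rw [bX, bX]; ring
        rw [e, t₁.bX_lift, t₂.bX_lift, ← map_sub, hv, plc_lt_one, eval_sub, s₁.pX_eval,
          s₂.pX_eval, heq, sub_self]
      rwa [map_mul, v36, one_mul] at this
    have hns : NonsingularRed v T₁ := by
      left
      have h1 : v (bY T₁) = 1 := by
        rw [t₁.bY_lift]
        apply plc_eq_one
        rw [s₁.pY_eval]; exact s₁.hY_ne h6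
      have h3 : bY T₁ = 108 * psi2 T₁ := rfl
      rw [h3, map_mul, v108, one_mul] at h1
      exact h1
    have hx1 : v (px T₁) ≤ 1 := val_px_le_one_of_torsion hW (t₁.five_nsmul h6K) hv5
    rcases inE1_sub_or_add_of_congr hW t₁.ne t₂.ne hx1 hx hns with hE | hE
    · have h0 : T₁ - T₂ = 0 := by
        refine InE1.eq_zero_of_torsion hW hE (n := 5) ?_ hv5
        rw [nsmul_sub, t₁.five_nsmul h6K, t₂.five_nsmul h6K, sub_zero]
      exact hTne (by rw [sub_eq_zero.mp h0])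
    · have h0 : T₁ + T₂ = 0 := by
        refine InE1.eq_zero_of_torsion hW hE (n := 5) ?_ hv5
        rw [nsmul_add, t₁.five_nsmul h6K, t₂.five_nsmul h6K, add_zero]
      exact t₃.ne (by rw [← hT, h0])
  have hpS : px S₁ ≠ px S₂ := px_ne_of_bX_ne hbS
  have hd : bX S₁ - bX S₂ ≠ 0 := sub_ne_zero.mpr hbS
  obtain ⟨rX, rY⟩ := bX_add s₁.ne s₂.ne hpS
  have kX : bX (S₁ + S₂) = bX S₃ := by
    have : (bX (S₁ + S₂) + bX S₁ + bX S₂) = bX S₃ + bX S₁ + bX S₂ :=
      mul_right_cancel₀ (pow_ne_zero 2 hd) (rX.trans gX'.symm)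
    linear_combination this
  have kY : bY (S₁ + S₂) = bY S₃ := by
    rw [kX] at rY
    have : bY (S₁ + S₂) + bY S₁ = bY S₃ + bY S₁ := mul_right_cancel₀ hd (rY.trans gY'.symm)
    linear_combination this
  exact ext_bXY h6 (add_ne_zero_of_px_ne hpS) s₃.ne kX kY

/-! ### the additive map on the 5-torsion -/

variable {V : WeierstrassCurve k}

theorem exists_lift_at (h6 : (6 : k) ≠ 0) {c : k}
    (hV4 : V.c₄ = C4 W.c₄ W.c₆ (1728 * c)) (hV6 : V.c₆ = C6 W.c₄ W.c₆ (1728 * c))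
    (hΔ : V.Δ ≠ 0) {P : W.toAffine.Point} {A B : k} (h : Rep P A B) :
    ∃ S : V.toAffine.Point, Rep S (NA A B (1728 * c)) (NB A B (1728 * c)) := by
  have h4 : V.c₄ = c4f (NA A B (1728 * c)) (NB A B (1728 * c)) := by
    rw [hV4, h.hc4, h.hc6, C4_eq h.hA]
  have h6' : V.c₆ = c6f (NA A B (1728 * c)) (NB A B (1728 * c)) := by
    rw [hV6, h.hc4, h.hc6, C6_eq h.hA]
  have hrel := WeierstrassCurve.c_relation V
  rw [h4, h6', c4f_c6f] at hrel
  have h1728 : (1728 : k) ≠ 0 := by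
    have h2 := two_ne h6
    rw [show (1728 : k) = 6 * 6 * 6 * (2 * 2 * 2) by norm_num]
    exact mul_ne_zero (mul_ne_zero (mul_ne_zero h6 h6) h6) (mul_ne_zero (mul_ne_zero h2 h2) h2)
  have hrel' := mul_left_cancel₀ h1728 hrel
  apply exists_point_of_params h6
  · intro h0; apply hΔ; rw [hrel', h0]; ring
  · intro h0; apply hΔ; rw [hrel', h0]; ring
  · exact h4
  · exact h6'

open Classical in
/-- The map on 5-torsion points from `W` to the member `V` of the family. -/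
noncomputable def FF (V : WeierstrassCurve k) (c : k) (P : W.toAffine.Point) : V.toAffine.Point :=
  if h : ∃ S : V.toAffine.Point, ∃ A B : k, Rep P A B ∧ Rep S (NA A B (1728 * c))
    (NB A B (1728 * c)) then h.choose else 0

lemma FF_zero (c : k) : FF V c (0 : W.toAffine.Point) = 0 := by
  rw [FF, dif_neg]
  rintro ⟨S, A, B, h, -⟩
  exact h.ne rfl

theorem FF_spec (h6 : (6 : k) ≠ 0) {c : k}
    (hV4 : V.c₄ = C4 W.c₄ W.c₆ (1728 * c)) (hV6 : V.c₆ = C6 W.c₄ W.c₆ (1728 * c))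
    (hΔ : V.Δ ≠ 0) {P : W.toAffine.Point} {A B : k} (h : Rep P A B) :
    Rep (FF V c P) (NA A B (1728 * c)) (NB A B (1728 * c)) := by
  have hex : ∃ S : V.toAffine.Point, ∃ A B : k, Rep P A B ∧ Rep S (NA A B (1728 * c))
      (NB A B (1728 * c)) := by
    obtain ⟨S, hS⟩ := exists_lift_at h6 hV4 hV6 hΔ h
    exact ⟨S, A, B, h, hS⟩
  rw [FF, dif_pos hex]
  obtain ⟨A', B', h1, h2⟩ := hex.choose_spec
  obtain ⟨rfl, rfl⟩ := h.unique h6 h1
  exact h2

lemma Rep.eq_of {F : Type*} [Field F] (h6 : (6 : F) ≠ 0) {W : WeierstrassCurve.Affine F}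
    {P Q : W.Point} {A B : F} (h : Rep P A B) (h' : Rep Q A B) : P = Q :=
  ext_bXY h6 h.ne h'.ne (h.hX.trans h'.hX.symm) (h.hY.trans h'.hY.symm)

omit [DecidableEq k] in
lemma NA_neg (A B m : k) : NA (-A) (-B) m = -NA A B m := by
  unfold NA UU VV TT dl; ring
omit [DecidableEq k] in
lemma NB_neg (A B m : k) : NB (-A) (-B) m = -NB A B m := by
  unfold NB UU VV TT dl; ring
omit [DecidableEq k] in
lemma NA_double (A B m : k) : NA B (-A) m = NB A B m := by
  unfold NA NB UU VV TT dl; ring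
omit [DecidableEq k] in
lemma NB_double (A B m : k) : NB B (-A) m = -NA A B m := by
  unfold NA NB UU VV TT dl; ring

theorem FF_add (h6 : (6 : k) ≠ 0) (h5 : (5 : k) ≠ 0) {c : k}
    (hV4 : V.c₄ = C4 W.c₄ W.c₆ (1728 * c)) (hV6 : V.c₆ = C6 W.c₄ W.c₆ (1728 * c))
    (hΔ : V.Δ ≠ 0) {P Q : W.toAffine.Point} (hP : 5 • P = 0) (hQ : 5 • Q = 0) :
    FF V c (P + Q) = FF V c P + FF V c Q := by
  by_cases hP0 : P = 0
  · subst hP0; rw [FF_zero, zero_add, zero_add]
  by_cases hQ0 : Q = 0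
  · subst hQ0; rw [FF_zero, add_zero, add_zero]
  obtain ⟨A₁, B₁, r₁⟩ := exists_rep h6 hP0 hP
  obtain ⟨A₂, B₂, r₂⟩ := exists_rep h6 hQ0 hQ
  have s₁ := FF_spec h6 hV4 hV6 hΔ r₁
  have s₂ := FF_spec h6 hV4 hV6 hΔ r₂
  by_cases hx : px P = px Q
  · rcases (px_eq_iff hP0 hQ0).mp hx with rfl | hneg
    · -- doubling
      have s₃ := FF_spec h6 hV4 hV6 hΔ (r₁.double h6)
      rw [NA_double, NB_double] at s₃
      obtain ⟨rfl, rfl⟩ := r₁.unique h6 r₂
      exact s₃.eq_of h6 (s₁.double h6)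
    · have hPQ : P + Q = 0 := by rw [hneg]; simp
      rw [hPQ, FF_zero]
      have hQP : Q = -P := by rw [hneg, neg_neg]
      subst hQP
      have s₃ := FF_spec h6 hV4 hV6 hΔ r₁.neg
      rw [NA_neg, NB_neg] at s₃
      have := s₃.eq_of h6 s₁.neg
      rw [this]; simp
  · have hne : P + Q ≠ 0 := add_ne_zero_of_px_ne hx
    have hPQ5 : 5 • (P + Q) = 0 := by rw [nsmul_add, hP, hQ, add_zero]
    obtain ⟨A₃, B₃, r₃⟩ := exists_rep h6 hne hPQ5
    have s₃ := FF_spec h6 hV4 hV6 hΔ r₃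
    exact (lift_add_at h6 h5 c r₁ r₂ r₃ rfl hx s₁ s₂ s₃).symm

end main

end generic

end Fermat.Agent.H24
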