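import Mathlib
import Fermat.Prelude.Def_FLTPrelim_Modularity
import Fermat.Agent.H24.Generic
import Fermat.Agent.H09.TorsionCount

/-!
# Congruence mod 5 of traces of Frobenius in the family
-/

set_option autoImplicit false

namespace Fermat.Agent.H24

open WeierstrassCurve WeierstrassCurve.Affine WeierstrassCurve.Affine.Point Fermat.Agent.H08
open Polynomial

universe u v

section frob

variable {F : Type u} [Field F] {k : Type v} [Field k] [Algebra F k] [DecidableEq k]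

lemma bX_map {W : WeierstrassCurve F} (σ : k →ₐ[F] k) (P : (W⁄k).Point) :
    P ≠ 0 → bX (Point.map (W' := W.toAffine) σ P) = σ (bX P) := by
  intro hP
  obtain ⟨x, y, h, rfl⟩ := exists_eq_some hP
  rw [map_some]
  simp only [bX, px_some, map_add, map_mul, map_ofNat]
  congr 2
  show (W.map (algebraMap F k)).b₂ = σ (W.map (algebraMap F k)).b₂
  rw [WeierstrassCurve.map_b₂, AlgHom.commutes]

lemma bY_map {W : WeierstrassCurve F} (σ : k →ₐ[F] k) (P : (W⁄k).Point) :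
    P ≠ 0 → bY (Point.map (W' := W.toAffine) σ P) = σ (bY P) := by
  intro hP
  obtain ⟨x, y, h, rfl⟩ := exists_eq_some hP
  rw [map_some]
  simp only [bY, px_some, py_some, map_add, map_mul, map_ofNat]
  have h1 : σ ((W⁄k).a₁) = (W⁄k).a₁ := AlgHom.commutes σ W.a₁
  have h3 : σ ((W⁄k).a₃) = (W⁄k).a₃ := AlgHom.commutes σ W.a₃
  rw [h1, h3]

lemma Rep.map {W : WeierstrassCurve F} (σ : k →ₐ[F] k) {P : (W⁄k).Point} {A B : k}
    (h : Rep P A B) : Rep (Point.map (W' := W.toAffine) σ P) (σ A) (σ B) := by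
  refine ⟨?_, ?_, ?_, ?_, ?_, ?_, ?_⟩
  · rw [Ne, map_eq_zero]; exact h.hA
  · rw [Ne, map_eq_zero]; exact h.hB
  · have e : σ (c4f A B) = c4f (σ A) (σ B) := by
      simp only [c4f, map_add, map_mul, map_pow, map_sub, map_ofNat]
    have e2 : (W⁄k).c₄ = algebraMap F k W.c₄ := WeierstrassCurve.map_c₄ W _
    rw [← e, ← h.hc4, e2, AlgHom.commutes]
  · have e : σ (c6f A B) = c6f (σ A) (σ B) := by
      simp only [c6f, map_add, map_mul, map_pow, map_sub, map_ofNat, map_neg]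
    have e2 : (W⁄k).c₆ = algebraMap F k W.c₆ := WeierstrassCurve.map_c₆ W _
    rw [← e, ← h.hc6, e2, AlgHom.commutes]
  · intro h0
    apply h.ne
    apply map_injective (W' := W.toAffine) σ
    rw [h0, _root_.map_zero]
  · rw [bX_map σ P h.ne, h.hX]; simp only [map_add, map_mul, map_pow, map_sub, map_ofNat]
  · rw [bY_map σ P h.ne, h.hY]; simp only [map_mul, map_pow, map_neg, map_ofNat]

variable {W V : WeierstrassCurve F} {c : F}

lemma FF_map (h6 : (6 : k) ≠ 0) (σ : k →ₐ[F] k)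
    (hV4 : V.c₄ = C4 W.c₄ W.c₆ (1728 * c)) (hV6 : V.c₆ = C6 W.c₄ W.c₆ (1728 * c))
    (hΔ : V.Δ ≠ 0) {P : (W⁄k).Point} (hP5 : 5 • P = 0) :
    FF (V⁄k) (algebraMap F k c) (Point.map (W' := W.toAffine) σ P) =
      Point.map (W' := V.toAffine) σ (FF (V⁄k) (algebraMap F k c) P) := by
  have hV4' : (V⁄k).c₄ = C4 (W⁄k).c₄ (W⁄k).c₆ (1728 * algebraMap F k c) := by
    have e1 : (V⁄k).c₄ = algebraMap F k V.c₄ := WeierstrassCurve.map_c₄ V _
    have e2 : (W⁄k).c₄ = algebraMap F k W.c₄ := WeierstrassCurve.map_c₄ W _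
    have e3 : (W⁄k).c₆ = algebraMap F k W.c₆ := WeierstrassCurve.map_c₆ W _
    rw [e1, e2, e3, hV4, map_C4, map_mul, map_ofNat]
  have hV6' : (V⁄k).c₆ = C6 (W⁄k).c₄ (W⁄k).c₆ (1728 * algebraMap F k c) := by
    have e1 : (V⁄k).c₆ = algebraMap F k V.c₆ := WeierstrassCurve.map_c₆ V _
    have e2 : (W⁄k).c₄ = algebraMap F k W.c₄ := WeierstrassCurve.map_c₄ W _
    have e3 : (W⁄k).c₆ = algebraMap F k W.c₆ := WeierstrassCurve.map_c₆ W _
    rw [e1, e2, e3, hV6, map_C6, map_mul, map_ofNat]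
  have hΔ' : (V⁄k).Δ ≠ 0 := by
    have e1 : (V⁄k).Δ = algebraMap F k V.Δ := WeierstrassCurve.map_Δ V _
    rw [e1, Ne, map_eq_zero]; exact hΔ
  by_cases hP : P = 0
  · subst hP
    rw [_root_.map_zero, FF_zero, _root_.map_zero]
  obtain ⟨A, B, r⟩ := exists_rep h6 hP hP5
  have s := (FF_spec h6 hV4' hV6' hΔ' r).map σ
  have s' := FF_spec h6 hV4' hV6' hΔ' (r.map σ)
  have hσ : σ (1728 * algebraMap F k c) = 1728 * algebraMap F k c := by
    rw [map_mul, map_ofNat, AlgHom.commutes]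
  have eA : σ (NA A B (1728 * algebraMap F k c)) =
      NA (σ A) (σ B) (1728 * algebraMap F k c) := by
    have := map_NA (σ : k →+* k) A B (1728 * algebraMap F k c)
    simpa only [RingHom.coe_coe, hσ] using this
  have eB : σ (NB A B (1728 * algebraMap F k c)) =
      NB (σ A) (σ B) (1728 * algebraMap F k c) := by
    have := map_NB (σ : k →+* k) A B (1728 * algebraMap F k c)
    simpa only [RingHom.coe_coe, hσ] using this
  rw [eA, eB] at s
  exact s'.eq_of h6 s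

/-- The main congruence, assuming the Cayley-Hamilton relations for the Frobenius. -/
theorem congr_of_CH [IsAlgClosed k] (h6 : (6 : k) ≠ 0) (h5 : (5 : k) ≠ 0) (σ : k →ₐ[F] k) (q : ℤ)
    (hV4 : V.c₄ = C4 W.c₄ W.c₆ (1728 * c)) (hV6 : V.c₆ = C6 W.c₄ W.c₆ (1728 * c))
    (hW : W.Δ ≠ 0) (hΔ : V.Δ ≠ 0) (a a' : ℤ)
    (hCH : ∀ P : (W⁄k).Point, 5 • P = 0 → Point.map (W' := W.toAffine) σ
      (Point.map (W' := W.toAffine) σ P) - a • Point.map (W' := W.toAffine) σ P + q • P = 0)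
    (hCH' : ∀ P : (V⁄k).Point, 5 • P = 0 → Point.map (W' := V.toAffine) σ
      (Point.map (W' := V.toAffine) σ P) - a' • Point.map (W' := V.toAffine) σ P + q • P = 0) :
    (5 : ℤ) ∣ a' - a := by
  have hV4' : (V⁄k).c₄ = C4 (W⁄k).c₄ (W⁄k).c₆ (1728 * algebraMap F k c) := by
    have e1 : (V⁄k).c₄ = algebraMap F k V.c₄ := WeierstrassCurve.map_c₄ V _
    have e2 : (W⁄k).c₄ = algebraMap F k W.c₄ := WeierstrassCurve.map_c₄ W _
    have e3 : (W⁄k).c₆ = algebraMap F k W.c₆ := WeierstrassCurve.map_c₆ W _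
    rw [e1, e2, e3, hV4, map_C4, map_mul, map_ofNat]
  have hV6' : (V⁄k).c₆ = C6 (W⁄k).c₄ (W⁄k).c₆ (1728 * algebraMap F k c) := by
    have e1 : (V⁄k).c₆ = algebraMap F k V.c₆ := WeierstrassCurve.map_c₆ V _
    have e2 : (W⁄k).c₄ = algebraMap F k W.c₄ := WeierstrassCurve.map_c₄ W _
    have e3 : (W⁄k).c₆ = algebraMap F k W.c₆ := WeierstrassCurve.map_c₆ W _
    rw [e1, e2, e3, hV6, map_C6, map_mul, map_ofNat]
  have hΔ' : (V⁄k).Δ ≠ 0 := by
    have e1 : (V⁄k).Δ = algebraMap F k V.Δ := WeierstrassCurve.map_Δ V _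
    rw [e1, Ne, map_eq_zero]; exact hΔ
  have hWΔ' : (W⁄k).Δ ≠ 0 := by
    have e1 : (W⁄k).Δ = algebraMap F k W.Δ := WeierstrassCurve.map_Δ W _
    rw [e1, Ne, map_eq_zero]; exact hW
  obtain ⟨P, hP, hP5⟩ := Fermat.Agent.H09.exists_torsion (W := (W⁄k)) hWΔ' (n := 5) (by decide)
    (by norm_num) (by exact_mod_cast h5)
  set φ := Point.map (W' := W.toAffine) σ with hφ
  set ψ := Point.map (W' := V.toAffine) σ with hψ
  set m := algebraMap F k c with hm
  -- the 5-torsion subgroup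
  let T : AddSubgroup (W⁄k).Point := (nsmulAddMonoidHom (α := (W⁄k).Point) 5).ker
  have hT : ∀ R : (W⁄k).Point, R ∈ T ↔ 5 • R = 0 := fun R => Iff.rfl
  let f : T →+ (V⁄k).Point := AddMonoidHom.mk' (fun R => FF (V⁄k) m R.1)
    (fun R S => FF_add h6 h5 hV4' hV6' hΔ' ((hT _).mp R.2) ((hT _).mp S.2))
  have hφ5 : ∀ R : (W⁄k).Point, 5 • R = 0 → 5 • φ R = 0 := by
    intro R hR; rw [← map_nsmul, hR, _root_.map_zero]
  have h1 := hφ5 P hP5
  have h2 := hφ5 _ h1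
  have hf1 : f ⟨φ P, h1⟩ = ψ (f ⟨P, hP5⟩) := FF_map h6 σ hV4 hV6 hΔ hP5
  have hf2 : f ⟨φ (φ P), h2⟩ = ψ (ψ (f ⟨P, hP5⟩)) := by
    rw [← hf1]; exact FF_map h6 σ hV4 hV6 hΔ h1
  have hrel : (⟨φ (φ P), h2⟩ : T) - a • ⟨φ P, h1⟩ + q • ⟨P, hP5⟩ = 0 := by
    apply Subtype.ext
    exact hCH P hP5
  have hrel' := congrArg f hrel
  rw [map_add, map_sub, map_zsmul, map_zsmul, _root_.map_zero, hf1, hf2] at hrel'
  set S := f ⟨P, hP5⟩ with hS
  obtain ⟨A, B, r⟩ := exists_rep h6 hP hP5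
  have s : Rep S _ _ := FF_spec h6 hV4' hV6' hΔ' r
  have hS5 : 5 • S = 0 := s.five_nsmul h6
  have hrel2 := hCH' S hS5
  have hfin : (a' - a) • ψ S = 0 := by
    have : (a' - a) • ψ S = (ψ (ψ S) - a • ψ S + q • S) - (ψ (ψ S) - a' • ψ S + q • S) := by
      rw [sub_smul]; abel
    rw [this, hrel', hrel2, sub_zero]
  have hψS : ψ S ≠ 0 := (s.map σ).ne
  have hψ5 : (5 : ℤ) • ψ S = 0 := by
    have : (5 : ℕ) • ψ S = 0 := by rw [← map_nsmul, hS5, _root_.map_zero]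
    exact_mod_cast this
  by_contra hnd
  have hcop : IsCoprime (5 : ℤ) (a' - a) := by
    rw [Prime.coprime_iff_not_dvd (by norm_num)]
    exact hnd
  obtain ⟨u, v, huv⟩ := hcop
  apply hψS
  calc ψ S = (1 : ℤ) • ψ S := (one_zsmul _).symm
    _ = (u * 5 + v * (a' - a)) • ψ S := by rw [huv]
    _ = 0 := by rw [add_smul, mul_smul, mul_smul, hψ5, hfin]; simp

end frob

end Fermat.Agent.H24
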