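import Mathlib
import Fermat.Prelude.Def_FLTPrelim_Modularity
import Fermat.Agent.H24.Tate
import Fermat.Agent.H24.Switch
import Fermat.Agent.H09.TorsionCount
import Fermat.Agent.Frob.Relation

/-!
# The Hesse pencil: curves with the same 3-torsion

For the classical covariants `hC4, hC6` of the 3-division quartic `hD`, the curve with invariants
`hC4(λ,μ), hC6(λ,μ)` has the same 3-torsion as the curve with invariants `c₄, c₆`.
-/

set_option autoImplicit false

namespace Fermat.Agent.H24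

open WeierstrassCurve WeierstrassCurve.Affine WeierstrassCurve.Affine.Point Fermat.Agent.H08
open Polynomial

universe u v

section forms

variable {R : Type u} [CommRing R]

/-- the 3-division quartic -/
def hD (c d l m : R) : R := l^4 - 6*c*l^2*m^2 - 8*d*l*m^3 - 3*c^2*m^4

/-- the covariant of degree 4 -/
def hC4 (c d l m : R) : R := c*l^4 + 4*d*l^3*m + 6*c^2*l^2*m^2 + 4*c*d*l*m^3
  - (3*c^3 - 4*d^2)*m^4

/-- the covariant of degree 6 -/
def hC6 (c d l m : R) : R := d*l^6 + 6*c^2*l^5*m + 15*c*d*l^4*m^2 + 20*d^2*l^3*m^3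
  + 15*c^2*d*l^2*m^4 + 6*(3*c^4 - 2*c*d^2)*l*m^5 + (9*c^3*d - 8*d^3)*m^6

def hA (c d l m : R) : R := l^3 - 3*c*l*m^2 - 2*d*m^3

def hB (c d l m : R) : R := c*l^2*m + 2*d*l*m^2 + c^2*m^3

theorem hC_rel (c d l m : R) : hC4 c d l m ^ 3 - hC6 c d l m ^ 2 =
    (c^3 - d^2) * hD c d l m ^ 3 := by
  unfold hC4 hC6 hD; ring

theorem hA_hB (c d l m : R) : hA c d l m * l - 3 * hB c d l m * m = hD c d l m := by
  unfold hA hB hD; ring

theorem map_hC4 {S : Type v} [CommRing S] (f : R →+* S) (c d l m : R) :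
    f (hC4 c d l m) = hC4 (f c) (f d) (f l) (f m) := by
  simp only [hC4, map_add, map_sub, map_mul, map_pow, map_ofNat]

theorem map_hC6 {S : Type v} [CommRing S] (f : R →+* S) (c d l m : R) :
    f (hC6 c d l m) = hC6 (f c) (f d) (f l) (f m) := by
  simp only [hC6, map_add, map_sub, map_mul, map_pow, map_ofNat]

theorem map_hD {S : Type v} [CommRing S] (f : R →+* S) (c d l m : R) :
    f (hD c d l m) = hD (f c) (f d) (f l) (f m) := by
  simp only [hD, map_sub, map_mul, map_pow, map_ofNat]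

theorem map_hA {S : Type v} [CommRing S] (f : R →+* S) (c d l m : R) :
    f (hA c d l m) = hA (f c) (f d) (f l) (f m) := by
  simp only [hA, map_sub, map_mul, map_pow, map_ofNat]

theorem map_hB {S : Type v} [CommRing S] (f : R →+* S) (c d l m : R) :
    f (hB c d l m) = hB (f c) (f d) (f l) (f m) := by
  simp only [hB, map_add, map_mul, map_pow, map_ofNat]

end forms

section field

variable {F : Type u} [Field F]

/-- the quartic and its Hessian have no common zero -/
theorem eq_zero_of_hD_hC4 (h6 : (6 : F) ≠ 0) {c d l m : F} (hcd : c^3 - d^2 ≠ 0)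
    (hD0 : hD c d l m = 0) (hC0 : hC4 c d l m = 0) : l = 0 ∧ m = 0 := by
  have h2 := two_ne h6
  have h3 := three_ne h6
  have hA0 : hA c d l m = 0 := by
    have : hA c d l m ^ 2 = 0 := by
      have e : hA c d l m ^ 2 = hD c d l m * (l^2 - c*m^2) + m^2 * hC4 c d l m := by
        unfold hA hD hC4; ring
      rw [e, hD0, hC0]; ring
    exact pow_eq_zero_iff (two_ne_zero) |>.mp this
  have hB0 : hB c d l m = 0 := by
    have : (3 * hB c d l m) ^ 2 = 0 := by
      have e : (3 * hB c d l m) ^ 2 = -hD c d l m * (c*l^2 + 4*d*l*m + 3*c^2*m^2)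
          + l^2 * hC4 c d l m := by
        unfold hB hD hC4; ring
      rw [e, hD0, hC0]; ring
    exact (mul_eq_zero.mp (pow_eq_zero_iff (two_ne_zero) |>.mp this)).resolve_left h3
  have hm : m = 0 := by
    by_contra hm
    unfold hA at hA0
    unfold hB at hB0
    have e1 : m * (c*l^2 + 2*d*l*m + c^2*m^2) = 0 := by linear_combination hB0
    have e1' := (mul_eq_zero.mp e1).resolve_left hm
    -- c * A - (l-multiple) * e1'
    have e2 : (2 * m) * (d*l^2 + 2*c^2*l*m + c*d*m^2) = 0 := by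
      linear_combination l * e1' - c * hA0
    have e2' := (mul_eq_zero.mp e2).resolve_left (mul_ne_zero h2 hm)
    have e3 : (2 * m) * (l * (c^3 - d^2)) = 0 := by
      linear_combination c * e2' - d * e1'
    have e3' := (mul_eq_zero.mp ((mul_eq_zero.mp e3).resolve_left (mul_ne_zero h2 hm))).resolve_right
      hcd
    have hd : d = 0 := by
      rw [e3'] at hA0
      have : (2 * m^3) * d = 0 := by linear_combination -hA0
      exact (mul_eq_zero.mp this).resolve_left (mul_ne_zero h2 (pow_ne_zero 3 hm))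
    have hc : c = 0 := by
      rw [e3'] at e1'
      have : (m^2) * c^2 = 0 := by linear_combination e1'
      exact pow_eq_zero_iff (two_ne_zero) |>.mp
        ((mul_eq_zero.mp this).resolve_left (pow_ne_zero 2 hm))
    apply hcd
    rw [hc, hd]; ring
  subst hm
  refine ⟨?_, rfl⟩
  unfold hA at hA0
  have : l^3 = 0 := by linear_combination hA0
  exact pow_eq_zero_iff (three_ne_zero) |>.mp this

variable {W : WeierstrassCurve.Affine F}

/-- a point with given normalised coordinates -/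
theorem exists_point_of_bXY (h6 : (6 : F) ≠ 0) (hΔ : W.Δ ≠ 0) {X Y : F}
    (h : Y ^ 2 = X ^ 3 - 27 * W.c₄ * X - 54 * W.c₆) :
    ∃ P : W.Point, P ≠ 0 ∧ bX P = X ∧ bY P = Y := by
  have h3 := three_ne h6
  have h2 := two_ne h6
  have h36 : (36 : F) ≠ 0 := by
    rw [show (36 : F) = 6 * 6 by norm_num]; exact mul_ne_zero h6 h6
  have h108 : (108 : F) ≠ 0 := by
    rw [show (108 : F) = 6 * (6 * 3) by norm_num]; exact mul_ne_zero h6 (mul_ne_zero h6 h3)
  obtain ⟨x, hx⟩ : ∃ x : F, 36 * x + 3 * W.b₂ = X :=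
    ⟨(X - 3 * W.b₂) / 36, by field_simp; ring⟩
  obtain ⟨y, hy⟩ : ∃ y : F, 108 * (2 * y + W.a₁ * x + W.a₃) = Y :=
    ⟨(Y / 108 - W.a₁ * x - W.a₃) / 2, by field_simp; ring⟩
  have heq : W.Equation x y := by
    rw [equation_iff]
    have h1 : (6*6*6*6*6*6) * ((y ^ 2 + W.a₁ * x * y + W.a₃ * y) -
        (x ^ 3 + W.a₂ * x ^ 2 + W.a₄ * x + W.a₆)) = 0 := by
      have e1 : (46656 : F) * ((y ^ 2 + W.a₁ * x * y + W.a₃ * y) -
        (x ^ 3 + W.a₂ * x ^ 2 + W.a₄ * x + W.a₆)) = (108 * (2 * y + W.a₁ * x + W.a₃))^2 -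
          ((36 * x + 3 * W.b₂)^3 - 27 * W.c₄ * (36 * x + 3 * W.b₂) - 54 * W.c₆) := by
        simp only [WeierstrassCurve.c₄, WeierstrassCurve.c₆, WeierstrassCurve.b₂,
          WeierstrassCurve.b₄, WeierstrassCurve.b₆]
        ring
      rw [hx, hy, h] at e1
      linear_combination e1
    have h66 : (6*6*6*6*6*6 : F) ≠ 0 := by
      repeat first | exact h6 | apply mul_ne_zero
    exact sub_eq_zero.mp ((mul_eq_zero.mp h1).resolve_left h66)
  have hns : W.Nonsingular x y := (equation_iff_nonsingular_of_Δ_ne_zero hΔ).mp heq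
  refine ⟨Point.some x y hns, some_ne_zero hns, ?_, ?_⟩
  · rw [bX, px_some, hx]
  · rw [bY, px_some, py_some, hy]

variable [DecidableEq F]

theorem three_nsmul_iff (h6 : (6 : F) ≠ 0) {P : W.Point} (hP : P ≠ 0) :
    3 • P = 0 ↔ bX P ^ 4 - 54 * W.c₄ * bX P ^ 2 - 216 * W.c₆ * bX P - 243 * W.c₄ ^ 2 = 0 := by
  have h3 := three_ne h6
  rw [Fermat.Agent.H09.smul_eq_zero_iff_eval hP (n := 3) (by decide)]
  obtain ⟨x, y, h, rfl⟩ := exists_eq_some hP
  have e1 : (W.preΨ' 3).eval x = 3 * x^4 + W.b₂ * x^3 + 3 * W.b₄ * x^2 + 3 * W.b₆ * x + W.b₈ := by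
    rw [WeierstrassCurve.preΨ'_three, WeierstrassCurve.Ψ₃]
    simp only [eval_add, eval_mul, eval_C, eval_pow, eval_X, eval_ofNat]
  have e2 : (6*6*6*6*6*6*3*(2*2)) * ((W.preΨ' 3).eval x) =
      bX (Point.some x y h) ^ 4 - 54 * W.c₄ * bX (Point.some x y h) ^ 2
        - 216 * W.c₆ * bX (Point.some x y h) - 243 * W.c₄ ^ 2 := by
    rw [e1]
    simp only [bX, px_some]
    have hb8 := W.b_relation
    simp only [WeierstrassCurve.c₄, WeierstrassCurve.c₆]
    linear_combination (6*6*6*6*6*6*3) * hb8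
  have hne : (6*6*6*6*6*6*3*(2*2) : F) ≠ 0 := by
    repeat first | exact h6 | exact h3 | exact two_ne h6 | apply mul_ne_zero
  show (W.preΨ' 3).eval x = 0 ↔ _
  rw [← e2, mul_eq_zero, or_iff_right hne]

/-- the chord: coordinates of a sum -/
theorem add_bXY (h6 : (6 : F) ≠ 0) {P Q : W.Point} (hP : P ≠ 0) (hQ : Q ≠ 0)
    (hPQ : bX P ≠ bX Q) {L : F} (hL : L * (bX P - bX Q) = bY P - bY Q) :
    P + Q ≠ 0 ∧ bX (P + Q) = L ^ 2 - bX P - bX Q ∧
      bY (P + Q) = -(bY P + L * (bX (P + Q) - bX P)) := by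
  have h3 := three_ne h6
  have h2 := two_ne h6
  have h36 : (36 : F) ≠ 0 := by
    rw [show (36 : F) = 6 * 6 by norm_num]; exact mul_ne_zero h6 h6
  obtain ⟨x₁, y₁, h₁, rfl⟩ := exists_eq_some hP
  obtain ⟨x₂, y₂, h₂, rfl⟩ := exists_eq_some hQ
  have hx : x₁ ≠ x₂ := by
    intro h
    apply hPQ
    simp only [bX, px_some, h]
  have hd : x₁ - x₂ ≠ 0 := sub_ne_zero.mpr hx
  set s := W.slope x₁ x₂ y₁ y₂ with hs
  have hs' : s * (x₁ - x₂) = y₁ - y₂ := by
    rw [hs, slope_of_X_ne hx, div_mul_cancel₀ _ hd]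
  have hLs : L = 3 * (2 * s + W.a₁) := by
    simp only [bX, bY, px_some, py_some] at hL
    have : (36 : F) * ((x₁ - x₂) * (L - 3 * (2 * s + W.a₁))) = 0 := by
      linear_combination hL - 216 * hs'
    have := (mul_eq_zero.mp ((mul_eq_zero.mp this).resolve_left h36)).resolve_left hd
    linear_combination this
  rw [add_of_X_ne hx]
  refine ⟨some_ne_zero _, ?_, ?_⟩
  · simp only [bX, px_some, addX]
    rw [hLs, WeierstrassCurve.b₂]; ring
  · simp only [bX, bY, px_some, py_some, addX, addY, negAddY, negY]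
    rw [hLs]; ring

/-- collinear points with distinct `x`-coordinates have sum zero -/
theorem sum_zero_of_collinear (h6 : (6 : F) ≠ 0) {P Q R : W.Point} (hP : P ≠ 0) (hQ : Q ≠ 0)
    (hR : R ≠ 0) (hPQ : bX P ≠ bX Q) (hPR : bX P ≠ bX R) (hQR : bX Q ≠ bX R)
    (hcol : (bX P - bX Q) * (bY R - bY P) = (bX R - bX P) * (bY P - bY Q)) :
    P + Q + R = 0 := by
  have hd : bX P - bX Q ≠ 0 := sub_ne_zero.mpr hPQ
  have hd2 : bX P - bX R ≠ 0 := sub_ne_zero.mpr hPR
  have hd3 : bX Q - bX R ≠ 0 := sub_ne_zero.mpr hQR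
  obtain ⟨L, hL⟩ : ∃ L : F, L * (bX P - bX Q) = bY P - bY Q :=
    ⟨(bY P - bY Q) / (bX P - bX Q), div_mul_cancel₀ _ hd⟩
  obtain ⟨hne, hX, hY⟩ := add_bXY h6 hP hQ hPQ hL
  have eP := bXY hP
  have eQ := bXY hQ
  have eR := bXY hR
  have hYR : bY R = bY P + L * (bX R - bX P) := by
    have : (bX P - bX Q) * (bY R - (bY P + L * (bX R - bX P))) = 0 := by
      rw [← hL] at hcol
      linear_combination hcol
    have := (mul_eq_zero.mp this).resolve_left hd
    linear_combination this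
  have hYQ : bY Q = bY P + L * (bX Q - bX P) := by linear_combination hL
  rw [hYR] at eR
  rw [hYQ] at eQ
  have hXR : bX R = bX (P + Q) := by
    rw [hX]
    have f1 : (bX P - bX Q) * ((2 * bY P * L + L^2 * (bX Q - bX P))
        - (bX P^2 + bX P * bX Q + bX Q^2 - 27 * W.c₄)) = 0 := by
      linear_combination eP - eQ
    have f2 : (bX P - bX R) * ((2 * bY P * L + L^2 * (bX R - bX P))
        - (bX P^2 + bX P * bX R + bX R^2 - 27 * W.c₄)) = 0 := by
      linear_combination eP - eR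
    have f1' := (mul_eq_zero.mp f1).resolve_left hd
    have f2' := (mul_eq_zero.mp f2).resolve_left hd2
    have f3 : (bX Q - bX R) * (L^2 - bX P - bX Q - bX R) = 0 := by
      linear_combination f1' - f2'
    have f3' := (mul_eq_zero.mp f3).resolve_left hd3
    linear_combination -f3'
  have hneg : R = -(P + Q) := by
    apply ext_bXY h6 hR (neg_ne_zero.mpr hne)
    · rw [bX_neg, hXR]
    · rw [bY_neg hne, hY, hYR, hXR]; ring
  rw [hneg]; simp

/-- points with sum zero are collinear -/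
theorem collinear_of_sum_zero (h6 : (6 : F) ≠ 0) {P Q R : W.Point} (hP : P ≠ 0) (hQ : Q ≠ 0)
    (hPQ : bX P ≠ bX Q) (hs : P + Q + R = 0) :
    R ≠ 0 ∧ (bX P - bX Q) * (bY R - bY P) = (bX R - bX P) * (bY P - bY Q) := by
  have hd : bX P - bX Q ≠ 0 := sub_ne_zero.mpr hPQ
  obtain ⟨L, hL⟩ : ∃ L : F, L * (bX P - bX Q) = bY P - bY Q :=
    ⟨(bY P - bY Q) / (bX P - bX Q), div_mul_cancel₀ _ hd⟩
  obtain ⟨hne, hX, hY⟩ := add_bXY h6 hP hQ hPQ hL
  have hR : R = -(P + Q) := by
    rw [eq_neg_iff_add_eq_zero, add_comm]; exact hs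
  subst hR
  refine ⟨neg_ne_zero.mpr hne, ?_⟩
  rw [bX_neg, bY_neg hne, hY, ← hL]; ring

end field

end Fermat.Agent.H24
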