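import Mathlib
import Fermat.Agent.H24.Hesse

/-!
# The Hesse pencil: the isomorphism on 3-torsion and the congruence of traces
-/

set_option autoImplicit false

namespace Fermat.Agent.H24

open WeierstrassCurve WeierstrassCurve.Affine WeierstrassCurve.Affine.Point Fermat.Agent.H08
open Polynomial

universe u v

/-- `Q` on `V` corresponds to `P` on `W` (in terms of the parameters `l m u`). -/
structure HRel {F : Type u} [Field F] {W V : WeierstrassCurve.Affine F} (l m u : F) (P : W.Point)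
    (Q : V.Point) : Prop where
  hP : P ≠ 0
  hQ : Q ≠ 0
  hT : 3 * l - m * bX P ≠ 0
  hX : (3 * l - m * bX P) * (u ^ 2 * bX Q) =
    3 * hA W.c₄ W.c₆ l m * bX P - 27 * hB W.c₄ W.c₆ l m
  hY : (3 * l - m * bX P) * (u ^ 3 * bY Q) = 3 * hD W.c₄ W.c₆ l m * bY P

section ids

variable {R : Type u} [CommRing R]

theorem hesse_key1 (c d l m X : R) : (3 * hD c d l m) ^ 2 * (X^3 - 27 * c * X - 54 * d) *
      (3 * l - m * X) - ((3 * hA c d l m * X - 27 * hB c d l m) ^ 3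
        - 27 * hC4 c d l m * (3 * hA c d l m * X - 27 * hB c d l m) * (3 * l - m * X) ^ 2
        - 54 * hC6 c d l m * (3 * l - m * X) ^ 3) =
    -9 * m * hD c d l m ^ 2 * (X^4 - 54 * c * X^2 - 216 * d * X - 243 * c^2) := by
  unfold hA hB hC4 hC6 hD; ring

theorem hesse_key2 (c d l m X : R) : (3 * hA c d l m * X - 27 * hB c d l m) ^ 4
      - 54 * hC4 c d l m * (3 * hA c d l m * X - 27 * hB c d l m) ^ 2 * (3 * l - m * X) ^ 2
      - 216 * hC6 c d l m * (3 * hA c d l m * X - 27 * hB c d l m) * (3 * l - m * X) ^ 3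
      - 243 * hC4 c d l m ^ 2 * (3 * l - m * X) ^ 4 =
    81 * hD c d l m ^ 3 * (X^4 - 54 * c * X^2 - 216 * d * X - 243 * c^2) := by
  unfold hA hB hC4 hC6 hD; ring

end ids

section rel

variable {F : Type u} [Field F] {W V : WeierstrassCurve.Affine F} {l m u : F}

theorem hD_ne_zero_of (h6 : (6 : F) ≠ 0) (hV4 : V.c₄ * u ^ 4 = hC4 W.c₄ W.c₆ l m)
    (hV6 : V.c₆ * u ^ 6 = hC6 W.c₄ W.c₆ l m) (hu : u ≠ 0) (hΔ : V.Δ ≠ 0) :
    hD W.c₄ W.c₆ l m ≠ 0 := by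
  intro h0
  have h3 := three_ne h6
  have h2 := two_ne h6
  have h := hC_rel W.c₄ W.c₆ l m
  rw [h0, ← hV4, ← hV6] at h
  have hr := V.c_relation
  have h1 : (6*6*6*(2*2*2)) * (V.Δ * u ^ 12) = 0 := by
    linear_combination h + u ^ 12 * hr
  have h1728 : (6*6*6*(2*2*2) : F) ≠ 0 := by
    repeat first | exact h6 | exact h2 | apply mul_ne_zero
  exact mul_ne_zero hΔ (pow_ne_zero 12 hu) ((mul_eq_zero.mp h1).resolve_left h1728)

theorem HRel.eq_of (h6 : (6 : F) ≠ 0) (hu : u ≠ 0) {P : W.Point} {Q Q' : V.Point}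
    (h : HRel l m u P Q) (h' : HRel l m u P Q') : Q = Q' := by
  apply ext_bXY h6 h.hQ h'.hQ
  · exact mul_left_cancel₀ (pow_ne_zero 2 hu) (mul_left_cancel₀ h.hT (h.hX.trans h'.hX.symm))
  · exact mul_left_cancel₀ (pow_ne_zero 3 hu) (mul_left_cancel₀ h.hT (h.hY.trans h'.hY.symm))

theorem HRel.neg {P : W.Point} {Q : V.Point} (h : HRel l m u P Q) : HRel l m u (-P) (-Q) where
  hP := by classical exact neg_ne_zero.mpr h.hP
  hQ := by classical exact neg_ne_zero.mpr h.hQ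
  hT := by rw [bX_neg]; exact h.hT
  hX := by rw [bX_neg, bX_neg]; exact h.hX
  hY := by
    rw [bX_neg, bY_neg h.hP, bY_neg h.hQ]
    linear_combination -h.hY

/-- the map is injective on `x`-coordinates -/
theorem HRel.bX_eq (h6 : (6 : F) ≠ 0) (hD0 : hD W.c₄ W.c₆ l m ≠ 0) {P P' : W.Point}
    {Q Q' : V.Point} (h : HRel l m u P Q) (h' : HRel l m u P' Q') (he : bX Q = bX Q') :
    bX P = bX P' := by
  have h3 := three_ne h6
  have e1 := h.hX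
  have e2 := h'.hX
  rw [← he] at e2
  have e3 : (3 * 3) * (hD W.c₄ W.c₆ l m * (bX P - bX P')) = 0 := by
    rw [← hA_hB]
    linear_combination (3 * l - m * bX P) * e2 - (3 * l - m * bX P') * e1
  have := (mul_eq_zero.mp ((mul_eq_zero.mp e3).resolve_left (mul_ne_zero h3 h3))).resolve_left hD0
  exact sub_eq_zero.mp this

variable [DecidableEq F]

theorem exists_HRel (h6 : (6 : F) ≠ 0) (hV4 : V.c₄ * u ^ 4 = hC4 W.c₄ W.c₆ l m)
    (hV6 : V.c₆ * u ^ 6 = hC6 W.c₄ W.c₆ l m) (hu : u ≠ 0) (hΔ : V.Δ ≠ 0)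
    {P : W.Point} (hP : P ≠ 0) (hP3 : 3 • P = 0) : ∃ Q : V.Point, HRel l m u P Q := by
  have h3 := three_ne h6
  have hD0 := hD_ne_zero_of h6 hV4 hV6 hu hΔ
  have hΨ := (three_nsmul_iff h6 hP).mp hP3
  have hXY := bXY hP
  have hT : 3 * l - m * bX P ≠ 0 := by
    intro hT
    have : (3*3*(3*3)) * hD W.c₄ W.c₆ l m = 0 := by
      unfold hD
      have e : m * bX P = 3 * l := by linear_combination -hT
      have e2 : m^4 * (bX P ^ 4 - 54 * W.c₄ * bX P ^ 2 - 216 * W.c₆ * bX P - 243 * W.c₄ ^ 2) =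
          (m * bX P) ^ 4 - 54 * W.c₄ * (m * bX P)^2 * m^2 - 216 * W.c₆ * (m * bX P) * m^3
            - 243 * W.c₄^2 * m^4 := by ring
      rw [hΨ, e] at e2
      linear_combination -e2
    exact mul_ne_zero (mul_ne_zero (mul_ne_zero h3 h3) (mul_ne_zero h3 h3)) hD0 this
  set T := 3 * l - m * bX P with hTdef
  set XX := 3 * hA W.c₄ W.c₆ l m * bX P - 27 * hB W.c₄ W.c₆ l m with hXX
  set YY := 3 * hD W.c₄ W.c₆ l m * bY P with hYY
  have key : YY ^ 2 * T = XX ^ 3 - 27 * hC4 W.c₄ W.c₆ l m * XX * T ^ 2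
      - 54 * hC6 W.c₄ W.c₆ l m * T ^ 3 := by
    have e1 : YY ^ 2 * T = (3 * hD W.c₄ W.c₆ l m) ^ 2 * bY P ^ 2 * T := by rw [hYY]; ring
    rw [e1, hXY, hXX, hTdef]
    have := hesse_key1 W.c₄ W.c₆ l m (bX P)
    rw [hΨ, mul_zero] at this
    exact sub_eq_zero.mp this
  obtain ⟨Q, hQ, hQX, hQY⟩ := exists_point_of_bXY (W := V) h6 hΔ (X := XX / (T * u ^ 2))
    (Y := YY / (T * u ^ 3)) (by
      have hu2 : u ^ 4 ≠ 0 := pow_ne_zero 4 hu
      have hu3 : u ^ 6 ≠ 0 := pow_ne_zero 6 hu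
      have e4 : V.c₄ = hC4 W.c₄ W.c₆ l m / u ^ 4 := by rw [eq_div_iff hu2]; exact hV4
      have e6 : V.c₆ = hC6 W.c₄ W.c₆ l m / u ^ 6 := by rw [eq_div_iff hu3]; exact hV6
      rw [e4, e6]
      field_simp
      linear_combination key)
  refine ⟨Q, hP, hQ, hT, ?_, ?_⟩
  · rw [← hTdef, ← hXX, hQX]; field_simp
  · rw [← hTdef, ← hYY, hQY]; field_simp

theorem HRel.three_nsmul (h6 : (6 : F) ≠ 0) (hV4 : V.c₄ * u ^ 4 = hC4 W.c₄ W.c₆ l m)
    (hV6 : V.c₆ * u ^ 6 = hC6 W.c₄ W.c₆ l m) (hu : u ≠ 0) {P : W.Point} {Q : V.Point}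
    (h : HRel l m u P Q) (hP3 : 3 • P = 0) : 3 • Q = 0 := by
  have hΨ := (three_nsmul_iff h6 h.hP).mp hP3
  rw [three_nsmul_iff h6 h.hQ]
  have hT4 : (3 * l - m * bX P) ^ 4 * u ^ 8 ≠ 0 :=
    mul_ne_zero (pow_ne_zero 4 h.hT) (pow_ne_zero 8 hu)
  apply (mul_eq_zero.mp (_ : (3 * l - m * bX P) ^ 4 * u ^ 8 * _ = 0)).resolve_left hT4
  have e : (3 * l - m * bX P) ^ 4 * u ^ 8 * (bX Q ^ 4 - 54 * V.c₄ * bX Q ^ 2
      - 216 * V.c₆ * bX Q - 243 * V.c₄ ^ 2) =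
      ((3 * l - m * bX P) * (u ^ 2 * bX Q)) ^ 4
      - 54 * (V.c₄ * u ^ 4) * ((3 * l - m * bX P) * (u ^ 2 * bX Q)) ^ 2 * (3 * l - m * bX P) ^ 2
      - 216 * (V.c₆ * u ^ 6) * ((3 * l - m * bX P) * (u ^ 2 * bX Q)) * (3 * l - m * bX P) ^ 3
      - 243 * (V.c₄ * u ^ 4) ^ 2 * (3 * l - m * bX P) ^ 4 := by ring
  rw [e, h.hX, hV4, hV6]
  rw [hesse_key2, hΨ, mul_zero]

omit [DecidableEq F] in
/-- collinear triples correspond -/
theorem HRel.collinear {P₁ P₂ P₃ : W.Point} {Q₁ Q₂ Q₃ : V.Point} (hu : u ≠ 0)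
    (h₁ : HRel l m u P₁ Q₁) (h₂ : HRel l m u P₂ Q₂) (h₃ : HRel l m u P₃ Q₃)
    (hcol : (bX P₁ - bX P₂) * (bY P₃ - bY P₁) = (bX P₃ - bX P₁) * (bY P₁ - bY P₂)) :
    (bX Q₁ - bX Q₂) * (bY Q₃ - bY Q₁) = (bX Q₃ - bX Q₁) * (bY Q₁ - bY Q₂) := by
  have hT : (3 * l - m * bX P₁) * (3 * l - m * bX P₂) * (3 * l - m * bX P₃) * u ^ 5 ≠ 0 :=
    mul_ne_zero (mul_ne_zero (mul_ne_zero h₁.hT h₂.hT) h₃.hT) (pow_ne_zero 5 hu)
  apply mul_left_cancel₀ hT
  have x1 := h₁.hX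
  have x2 := h₂.hX
  have x3 := h₃.hX
  have y1 := h₁.hY
  have y2 := h₂.hY
  have y3 := h₃.hY
  -- name the projective coordinates
  set T1 := 3 * l - m * bX P₁ with hT1
  set T2 := 3 * l - m * bX P₂ with hT2
  set T3 := 3 * l - m * bX P₃ with hT3
  have e : T1 * T2 * T3 * u ^ 5 * ((bX Q₁ - bX Q₂) * (bY Q₃ - bY Q₁))
      - T1 * T2 * T3 * u ^ 5 * ((bX Q₃ - bX Q₁) * (bY Q₁ - bY Q₂)) =
      -((T1 * (u^2 * bX Q₁)) * ((T2 * (u^3 * bY Q₂)) * T3 - (T3 * (u^3 * bY Q₃)) * T2)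
      - (T1 * (u^3 * bY Q₁)) * ((T2 * (u^2 * bX Q₂)) * T3 - (T3 * (u^2 * bX Q₃)) * T2)
      + T1 * ((T2 * (u^2 * bX Q₂)) * (T3 * (u^3 * bY Q₃))
        - (T3 * (u^2 * bX Q₃)) * (T2 * (u^3 * bY Q₂)))) := by ring
  rw [← sub_eq_zero, e, x1, x2, x3, y1, y2, y3, hT1, hT2, hT3]
  linear_combination (27 * hD W.c₄ W.c₆ l m * (hA W.c₄ W.c₆ l m * l
    - 3 * hB W.c₄ W.c₆ l m * m)) * hcol

open Classical in
/-- the map on 3-torsion -/
noncomputable def HF (V : WeierstrassCurve.Affine F) (l m u : F) (P : W.Point) : V.Point :=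
  if h : ∃ Q : V.Point, HRel l m u P Q then h.choose else 0

omit [DecidableEq F] in
theorem HF_zero : HF V l m u (0 : W.Point) = 0 := by
  unfold HF
  rw [dif_neg]
  rintro ⟨Q, hQ⟩
  exact hQ.hP rfl

theorem HF_spec (h6 : (6 : F) ≠ 0) (hV4 : V.c₄ * u ^ 4 = hC4 W.c₄ W.c₆ l m)
    (hV6 : V.c₆ * u ^ 6 = hC6 W.c₄ W.c₆ l m) (hu : u ≠ 0) (hΔ : V.Δ ≠ 0)
    {P : W.Point} (hP : P ≠ 0) (hP3 : 3 • P = 0) : HRel l m u P (HF V l m u P) := by
  have h := exists_HRel h6 hV4 hV6 hu hΔ hP hP3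
  unfold HF
  rw [dif_pos h]
  exact h.choose_spec

theorem HF_neg (h6 : (6 : F) ≠ 0) (hV4 : V.c₄ * u ^ 4 = hC4 W.c₄ W.c₆ l m)
    (hV6 : V.c₆ * u ^ 6 = hC6 W.c₄ W.c₆ l m) (hu : u ≠ 0) (hΔ : V.Δ ≠ 0)
    {P : W.Point} (hP3 : 3 • P = 0) : HF V l m u (-P) = - HF V l m u P := by
  by_cases hP : P = 0
  · subst hP; rw [_root_.neg_zero, HF_zero, _root_.neg_zero]
  · exact (HF_spec h6 hV4 hV6 hu hΔ (neg_ne_zero.mpr hP) (by rw [smul_neg, hP3]; simp)).eq_of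
      h6 hu (HF_spec h6 hV4 hV6 hu hΔ hP hP3).neg

omit [DecidableEq F] in
lemma bX_eq_iff (h6 : (6 : F) ≠ 0) {P Q : W.Point} (hP : P ≠ 0) (hQ : Q ≠ 0) :
    bX P = bX Q ↔ P = Q ∨ P = -Q := by
  rw [← px_eq_iff hP hQ]
  have h36 : (36 : F) ≠ 0 := by
    rw [show (36 : F) = 6 * 6 by norm_num]; exact mul_ne_zero h6 h6
  unfold bX
  constructor
  · intro h; exact mul_left_cancel₀ h36 (add_right_cancel h)
  · intro h; rw [h]

theorem HF_add (h6 : (6 : F) ≠ 0) (hV4 : V.c₄ * u ^ 4 = hC4 W.c₄ W.c₆ l m)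
    (hV6 : V.c₆ * u ^ 6 = hC6 W.c₄ W.c₆ l m) (hu : u ≠ 0) (hΔ : V.Δ ≠ 0)
    {P Q : W.Point} (hP3 : 3 • P = 0) (hQ3 : 3 • Q = 0) :
    HF V l m u (P + Q) = HF V l m u P + HF V l m u Q := by
  have hD0 := hD_ne_zero_of h6 hV4 hV6 hu hΔ
  by_cases hP : P = 0
  · subst hP; rw [zero_add, HF_zero, zero_add]
  by_cases hQ : Q = 0
  · subst hQ; rw [add_zero, HF_zero, add_zero]
  by_cases h1 : P = -Q
  · rw [h1, neg_add_cancel, HF_zero, HF_neg h6 hV4 hV6 hu hΔ hQ3, neg_add_cancel]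
  by_cases h2 : P = Q
  · subst h2
    have e : P + P = -P := by
      rw [eq_neg_iff_add_eq_zero, ← hP3]; abel
    rw [e, HF_neg h6 hV4 hV6 hu hΔ hP3]
    have h3 := (HF_spec h6 hV4 hV6 hu hΔ hP hP3).three_nsmul h6 hV4 hV6 hu hP3
    rw [eq_comm, eq_neg_iff_add_eq_zero, ← h3]; abel
  -- the main case
  have hPQ : bX P ≠ bX Q := by
    intro h
    rcases (bX_eq_iff h6 hP hQ).mp h with h | h
    · exact h2 h
    · exact h1 h
  obtain ⟨R, hR⟩ : ∃ R : W.Point, R = -(P + Q) := ⟨_, rfl⟩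
  have hsum : P + Q + R = 0 := by rw [hR]; simp
  obtain ⟨hR0, hcol⟩ := collinear_of_sum_zero h6 hP hQ hPQ hsum
  have hR3 : 3 • R = 0 := by rw [hR, smul_neg, smul_add, hP3, hQ3]; simp
  have hPR : bX P ≠ bX R := by
    intro h
    rcases (bX_eq_iff h6 hP hR0).mp h with h | h
    · apply h2
      -- P = R = -(P+Q), so Q = -2P = P
      rw [← h] at hsum
      have : P - Q = (3 • P) - (P + Q + P) := by abel
      rw [hP3, hsum, sub_zero] at this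
      exact sub_eq_zero.mp this
    · apply hQ
      rw [h] at hsum
      have : Q = -R + Q + R := by abel
      rw [this, hsum]
  have hQR : bX Q ≠ bX R := by
    intro h
    rcases (bX_eq_iff h6 hQ hR0).mp h with h | h
    · apply h2
      rw [← h] at hsum
      have : P - Q = (P + Q + Q) - (3 • Q) := by abel
      rw [hQ3, hsum, sub_zero] at this
      exact sub_eq_zero.mp this
    · apply hP
      rw [h] at hsum
      have : P = P + -R + R := by abel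
      rw [this, hsum]
  have sP := HF_spec h6 hV4 hV6 hu hΔ hP hP3
  have sQ := HF_spec h6 hV4 hV6 hu hΔ hQ hQ3
  have sR := HF_spec h6 hV4 hV6 hu hΔ hR0 hR3
  have hz := sum_zero_of_collinear h6 sP.hQ sQ.hQ sR.hQ
    (fun h => hPQ (sP.bX_eq h6 hD0 sQ h)) (fun h => hPR (sP.bX_eq h6 hD0 sR h))
    (fun h => hQR (sQ.bX_eq h6 hD0 sR h)) (sP.collinear hu sQ sR hcol)
  have e : P + Q = -R := by rw [hR, neg_neg]
  rw [e, HF_neg h6 hV4 hV6 hu hΔ hR3, eq_comm, eq_neg_iff_add_eq_zero]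
  exact hz

end rel

section frob

variable {F : Type u} [Field F] {k : Type v} [Field k] [Algebra F k] [DecidableEq k]
variable {W V : WeierstrassCurve F} {l m u : F}

theorem HRel.map (σ : k →ₐ[F] k) {P : (W⁄k).Point} {Q : (V⁄k).Point}
    (h : HRel (algebraMap F k l) (algebraMap F k m) (algebraMap F k u) P Q) :
    HRel (algebraMap F k l) (algebraMap F k m) (algebraMap F k u)
      (Point.map (W' := W.toAffine) σ P) (Point.map (W' := V.toAffine) σ Q) := by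
  have e2 : (W⁄k).c₄ = algebraMap F k W.c₄ := WeierstrassCurve.map_c₄ W _
  have e3 : (W⁄k).c₆ = algebraMap F k W.c₆ := WeierstrassCurve.map_c₆ W _
  have eA : hA (W⁄k).c₄ (W⁄k).c₆ (algebraMap F k l) (algebraMap F k m) =
      algebraMap F k (hA W.c₄ W.c₆ l m) := by rw [e2, e3, map_hA]
  have eB : hB (W⁄k).c₄ (W⁄k).c₆ (algebraMap F k l) (algebraMap F k m) =
      algebraMap F k (hB W.c₄ W.c₆ l m) := by rw [e2, e3, map_hB]
  have eD : hD (W⁄k).c₄ (W⁄k).c₆ (algebraMap F k l) (algebraMap F k m) =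
      algebraMap F k (hD W.c₄ W.c₆ l m) := by rw [e2, e3, map_hD]
  have hT : 3 * algebraMap F k l - algebraMap F k m * bX (Point.map (W' := W.toAffine) σ P) =
      σ (3 * algebraMap F k l - algebraMap F k m * bX P) := by
    rw [bX_map σ P h.hP, map_sub, map_mul, map_mul, map_ofNat, AlgHom.commutes, AlgHom.commutes]
  refine ⟨?_, ?_, ?_, ?_, ?_⟩
  · intro h0
    apply h.hP
    apply map_injective (W' := W.toAffine) σ
    rw [h0, _root_.map_zero]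
  · intro h0
    apply h.hQ
    apply map_injective (W' := V.toAffine) σ
    rw [h0, _root_.map_zero]
  · rw [hT, Ne, map_eq_zero]; exact h.hT
  · have := congrArg σ h.hX
    rw [eA, eB] at this ⊢
    rw [hT, bX_map σ P h.hP, bX_map σ Q h.hQ]
    simp only [map_mul, map_sub, map_pow, map_ofNat, AlgHom.commutes] at this ⊢
    exact this
  · have := congrArg σ h.hY
    rw [eD] at this ⊢
    rw [hT, bY_map σ P h.hP, bY_map σ Q h.hQ]
    simp only [map_mul, map_sub, map_pow, map_ofNat, AlgHom.commutes] at this ⊢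
    exact this

section base

omit [DecidableEq k]

theorem base_c4 (hV4 : V.c₄ * u ^ 4 = hC4 W.c₄ W.c₆ l m) :
    (V⁄k).c₄ * (algebraMap F k u) ^ 4 =
      hC4 (W⁄k).c₄ (W⁄k).c₆ (algebraMap F k l) (algebraMap F k m) := by
  have e1 : (V⁄k).c₄ = algebraMap F k V.c₄ := WeierstrassCurve.map_c₄ V _
  have e2 : (W⁄k).c₄ = algebraMap F k W.c₄ := WeierstrassCurve.map_c₄ W _
  have e3 : (W⁄k).c₆ = algebraMap F k W.c₆ := WeierstrassCurve.map_c₆ W _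
  rw [e1, e2, e3, ← map_hC4, ← hV4, map_mul, map_pow]

theorem base_c6 (hV6 : V.c₆ * u ^ 6 = hC6 W.c₄ W.c₆ l m) :
    (V⁄k).c₆ * (algebraMap F k u) ^ 6 =
      hC6 (W⁄k).c₄ (W⁄k).c₆ (algebraMap F k l) (algebraMap F k m) := by
  have e1 : (V⁄k).c₆ = algebraMap F k V.c₆ := WeierstrassCurve.map_c₆ V _
  have e2 : (W⁄k).c₄ = algebraMap F k W.c₄ := WeierstrassCurve.map_c₄ W _
  have e3 : (W⁄k).c₆ = algebraMap F k W.c₆ := WeierstrassCurve.map_c₆ W _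
  rw [e1, e2, e3, ← map_hC6, ← hV6, map_mul, map_pow]

theorem base_Δ {V : WeierstrassCurve F} (hΔ : V.Δ ≠ 0) : (V⁄k).Δ ≠ 0 := by
  have e1 : (V⁄k).Δ = algebraMap F k V.Δ := WeierstrassCurve.map_Δ V _
  rw [e1, Ne, map_eq_zero]; exact hΔ

end base

theorem HF_map (h6 : (6 : k) ≠ 0) (σ : k →ₐ[F] k)
    (hV4 : V.c₄ * u ^ 4 = hC4 W.c₄ W.c₆ l m) (hV6 : V.c₆ * u ^ 6 = hC6 W.c₄ W.c₆ l m)
    (hu : u ≠ 0) (hΔ : V.Δ ≠ 0) {P : (W⁄k).Point} (hP3 : 3 • P = 0) :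
    HF (V⁄k) (algebraMap F k l) (algebraMap F k m) (algebraMap F k u)
        (Point.map (W' := W.toAffine) σ P) =
      Point.map (W' := V.toAffine) σ
        (HF (V⁄k) (algebraMap F k l) (algebraMap F k m) (algebraMap F k u) P) := by
  have hV4' := base_c4 (k := k) hV4
  have hV6' := base_c6 (k := k) hV6
  have hΔ' : (V⁄k).Δ ≠ 0 := base_Δ (k := k) hΔ
  have hu' : algebraMap F k u ≠ 0 := by rw [Ne, map_eq_zero]; exact hu
  by_cases hP : P = 0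
  · subst hP
    rw [_root_.map_zero, HF_zero, _root_.map_zero]
  have s := (HF_spec h6 hV4' hV6' hu' hΔ' hP hP3).map σ
  have h3' : 3 • Point.map (W' := W.toAffine) σ P = 0 := by
    rw [← map_nsmul, hP3, _root_.map_zero]
  have s' := HF_spec h6 hV4' hV6' hu' hΔ' s.hP h3'
  exact s'.eq_of h6 hu' s

/-- The main congruence modulo 3, assuming the Cayley-Hamilton relations for the Frobenius. -/
theorem congr3_of_CH [IsAlgClosed k] (h6 : (6 : k) ≠ 0) (σ : k →ₐ[F] k) (q : ℤ)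
    (hV4 : V.c₄ * u ^ 4 = hC4 W.c₄ W.c₆ l m) (hV6 : V.c₆ * u ^ 6 = hC6 W.c₄ W.c₆ l m)
    (hu : u ≠ 0) (hW : W.Δ ≠ 0) (hΔ : V.Δ ≠ 0) (a a' : ℤ)
    (hCH : ∀ P : (W⁄k).Point, 3 • P = 0 → Point.map (W' := W.toAffine) σ
      (Point.map (W' := W.toAffine) σ P) - a • Point.map (W' := W.toAffine) σ P + q • P = 0)
    (hCH' : ∀ P : (V⁄k).Point, 3 • P = 0 → Point.map (W' := V.toAffine) σ
      (Point.map (W' := V.toAffine) σ P) - a' • Point.map (W' := V.toAffine) σ P + q • P = 0) :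
    (3 : ℤ) ∣ a' - a := by
  have h3 := three_ne h6
  have hV4' := base_c4 (k := k) hV4
  have hV6' := base_c6 (k := k) hV6
  have hΔ' : (V⁄k).Δ ≠ 0 := base_Δ (k := k) hΔ
  have hWΔ' : (W⁄k).Δ ≠ 0 := base_Δ (k := k) hW
  have hu' : algebraMap F k u ≠ 0 := by rw [Ne, map_eq_zero]; exact hu
  obtain ⟨P, hP, hP3⟩ := Fermat.Agent.H09.exists_torsion (W := (W⁄k)) hWΔ' (n := 3) (by decide)
    (by norm_num) (by exact_mod_cast h3)
  set φ := Point.map (W' := W.toAffine) σ with hφ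
  set ψ := Point.map (W' := V.toAffine) σ with hψ
  -- the 3-torsion subgroup
  let T : AddSubgroup (W⁄k).Point := (nsmulAddMonoidHom (α := (W⁄k).Point) 3).ker
  have hT : ∀ R : (W⁄k).Point, R ∈ T ↔ 3 • R = 0 := fun R => Iff.rfl
  let f : T →+ (V⁄k).Point := AddMonoidHom.mk'
    (fun R => HF (V⁄k) (algebraMap F k l) (algebraMap F k m) (algebraMap F k u) R.1)
    (fun R S => HF_add h6 hV4' hV6' hu' hΔ' ((hT _).mp R.2) ((hT _).mp S.2))
  have hφ3 : ∀ R : (W⁄k).Point, 3 • R = 0 → 3 • φ R = 0 := by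
    intro R hR; rw [← map_nsmul, hR, _root_.map_zero]
  have h1 := hφ3 P hP3
  have h2 := hφ3 _ h1
  have hf1 : f ⟨φ P, h1⟩ = ψ (f ⟨P, hP3⟩) := HF_map h6 σ hV4 hV6 hu hΔ hP3
  have hf2 : f ⟨φ (φ P), h2⟩ = ψ (ψ (f ⟨P, hP3⟩)) := by
    rw [← hf1]; exact HF_map h6 σ hV4 hV6 hu hΔ h1
  have hrel : (⟨φ (φ P), h2⟩ : T) - a • ⟨φ P, h1⟩ + q • ⟨P, hP3⟩ = 0 := by
    apply Subtype.ext
    exact hCH P hP3
  have hrel' := congrArg f hrel
  rw [map_add, map_sub, map_zsmul, map_zsmul, _root_.map_zero, hf1, hf2] at hrel'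
  set S := f ⟨P, hP3⟩ with hS
  have s : HRel _ _ _ P S := HF_spec h6 hV4' hV6' hu' hΔ' hP hP3
  have hS3 : 3 • S = 0 := s.three_nsmul h6 hV4' hV6' hu' hP3
  have hrel2 := hCH' S hS3
  have hfin : (a' - a) • ψ S = 0 := by
    have : (a' - a) • ψ S = (ψ (ψ S) - a • ψ S + q • S) - (ψ (ψ S) - a' • ψ S + q • S) := by
      rw [sub_smul]; abel
    rw [this, hrel', hrel2, sub_zero]
  have hψS : ψ S ≠ 0 := (s.map σ).hQ
  have hψ3 : (3 : ℤ) • ψ S = 0 := by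
    have : (3 : ℕ) • ψ S = 0 := by rw [← map_nsmul, hS3, _root_.map_zero]
    exact_mod_cast this
  by_contra hnd
  have hcop : IsCoprime (3 : ℤ) (a' - a) := by
    rw [Prime.coprime_iff_not_dvd (by norm_num)]
    exact hnd
  obtain ⟨u, v, huv⟩ := hcop
  apply hψS
  calc ψ S = (1 : ℤ) • ψ S := (one_zsmul _).symm
    _ = (u * 3 + v * (a' - a)) • ψ S := by rw [huv]
    _ = 0 := by rw [add_smul, mul_smul, mul_smul, hψ3, hfin]; simp

end frob

/-- mod-3 congruence over a finite prime field -/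
theorem hesse_congr_field (ℓ : ℕ) [Fact ℓ.Prime] (h2 : ℓ ≠ 2) (h3 : ℓ ≠ 3)
    (W V : WeierstrassCurve (ZMod ℓ)) (l m u : ZMod ℓ) (hu : u ≠ 0)
    (hV4 : V.c₄ * u ^ 4 = hC4 W.c₄ W.c₆ l m) (hV6 : V.c₆ * u ^ 6 = hC6 W.c₄ W.c₆ l m)
    (hW : W.Δ ≠ 0) (hV : V.Δ ≠ 0) :
    (3 : ℤ) ∣ V.traceOfFrobenius - W.traceOfFrobenius := by
  have hℓ : ℓ.Prime := Fact.out
  let k := AlgebraicClosure (ZMod ℓ)
  let _ : DecidableEq k := Classical.decEq _
  have h6k : (6 : k) ≠ 0 := by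
    have : ((6 : ℕ) : k) ≠ 0 := by
      rw [Ne, CharP.cast_eq_zero_iff k ℓ]
      intro h
      rw [show (6 : ℕ) = 2 * 3 by norm_num] at h
      rcases (Nat.Prime.dvd_mul hℓ).mp h with h | h
      · exact h2 ((Nat.prime_dvd_prime_iff_eq hℓ Nat.prime_two).mp h)
      · exact h3 ((Nat.prime_dvd_prime_iff_eq hℓ Nat.prime_three).mp h)
    exact_mod_cast this
  exact congr3_of_CH (k := k) h6k (FiniteField.frobeniusAlgHom (ZMod ℓ) k) (ℓ : ℤ) hV4 hV6 hu hW hV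
    _ _ (fun P _ => Fermat.Agent.Frob.frobenius_relation_zmod ℓ W hW P)
    (fun P _ => Fermat.Agent.Frob.frobenius_relation_zmod ℓ V hV P)

/-- homogeneity -/
theorem hC4_smul {R : Type u} [CommRing R] (c d l m t : R) :
    hC4 c d (t * l) (t * m) = t ^ 4 * hC4 c d l m := by unfold hC4; ring

theorem hC6_smul {R : Type u} [CommRing R] (c d l m t : R) :
    hC6 c d (t * l) (t * m) = t ^ 6 * hC6 c d l m := by unfold hC6; ring

/-- The mod-3 congruence in the Hesse pencil (induction form). -/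
theorem hesse_congr_aux (W V : WeierstrassCurve ℤ) (ℓ : ℕ) (hℓ : ℓ.Prime) (h2 : ℓ ≠ 2) (h3 : ℓ ≠ 3)
    (hg : W.IsGoodPrimeFor ℓ) (hg' : V.IsGoodPrimeFor ℓ) :
    ∀ (n : ℕ) (l m u : ℤ), l.natAbs + m.natAbs = n → ¬ (l = 0 ∧ m = 0) →
      V.c₄ * u ^ 4 = hC4 W.c₄ W.c₆ l m → V.c₆ * u ^ 6 = hC6 W.c₄ W.c₆ l m →
      (3 : ℤ) ∣ (V.apOfModel ℓ - W.apOfModel ℓ) := by
  have := Fact.mk hℓ
  have hp := Nat.prime_iff_prime_int.mp hℓ
  have h6z : (6 : ZMod ℓ) ≠ 0 := by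
    have : ((6 : ℕ) : ZMod ℓ) ≠ 0 := by
      rw [Ne, CharP.cast_eq_zero_iff (ZMod ℓ) ℓ]
      intro h
      rw [show (6 : ℕ) = 2 * 3 by norm_num] at h
      rcases (Nat.Prime.dvd_mul hℓ).mp h with h | h
      · exact h2 ((Nat.prime_dvd_prime_iff_eq hℓ Nat.prime_two).mp h)
      · exact h3 ((Nat.prime_dvd_prime_iff_eq hℓ Nat.prime_three).mp h)
    exact_mod_cast this
  have h1728 : (1728 : ZMod ℓ) ≠ 0 := by
    have e : (1728 : ZMod ℓ) = 6*6*6*(2*2*2) := by norm_num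
    have h2 := two_ne h6z
    rw [e]
    repeat first | exact h6z | exact h2 | apply mul_ne_zero
  have hW : (W.reductionMod ℓ).Δ ≠ 0 := by
    rw [reductionMod, WeierstrassCurve.map_Δ, eq_intCast, Ne,
      ZMod.intCast_zmod_eq_zero_iff_dvd]
    exact hg
  have hV : (V.reductionMod ℓ).Δ ≠ 0 := by
    rw [reductionMod, WeierstrassCurve.map_Δ, eq_intCast, Ne,
      ZMod.intCast_zmod_eq_zero_iff_dvd]
    exact hg'
  intro n
  induction n using Nat.strong_induction_on with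
  | _ n ih =>
    intro l m u hn h0 hV4 hV6
    -- reductions
    have r4 : (V.reductionMod ℓ).c₄ * (u : ZMod ℓ) ^ 4 =
        hC4 (W.reductionMod ℓ).c₄ (W.reductionMod ℓ).c₆ (l : ZMod ℓ) (m : ZMod ℓ) := by
      have := congrArg (Int.castRingHom (ZMod ℓ)) hV4
      rw [map_hC4, map_mul, map_pow] at this
      rw [reductionMod, reductionMod, WeierstrassCurve.map_c₄, WeierstrassCurve.map_c₄,
        WeierstrassCurve.map_c₆]
      exact this
    have r6 : (V.reductionMod ℓ).c₆ * (u : ZMod ℓ) ^ 6 =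
        hC6 (W.reductionMod ℓ).c₄ (W.reductionMod ℓ).c₆ (l : ZMod ℓ) (m : ZMod ℓ) := by
      have := congrArg (Int.castRingHom (ZMod ℓ)) hV6
      rw [map_hC6, map_mul, map_pow] at this
      rw [reductionMod, reductionMod, WeierstrassCurve.map_c₆, WeierstrassCurve.map_c₆,
        WeierstrassCurve.map_c₄]
      exact this
    by_cases hu : (u : ZMod ℓ) = 0
    · -- `ℓ ∣ u`, hence `ℓ ∣ l, m`
      have hr := (W.reductionMod ℓ).c_relation
      have hcd : (W.reductionMod ℓ).c₄ ^ 3 - (W.reductionMod ℓ).c₆ ^ 2 ≠ 0 := by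
        rw [← hr]; exact mul_ne_zero h1728 hW
      rw [hu] at r4 r6
      have r4' : hC4 (W.reductionMod ℓ).c₄ (W.reductionMod ℓ).c₆ (l : ZMod ℓ) (m : ZMod ℓ) = 0 := by
        rw [← r4]; ring
      have r6' : hC6 (W.reductionMod ℓ).c₄ (W.reductionMod ℓ).c₆ (l : ZMod ℓ) (m : ZMod ℓ) = 0 := by
        rw [← r6]; ring
      have hrel := hC_rel (W.reductionMod ℓ).c₄ (W.reductionMod ℓ).c₆ (l : ZMod ℓ) (m : ZMod ℓ)
      rw [r4', r6'] at hrel
      have hD0 : hD (W.reductionMod ℓ).c₄ (W.reductionMod ℓ).c₆ (l : ZMod ℓ) (m : ZMod ℓ) = 0 := by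
        have : ((W.reductionMod ℓ).c₄ ^ 3 - (W.reductionMod ℓ).c₆ ^ 2) *
          hD (W.reductionMod ℓ).c₄ (W.reductionMod ℓ).c₆ (l : ZMod ℓ) (m : ZMod ℓ) ^ 3 = 0 := by
            rw [← hrel]; ring
        exact pow_eq_zero_iff (three_ne_zero) |>.mp ((mul_eq_zero.mp this).resolve_left hcd)
      obtain ⟨hl, hm⟩ := eq_zero_of_hD_hC4 h6z hcd hD0 r4'
      rw [ZMod.intCast_zmod_eq_zero_iff_dvd] at hl hm hu
      obtain ⟨l', rfl⟩ := hl
      obtain ⟨m', rfl⟩ := hm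
      obtain ⟨u', rfl⟩ := hu
      have hℓ0 : (ℓ : ℤ) ≠ 0 := by exact_mod_cast hℓ.ne_zero
      have h0' : ¬ (l' = 0 ∧ m' = 0) := by
        rintro ⟨rfl, rfl⟩; apply h0; simp
      refine ih (l'.natAbs + m'.natAbs) ?_ l' m' u' rfl h0' ?_ ?_
      · rw [← hn, Int.natAbs_mul, Int.natAbs_mul, Int.natAbs_natCast, ← mul_add]
        have hpos : 0 < l'.natAbs + m'.natAbs := by omega
        have := hℓ.two_le
        nlinarith
      · rw [hC4_smul, mul_pow] at hV4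
        apply mul_left_cancel₀ (pow_ne_zero 4 hℓ0)
        linear_combination hV4
      · rw [hC6_smul, mul_pow] at hV6
        apply mul_left_cancel₀ (pow_ne_zero 6 hℓ0)
        linear_combination hV6
    · exact hesse_congr_field ℓ h2 h3 _ _ _ _ _ hu r4 r6 hW hV

/-- **The mod-3 congruence in the Hesse pencil.** -/
theorem hesse_congr (W V : WeierstrassCurve ℤ) (l m u : ℤ) (h0 : ¬ (l = 0 ∧ m = 0))
    (hV4 : V.c₄ * u ^ 4 = hC4 W.c₄ W.c₆ l m) (hV6 : V.c₆ * u ^ 6 = hC6 W.c₄ W.c₆ l m)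
    (ℓ : ℕ) (hℓ : ℓ.Prime) (h2 : ℓ ≠ 2) (h3 : ℓ ≠ 3)
    (hg : W.IsGoodPrimeFor ℓ) (hg' : V.IsGoodPrimeFor ℓ) :
    (3 : ℤ) ∣ (V.apOfModel ℓ - W.apOfModel ℓ) :=
  hesse_congr_aux W V ℓ hℓ h2 h3 hg hg' _ l m u rfl h0 hV4 hV6

end Fermat.Agent.H24
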