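import Mathlib
import Fermat.Prelude.Def_FLTPrelim_ModularRep
import Fermat.Agent.H24.Switch
import Fermat.Agent.H24.Disc

/-!
# The 3-5 switch: assembly
-/

set_option autoImplicit false

namespace Fermat.Agent.H24

open WeierstrassCurve WeierstrassCurve.Affine WeierstrassCurve.Affine.Point

/-- discriminant of the member of the family -/
theorem fam_Δ_int (W : WeierstrassCurve ℤ) (hΔ : W.Δ ≠ 0) (n : ℤ) :
    (fam W n).Δ = W.Δ * DD W.c₄ W.c₆ (1728 * n) ^ 5 := by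
  have h := W.c_relation
  have h1 := disc_int W.c₄ W.c₆ W.Δ (1728 * n) h.symm hΔ
  have h2 := fam_Δ W n
  rw [h1] at h2
  exact mul_left_cancel₀ (by norm_num) h2

lemma DD_ne_zero (c d n : ℤ) : DD c d (1728 * n) ≠ 0 := by
  intro h
  unfold DD at h
  have : (1728 : ℤ) ∣ 1 := ⟨-(n * PD c d (1728 * n)), by linear_combination h⟩
  norm_num at this

lemma not_dvd_DD {p : ℕ} (hp : p.Prime) (c d n : ℤ) (h : (p : ℤ) ∣ n) :
    ¬ (p : ℤ) ∣ DD c d (1728 * n) := by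
  intro h1
  unfold DD at h1
  have h2 : (p : ℤ) ∣ 1 := by
    have : (1 : ℤ) = (1 + 1728 * n * PD c d (1728 * n)) - n * (1728 * PD c d (1728 * n)) := by ring
    rw [this]
    exact dvd_sub h1 (Dvd.dvd.mul_right h _)
  exact (Nat.prime_iff_prime_int.mp hp).not_unit (isUnit_of_dvd_one h2)

theorem fam_semistable (W : WeierstrassCurve ℤ) (hΔ : W.Δ ≠ 0) (hW : W.IsSemistableModel)
    (n : ℤ) (hn : 30 * W.Δ ∣ n) : (fam W n).IsSemistableModel := by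
  intro p hp hpΔ hpc
  have hp' := Nat.prime_iff_prime_int.mp hp
  rw [fam_Δ_int W hΔ] at hpΔ
  rw [fam_c₄] at hpc
  by_cases h30 : (p : ℤ) ∣ 30 * W.Δ
  · have hpn : (p : ℤ) ∣ n := h30.trans hn
    have hD : (p : ℤ) ∣ W.Δ := by
      rcases hp'.dvd_or_dvd hpΔ with h | h
      · exact h
      · exact absurd (hp'.dvd_of_dvd_pow h) (not_dvd_DD hp _ _ _ hpn)
    apply hW p hp hD
    unfold C4 at hpc
    have : W.c₄ = (W.c₄ + 1728 * n * P4 W.c₄ W.c₆ (1728 * n)) -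
        n * (1728 * P4 W.c₄ W.c₆ (1728 * n)) := by ring
    rw [this]
    exact dvd_sub hpc (Dvd.dvd.mul_right hpn _)
  · have hDD : (p : ℤ) ∣ DD W.c₄ W.c₆ (1728 * n) := by
      rcases hp'.dvd_or_dvd hpΔ with h | h
      · exact absurd (Dvd.dvd.mul_left h 30) h30
      · exact hp'.dvd_of_dvd_pow h
    exact not_dvd_C4 _ _ W.Δ _ W.c_relation.symm hp h30 hDD hpc

/-- Cayley-Hamilton hypothesis -/
def CHprop : Prop := ∀ (ℓ : ℕ) [Fact ℓ.Prime], 5 < ℓ →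
  ∃ σ : AlgebraicClosure (ZMod ℓ) →ₐ[ZMod ℓ] AlgebraicClosure (ZMod ℓ),
  ∀ (W : WeierstrassCurve (ZMod ℓ)), W.Δ ≠ 0 →
  letI : DecidableEq (AlgebraicClosure (ZMod ℓ)) := Classical.decEq _
  ∀ P : (W⁄(AlgebraicClosure (ZMod ℓ))).Point, 5 • P = 0 →
    Point.map (W' := W.toAffine) σ (Point.map (W' := W.toAffine) σ P) -
      W.traceOfFrobenius • Point.map (W' := W.toAffine) σ P + (ℓ : ℤ) • P = 0

theorem fam_congr (hCH : CHprop) (W : WeierstrassCurve ℤ) (n : ℤ)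
    (hn : 30 * W.Δ ∣ n) (ℓ : ℕ) (hℓ : ℓ.Prime) (hg : W.IsGoodPrimeFor ℓ)
    (hg' : (fam W n).IsGoodPrimeFor ℓ) (h5 : ℓ ≠ 5) :
    (5 : ℤ) ∣ ((fam W n).apOfModel ℓ - W.apOfModel ℓ) := by
  have := Fact.mk hℓ
  have hmap : (fam W n).reductionMod ℓ = fam (W.reductionMod ℓ) (n : ZMod ℓ) := by
    rw [reductionMod, fam_map]; rfl
  by_cases h6 : ℓ = 2 ∨ ℓ = 3
  · -- the reductions agree
    have hn0 : (n : ZMod ℓ) = 0 := by
      rw [ZMod.intCast_zmod_eq_zero_iff_dvd]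
      have h30 : (ℓ : ℤ) ∣ 30 := by rcases h6 with rfl | rfl <;> norm_num
      exact (Dvd.dvd.mul_right h30 _).trans hn
    rw [apOfModel, apOfModel, hmap, hn0, fam_zero, sub_self]
    exact dvd_zero _
  · push Not at h6
    have hℓ5 : 5 < ℓ := by
      have h2 := hℓ.two_le
      by_contra hle
      push Not at hle
      interval_cases ℓ
      · exact h6.1 rfl
      · exact h6.2 rfl
      · revert hℓ; decide
      · exact h5 rfl
    obtain ⟨σ, hσ⟩ := hCH ℓ hℓ5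
    let k := AlgebraicClosure (ZMod ℓ)
    letI : DecidableEq k := Classical.decEq _
    have hnz : ∀ m : ℕ, 0 < m → m < ℓ → (m : k) ≠ 0 := by
      intro m h0 h1
      rw [Ne, CharP.cast_eq_zero_iff k ℓ]
      exact Nat.not_dvd_of_pos_of_lt h0 h1
    have h5k : (5 : k) ≠ 0 := by exact_mod_cast hnz 5 (by norm_num) hℓ5
    have h6k : (6 : k) ≠ 0 := by
      have h2 : ((2 : ℕ) : k) ≠ 0 := hnz 2 (by norm_num) (by omega)
      have h3 : ((3 : ℕ) : k) ≠ 0 := hnz 3 (by norm_num) (by omega)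
      have : (6 : k) = ((2 : ℕ) : k) * ((3 : ℕ) : k) := by norm_num
      rw [this]; exact mul_ne_zero h2 h3
    have hW : (W.reductionMod ℓ).Δ ≠ 0 := by
      rw [reductionMod, WeierstrassCurve.map_Δ, eq_intCast, Ne,
        ZMod.intCast_zmod_eq_zero_iff_dvd]
      exact hg
    have hV : ((fam W n).reductionMod ℓ).Δ ≠ 0 := by
      rw [reductionMod, WeierstrassCurve.map_Δ, eq_intCast, Ne,
        ZMod.intCast_zmod_eq_zero_iff_dvd]
      exact hg'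
    have hV4 : ((fam W n).reductionMod ℓ).c₄ = C4 (W.reductionMod ℓ).c₄ (W.reductionMod ℓ).c₆
        (1728 * (n : ZMod ℓ)) := by rw [hmap, fam_c₄]
    have hV6 : ((fam W n).reductionMod ℓ).c₆ = C6 (W.reductionMod ℓ).c₄ (W.reductionMod ℓ).c₆
        (1728 * (n : ZMod ℓ)) := by rw [hmap, fam_c₆]
    exact congr_of_CH h6k h5k σ (ℓ : ℤ) hV4 hV6 hW hV _ _ (hσ _ hW) (hσ _ hV)

theorem switch (hCH : CHprop)
    (hilbert : ∀ (c d D : ℤ), c^3 - d^2 = 1728*D → D ≠ 0 → ∀ (M : ℤ), M ≠ 0 → ∃ n : ℤ, M ∣ n ∧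
      ∀ X : ℤ, X^4 - 6*C4 c d (1728*n)*X^2 - 8*C6 c d (1728*n)*X - 3*(C4 c d (1728*n))^2 ≠ 0)
    (irr : ∀ (W : WeierstrassCurve ℤ), W.Δ ≠ 0 →
      (∀ X : ℤ, X ^ 4 - 6 * W.c₄ * X ^ 2 - 8 * W.c₆ * X - 3 * W.c₄ ^ 2 ≠ 0) →
      W.ModRepIsIrreducible 3)
    (W : WeierstrassCurve ℤ) (hΔ : W.Δ ≠ 0) (hW : W.IsSemistableModel) :
    ∃ W' : WeierstrassCurve ℤ, W'.Δ ≠ 0 ∧ W'.IsSemistableModel ∧ W'.ModRepIsIrreducible 3 ∧
      ∀ ℓ : ℕ, ℓ.Prime → W.IsGoodPrimeFor ℓ → W'.IsGoodPrimeFor ℓ → ℓ ≠ 5 →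
        (5 : ℤ) ∣ (W'.apOfModel ℓ - W.apOfModel ℓ) := by
  obtain ⟨n, hn, hX⟩ := hilbert W.c₄ W.c₆ W.Δ W.c_relation.symm hΔ (30 * W.Δ)
    (mul_ne_zero (by norm_num) hΔ)
  have hΔ' : (fam W n).Δ ≠ 0 := by
    rw [fam_Δ_int W hΔ]; exact mul_ne_zero hΔ (pow_ne_zero 5 (DD_ne_zero _ _ _))
  refine ⟨fam W n, hΔ', fam_semistable W hΔ hW n hn, irr _ hΔ' ?_, ?_⟩
  · intro X
    rw [fam_c₄, fam_c₆]
    exact hX X
  · intro ℓ hℓ hg hg' h5
    exact fam_congr hCH W n hn ℓ hℓ hg hg' h5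

end Fermat.Agent.H24
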