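import Mathlib
import Fermat.Agent.H14.Lattice

/-!
# Complex uniformisation of elliptic curves: the addition theorem
-/

set_option autoImplicit false

open PeriodPair Filter Topology

noncomputable section

namespace Fermat.Agent.H24

/-- identity theorem on the complement of a countable closed set -/
lemma eqOn_of_near {S : Set ℂ} (hS : S.Countable) (hc : IsClosed S) {f g : ℂ → ℂ}
    (hf : AnalyticOnNhd ℂ f Sᶜ) (hg : AnalyticOnNhd ℂ g Sᶜ) {a : ℂ}
    (h : ∀ᶠ z in 𝓝[≠] a, f z = g z) : Set.EqOn f g Sᶜ := by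
  have hconn : IsPreconnected Sᶜ :=
    (Set.Countable.isConnected_compl_of_one_lt_rank (by simp) hS).2
  have hev2 : ∀ᶠ z in 𝓝[≠] a, ∀ᶠ y in 𝓝 z, f y = g y := by
    obtain ⟨U, hUo, hU0, hU⟩ := mem_nhdsWithin.mp h
    have hopen : IsOpen (U ∩ {a}ᶜ) := hUo.inter isOpen_compl_singleton
    refine mem_nhdsWithin.mpr ⟨U, hUo, hU0, ?_⟩
    intro z hz
    filter_upwards [hopen.mem_nhds hz] with y hy
    exact hU hy
  have hdense : Dense Sᶜ := hS.dense_compl ℂ
  obtain ⟨V, hVo, haV, hV⟩ := mem_nhdsWithin.mp hev2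
  have hne : (V ∩ {a}ᶜ).Nonempty := by
    have h1 : ({a}ᶜ : Set ℂ) ∈ 𝓝[≠] a := self_mem_nhdsWithin
    have h2 : V ∈ 𝓝[≠] a := mem_nhdsWithin_of_mem_nhds (hVo.mem_nhds haV)
    exact (𝓝[≠] a).nonempty_of_mem (inter_mem h2 h1)
  obtain ⟨z₀, hz1, hz2⟩ := hdense.inter_open_nonempty _ (hVo.inter isOpen_compl_singleton) hne
  exact hf.eqOn_of_preconnected_of_eventuallyEq hg hconn hz2 (hV hz1)

variable (L : PeriodPair)

lemma countable_lattice : (L.lattice : Set ℂ).Countable := by
  have : Countable L.lattice := L.latticeEquivProd.toEquiv.countable_iff.mpr inferInstance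
  exact Set.countable_coe_iff.mp this

lemma tendsto_sq_mul_P : Tendsto (fun z => z ^ 2 * L.weierstrassP z) (𝓝[≠] 0) (𝓝 1) := by
  have h1 : ContinuousAt (fun z : ℂ => z ^ 2 * L.weierstrassPExcept 0 z + 1) 0 := by
    have := (L.analyticAt_weierstrassPExcept 0).continuousAt
    fun_prop
  have h2 := h1.tendsto.mono_left (nhdsWithin_le_nhds (s := {(0 : ℂ)}ᶜ))
  simp only [ne_eq, OfNat.ofNat_ne_zero, not_false_eq_true, zero_pow, zero_mul, zero_add] at h2
  refine h2.congr' ?_
  filter_upwards [self_mem_nhdsWithin] with z hz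
  have hz0 : z ≠ 0 := hz
  have e1 := L.weierstrassPExcept_add 0 z
  simp at e1
  rw [← e1]
  field_simp

lemma tendsto_cube_mul_dP : Tendsto (fun z => z ^ 3 * L.derivWeierstrassP z) (𝓝[≠] 0) (𝓝 (-2)) := by
  have h1 : ContinuousAt (fun z : ℂ => z ^ 3 * L.derivWeierstrassPExcept 0 z - 2) 0 := by
    have := (L.analyticAt_derivWeierstrassPExcept 0).continuousAt
    fun_prop
  have h2 := h1.tendsto.mono_left (nhdsWithin_le_nhds (s := {(0 : ℂ)}ᶜ))
  simp only [ne_eq, OfNat.ofNat_ne_zero, not_false_eq_true, zero_pow, zero_mul, zero_sub] at h2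
  refine h2.congr' ?_
  filter_upwards [self_mem_nhdsWithin] with z hz
  have hz0 : z ≠ 0 := hz
  have e1 := L.derivWeierstrassPExcept_sub 0 z
  simp at e1
  rw [← e1]
  field_simp

lemma eventually_notMem : ∀ᶠ z in 𝓝[≠] (0 : ℂ), z ∉ L.lattice := by
  filter_upwards [mem_nhdsWithin_of_mem_nhds (L.compl_lattice_sdiff_singleton_mem_nhds 0),
    self_mem_nhdsWithin] with z h1 h2 h3
  exact h1 ⟨h3, h2⟩

lemma eventually_notMem_of_notMem {a : ℂ} (ha : a ∉ L.lattice) : ∀ᶠ z in 𝓝 a, z ∉ L.lattice :=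
  L.isClosed_lattice.isOpen_compl.mem_nhds ha

lemma hasDerivAt_P {z : ℂ} (hz : z ∉ L.lattice) :
    HasDerivAt L.weierstrassP (L.derivWeierstrassP z) z := by
  have h := (L.analyticOnNhd_weierstrassP z hz).differentiableAt.hasDerivAt
  rwa [L.deriv_weierstrassP] at h

lemma eventually_dP_ne : ∀ᶠ z in 𝓝[≠] (0 : ℂ), L.derivWeierstrassP z ≠ 0 := by
  have h := (tendsto_cube_mul_dP L).eventually_ne (show (-2 : ℂ) ≠ 0 by norm_num)
  filter_upwards [h] with z hz h0
  rw [h0, mul_zero] at hz
  exact hz rfl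

lemma hasDerivAt_dP {z : ℂ} (hz : z ∉ L.lattice) :
    HasDerivAt L.derivWeierstrassP (6 * L.weierstrassP z ^ 2 - L.g₂ / 2) z := by
  have hana := L.analyticOnNhd_derivWeierstrassP
  have hana2 := L.analyticOnNhd_weierstrassP
  have key : Set.EqOn (deriv L.derivWeierstrassP) (fun z => 6 * L.weierstrassP z ^ 2 - L.g₂ / 2)
      ((L.lattice : Set ℂ)ᶜ) := by
    apply eqOn_of_near (countable_lattice L) L.isClosed_lattice (a := 0)
    · exact hana.deriv
    · intro z hz
      have := hana2 z hz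
      fun_prop
    · filter_upwards [eventually_notMem L, eventually_dP_ne L] with z h1 h2
      have hd : HasDerivAt L.derivWeierstrassP (deriv L.derivWeierstrassP z) z :=
        (hana z h1).differentiableAt.hasDerivAt
      have hp := hasDerivAt_P L h1
      have e1 : HasDerivAt (fun z => L.derivWeierstrassP z ^ 2)
          (2 * L.derivWeierstrassP z * deriv L.derivWeierstrassP z) z := by
        have := hd.pow 2
        convert! this using 1
        simp
      have e2 : HasDerivAt (fun z => 4 * L.weierstrassP z ^ 3 - L.g₂ * L.weierstrassP z - L.g₃)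
          (12 * L.weierstrassP z ^ 2 * L.derivWeierstrassP z - L.g₂ * L.derivWeierstrassP z) z := by
        have := (((hp.pow 3).const_mul 4).sub (hp.const_mul L.g₂)).sub_const L.g₃
        convert! this using 1
        push_cast
        ring
      have e3 : (fun z => L.derivWeierstrassP z ^ 2) =ᶠ[𝓝 z]
          (fun z => 4 * L.weierstrassP z ^ 3 - L.g₂ * L.weierstrassP z - L.g₃) := by
        filter_upwards [eventually_notMem_of_notMem L h1] with w hw
        exact L.derivWeierstrassP_sq w hw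
      have e4 := (e1.congr_of_eventuallyEq e3.symm).unique e2
      apply mul_left_cancel₀ (mul_ne_zero two_ne_zero h2)
      rw [e4]; ring
  have := key hz
  have h := (hana z hz).differentiableAt.hasDerivAt
  rwa [this] at h

/-- the numerator of the addition formula -/
def NN (z w : ℂ) : ℂ :=
  2 * L.weierstrassP z * L.weierstrassP w * (L.weierstrassP z + L.weierstrassP w)
    - L.g₂ / 2 * (L.weierstrassP z + L.weierstrassP w) - L.g₃
    - L.derivWeierstrassP z * L.derivWeierstrassP w

/-- `℘(z) - ℘(w)` -/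
def MM (z w : ℂ) : ℂ := L.weierstrassP z - L.weierstrassP w

lemma hasDerivAt_NN {c z : ℂ} (hz : z ∉ L.lattice) (hw : c - z ∉ L.lattice) :
    HasDerivAt (fun z => NN L z (c - z))
      (2 * (L.derivWeierstrassP z * L.weierstrassP (c - z) -
        L.weierstrassP z * L.derivWeierstrassP (c - z)) *
        (L.weierstrassP z + L.weierstrassP (c - z)) +
        2 * L.weierstrassP z * L.weierstrassP (c - z) *
          (L.derivWeierstrassP z - L.derivWeierstrassP (c - z)) -
        L.g₂ / 2 * (L.derivWeierstrassP z - L.derivWeierstrassP (c - z)) -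
        (6 * L.weierstrassP z ^ 2 - L.g₂ / 2) * L.derivWeierstrassP (c - z) +
        L.derivWeierstrassP z * (6 * L.weierstrassP (c - z) ^ 2 - L.g₂ / 2)) z := by
  have hp := hasDerivAt_P L hz
  have hdp := hasDerivAt_dP L hz
  have hs : HasDerivAt (fun z => c - z) (-1) z := by
    simpa using (hasDerivAt_id z).const_sub c
  have hq : HasDerivAt (fun z => L.weierstrassP (c - z)) (L.derivWeierstrassP (c - z) * -1) z :=
    (hasDerivAt_P L hw).comp z hs
  have hdq : HasDerivAt (fun z => L.derivWeierstrassP (c - z))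
      ((6 * L.weierstrassP (c - z) ^ 2 - L.g₂ / 2) * -1) z :=
    (hasDerivAt_dP L hw).comp z hs
  have := (((((hp.const_mul 2).mul hq).mul (hp.add hq)).sub
    ((hp.add hq).const_mul (L.g₂ / 2))).sub_const L.g₃).sub (hdp.mul hdq)
  convert! this using 1
  simp only [Pi.add_apply, Pi.mul_apply]
  ring

lemma hasDerivAt_MM {c z : ℂ} (hz : z ∉ L.lattice) (hw : c - z ∉ L.lattice) :
    HasDerivAt (fun z => MM L z (c - z))
      (L.derivWeierstrassP z + L.derivWeierstrassP (c - z)) z := by
  have hp := hasDerivAt_P L hz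
  have hs : HasDerivAt (fun z => c - z) (-1) z := by
    simpa using (hasDerivAt_id z).const_sub c
  have hq : HasDerivAt (fun z => L.weierstrassP (c - z)) (L.derivWeierstrassP (c - z) * -1) z :=
    (hasDerivAt_P L hw).comp z hs
  have := hp.sub hq
  convert! this using 1
  ring

lemma tendsto_P_atTop : Tendsto (fun z => ‖L.weierstrassP z‖) (𝓝[≠] 0) atTop := by
  have h1 := (tendsto_sq_mul_P L).norm
  have h2 : Tendsto (fun z : ℂ => ‖z ^ 2‖⁻¹) (𝓝[≠] 0) atTop := by
    apply Tendsto.inv_tendsto_nhdsGT_zero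
    rw [tendsto_nhdsWithin_iff]
    refine ⟨?_, ?_⟩
    · have : ContinuousAt (fun z : ℂ => ‖z ^ 2‖) 0 := by fun_prop
      have := this.tendsto.mono_left (nhdsWithin_le_nhds (s := {(0 : ℂ)}ᶜ))
      simpa using this
    · filter_upwards [self_mem_nhdsWithin] with z hz
      have hz0 : z ≠ 0 := hz
      simp [hz0]
  have h3 := h2.atTop_mul_pos (C := ‖(1 : ℂ)‖) (by simp) h1
  refine h3.congr' ?_
  filter_upwards [self_mem_nhdsWithin] with z hz
  have hz0 : z ≠ 0 := hz
  rw [norm_mul, norm_pow, ← mul_assoc, inv_mul_cancel₀ (by simpa using hz0), one_mul]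

/-- a function with zero derivative near a point is constant near this point -/
lemma const_of_deriv_zero {h : ℂ → ℂ} {c0 a : ℂ} (hd : ∀ᶠ z in 𝓝[≠] a, HasDerivAt h 0 z)
    (hl : Tendsto h (𝓝[≠] a) (𝓝 c0)) : ∀ᶠ z in 𝓝[≠] a, h z = c0 := by
  set f := Function.update h a c0 with hf
  have hcont : ContinuousAt f a := continuousAt_update_same.mpr hl
  have hfd : ∀ᶠ z in 𝓝[≠] a, HasDerivAt f 0 z := by
    filter_upwards [hd, self_mem_nhdsWithin] with z h1 h2
    have h2' : z ≠ a := h2
    refine h1.congr_of_eventuallyEq ?_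
    filter_upwards [isOpen_ne.mem_nhds h2'] with w hw
    exact Function.update_of_ne hw _ _
  have hana : AnalyticAt ℂ f a :=
    Complex.analyticAt_of_differentiable_on_punctured_nhds_of_continuousAt
      (hfd.mono fun z hz => hz.differentiableAt) hcont
  have hd0 : deriv f a = 0 := by
    have h1 := hana.deriv.continuousAt.tendsto.mono_left (nhdsWithin_le_nhds (s := {a}ᶜ))
    have h2 : Tendsto (deriv f) (𝓝[≠] a) (𝓝 0) := by
      refine tendsto_const_nhds.congr' ?_
      filter_upwards [hfd] with z hz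
      exact hz.deriv.symm
    exact tendsto_nhds_unique h1 h2
  have hall : ∀ᶠ z in 𝓝 a, DifferentiableAt ℂ f z ∧ deriv f z = 0 := by
    rw [eventually_nhdsWithin_iff] at hfd
    filter_upwards [hfd] with z hz
    by_cases hza : z = a
    · subst hza
      exact ⟨hana.differentiableAt, hd0⟩
    · exact ⟨(hz hza).differentiableAt, (hz hza).deriv⟩
  obtain ⟨r, hr, hball⟩ := Metric.eventually_nhds_iff_ball.mp hall
  have hconst : ∀ z ∈ Metric.ball a r, f z = f a := by
    intro z hz
    refine Metric.isOpen_ball.is_const_of_deriv_eq_zero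
      (Metric.isPreconnected_ball)
      (fun w hw => (hball w hw).1.differentiableWithinAt) (fun w hw => (hball w hw).2) hz
      (Metric.mem_ball_self hr)
  filter_upwards [mem_nhdsWithin_of_mem_nhds (Metric.ball_mem_nhds a hr), self_mem_nhdsWithin]
    with z h1 h2
  have h2' : z ≠ a := h2
  have := hconst z h1
  rwa [hf, Function.update_of_ne h2', Function.update_self] at this

lemma analyticOnNhd_comp_sub (c : ℂ) {f : ℂ → ℂ} {S : Set ℂ} (hf : AnalyticOnNhd ℂ f S) :
    AnalyticOnNhd ℂ (fun z => f (c - z)) {z | c - z ∈ S} := by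
  intro z hz
  have h1 := hf (c - z) hz
  exact h1.comp (f := fun z => c - z) (by fun_prop)

/-- the exceptional set -/
def Exc (c : ℂ) : Set ℂ := (L.lattice : Set ℂ) ∪ {z | c - z ∈ (L.lattice : Set ℂ)}

lemma Exc_countable (c : ℂ) : (Exc L c).Countable := by
  refine (countable_lattice L).union ?_
  have : {z | c - z ∈ (L.lattice : Set ℂ)} = (fun z => c - z) '' (L.lattice : Set ℂ) := by
    ext z
    constructor
    · intro h; exact ⟨c - z, h, by ring⟩
    · rintro ⟨w, hw, rfl⟩
      simpa using hw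
  rw [this]
  exact (countable_lattice L).image _

lemma Exc_closed (c : ℂ) : IsClosed (Exc L c) := by
  refine L.isClosed_lattice.union ?_
  exact L.isClosed_lattice.preimage (f := fun z => c - z) (by fun_prop)

lemma mem_Exc_compl {c z : ℂ} : z ∈ (Exc L c)ᶜ ↔ z ∉ L.lattice ∧ c - z ∉ L.lattice := by
  simp [Exc]

lemma analyticOnNhd_P_Exc (c : ℂ) : AnalyticOnNhd ℂ L.weierstrassP (Exc L c)ᶜ := by
  intro z hz
  exact L.analyticOnNhd_weierstrassP z ((mem_Exc_compl L).mp hz).1

lemma analyticOnNhd_dP_Exc (c : ℂ) : AnalyticOnNhd ℂ L.derivWeierstrassP (Exc L c)ᶜ := by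
  intro z hz
  exact L.analyticOnNhd_derivWeierstrassP z ((mem_Exc_compl L).mp hz).1

lemma analyticOnNhd_P_Exc' (c : ℂ) :
    AnalyticOnNhd ℂ (fun z => L.weierstrassP (c - z)) (Exc L c)ᶜ := by
  intro z hz
  exact analyticOnNhd_comp_sub c L.analyticOnNhd_weierstrassP z ((mem_Exc_compl L).mp hz).2

lemma analyticOnNhd_dP_Exc' (c : ℂ) :
    AnalyticOnNhd ℂ (fun z => L.derivWeierstrassP (c - z)) (Exc L c)ᶜ := by
  intro z hz
  exact analyticOnNhd_comp_sub c L.analyticOnNhd_derivWeierstrassP z ((mem_Exc_compl L).mp hz).2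

lemma eventually_sub_notMem {c : ℂ} (hc : c ∉ L.lattice) : ∀ᶠ z in 𝓝 (0 : ℂ), c - z ∉ L.lattice := by
  have : ContinuousAt (fun z : ℂ => c - z) 0 := by fun_prop
  have h := this.tendsto
  simp only [sub_zero] at h
  exact h.eventually (eventually_notMem_of_notMem L hc)

lemma eventually_MM_ne {c : ℂ} (hc : c ∉ L.lattice) :
    ∀ᶠ z in 𝓝[≠] (0 : ℂ), MM L z (c - z) ≠ 0 := by
  have hq : ContinuousAt (fun z : ℂ => L.weierstrassP (c - z)) 0 := by
    have : ContinuousAt L.weierstrassP (c - 0) := by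
      rw [sub_zero]; exact (L.analyticOnNhd_weierstrassP c hc).continuousAt
    exact this.comp (f := fun z : ℂ => c - z) (by fun_prop)
  have h1 : Tendsto (fun z : ℂ => z ^ 2 * MM L z (c - z)) (𝓝[≠] 0) (𝓝 (1 - 0 ^ 2 * L.weierstrassP (c - 0))) := by
    have h2 : Tendsto (fun z : ℂ => z ^ 2 * L.weierstrassP (c - z)) (𝓝[≠] 0)
        (𝓝 (0 ^ 2 * L.weierstrassP (c - 0))) := by
      have : ContinuousAt (fun z : ℂ => z ^ 2 * L.weierstrassP (c - z)) 0 := by fun_prop
      exact this.tendsto.mono_left nhdsWithin_le_nhds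
    refine ((tendsto_sq_mul_P L).sub h2).congr fun z => ?_
    rw [MM]; ring
  have h3 := h1.eventually_ne (show (1 - 0 ^ 2 * L.weierstrassP (c - 0) : ℂ) ≠ 0 by norm_num)
  filter_upwards [h3] with z hz h0
  rw [h0, mul_zero] at hz
  exact hz rfl

/-- the addition formula for the abscissa, near zero -/
lemma addition_near {c : ℂ} (hc : c ∉ L.lattice) :
    ∀ᶠ z in 𝓝[≠] (0 : ℂ), NN L z (c - z) = 2 * L.weierstrassP c * MM L z (c - z) ^ 2 := by
  have hq : ContinuousAt (fun z : ℂ => L.weierstrassP (c - z)) 0 := by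
    have : ContinuousAt L.weierstrassP (c - 0) := by
      rw [sub_zero]; exact (L.analyticOnNhd_weierstrassP c hc).continuousAt
    exact this.comp (f := fun z : ℂ => c - z) (by fun_prop)
  have hdq : ContinuousAt (fun z : ℂ => L.derivWeierstrassP (c - z)) 0 := by
    have : ContinuousAt L.derivWeierstrassP (c - 0) := by
      rw [sub_zero]; exact (L.analyticOnNhd_derivWeierstrassP c hc).continuousAt
    exact this.comp (f := fun z : ℂ => c - z) (by fun_prop)
  have hid : Tendsto (fun z : ℂ => z) (𝓝[≠] 0) (𝓝 0) := nhdsWithin_le_nhds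
  have hqt := hq.tendsto.mono_left (nhdsWithin_le_nhds (s := {(0 : ℂ)}ᶜ))
  have hdqt := hdq.tendsto.mono_left (nhdsWithin_le_nhds (s := {(0 : ℂ)}ᶜ))
  rw [sub_zero] at hqt hdqt
  have hP := tendsto_sq_mul_P L
  have hdP := tendsto_cube_mul_dP L
  have hlim : Tendsto (fun z => NN L z (c - z) / MM L z (c - z) ^ 2) (𝓝[≠] 0)
      (𝓝 (2 * L.weierstrassP c)) := by
    have hM : Tendsto (fun z : ℂ => z ^ 2 * MM L z (c - z)) (𝓝[≠] 0)
        (𝓝 (1 - 0 ^ 2 * L.weierstrassP c)) := by
      refine (hP.sub ((hid.pow 2).mul hqt)).congr fun z => ?_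
      rw [MM]; ring
    have hN : Tendsto (fun z : ℂ => z ^ 4 * NN L z (c - z)) (𝓝[≠] 0)
        (𝓝 (2 * 1 * L.weierstrassP c * (1 + 0 ^ 2 * L.weierstrassP c) -
          L.g₂ / 2 * (0 ^ 2 * 1 + 0 ^ 4 * L.weierstrassP c) - 0 ^ 4 * L.g₃ -
          0 * (-2) * L.derivWeierstrassP c)) := by
      refine ((((((hP.const_mul 2).mul hqt).mul (hP.add ((hid.pow 2).mul hqt))).sub
        ((((hid.pow 2).mul hP).add ((hid.pow 4).mul hqt)).const_mul (L.g₂ / 2))).sub
        ((hid.pow 4).mul_const L.g₃)).sub ((hid.mul hdP).mul hdqt)).congr fun z => ?_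
      rw [NN]; ring
    have h := hN.div (hM.pow 2) (by norm_num)
    have e : (2 * 1 * L.weierstrassP c * (1 + 0 ^ 2 * L.weierstrassP c) -
          L.g₂ / 2 * (0 ^ 2 * 1 + 0 ^ 4 * L.weierstrassP c) - 0 ^ 4 * L.g₃ -
          0 * (-2) * L.derivWeierstrassP c) / (1 - 0 ^ 2 * L.weierstrassP c) ^ 2 =
          2 * L.weierstrassP c := by
      norm_num
    rw [e] at h
    refine h.congr' ?_
    filter_upwards [self_mem_nhdsWithin] with z hz
    have hz0 : z ≠ 0 := hz
    simp only [Pi.div_apply]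
    rw [mul_pow, ← pow_mul]
    exact mul_div_mul_left _ _ (pow_ne_zero _ hz0)
  have hder : ∀ᶠ z in 𝓝[≠] (0 : ℂ), HasDerivAt (fun z => NN L z (c - z) / MM L z (c - z) ^ 2) 0 z := by
    filter_upwards [eventually_notMem L, mem_nhdsWithin_of_mem_nhds (eventually_sub_notMem L hc),
      eventually_MM_ne L hc] with z h1 h2 h3
    have hn := hasDerivAt_NN L h1 h2
    have hm := hasDerivAt_MM L h1 h2
    have := hn.div (hm.pow 2) (pow_ne_zero 2 h3)
    convert! this using 1
    rw [eq_comm, div_eq_zero_iff]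
    left
    have e1 := L.derivWeierstrassP_sq z h1
    have e2 := L.derivWeierstrassP_sq (c - z) h2
    simp only [Pi.pow_apply, NN, MM]
    push_cast
    linear_combination (2 * (L.weierstrassP z - L.weierstrassP (c - z)) *
      L.derivWeierstrassP (c - z)) * e1 + (2 * (L.weierstrassP z - L.weierstrassP (c - z)) *
      L.derivWeierstrassP z) * e2
  filter_upwards [const_of_deriv_zero hder hlim, eventually_MM_ne L hc] with z h1 h2
  rwa [div_eq_iff (pow_ne_zero 2 h2)] at h1

/-- the addition formula for the abscissa -/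
theorem addition {z w : ℂ} (hz : z ∉ L.lattice) (hw : w ∉ L.lattice) (hc : z + w ∉ L.lattice) :
    NN L z w = 2 * L.weierstrassP (z + w) * MM L z w ^ 2 := by
  have key := eqOn_of_near (Exc_countable L (z + w)) (Exc_closed L (z + w))
    (f := fun u => NN L u (z + w - u))
    (g := fun u => 2 * L.weierstrassP (z + w) * MM L u (z + w - u) ^ 2) ?_ ?_
    (addition_near L hc)
  · have := key ((mem_Exc_compl L).mpr ⟨hz, by simpa using hw⟩)
    simpa using this
  · intro u hu
    have h1 := analyticOnNhd_P_Exc L _ u hu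
    have h2 := analyticOnNhd_P_Exc' L _ u hu
    have h3 := analyticOnNhd_dP_Exc L _ u hu
    have h4 := analyticOnNhd_dP_Exc' L _ u hu
    unfold NN
    fun_prop
  · intro u hu
    have h1 := analyticOnNhd_P_Exc L _ u hu
    have h2 := analyticOnNhd_P_Exc' L _ u hu
    unfold MM
    fun_prop

end Fermat.Agent.H24
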