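import Mathlib
import Fermat.Agent.H24.Unif

/-!
# Complex uniformisation of elliptic curves: the group homomorphism
-/

set_option autoImplicit false

open PeriodPair Filter Topology WeierstrassCurve WeierstrassCurve.Affine
  WeierstrassCurve.Affine.Point

noncomputable section

namespace Fermat.Agent.H24

variable (L : PeriodPair)

/-- the addition formula for the ordinate -/
theorem addition_deriv {z w : ℂ} (hz : z ∉ L.lattice) (hw : w ∉ L.lattice)
    (hc : z + w ∉ L.lattice) (hM : MM L z w ≠ 0) :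
    L.derivWeierstrassP (z + w) = -((L.derivWeierstrassP z - L.derivWeierstrassP w) *
      (L.weierstrassP (z + w) - L.weierstrassP z) / MM L z w + L.derivWeierstrassP z) := by
  have hp := hasDerivAt_P L hz
  have hdp := hasDerivAt_dP L hz
  have hs : HasDerivAt (fun z => z + w) 1 z := by
    simpa using (hasDerivAt_id z).add_const w
  have hps : HasDerivAt (fun z => L.weierstrassP (z + w)) (L.derivWeierstrassP (z + w) * 1) z :=
    HasDerivAt.comp (h₂ := L.weierstrassP) z (hasDerivAt_P L hc) hs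
  have e1 : HasDerivAt (fun z => NN L z w)
      (2 * L.derivWeierstrassP z * L.weierstrassP w * (L.weierstrassP z + L.weierstrassP w) +
        2 * L.weierstrassP z * L.weierstrassP w * L.derivWeierstrassP z -
        L.g₂ / 2 * L.derivWeierstrassP z -
        (6 * L.weierstrassP z ^ 2 - L.g₂ / 2) * L.derivWeierstrassP w) z := by
    have := ((((((hp.const_mul 2).mul_const (L.weierstrassP w)).mul
      (hp.add_const (L.weierstrassP w))).sub
      ((hp.add_const (L.weierstrassP w)).const_mul (L.g₂ / 2))).sub_const L.g₃).sub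
      (hdp.mul_const (L.derivWeierstrassP w)))
    convert! this using 1
  have e2 : HasDerivAt (fun z => 2 * L.weierstrassP (z + w) * MM L z w ^ 2)
      (2 * L.derivWeierstrassP (z + w) * MM L z w ^ 2 +
        2 * L.weierstrassP (z + w) * (2 * MM L z w * L.derivWeierstrassP z)) z := by
    have hm : HasDerivAt (fun z => MM L z w) (L.derivWeierstrassP z) z := hp.sub_const _
    have := (hps.const_mul 2).mul (hm.pow 2)
    convert! this using 1
    push_cast
    simp only [Pi.pow_apply]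
    ring
  have e3 : (fun z => NN L z w) =ᶠ[𝓝 z] (fun z => 2 * L.weierstrassP (z + w) * MM L z w ^ 2) := by
    have h1 : ∀ᶠ u in 𝓝 z, u + w ∉ L.lattice := by
      have : ContinuousAt (fun u : ℂ => u + w) z := by fun_prop
      exact this.eventually (eventually_notMem_of_notMem L hc)
    filter_upwards [eventually_notMem_of_notMem L hz, h1] with u h2 h3
    exact addition L h2 hw h3
  have e4 := (e1.congr_of_eventuallyEq e3.symm).unique e2
  have e5 := addition L hz hw hc
  have o1 := L.derivWeierstrassP_sq z hz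
  have o2 := L.derivWeierstrassP_sq w hw
  have hMM : MM L z w = L.weierstrassP z - L.weierstrassP w := rfl
  have hNN : NN L z w = 2 * L.weierstrassP z * L.weierstrassP w *
      (L.weierstrassP z + L.weierstrassP w)
      - L.g₂ / 2 * (L.weierstrassP z + L.weierstrassP w) - L.g₃
      - L.derivWeierstrassP z * L.derivWeierstrassP w := rfl
  generalize L.weierstrassP z = p at *
  generalize L.weierstrassP w = q at *
  generalize L.derivWeierstrassP z = p' at *
  generalize L.derivWeierstrassP w = q' at *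
  generalize L.weierstrassP (z + w) = r at *
  generalize L.derivWeierstrassP (z + w) = r' at *
  generalize NN L z w = n at *
  generalize MM L z w = m at *
  subst hMM
  subst hNN
  rw [← neg_eq_iff_eq_neg, ← sub_eq_iff_eq_add, eq_div_iff hM]
  have hM3 : 2 * (p - q) ^ 2 ≠ 0 := mul_ne_zero two_ne_zero (pow_ne_zero _ hM)
  apply mul_left_cancel₀ hM3
  linear_combination (p - q) * e4 - (p' + q') * e5 - q' * o1 - p' * o2

variable {L} {V : WeierstrassCurve ℂ}

lemma equation_P (h4 : V.c₄ = 12 * L.g₂) (h6 : V.c₆ = 216 * L.g₃) {z : ℂ} (hz : z ∉ L.lattice) :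
    V.toAffine.Equation (L.weierstrassP z - V.b₂ / 12)
      ((L.derivWeierstrassP z - V.a₁ * (L.weierstrassP z - V.b₂ / 12) - V.a₃) / 2) := by
  rw [equation_iff]
  have h := L.derivWeierstrassP_sq z hz
  have e2 : L.g₂ = V.c₄ / 12 := by rw [h4]; ring
  have e3 : L.g₃ = V.c₆ / 216 := by rw [h6]; ring
  rw [e2, e3, WeierstrassCurve.c₄, WeierstrassCurve.c₆, WeierstrassCurve.b₄,
    WeierstrassCurve.b₆] at h
  rw [WeierstrassCurve.b₂] at h ⊢
  linear_combination h / 4

/-- the uniformisation map -/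
def phi (h4 : V.c₄ = 12 * L.g₂) (h6 : V.c₆ = 216 * L.g₃) (hΔ : V.Δ ≠ 0) (z : ℂ) :
    V.toAffine.Point :=
  letI := Classical.propDecidable (z ∈ L.lattice)
  if hz : z ∈ L.lattice then 0 else
    Point.some _ _ ((equation_iff_nonsingular_of_Δ_ne_zero hΔ).mp (equation_P h4 h6 hz))

variable (h4 : V.c₄ = 12 * L.g₂) (h6 : V.c₆ = 216 * L.g₃) (hΔ : V.Δ ≠ 0)

lemma phi_of_mem {z : ℂ} (hz : z ∈ L.lattice) : phi h4 h6 hΔ z = 0 := by
  rw [phi, dif_pos hz]

lemma phi_of_notMem {z : ℂ} (hz : z ∉ L.lattice) : phi h4 h6 hΔ z =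
    Point.some _ _ ((equation_iff_nonsingular_of_Δ_ne_zero hΔ).mp (equation_P h4 h6 hz)) := by
  rw [phi, dif_neg hz]

lemma phi_eq_zero_iff {z : ℂ} : phi h4 h6 hΔ z = 0 ↔ z ∈ L.lattice := by
  constructor
  · intro h
    by_contra hz
    rw [phi_of_notMem h4 h6 hΔ hz] at h
    exact some_ne_zero _ h
  · exact phi_of_mem h4 h6 hΔ

lemma phi_congr {z w : ℂ} (hz : z ∉ L.lattice) (hw : w ∉ L.lattice)
    (h1 : L.weierstrassP z = L.weierstrassP w)
    (h2 : L.derivWeierstrassP z = L.derivWeierstrassP w) : phi h4 h6 hΔ z = phi h4 h6 hΔ w := by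
  rw [phi_of_notMem h4 h6 hΔ hz, phi_of_notMem h4 h6 hΔ hw, some.injEq, h1, h2]
  exact ⟨rfl, rfl⟩

lemma phi_add_coe {z : ℂ} {l : ℂ} (hl : l ∈ L.lattice) :
    phi h4 h6 hΔ (z + l) = phi h4 h6 hΔ z := by
  by_cases hz : z ∈ L.lattice
  · rw [phi_of_mem _ _ _ hz, phi_of_mem _ _ _ (L.lattice.add_mem hz hl)]
  · have hzl : z + l ∉ L.lattice := fun h => hz (by
      have := L.lattice.sub_mem h hl
      rwa [add_sub_cancel_right] at this)
    exact phi_congr h4 h6 hΔ hzl hz (L.weierstrassP_add_coe z ⟨l, hl⟩)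
      (L.derivWeierstrassP_add_coe z ⟨l, hl⟩)

lemma phi_neg (z : ℂ) : phi h4 h6 hΔ (-z) = -phi h4 h6 hΔ z := by
  by_cases hz : z ∈ L.lattice
  · rw [phi_of_mem _ _ _ hz, phi_of_mem _ _ _ (L.lattice.neg_mem hz), _root_.neg_zero]
  · have hz' : -z ∉ L.lattice := fun h => hz (by simpa using L.lattice.neg_mem h)
    rw [phi_of_notMem _ _ _ hz, phi_of_notMem _ _ _ hz', neg_some, some.injEq]
    rw [L.weierstrassP_neg, L.derivWeierstrassP_neg, negY]
    refine ⟨rfl, ?_⟩
    ring

lemma phi_add_generic {z w : ℂ} (hz : z ∉ L.lattice) (hw : w ∉ L.lattice)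
    (hM : MM L z w ≠ 0) :
    phi h4 h6 hΔ (z + w) = phi h4 h6 hΔ z + phi h4 h6 hΔ w := by
  have hc : z + w ∉ L.lattice := by
    intro h
    apply hM
    have e : w = -z + (z + w) := by ring
    have e1 : L.weierstrassP w = L.weierstrassP (-z) := by
      rw [e]; exact L.weierstrassP_add_coe (-z) ⟨z + w, h⟩
    rw [MM, e1, L.weierstrassP_neg, sub_self]
  have hM' : L.weierstrassP z - L.weierstrassP w ≠ 0 := hM
  have e1 := addition L hz hw hc
  have e2 := addition_deriv L hz hw hc hM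
  have o1 := L.derivWeierstrassP_sq z hz
  have o2 := L.derivWeierstrassP_sq w hw
  rw [phi_of_notMem _ _ _ hz, phi_of_notMem _ _ _ hw, phi_of_notMem _ _ _ hc]
  have hx : L.weierstrassP z - V.b₂ / 12 ≠ L.weierstrassP w - V.b₂ / 12 := by
    intro h
    exact hM' (by linear_combination h)
  rw [add_of_X_ne hx, some.injEq, slope_of_X_ne hx]
  have hsl : ((L.derivWeierstrassP z - V.a₁ * (L.weierstrassP z - V.b₂ / 12) - V.a₃) / 2 -
      (L.derivWeierstrassP w - V.a₁ * (L.weierstrassP w - V.b₂ / 12) - V.a₃) / 2) /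
      (L.weierstrassP z - V.b₂ / 12 - (L.weierstrassP w - V.b₂ / 12)) =
      (L.derivWeierstrassP z - L.derivWeierstrassP w) / MM L z w / 2 - V.a₁ / 2 := by
    rw [MM]
    have : (L.weierstrassP z - V.b₂ / 12 - (L.weierstrassP w - V.b₂ / 12)) =
      L.weierstrassP z - L.weierstrassP w := by ring
    rw [this]
    field_simp
    ring
  rw [hsl]
  have hX : L.weierstrassP (z + w) - V.b₂ / 12 = V.toAffine.addX (L.weierstrassP z - V.b₂ / 12)
      (L.weierstrassP w - V.b₂ / 12)
      ((L.derivWeierstrassP z - L.derivWeierstrassP w) / MM L z w / 2 - V.a₁ / 2) := by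
    have e3 : L.weierstrassP (z + w) = NN L z w / (2 * MM L z w ^ 2) := by
      rw [e1]; field_simp
    rw [addX, e3, NN, MM, WeierstrassCurve.b₂]
    field_simp
    ring_nf
    linear_combination (-12 : ℂ) * o1 - 12 * o2
  refine ⟨hX, ?_⟩
  rw [addY, negY, negAddY, ← hX, e2]
  field_simp
  ring

lemma MM_neg_right (z w : ℂ) : MM L z (-w) = MM L z w := by
  rw [MM, MM, L.weierstrassP_neg]

lemma eventually_MM_ne' (z : ℂ) : ∀ᶠ u in 𝓝[≠] (0 : ℂ), MM L z u ≠ 0 := by
  filter_upwards [(tendsto_P_atTop L).eventually (eventually_gt_atTop ‖L.weierstrassP z‖)]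
    with u hu h
  have : L.weierstrassP u = L.weierstrassP z := by
    rw [MM] at h
    linear_combination -h
  rw [this] at hu
  exact lt_irrefl _ hu

lemma frequently_MM_ne {z w : ℂ} (hc : z + w ∉ L.lattice) :
    ∃ᶠ u in 𝓝[≠] (0 : ℂ), MM L (z + u) (w - u) ≠ 0 := by
  intro hcon
  have h1 : ∀ᶠ v in 𝓝[≠] z, L.weierstrassP v = L.weierstrassP (z + w - v) := by
    have ht : Tendsto (fun v : ℂ => v - z) (𝓝[≠] z) (𝓝[≠] 0) := by
      rw [tendsto_nhdsWithin_iff]
      refine ⟨?_, ?_⟩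
      · have : ContinuousAt (fun v : ℂ => v - z) z := by fun_prop
        have := this.tendsto.mono_left (nhdsWithin_le_nhds (s := {z}ᶜ))
        simpa using this
      · filter_upwards [self_mem_nhdsWithin] with v hv
        have hv' : v ≠ z := hv
        exact sub_ne_zero.mpr hv'
    filter_upwards [ht.eventually hcon] with v hv
    rw [not_not, MM, sub_eq_zero] at hv
    convert hv using 2 <;> ring
  have key := eqOn_of_near (Exc_countable L (z + w)) (Exc_closed L (z + w))
    (analyticOnNhd_P_Exc L _) (analyticOnNhd_P_Exc' L _) h1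
  have h5 : ∀ᶠ v in 𝓝[≠] (0 : ℂ), z + w - v ∉ L.lattice :=
    mem_nhdsWithin_of_mem_nhds (eventually_sub_notMem L hc)
  obtain ⟨v, h2, h3, h4⟩ := ((eventually_notMem L).and (h5.and (eventually_MM_ne L hc))).exists
  apply h4
  rw [MM, sub_eq_zero]
  exact key ((mem_Exc_compl L).mpr ⟨h2, h3⟩)

theorem phi_add (z w : ℂ) : phi h4 h6 hΔ (z + w) = phi h4 h6 hΔ z + phi h4 h6 hΔ w := by
  by_cases hz : z ∈ L.lattice
  · rw [add_comm, phi_add_coe h4 h6 hΔ hz, phi_of_mem h4 h6 hΔ hz, _root_.zero_add]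
  by_cases hw : w ∈ L.lattice
  · rw [phi_add_coe h4 h6 hΔ hw, phi_of_mem h4 h6 hΔ hw, _root_.add_zero]
  by_cases hc : z + w ∈ L.lattice
  · rw [phi_of_mem h4 h6 hΔ hc]
    have e : w = -z + (z + w) := by ring
    conv_rhs => rw [e]
    rw [phi_add_coe h4 h6 hΔ hc, phi_neg, add_neg_cancel]
  by_cases hM : MM L z w ≠ 0
  · exact phi_add_generic h4 h6 hΔ hz hw hM
  -- degenerate case
  have e1 : ∀ᶠ u in 𝓝[≠] (0 : ℂ), z + u ∉ L.lattice := by
    have : ContinuousAt (fun u : ℂ => z + u) 0 := by fun_prop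
    have h := this.tendsto
    simp only [_root_.add_zero] at h
    exact mem_nhdsWithin_of_mem_nhds (h.eventually (eventually_notMem_of_notMem L hz))
  have e2 : ∀ᶠ u in 𝓝[≠] (0 : ℂ), w - u ∉ L.lattice :=
    mem_nhdsWithin_of_mem_nhds (eventually_sub_notMem L hw)
  obtain ⟨u, hu1, hu2, hu3, hu4, hu5, hu6⟩ := ((frequently_MM_ne hc).and_eventually
    (e1.and (e2.and ((eventually_notMem L).and ((eventually_MM_ne' z).and
      (eventually_MM_ne' w)))))).exists
  have hu4' : -u ∉ L.lattice := fun h => hu4 (by simpa using L.lattice.neg_mem h)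
  have s1 : phi h4 h6 hΔ (z + w) = phi h4 h6 hΔ (z + u) + phi h4 h6 hΔ (w - u) := by
    rw [← phi_add_generic h4 h6 hΔ hu2 hu3 hu1]
    congr 1; ring
  rw [s1, phi_add_generic h4 h6 hΔ hz hu4 hu5, sub_eq_add_neg,
    phi_add_generic h4 h6 hΔ hw hu4' (by rw [MM_neg_right]; exact hu6), phi_neg]
  abel

/-- the uniformisation homomorphism -/
def Phi : ℂ →+ V.toAffine.Point where
  toFun := phi h4 h6 hΔ
  map_zero' := phi_of_mem h4 h6 hΔ L.lattice.zero_mem
  map_add' := phi_add h4 h6 hΔ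

lemma Phi_eq_zero_iff {z : ℂ} : Phi h4 h6 hΔ z = 0 ↔ z ∈ L.lattice := phi_eq_zero_iff h4 h6 hΔ

lemma Phi_eq_iff {z w : ℂ} : Phi h4 h6 hΔ z = Phi h4 h6 hΔ w ↔ z - w ∈ L.lattice := by
  rw [← sub_eq_zero, ← map_sub, Phi_eq_zero_iff]

lemma Phi_of_notMem {z : ℂ} (hz : z ∉ L.lattice) : Phi h4 h6 hΔ z =
    Point.some _ _ ((equation_iff_nonsingular_of_Δ_ne_zero hΔ).mp (equation_P h4 h6 hz)) :=
  phi_of_notMem h4 h6 hΔ hz

end Fermat.Agent.H24
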