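import Mathlib
import Fermat.Agent.H24.Unif2
import Fermat.Agent.H14.Eval2

/-!
# Velu's formulas for the invariants of a superlattice
-/

set_option autoImplicit false

open PeriodPair Filter Topology WeierstrassCurve WeierstrassCurve.Affine
  WeierstrassCurve.Affine.Point

noncomputable section

namespace Fermat.Agent.H24

variable {L : PeriodPair}

lemma iteratedDeriv_P {x : ℂ} (hx : x ∉ L.lattice) {n : ℕ} (hn : n ≠ 0) :
    iteratedDeriv n L.weierstrassP x = (n + 1).factorial * L.sumInvPow x (n + 2) := by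
  have h := L.iteratedDeriv_weierstrassPExcept_self x (n := n)
  rwa [if_neg hn, L.weierstrassPExcept_of_notMem _ hx] at h

lemma iteratedDeriv_two_P {x : ℂ} (hx : x ∉ L.lattice) :
    iteratedDeriv 2 L.weierstrassP x = 6 * L.weierstrassP x ^ 2 - L.g₂ / 2 := by
  rw [iteratedDeriv_succ, iteratedDeriv_one, L.deriv_weierstrassP]
  exact (hasDerivAt_dP L hx).deriv

lemma iteratedDeriv_three_P {x : ℂ} (hx : x ∉ L.lattice) :
    iteratedDeriv 3 L.weierstrassP x = 12 * L.weierstrassP x * L.derivWeierstrassP x := by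
  rw [iteratedDeriv_succ]
  have h : iteratedDeriv 2 L.weierstrassP =ᶠ[𝓝 x] fun x => 6 * L.weierstrassP x ^ 2 - L.g₂ / 2 := by
    filter_upwards [eventually_notMem_of_notMem L hx] with y hy
    exact iteratedDeriv_two_P hy
  rw [h.deriv_eq]
  have h1 := (((hasDerivAt_P L hx).pow 2).const_mul 6).sub_const (L.g₂ / 2)
  have h2 := h1.deriv
  convert! h2 using 1
  push_cast
  ring

lemma iteratedDeriv_four_P {x : ℂ} (hx : x ∉ L.lattice) :
    iteratedDeriv 4 L.weierstrassP x =
      120 * L.weierstrassP x ^ 3 - 18 * L.g₂ * L.weierstrassP x - 12 * L.g₃ := by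
  rw [iteratedDeriv_succ]
  have h : iteratedDeriv 3 L.weierstrassP =ᶠ[𝓝 x] fun x =>
      12 * L.weierstrassP x * L.derivWeierstrassP x := by
    filter_upwards [eventually_notMem_of_notMem L hx] with y hy
    exact iteratedDeriv_three_P hy
  rw [h.deriv_eq]
  have h1 := ((hasDerivAt_P L hx).const_mul 12).mul (hasDerivAt_dP L hx)
  have h2 := h1.deriv
  have o := L.derivWeierstrassP_sq x hx
  refine Eq.trans ?_ (h2.trans ?_)
  · rfl
  · linear_combination 12 * o

lemma sumInvPow_four {x : ℂ} (hx : x ∉ L.lattice) :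
    L.sumInvPow x 4 = (6 * L.weierstrassP x ^ 2 - L.g₂ / 2) / 6 := by
  have h := iteratedDeriv_P hx (n := 2) (by norm_num)
  rw [iteratedDeriv_two_P hx, show Nat.factorial (2 + 1) = 6 from rfl] at h
  rw [h]; push_cast; ring

lemma sumInvPow_six {x : ℂ} (hx : x ∉ L.lattice) :
    L.sumInvPow x 6 =
      (120 * L.weierstrassP x ^ 3 - 18 * L.g₂ * L.weierstrassP x - 12 * L.g₃) / 120 := by
  have h := iteratedDeriv_P hx (n := 4) (by norm_num)
  rw [iteratedDeriv_four_P hx, show Nat.factorial (4 + 1) = 120 from rfl] at h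
  rw [h]; push_cast; ring

/-- `(i, (m, k)) ↦ (m, k N + i)` -/
def midEquiv (N : ℕ) [NeZero N] : Fin N × (ℤ × ℤ) ≃ ℤ × ℤ where
  toFun p := (p.2.1, (Int.divModEquiv N).symm (p.2.2, p.1))
  invFun q := (((Int.divModEquiv N) q.2).2, (q.1, ((Int.divModEquiv N) q.2).1))
  left_inv p := by
    simp only [Equiv.apply_symm_apply]
  right_inv q := by
    simp only [Prod.mk.eta, Equiv.symm_apply_apply]

/-- the lattice `M` is generated by `L` and `ω₂ / N`. -/
structure IsSuper (L M : PeriodPair) (N : ℕ) : Prop where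
  h1 : M.ω₁ = L.ω₁
  h2 : N * M.ω₂ = L.ω₂

variable {M : PeriodPair} {N : ℕ} [NeZero N]

/-- `Fin N × L ≃ M` -/
def superEquiv (L M : PeriodPair) (N : ℕ) [NeZero N] : Fin N × L.lattice ≃ M.lattice :=
  ((Equiv.prodCongr (Equiv.refl _) L.latticeEquivProd.toEquiv).trans (midEquiv N)).trans
    M.latticeEquivProd.toEquiv.symm

lemma coe_superEquiv (h : IsSuper L M N) (p : Fin N × L.lattice) :
    ((superEquiv L M N p : M.lattice) : ℂ) = (p.2 : ℂ) - (-((p.1 : ℕ) * M.ω₂)) := by
  obtain ⟨i, l⟩ := p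
  obtain ⟨q, rfl⟩ := L.latticeEquivProd.symm.surjective l
  obtain ⟨m, k⟩ := q
  have e1 : superEquiv L M N (i, L.latticeEquivProd.symm (m, k)) =
      M.latticeEquivProd.symm (m, (Int.divModEquiv N).symm (k, i)) := by
    simp [superEquiv, midEquiv]
  rw [e1]
  have e2 := L.latticeEquiv_symm_apply (m, k)
  have e3 := M.latticeEquiv_symm_apply (m, (Int.divModEquiv N).symm (k, i))
  rw [e3]
  simp only
  rw [e2]
  simp only [Int.divModEquiv_symm_apply]
  push_cast
  rw [h.h1, ← h.h2]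
  ring

theorem G_super (h : IsSuper L M N) {r : ℕ} (hr : 2 < r) :
    M.G r = ∑ i : Fin N, L.sumInvPow (-((i : ℕ) * M.ω₂)) r := by
  have hs : Summable (fun l : M.lattice => ((l : ℂ) ^ r)⁻¹) := by
    have := (M.hasSum_sumInvPow 0 hr).summable
    simpa using this
  have hs2 : Summable (fun p : Fin N × L.lattice => (((superEquiv L M N p : M.lattice) : ℂ) ^ r)⁻¹) :=
    (superEquiv L M N).summable_iff.mpr hs
  rw [PeriodPair.G, ← (superEquiv L M N).tsum_eq, hs2.tsum_prod, tsum_fintype]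
  refine Finset.sum_congr rfl fun i _ => ?_
  rw [PeriodPair.sumInvPow]
  refine tsum_congr fun l => ?_
  rw [coe_superEquiv h]

/-- `i ω` is not in `L` for `0 < i < N`. -/
lemma notMem_of_super (h : IsSuper L M N) {i : ℕ} (h0 : i ≠ 0) (hi : i < N) :
    ((i : ℂ) * M.ω₂) ∉ L.lattice := by
  intro hmem
  rw [PeriodPair.mem_lattice] at hmem
  obtain ⟨a, b, hab⟩ := hmem
  rw [← h.h1, ← h.h2] at hab
  have hind := LinearIndependent.pair_iff.mp M.indep a (b * N - i) (by
    simp only [Complex.real_smul]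
    push_cast
    linear_combination hab)
  have h2 : (b * N - i : ℝ) = 0 := hind.2
  have h3 : (b * N : ℤ) = i := by
    have : ((b * N : ℤ) : ℝ) = ((i : ℤ) : ℝ) := by push_cast; linear_combination h2
    exact_mod_cast this
  have h4 : (N : ℤ) ∣ i := ⟨b, by rw [← h3]; ring⟩
  have h5 : N ∣ i := by exact_mod_cast h4
  exact absurd (Nat.le_of_dvd (Nat.pos_of_ne_zero h0) h5) (not_le.mpr hi)

theorem g₂_super (h : IsSuper L M N) :
    M.g₂ = L.g₂ + ∑ i ∈ Finset.Ico 1 N, 10 * (6 * L.weierstrassP (i * M.ω₂) ^ 2 - L.g₂ / 2) := by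
  rw [PeriodPair.g₂, G_super h (by norm_num), Fin.sum_univ_eq_sum_range
    (fun i => L.sumInvPow (-((i : ℕ) * M.ω₂)) 4) N, Finset.range_eq_Ico,
    Finset.sum_eq_sum_Ico_succ_bot (Nat.pos_of_ne_zero (NeZero.ne N))]
  rw [Nat.cast_zero, zero_mul, _root_.neg_zero, L.sumInvPow_zero, mul_add, Finset.mul_sum]
  congr 1
  refine Finset.sum_congr rfl fun i hi => ?_
  rw [Finset.mem_Ico] at hi
  have hne := notMem_of_super h (i := i) (by omega) hi.2
  have hne' : -((i : ℂ) * M.ω₂) ∉ L.lattice := fun hh => hne (by simpa using L.lattice.neg_mem hh)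
  rw [sumInvPow_four hne', L.weierstrassP_neg]
  ring

theorem g₃_super (h : IsSuper L M N) :
    M.g₃ = L.g₃ + ∑ i ∈ Finset.Ico 1 N, (140 * L.weierstrassP (i * M.ω₂) ^ 3 -
      21 * L.g₂ * L.weierstrassP (i * M.ω₂) - 14 * L.g₃) := by
  rw [PeriodPair.g₃, G_super h (by norm_num), Fin.sum_univ_eq_sum_range
    (fun i => L.sumInvPow (-((i : ℕ) * M.ω₂)) 6) N, Finset.range_eq_Ico,
    Finset.sum_eq_sum_Ico_succ_bot (Nat.pos_of_ne_zero (NeZero.ne N))]
  rw [Nat.cast_zero, zero_mul, _root_.neg_zero, L.sumInvPow_zero, mul_add, Finset.mul_sum]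
  congr 1
  refine Finset.sum_congr rfl fun i hi => ?_
  rw [Finset.mem_Ico] at hi
  have hne := notMem_of_super h (i := i) (by omega) hi.2
  have hne' : -((i : ℂ) * M.ω₂) ∉ L.lattice := fun hh => hne (by simpa using L.lattice.neg_mem hh)
  rw [sumInvPow_six hne', L.weierstrassP_neg, PeriodPair.g₃]
  ring

end Fermat.Agent.H24
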