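import Mathlib
import Fermat.Agent.H24.Unif3
import Fermat.Agent.H18_JFun
import Fermat.Agent.H09.TorsionCount

/-!
# Every complex elliptic curve with a point of prime order is uniformised by `(ℤτ + ℤ, 1/N)`
-/

set_option autoImplicit false

open PeriodPair WeierstrassCurve WeierstrassCurve.Affine
  WeierstrassCurve.Affine.Point
open UpperHalfPlane hiding I
open ModularForm EisensteinSeries
open scoped MatrixGroups Real

noncomputable section

namespace Fermat.Agent.H24

open Fermat.Agent.H14 (pp G_pp gR)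
open Fermat.Agent.H18 (jfun jfun_surjective jfun_mul_discriminant E4_cube_eq)

local notation "Δf" => ModularForm.discriminant

lemma bernoulli'_five' : bernoulli' 5 = 0 := by
  have : Nat.choose 5 2 = 10 := by decide
  rw [bernoulli'_def]
  norm_num [Finset.sum_range_succ, Finset.sum_range_zero, this, bernoulli'_three, bernoulli'_four]

lemma bernoulli'_six' : bernoulli' 6 = 1 / 42 := by
  have h2 : Nat.choose 6 2 = 15 := by decide
  have h3 : Nat.choose 6 3 = 20 := by decide
  have h4 : Nat.choose 6 4 = 15 := by decide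
  rw [bernoulli'_def]
  norm_num [Finset.sum_range_succ, Finset.sum_range_zero, h2, h3, h4, bernoulli'_three,
    bernoulli'_four, bernoulli'_five']

lemma riemannZeta_six' : riemannZeta 6 = (π : ℂ) ^ 6 / 945 := by
  have h := riemannZeta_two_mul_nat (k := 3) (by norm_num)
  have h6 : bernoulli 6 = 1 / 42 := by
    rw [bernoulli_eq_bernoulli'_of_ne_one (by norm_num), bernoulli'_six']
  have e : (2 * ((3 : ℕ) : ℂ)) = 6 := by norm_num
  rw [e] at h
  rw [h]
  simp only [show 2 * 3 = 6 from rfl, h6, show Nat.factorial 6 = 720 from rfl]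
  push_cast
  norm_num
  ring

variable (τ : ℍ) (l : ℂ) (hl : l ≠ 0)

lemma c4_pp : 12 * (pp τ l hl).g₂ = (2 * π / l) ^ 4 * E₄ τ := by
  rw [PeriodPair.g₂, G_pp τ l hl (by norm_num : 3 ≤ 4)]
  have : ((4 : ℕ) : ℂ) = 4 := by norm_num
  rw [this, riemannZeta_four]
  field_simp
  ring

lemma c6_pp : 216 * (pp τ l hl).g₃ = (2 * π / l) ^ 6 * E₆ τ := by
  rw [PeriodPair.g₃, G_pp τ l hl (by norm_num : 3 ≤ 6)]
  have : ((6 : ℕ) : ℂ) = 6 := by norm_num
  rw [this, riemannZeta_six']
  field_simp
  ring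

lemma delta_pp : (12 * (pp τ l hl).g₂) ^ 3 - (216 * (pp τ l hl).g₃) ^ 2 =
    1728 * ((2 * π / l) ^ 12 * Δf τ) := by
  rw [c4_pp, c6_pp]
  linear_combination ((2 * π / l) ^ 12) * E4_cube_eq τ

/-- every pair of invariants comes from a lattice -/
theorem exists_pp {c d : ℂ} (h : c ^ 3 - d ^ 2 ≠ 0) : ∃ (τ : ℍ) (l : ℂ) (hl : l ≠ 0),
    c = 12 * (pp τ l hl).g₂ ∧ d = 216 * (pp τ l hl).g₃ := by
  obtain ⟨τ, hτ⟩ := jfun_surjective (1728 * c ^ 3 / (c ^ 3 - d ^ 2))
  have hj := jfun_mul_discriminant τ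
  have hE := E4_cube_eq τ
  have hD : Δf τ ≠ 0 := discriminant_ne_zero τ
  rw [hτ] at hj
  have hrel : c ^ 3 * (E₆ τ) ^ 2 = d ^ 2 * (E₄ τ) ^ 3 := by
    have h1 : 1728 * c ^ 3 * Δf τ = E₄ τ ^ 3 * (c ^ 3 - d ^ 2) := by
      rw [← hj]; field_simp
    linear_combination -h1 - c ^ 3 * hE
  -- find t with t² E₄ = c, t³ E₆ = d
  obtain ⟨t, ht0, ht4, ht6⟩ : ∃ t : ℂ, t ≠ 0 ∧ t ^ 2 * E₄ τ = c ∧ t ^ 3 * E₆ τ = d := by
    by_cases h4 : E₄ τ = 0
    · have h6 : E₆ τ ≠ 0 := by
        intro h6
        rw [h4, h6] at hE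
        apply hD
        have : (1728 : ℂ) * Δf τ = 0 := by linear_combination -hE
        exact (mul_eq_zero.mp this).resolve_left (by norm_num)
      have hc : c = 0 := by
        rw [h4] at hrel
        have : c ^ 3 * E₆ τ ^ 2 = 0 := by rw [hrel]; ring
        rcases mul_eq_zero.mp this with h | h
        · exact pow_eq_zero_iff (by norm_num) |>.mp h
        · exact absurd (pow_eq_zero_iff (by norm_num) |>.mp h) h6
      have hd : d ≠ 0 := by
        rintro rfl
        apply h; rw [hc]; ring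
      obtain ⟨t, ht⟩ := IsAlgClosed.exists_pow_nat_eq (d / E₆ τ) (n := 3) (by norm_num)
      refine ⟨t, ?_, ?_, ?_⟩
      · rintro rfl
        have : d / E₆ τ = 0 := by rw [← ht]; ring
        exact (div_ne_zero hd h6) this
      · rw [h4, hc, mul_zero]
      · rw [ht]; field_simp
    · by_cases h6 : E₆ τ = 0
      · have hd : d = 0 := by
          rw [h6] at hrel
          have : d ^ 2 * E₄ τ ^ 3 = 0 := by rw [← hrel]; ring
          rcases mul_eq_zero.mp this with h | h
          · exact pow_eq_zero_iff (by norm_num) |>.mp h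
          · exact absurd (pow_eq_zero_iff (by norm_num) |>.mp h) h4
        have hc : c ≠ 0 := by
          rintro rfl
          apply h; rw [hd]; ring
        obtain ⟨t, ht⟩ := IsAlgClosed.exists_pow_nat_eq (c / E₄ τ) (n := 2) (by norm_num)
        refine ⟨t, ?_, ?_, ?_⟩
        · rintro rfl
          have : c / E₄ τ = 0 := by rw [← ht]; ring
          exact (div_ne_zero hc h4) this
        · rw [ht]; field_simp
        · rw [h6, hd, mul_zero]
      · have hc : c ≠ 0 := by
          rintro rfl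
          have h1 : d ^ 2 * (E₄ τ) ^ 3 = 0 := by rw [← hrel]; ring
          rcases mul_eq_zero.mp h1 with h2 | h2
          · apply h
            rw [pow_eq_zero_iff (by norm_num)] at h2
            rw [h2]; ring
          · exact h4 (pow_eq_zero_iff (by norm_num) |>.mp h2)
        have hd : d ≠ 0 := by
          rintro rfl
          have h1 : c ^ 3 * (E₆ τ) ^ 2 = 0 := by rw [hrel]; ring
          rcases mul_eq_zero.mp h1 with h2 | h2
          · exact hc (pow_eq_zero_iff (by norm_num) |>.mp h2)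
          · exact h6 (pow_eq_zero_iff (by norm_num) |>.mp h2)
        refine ⟨d * E₄ τ / (c * E₆ τ), ?_, ?_, ?_⟩
        · exact div_ne_zero (mul_ne_zero hd h4) (mul_ne_zero hc h6)
        · field_simp
          linear_combination -hrel
        · field_simp
          linear_combination -hrel
  obtain ⟨s, hs⟩ := IsAlgClosed.exists_pow_nat_eq t (n := 2) (by norm_num)
  have hs0 : s ≠ 0 := by
    rintro rfl
    apply ht0; rw [← hs]; ring
  have hpi : (π : ℂ) ≠ 0 := by exact_mod_cast Real.pi_ne_zero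
  refine ⟨τ, 2 * π / s, div_ne_zero (mul_ne_zero two_ne_zero hpi) hs0, ?_, ?_⟩
  · rw [c4_pp]
    have : 2 * (π : ℂ) / (2 * π / s) = s := by field_simp
    rw [this, ← ht4, ← hs]; ring
  · rw [c6_pp]
    have : 2 * (π : ℂ) / (2 * π / s) = s := by field_simp
    rw [this, ← ht6, ← hs]; ring

end Fermat.Agent.H24
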