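import Mathlib
import Fermat.Agent.H24.Unif4

/-!
# Every complex elliptic curve with a point of prime order is uniformised by `(ℤτ + ℤ, 1/N)`
-/

set_option autoImplicit false

open PeriodPair WeierstrassCurve WeierstrassCurve.Affine
  WeierstrassCurve.Affine.Point
open UpperHalfPlane hiding I
open ModularForm EisensteinSeries
open scoped MatrixGroups Real

noncomputable section

namespace Fermat.Agent.H24

open Fermat.Agent.H14 (pp G_pp gR)

section congr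

variable {L M : PeriodPair} (h : L.lattice = M.lattice)

include h

lemma P_congr (z : ℂ) : L.weierstrassP z = M.weierstrassP z := by
  unfold PeriodPair.weierstrassP
  rw [h]

lemma dP_congr (z : ℂ) : L.derivWeierstrassP z = M.derivWeierstrassP z := by
  unfold PeriodPair.derivWeierstrassP
  rw [h]

lemma G_congr (n : ℕ) : L.G n = M.G n := by
  unfold PeriodPair.G
  rw [h]

lemma g₂_congr : L.g₂ = M.g₂ := by rw [PeriodPair.g₂, PeriodPair.g₂, G_congr h]

lemma g₃_congr : L.g₃ = M.g₃ := by rw [PeriodPair.g₃, PeriodPair.g₃, G_congr h]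

lemma Phi_congr {V : WeierstrassCurve ℂ} (h4 : V.c₄ = 12 * L.g₂) (h6 : V.c₆ = 216 * L.g₃)
    (h4' : V.c₄ = 12 * M.g₂) (h6' : V.c₆ = 216 * M.g₃) (hΔ : V.Δ ≠ 0) (z : ℂ) :
    Phi h4 h6 hΔ z = Phi h4' h6' hΔ z := by
  by_cases hz : z ∈ L.lattice
  · have hz' : z ∈ M.lattice := h ▸ hz
    rw [(Phi_eq_zero_iff h4 h6 hΔ).mpr hz, (Phi_eq_zero_iff h4' h6' hΔ).mpr hz']
  · have hz' : z ∉ M.lattice := fun hh => hz (h.symm ▸ hh)
    rw [Phi_of_notMem h4 h6 hΔ hz, Phi_of_notMem h4' h6' hΔ hz', some.injEq, P_congr h, dP_congr h]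
    exact ⟨rfl, rfl⟩

end congr

/-- all odd torsion points come from the uniformisation. -/
theorem exists_of_torsion {L : PeriodPair} {V : WeierstrassCurve ℂ} (h4 : V.c₄ = 12 * L.g₂)
    (h6 : V.c₆ = 216 * L.g₃) (hΔ : V.Δ ≠ 0) {N : ℕ} (hodd : Odd N) (P : V.toAffine.Point)
    (hP : N • P = 0) : ∃ a b : ℤ, P = Phi h4 h6 hΔ ((a * L.ω₁ + b * L.ω₂) / N) := by
  have hN0 : (N : ℂ) ≠ 0 := by
    have := hodd.pos
    exact_mod_cast this.ne'
  let f : Fin N × Fin N → V.toAffine.Point := fun p =>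
    Phi h4 h6 hΔ ((((p.1 : ℕ) : ℤ) * L.ω₁ + ((p.2 : ℕ) : ℤ) * L.ω₂) / N)
  have hinj : Function.Injective f := by
    rintro ⟨a, b⟩ ⟨a', b'⟩ hab
    have h1 := (Phi_eq_iff h4 h6 hΔ).mp hab
    rw [PeriodPair.mem_lattice] at h1
    obtain ⟨m, n, hmn⟩ := h1
    have hind := LinearIndependent.pair_iff.mp L.indep (N * m - (a - a')) (N * n - (b - b')) (by
      simp only [Complex.real_smul]
      push_cast at hmn ⊢
      field_simp at hmn
      linear_combination hmn)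
    have e1 : (N * m : ℤ) = (a : ℕ) - (a' : ℕ) := by
      have : ((N * m : ℤ) : ℝ) = (((a : ℕ) : ℤ) - ((a' : ℕ) : ℤ) : ℤ) := by
        push_cast; linear_combination hind.1
      exact_mod_cast this
    have e2 : (N * n : ℤ) = (b : ℕ) - (b' : ℕ) := by
      have : ((N * n : ℤ) : ℝ) = (((b : ℕ) : ℤ) - ((b' : ℕ) : ℤ) : ℤ) := by
        push_cast; linear_combination hind.2
      exact_mod_cast this
    have hm : m = 0 := by
      have h1 := a.isLt
      have h2 := a'.isLt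
      by_contra hm
      rcases lt_or_gt_of_ne hm with h | h
      · have : (N : ℤ) * m ≤ -N := by nlinarith
        omega
      · have : (N : ℤ) ≤ N * m := by nlinarith
        omega
    have hn : n = 0 := by
      have h1 := b.isLt
      have h2 := b'.isLt
      by_contra hm
      rcases lt_or_gt_of_ne hm with h | h
      · have : (N : ℤ) * n ≤ -N := by nlinarith
        omega
      · have : (N : ℤ) ≤ N * n := by nlinarith
        omega
    rw [hm] at e1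
    rw [hn] at e2
    ext <;> simp <;> omega
  have hfin := H09.card_torsion_le (W := V.toAffine) hodd hN0
  have hsub : Set.range f ⊆ {P : V.toAffine.Point | N • P = 0} := by
    rintro _ ⟨p, rfl⟩
    show N • Phi h4 h6 hΔ _ = 0
    rw [← map_nsmul, nsmul_eq_mul, mul_div_cancel₀ _ hN0, Phi_eq_zero_iff, PeriodPair.mem_lattice]
    exact ⟨_, _, rfl⟩
  have hcard : (Set.range f).ncard = N ^ 2 := by
    rw [← Set.image_univ, Set.ncard_image_of_injective _ hinj, Set.ncard_univ]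
    simp [sq]
  have heq := Set.eq_of_subset_of_ncard_le hsub (by rw [hcard]; exact hfin.2) hfin.1
  have hP' : P ∈ Set.range f := by rw [heq]; exact hP
  obtain ⟨p, rfl⟩ := hP'
  exact ⟨_, _, rfl⟩

/-- lifting a nonzero vector mod `N` to a primitive vector. -/
lemma exists_coprime_lift {N : ℕ} (hN : N.Prime) (a b : ℤ) (hab : ¬ ((N : ℤ) ∣ a ∧ (N : ℤ) ∣ b)) :
    ∃ a' b' : ℤ, (N : ℤ) ∣ a - a' ∧ (N : ℤ) ∣ b - b' ∧ IsCoprime a' b' := by
  have hN' := Nat.prime_iff_prime_int.mp hN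
  by_cases hb : (N : ℤ) ∣ b
  · have ha : ¬ (N : ℤ) ∣ a := fun h => hab ⟨h, hb⟩
    refine ⟨a, N, by simp, ?_, ?_⟩
    · exact dvd_sub hb dvd_rfl
    · exact ((Prime.coprime_iff_not_dvd hN').mpr ha).symm
  · obtain ⟨u, v, huv⟩ := (Prime.coprime_iff_not_dvd hN').mpr hb
    refine ⟨a * (v * b) + u * N, b, ?_, by simp, ?_⟩
    · refine ⟨a * u - u, ?_⟩
      linear_combination a * huv.symm
    · refine ⟨1, -(a * v - v), ?_⟩
      linear_combination huv

/-- change of basis -/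
lemma lattice_pp_smul (γ : SL(2, ℤ)) (τ : ℍ) (l : ℂ) (hl : l ≠ 0) :
    (pp (γ • τ) (l * denom γ τ) (mul_ne_zero hl (denom_ne_zero _ τ))).lattice =
      (pp τ l hl).lattice := by
  have hd : (denom γ τ : ℂ) = (γ 1 0 : ℂ) * τ + (γ 1 1 : ℂ) := ModularGroup.denom_apply γ τ
  have h0 := denom_ne_zero γ τ
  have hn : denom γ τ * ((γ • τ : ℍ) : ℂ) = ((γ 0 0 : ℂ) * τ + (γ 0 1 : ℂ)) := by
    rw [coe_specialLinearGroup_apply]
    rw [hd] at h0 ⊢
    simp only [eq_intCast, algebraMap_int_eq, Complex.ofReal_intCast]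
    field_simp
  have hdet : (γ 0 0 : ℂ) * γ 1 1 - γ 0 1 * γ 1 0 = 1 := by
    have := Matrix.det_fin_two (γ : Matrix (Fin 2) (Fin 2) ℤ)
    rw [γ.2] at this
    exact_mod_cast this.symm
  ext z
  rw [PeriodPair.mem_lattice, PeriodPair.mem_lattice]
  show (∃ m n : ℤ, m * (l * denom γ τ * ((γ • τ : ℍ) : ℂ)) + n * (l * denom γ τ) = z) ↔
    (∃ m n : ℤ, m * (l * (τ : ℂ)) + n * l = z)
  constructor
  · rintro ⟨m, n, rfl⟩
    refine ⟨m * γ 0 0 + n * γ 1 0, m * γ 0 1 + n * γ 1 1, ?_⟩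
    push_cast
    rw [mul_assoc l, hn, hd]
    ring
  · rintro ⟨m, n, rfl⟩
    refine ⟨m * γ 1 1 - n * γ 1 0, -m * γ 0 1 + n * γ 0 0, ?_⟩
    push_cast
    rw [mul_assoc l, hn, hd]
    linear_combination (m * (l * τ) + n * l) * hdet

/-- **uniformisation** of a complex elliptic curve with a point of prime order. -/
theorem uniformise {V : WeierstrassCurve ℂ} (hΔ : V.Δ ≠ 0) {N : ℕ} (hN : N.Prime) (hN2 : N ≠ 2)
    (P : V.toAffine.Point) (hP : N • P = 0) (hP0 : P ≠ 0) :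
    ∃ (τ : ℍ) (l : ℂ) (hl : l ≠ 0) (h4 : V.c₄ = 12 * (pp τ l hl).g₂)
      (h6 : V.c₆ = 216 * (pp τ l hl).g₃), P = Phi h4 h6 hΔ (l / N) := by
  have hrel := V.c_relation
  obtain ⟨τ, l, hl, h4, h6⟩ := exists_pp (c := V.c₄) (d := V.c₆) (by
    rw [← hrel]; exact mul_ne_zero (by norm_num) hΔ)
  have hN0 : (N : ℂ) ≠ 0 := by exact_mod_cast hN.ne_zero
  obtain ⟨a, b, hab⟩ := exists_of_torsion h4 h6 hΔ (hN.odd_of_ne_two hN2) P hP
  have hnd : ¬ ((N : ℤ) ∣ a ∧ (N : ℤ) ∣ b) := by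
    rintro ⟨⟨a, rfl⟩, ⟨b, rfl⟩⟩
    apply hP0
    rw [hab, Phi_eq_zero_iff, PeriodPair.mem_lattice]
    refine ⟨a, b, ?_⟩
    push_cast
    field_simp
  obtain ⟨a', b', ⟨u, hu⟩, ⟨v, hv⟩, hco⟩ := exists_coprime_lift hN a b hnd
  obtain ⟨γ, -, hγ⟩ := ModularGroup.bottom_row_surj (R := ℤ)
    (show (![a', b'] : Fin 2 → ℤ) ∈ {cd : Fin 2 → ℤ | IsCoprime (cd 0) (cd 1)} from hco)
  have hγ0 : γ 1 0 = a' := congrFun hγ 0
  have hγ1 : γ 1 1 = b' := congrFun hγ 1
  have hd : (denom γ τ : ℂ) = (γ 1 0 : ℂ) * τ + (γ 1 1 : ℂ) := ModularGroup.denom_apply γ τ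
  have hlat := lattice_pp_smul γ τ l hl
  refine ⟨γ • τ, l * denom γ τ, mul_ne_zero hl (denom_ne_zero _ τ), ?_, ?_, ?_⟩
  · rw [h4, g₂_congr hlat]
  · rw [h6, g₃_congr hlat]
  · rw [Phi_congr hlat _ _ h4 h6, hab, Phi_eq_iff, PeriodPair.mem_lattice]
    refine ⟨u, v, ?_⟩
    show u * (l * (τ : ℂ)) + v * l = (a * (l * (τ : ℂ)) + b * l) / N - l * denom γ τ / N
    rw [hd, hγ0, hγ1]
    have hu' : (a : ℂ) - a' = N * u := by exact_mod_cast hu
    have hv' : (b : ℂ) - b' = N * v := by exact_mod_cast hv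
    field_simp
    linear_combination (-(τ : ℂ)) * hu' - hv'

end Fermat.Agent.H24
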