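import Mathlib
import Fermat.Agent.H24.Unif5

/-!
# Velu's invariants of the quotient of an elliptic curve by a finite subgroup
-/

set_option autoImplicit false

open WeierstrassCurve WeierstrassCurve.Affine WeierstrassCurve.Affine.Point
open UpperHalfPlane hiding I
open ModularForm EisensteinSeries
open scoped MatrixGroups Real

noncomputable section

namespace Fermat.Agent.H24

open Fermat.Agent.H14 (pp G_pp gR coe_gR_smul)
open Fermat.Agent.H18 (jfun jfun_surjective jfun_mul_discriminant E4_cube_eq)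

section defs

variable {k : Type*} [Field k] {W : WeierstrassCurve.Affine k}

/-- summand of Velu's formula for `c₄` -/
def t4 : W.Point → k
  | .zero => 0
  | .some x _ _ => 720 * (x + W.b₂ / 12) ^ 2 - 5 * W.c₄

/-- summand of Velu's formula for `c₆` -/
def t6 : W.Point → k
  | .zero => 0
  | .some x _ _ => 30240 * (x + W.b₂ / 12) ^ 3 - 378 * W.c₄ * (x + W.b₂ / 12) - 14 * W.c₆

/-- `2y + a₁x + a₃` -/
def ps : W.Point → k
  | .zero => 1
  | .some x y _ => 2 * y + W.a₁ * x + W.a₃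

variable (W)

/-- `c₄` of the quotient curve (with the pulled back differential) -/
def veluC4 (C : Set W.Point) : k := W.c₄ + ∑ᶠ Q ∈ C, t4 Q

/-- `c₆` of the quotient curve (with the pulled back differential) -/
def veluC6 (C : Set W.Point) : k := W.c₆ + ∑ᶠ Q ∈ C, t6 Q

/-- `Δ` of the quotient curve (with the pulled back differential) -/
def veluD (C : Set W.Point) : k := (veluC4 W C ^ 3 - veluC6 W C ^ 2) / 1728

/-- `j` of the quotient curve -/
def veluJ (C : Set W.Point) : k := veluC4 W C ^ 3 / veluD W C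

@[simp] lemma t4_zero : t4 (0 : W.Point) = 0 := rfl
@[simp] lemma t6_zero : t6 (0 : W.Point) = 0 := rfl
@[simp] lemma ps_zero : ps (0 : W.Point) = 1 := rfl

variable {W}

lemma t4_some {x y : k} (h : W.Nonsingular x y) :
    t4 (Point.some x y h) = 720 * (x + W.b₂ / 12) ^ 2 - 5 * W.c₄ := rfl
lemma t6_some {x y : k} (h : W.Nonsingular x y) :
    t6 (Point.some x y h) = 30240 * (x + W.b₂ / 12) ^ 3 - 378 * W.c₄ * (x + W.b₂ / 12)
      - 14 * W.c₆ := rfl
lemma ps_some {x y : k} (h : W.Nonsingular x y) :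
    ps (Point.some x y h) = 2 * y + W.a₁ * x + W.a₃ := rfl

end defs

section map

variable {F : Type*} [Field F] {K : Type*} [Field K] [Algebra F K] {L : Type*} [Field L]
  [Algebra F L] [DecidableEq K] [DecidableEq L] {W : WeierstrassCurve.Affine F}

lemma map_c4_eq (f : K →ₐ[F] L) : f (W⁄K).c₄ = (W⁄L).c₄ := by
  have e1 : (W⁄K).c₄ = algebraMap F K W.c₄ := WeierstrassCurve.map_c₄ W _
  have e2 : (W⁄L).c₄ = algebraMap F L W.c₄ := WeierstrassCurve.map_c₄ W _
  rw [e1, e2, AlgHom.commutes]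

lemma map_c6_eq (f : K →ₐ[F] L) : f (W⁄K).c₆ = (W⁄L).c₆ := by
  have e1 : (W⁄K).c₆ = algebraMap F K W.c₆ := WeierstrassCurve.map_c₆ W _
  have e2 : (W⁄L).c₆ = algebraMap F L W.c₆ := WeierstrassCurve.map_c₆ W _
  rw [e1, e2, AlgHom.commutes]

lemma map_b2_eq (f : K →ₐ[F] L) : f (W⁄K).b₂ = (W⁄L).b₂ := by
  have e1 : (W⁄K).b₂ = algebraMap F K W.b₂ := WeierstrassCurve.map_b₂ W _
  have e2 : (W⁄L).b₂ = algebraMap F L W.b₂ := WeierstrassCurve.map_b₂ W _
  rw [e1, e2, AlgHom.commutes]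

lemma map_Δ_eq (f : K →ₐ[F] L) : f (W⁄K).Δ = (W⁄L).Δ := by
  have e1 : (W⁄K).Δ = algebraMap F K W.Δ := WeierstrassCurve.map_Δ W _
  have e2 : (W⁄L).Δ = algebraMap F L W.Δ := WeierstrassCurve.map_Δ W _
  rw [e1, e2, AlgHom.commutes]

lemma t4_map (f : K →ₐ[F] L) (P : (W⁄K).Point) : t4 (Point.map f P) = f (t4 P) := by
  rcases P with _ | ⟨x, y, h⟩
  · exact (_root_.map_zero f).symm
  · show 720 * (f x + (W⁄L).b₂ / 12) ^ 2 - 5 * (W⁄L).c₄ = f (720 * (x + (W⁄K).b₂ / 12) ^ 2 -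
      5 * (W⁄K).c₄)
    simp only [map_sub, map_mul, map_pow, _root_.map_add, map_div₀, map_ofNat, map_c4_eq,
      map_b2_eq]

lemma t6_map (f : K →ₐ[F] L) (P : (W⁄K).Point) : t6 (Point.map f P) = f (t6 P) := by
  rcases P with _ | ⟨x, y, h⟩
  · exact (_root_.map_zero f).symm
  · show 30240 * (f x + (W⁄L).b₂ / 12) ^ 3 - 378 * (W⁄L).c₄ * (f x + (W⁄L).b₂ / 12)
      - 14 * (W⁄L).c₆ = f (30240 * (x + (W⁄K).b₂ / 12) ^ 3 - 378 * (W⁄K).c₄ *
      (x + (W⁄K).b₂ / 12) - 14 * (W⁄K).c₆)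
    simp only [map_sub, map_mul, map_pow, _root_.map_add, map_div₀, map_ofNat, map_c4_eq,
      map_b2_eq, map_c6_eq]

lemma ps_map (f : K →ₐ[F] L) (P : (W⁄K).Point) : ps (Point.map f P) = f (ps P) := by
  rcases P with _ | ⟨x, y, h⟩
  · exact (_root_.map_one f).symm
  · have h1 : f ((W⁄K).a₁) = (W⁄L).a₁ := AlgHom.commutes f W.a₁
    have h3 : f ((W⁄K).a₃) = (W⁄L).a₃ := AlgHom.commutes f W.a₃
    show 2 * f y + (W⁄L).a₁ * f x + (W⁄L).a₃ = f (2 * y + (W⁄K).a₁ * x + (W⁄K).a₃)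
    simp only [map_mul, _root_.map_add, map_ofNat, h1, h3]

lemma veluC4_map (f : K →ₐ[F] L) {C : Set (W⁄K).Point} (hC : C.Finite) :
    veluC4 (W⁄L) (Point.map (W' := W) f '' C) = f (veluC4 (W⁄K) C) := by
  have h := AddMonoidHom.map_finsum_mem (fun Q => t4 Q) ((f : K →+* L) : K →+ L) hC
  rw [veluC4, veluC4, _root_.map_add, map_c4_eq, finsum_mem_image
    ((Point.map_injective (W' := W) f).injOn)]
  simp only [t4_map]
  congr 1
  exact h.symm

lemma veluC6_map (f : K →ₐ[F] L) {C : Set (W⁄K).Point} (hC : C.Finite) :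
    veluC6 (W⁄L) (Point.map (W' := W) f '' C) = f (veluC6 (W⁄K) C) := by
  have h := AddMonoidHom.map_finsum_mem (fun Q => t6 Q) ((f : K →+* L) : K →+ L) hC
  rw [veluC6, veluC6, _root_.map_add, map_c6_eq, finsum_mem_image
    ((Point.map_injective (W' := W) f).injOn)]
  simp only [t6_map]
  congr 1
  exact h.symm

lemma veluD_map (f : K →ₐ[F] L) {C : Set (W⁄K).Point} (hC : C.Finite) :
    veluD (W⁄L) (Point.map (W' := W) f '' C) = f (veluD (W⁄K) C) := by
  rw [veluD, veluD, veluC4_map f hC, veluC6_map f hC]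
  simp only [map_div₀, map_sub, map_pow, map_ofNat]

lemma veluJ_map (f : K →ₐ[F] L) {C : Set (W⁄K).Point} (hC : C.Finite) :
    veluJ (W⁄L) (Point.map (W' := W) f '' C) = f (veluJ (W⁄K) C) := by
  rw [veluJ, veluJ, veluC4_map f hC, veluD_map f hC]
  simp only [map_div₀, map_pow]

lemma prod_ps_map (f : K →ₐ[F] L) {C : Set (W⁄K).Point} (hC : C.Finite) :
    ∏ᶠ Q ∈ (Point.map (W' := W) f '' C), ps Q ^ 4 = f (∏ᶠ Q ∈ C, ps Q ^ 4) := by
  have h := MonoidHom.map_finprod_mem (fun Q => ps Q ^ 4) ((f : K →+* L) : K →* L) hC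
  rw [finprod_mem_image ((Point.map_injective (W' := W) f).injOn)]
  simp only [ps_map]
  refine Eq.trans ?_ h.symm
  refine finprod_mem_congr rfl fun Q _ => ?_
  simp

end map

section complex

variable {V : WeierstrassCurve ℂ}

/-- a subgroup of prime order is `{i • P}` -/
lemma subgroup_eq_image {G : Type*} [AddCommGroup G] {N : ℕ}
    (hN : N.Prime) {C : AddSubgroup G} (hC : Nat.card C = N) {P : G} (hP : P ∈ C) (hP0 : P ≠ 0) :
    (C : Set G) = (fun i : ℕ => i • P) '' (Finset.range N : Set ℕ) ∧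
      Set.InjOn (fun i : ℕ => i • P) (Finset.range N : Set ℕ) := by
  have hfin : Finite C := Nat.finite_of_card_ne_zero (by rw [hC]; exact hN.ne_zero)
  have hord : addOrderOf P = N := by
    have h1 : addOrderOf P ∣ N := by
      rw [← hC, ← AddSubgroup.addOrderOf_mk P hP]
      exact addOrderOf_dvd_natCard _
    rcases (Nat.dvd_prime hN).mp h1 with h | h
    · exact absurd (AddMonoid.addOrderOf_eq_one_iff.mp h) hP0
    · exact h
  have hinj : Set.InjOn (fun i : ℕ => i • P) (Finset.range N : Set ℕ) := by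
    intro i hi j hj hij
    simp only [Finset.coe_range, Set.mem_Iio] at hi hj
    rw [← hord] at hi hj
    exact nsmul_injOn_Iio_addOrderOf hi hj hij
  refine ⟨?_, hinj⟩
  symm
  have hsub : (fun i : ℕ => i • P) '' (Finset.range N : Set ℕ) ⊆ (C : Set G) := by
    rintro _ ⟨i, _, rfl⟩
    exact C.nsmul_mem hP i
  refine Set.eq_of_subset_of_ncard_le hsub ?_ (Set.toFinite _)
  rw [Set.ncard_image_of_injOn hinj, Set.ncard_coe_finset, Finset.card_range, ← hC]
  rfl

lemma finsum_subgroup {G : Type*} [AddCommGroup G] {k : Type*} [AddCommMonoid k] {N : ℕ}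
    (hN : N.Prime) {C : AddSubgroup G} (hC : Nat.card C = N) {P : G} (hP : P ∈ C) (hP0 : P ≠ 0)
    (f : G → k) : ∑ᶠ Q ∈ (C : Set G), f Q = ∑ i ∈ Finset.range N, f (i • P) := by
  obtain ⟨hset, hinj⟩ := subgroup_eq_image hN hC hP hP0
  rw [hset, finsum_mem_image hinj, finsum_mem_coe_finset]

lemma finprod_subgroup {G : Type*} [AddCommGroup G] {k : Type*} [CommMonoid k] {N : ℕ}
    (hN : N.Prime) {C : AddSubgroup G} (hC : Nat.card C = N) {P : G} (hP : P ∈ C) (hP0 : P ≠ 0)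
    (f : G → k) : ∏ᶠ Q ∈ (C : Set G), f Q = ∏ i ∈ Finset.range N, f (i • P) := by
  obtain ⟨hset, hinj⟩ := subgroup_eq_image hN hC hP hP0
  rw [hset, finprod_mem_image hinj, finprod_mem_coe_finset]

lemma isSuper_pp {N : ℕ} [NeZero N] (τ : ℍ) (l : ℂ) (hl : l ≠ 0) (hl' : l / N ≠ 0) :
    IsSuper (pp τ l hl) (pp (gR N • τ) (l / N) hl') N := by
  have hN : (N : ℂ) ≠ 0 := by exact_mod_cast NeZero.ne N
  constructor
  · show l / N * ((gR N • τ : ℍ) : ℂ) = l * τ
    rw [coe_gR_smul]; field_simp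
  · show (N : ℂ) * (l / N) = l
    field_simp

variable {L M : PeriodPair} (h4 : V.c₄ = 12 * L.g₂) (h6 : V.c₆ = 216 * L.g₃) (hΔ : V.Δ ≠ 0)

include h4 h6 in
lemma veluC4_complex {N : ℕ} [NeZero N] (hN : N.Prime) (hs : IsSuper L M N)
    {C : AddSubgroup V.toAffine.Point} (hC : Nat.card C = N)
    (hP : Phi h4 h6 hΔ M.ω₂ ∈ C) : veluC4 V.toAffine (C : Set V.toAffine.Point) = 12 * M.g₂ := by
  have h1 := notMem_of_super hs (i := 1) one_ne_zero hN.one_lt
  have hP0 : Phi h4 h6 hΔ M.ω₂ ≠ 0 := by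
    rw [Ne, Phi_eq_zero_iff]; simpa using h1
  rw [veluC4, finsum_subgroup hN hC hP hP0, g₂_super hs, Finset.range_eq_Ico,
    Finset.sum_eq_sum_Ico_succ_bot hN.pos, zero_nsmul, t4_zero, _root_.zero_add, mul_add, ← h4]
  congr 1
  rw [Finset.mul_sum]
  refine Finset.sum_congr rfl fun i hi => ?_
  rw [Finset.mem_Ico] at hi
  have h2 := notMem_of_super hs (i := i) (by omega) hi.2
  rw [← map_nsmul, nsmul_eq_mul, Phi_of_notMem h4 h6 hΔ h2, t4_some]
  have e : V.toAffine.c₄ = 12 * L.g₂ := h4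
  rw [e]
  ring

include h4 h6 in
lemma veluC6_complex {N : ℕ} [NeZero N] (hN : N.Prime) (hs : IsSuper L M N)
    {C : AddSubgroup V.toAffine.Point} (hC : Nat.card C = N)
    (hP : Phi h4 h6 hΔ M.ω₂ ∈ C) : veluC6 V.toAffine (C : Set V.toAffine.Point) = 216 * M.g₃ := by
  have h1 := notMem_of_super hs (i := 1) one_ne_zero hN.one_lt
  have hP0 : Phi h4 h6 hΔ M.ω₂ ≠ 0 := by
    rw [Ne, Phi_eq_zero_iff]; simpa using h1
  rw [veluC6, finsum_subgroup hN hC hP hP0, g₃_super hs, Finset.range_eq_Ico,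
    Finset.sum_eq_sum_Ico_succ_bot hN.pos, zero_nsmul, t6_zero, _root_.zero_add, mul_add, ← h6]
  congr 1
  rw [Finset.mul_sum]
  refine Finset.sum_congr rfl fun i hi => ?_
  rw [Finset.mem_Ico] at hi
  have h2 := notMem_of_super hs (i := i) (by omega) hi.2
  rw [← map_nsmul, nsmul_eq_mul, Phi_of_notMem h4 h6 hΔ h2, t6_some]
  have e : V.toAffine.c₄ = 12 * L.g₂ := h4
  have e' : V.toAffine.c₆ = 216 * L.g₃ := h6
  rw [e, e']
  ring

/-- a subgroup of prime order contains a nonzero element, killed by `N` -/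
lemma exists_gen_of_card {G : Type*} [AddCommGroup G] {N : ℕ}
    (hN : N.Prime) {C : AddSubgroup G} (hC : Nat.card C = N) :
    ∃ P ∈ C, P ≠ 0 ∧ N • P = 0 := by
  have hfin : Finite C := Nat.finite_of_card_ne_zero (by rw [hC]; exact hN.ne_zero)
  have hnt : Nontrivial C := by
    rw [← Finite.one_lt_card_iff_nontrivial, hC]; exact hN.one_lt
  obtain ⟨P, hP⟩ := exists_ne (0 : C)
  refine ⟨P, P.2, fun h => hP (Subtype.ext h), ?_⟩
  have h2 : Nat.card C • P = 0 := card_nsmul_eq_zero'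
  rw [hC] at h2
  exact_mod_cast congrArg (Subtype.val) h2

/-- **the modular parameter of `(E, C)`.** -/
theorem exists_tau (hΔ : V.Δ ≠ 0) {N : ℕ} [NeZero N] (hN : N.Prime) (hN2 : N ≠ 2)
    {C : AddSubgroup V.toAffine.Point} (hC : Nat.card C = N) :
    ∃ τ : ℍ, jfun τ = V.c₄ ^ 3 / V.Δ ∧ veluD V.toAffine (C : Set V.toAffine.Point) ≠ 0 ∧
      jfun (gR N • τ) = veluJ V.toAffine (C : Set V.toAffine.Point) := by
  obtain ⟨P, hPC, hP0, hPN⟩ := exists_gen_of_card hN hC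
  obtain ⟨τ, l, hl, h4, h6, hP⟩ := uniformise hΔ hN hN2 P hPN hP0
  have hN0 : (N : ℂ) ≠ 0 := by exact_mod_cast hN.ne_zero
  have hl' : l / N ≠ 0 := div_ne_zero hl hN0
  have hs := isSuper_pp τ l hl hl'
  have hmem : Phi h4 h6 hΔ (pp (gR N • τ) (l / N) hl').ω₂ ∈ C := by
    have : Phi h4 h6 hΔ (pp (gR N • τ) (l / N) hl').ω₂ = P := by rw [hP]; rfl
    rw [this]; exact hPC
  have e4 := veluC4_complex h4 h6 hΔ hN hs hC hmem
  have e6 := veluC6_complex h4 h6 hΔ hN hs hC hmem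
  have hD := delta_pp (gR N • τ) (l / N) hl'
  have hD0 := delta_pp τ l hl
  have hpi : (π : ℂ) ≠ 0 := by exact_mod_cast Real.pi_ne_zero
  have eD : veluD V.toAffine (C : Set V.toAffine.Point) =
      (2 * π / (l / N)) ^ 12 * ModularForm.discriminant (gR N • τ) := by
    rw [veluD, e4, e6, hD]
    field_simp
  have eΔ : V.Δ = (2 * π / l) ^ 12 * ModularForm.discriminant τ := by
    have := V.c_relation
    rw [h4, h6, hD0] at this
    exact mul_left_cancel₀ (by norm_num) this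
  have hΔ1 : ModularForm.discriminant (gR N • τ) ≠ 0 := discriminant_ne_zero _
  have hΔ0 : ModularForm.discriminant τ ≠ 0 := discriminant_ne_zero _
  have hne : veluD V.toAffine (C : Set V.toAffine.Point) ≠ 0 := by
    rw [eD]
    exact mul_ne_zero (pow_ne_zero _ (div_ne_zero (mul_ne_zero two_ne_zero hpi) hl')) hΔ1
  refine ⟨τ, ?_, hne, ?_⟩
  · rw [eq_div_iff hΔ, eΔ, h4, c4_pp]
    have := jfun_mul_discriminant τ
    linear_combination ((2 * π / l) ^ 12) * this
  · rw [veluJ, eq_div_iff hne, eD, e4, c4_pp]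
    have := jfun_mul_discriminant (gR N • τ)
    linear_combination ((2 * π / (l / N)) ^ 12) * this

end complex

end Fermat.Agent.H24
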