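import Mathlib
import Fermat.Agent.H24.Unif5

/-!
# Liouville's theorem for elliptic functions, half periods, and the discriminant of a superlattice
-/

set_option autoImplicit false

open PeriodPair Filter Topology

noncomputable section

namespace Fermat.Agent.H24

/-- An elliptic function without poles is constant. -/
theorem liouville_lim (M : PeriodPair) {f : ℂ → ℂ} (hf : Meromorphic f)
    (hper : ∀ l ∈ M.lattice, ∀ z, f (z + l) = f z)
    (hlim : ∀ z, ∃ c, Tendsto f (𝓝[≠] z) (𝓝 c)) {c0 a : ℂ}
    (h0 : Tendsto f (𝓝[≠] a) (𝓝 c0)) (z : ℂ) : Tendsto f (𝓝[≠] z) (𝓝 c0) := by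
  choose g hg using hlim
  have hdiff : Differentiable ℂ g := by
    intro z
    have hord : 0 ≤ meromorphicOrderAt f z :=
      (tendsto_nhds_iff_meromorphicOrderAt_nonneg (hf z)).mp ⟨_, hg z⟩
    obtain ⟨h, hh, hfh⟩ := ((hf z).meromorphicOrderAt_nonneg_iff).mp hord
    have hgz : g z = h z := by
      refine tendsto_nhds_unique (hg z) ?_
      exact (hh.continuousAt.tendsto.mono_left nhdsWithin_le_nhds).congr' hfh.symm
    have hev : g =ᶠ[𝓝 z] h := by
      have h1 : ∀ᶠ w in 𝓝[≠] z, g w = h w := by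
        have h2 : ∀ᶠ w in 𝓝[≠] z, ∀ᶠ y in 𝓝 w, f y = h y := by
          obtain ⟨U, hUo, hU0, hU⟩ := mem_nhdsWithin.mp hfh
          have hopen : IsOpen (U ∩ {z}ᶜ) := hUo.inter isOpen_compl_singleton
          refine mem_nhdsWithin.mpr ⟨U, hUo, hU0, ?_⟩
          intro w hw
          filter_upwards [hopen.mem_nhds hw] with y hy
          exact hU hy
        filter_upwards [h2, hh.eventually_analyticAt.filter_mono nhdsWithin_le_nhds] with w hw1 hw2
        refine tendsto_nhds_unique (hg w) ?_
        refine (hw2.continuousAt.tendsto.mono_left nhdsWithin_le_nhds).congr' ?_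
        filter_upwards [hw1.filter_mono nhdsWithin_le_nhds] with y hy using hy.symm
      rw [eventually_nhdsWithin_iff] at h1
      filter_upwards [h1] with w hw
      by_cases hwz : w = z
      · rw [hwz]; exact hgz
      · exact hw hwz
    exact (hh.congr hev.symm).differentiableAt
  have hgper : ∀ z w : ℂ, w ∈ M.lattice → g (z + w) = g z := by
    intro z w hw
    refine tendsto_nhds_unique (f := f) (hg (z + w)) ?_
    have h1 : Tendsto (fun u => u - w) (𝓝[≠] (z + w)) (𝓝[≠] z) := by
      rw [tendsto_nhdsWithin_iff]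
      refine ⟨?_, ?_⟩
      · have : ContinuousAt (fun u : ℂ => u - w) (z + w) := by fun_prop
        have := this.tendsto.mono_left (nhdsWithin_le_nhds (s := {z + w}ᶜ))
        simpa using this
      · filter_upwards [self_mem_nhdsWithin] with u hu
        have hu' : u ≠ z + w := hu
        intro h
        apply hu'
        have : u - w = z := h
        rw [← this]; ring
    refine ((hg z).comp h1).congr fun u => ?_
    have := hper w hw (u - w)
    rw [sub_add_cancel] at this
    exact this.symm
  have key : g z = g a :=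
    hdiff.apply_eq_apply_of_bounded (IsZLattice.isCompact_range_of_periodic M.lattice _
      hdiff.continuous fun z w hw => hgper z w hw).isBounded z a
  have ha : g a = c0 := tendsto_nhds_unique (hg a) h0
  have := hg z
  rwa [key, ha] at this

section half

variable (L : PeriodPair) (T : ℂ)

/-- half periods -/
structure IsHalf : Prop where
  notMem : T ∉ L.lattice
  two_mem : 2 * T ∈ L.lattice

variable {L T}

lemma IsHalf.dP_eq (h : IsHalf L T) : L.derivWeierstrassP T = 0 := by
  have h1 := L.derivWeierstrassP_sub_coe T ⟨2 * T, h.two_mem⟩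
  have h2 : T - 2 * T = -T := by ring
  simp only [h2, L.derivWeierstrassP_neg] at h1
  have : (2 : ℂ) * L.derivWeierstrassP T = 0 := by linear_combination -h1
  exact (mul_eq_zero.mp this).resolve_left two_ne_zero

lemma IsHalf.cubic (h : IsHalf L T) :
    4 * L.weierstrassP T ^ 3 - L.g₂ * L.weierstrassP T - L.g₃ = 0 := by
  have := L.derivWeierstrassP_sq T h.notMem
  rw [h.dP_eq] at this
  linear_combination -this

lemma IsHalf.ddP_ne (h : IsHalf L T) (hΔ : L.g₂ ^ 3 - 27 * L.g₃ ^ 2 ≠ 0) :
    6 * L.weierstrassP T ^ 2 - L.g₂ / 2 ≠ 0 := by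
  intro h0
  apply hΔ
  have h1 := h.cubic
  have e2 : L.g₂ = 12 * L.weierstrassP T ^ 2 := by linear_combination -2 * h0
  have e3 : L.g₃ = -8 * L.weierstrassP T ^ 3 := by
    rw [e2] at h1; linear_combination -h1
  rw [e2, e3]; ring

/-- `℘(u) = ℘(T)` only for `u = T` mod `L`. -/
lemma IsHalf.P_eq_iff (h : IsHalf L T) (hΔ : L.g₂ ^ 3 - 27 * L.g₃ ^ 2 ≠ 0) {u : ℂ}
    (hu : u ∉ L.lattice) : L.weierstrassP u = L.weierstrassP T ↔ u - T ∈ L.lattice := by
  constructor
  · intro he
    let V : WeierstrassCurve ℂ := ⟨0, 0, 0, -L.g₂ / 4, -L.g₃ / 4⟩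
    have h4 : V.c₄ = 12 * L.g₂ := by
      simp [V, WeierstrassCurve.c₄, WeierstrassCurve.b₂, WeierstrassCurve.b₄]; ring
    have h6 : V.c₆ = 216 * L.g₃ := by
      simp [V, WeierstrassCurve.c₆, WeierstrassCurve.b₂, WeierstrassCurve.b₄,
        WeierstrassCurve.b₆]; ring
    have hV : V.Δ ≠ 0 := by
      have : V.Δ = L.g₂ ^ 3 - 27 * L.g₃ ^ 2 := by
        simp [V, WeierstrassCurve.Δ, WeierstrassCurve.b₂, WeierstrassCurve.b₄,
          WeierstrassCurve.b₆, WeierstrassCurve.b₈]; ring
      rw [this]; exact hΔ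
    rw [← Phi_eq_iff h4 h6 hV]
    apply phi_congr h4 h6 hV hu h.notMem he
    have h1 := L.derivWeierstrassP_sq u hu
    rw [he, h.cubic] at h1
    rw [h.dP_eq]
    exact pow_eq_zero_iff (by norm_num) |>.mp h1
  · intro hm
    have := L.weierstrassP_add_coe T ⟨u - T, hm⟩
    simpa using this

lemma IsHalf.add_notMem (h : IsHalf L T) {u : ℂ} (hu : u + T ∈ L.lattice) :
    u - T ∈ L.lattice := by
  have := L.lattice.sub_mem hu h.two_mem
  convert this using 1; ring

/-- translation by a half period -/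
lemma IsHalf.P_add (h : IsHalf L T) (hΔ : L.g₂ ^ 3 - 27 * L.g₃ ^ 2 ≠ 0) {u : ℂ}
    (hu : u ∉ L.lattice) (huT : u - T ∉ L.lattice) :
    (L.weierstrassP (u + T) - L.weierstrassP T) * (L.weierstrassP u - L.weierstrassP T) =
      3 * L.weierstrassP T ^ 2 - L.g₂ / 4 := by
  have huT' : u + T ∉ L.lattice := fun hh => huT (h.add_notMem hh)
  have hne : L.weierstrassP u - L.weierstrassP T ≠ 0 := by
    intro h0
    exact huT ((h.P_eq_iff hΔ hu).mp (by linear_combination h0))
  have h1 := addition L hu h.notMem huT'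
  rw [NN, MM, h.dP_eq] at h1
  have h2 := h.cubic
  apply mul_right_cancel₀ (mul_ne_zero two_ne_zero hne)
  linear_combination -h1 + h2

end half

end Fermat.Agent.H24
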