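import Mathlib
import Fermat.Agent.H24.Liouville
import Fermat.Agent.H24.Unif3

/-!
# The discriminant of a superlattice
-/

set_option autoImplicit false

open PeriodPair Filter Topology

noncomputable section

namespace Fermat.Agent.H24

variable {L M : PeriodPair} {N : ℕ} [NeZero N]

lemma IsSuper.le (h : IsSuper L M N) {z : ℂ} (hz : z ∈ L.lattice) : z ∈ M.lattice := by
  rw [PeriodPair.mem_lattice] at hz ⊢
  obtain ⟨m, n, rfl⟩ := hz
  refine ⟨m, n * N, ?_⟩
  rw [h.h1, ← h.h2]; push_cast; ring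

lemma IsSuper.mem_iff (h : IsSuper L M N) {z : ℂ} :
    z ∈ M.lattice ↔ ∃ i < N, z + i * M.ω₂ ∈ L.lattice := by
  constructor
  · intro hz
    obtain ⟨p, hp⟩ := (superEquiv L M N).surjective ⟨-z, M.lattice.neg_mem hz⟩
    have := congrArg (Subtype.val) hp
    rw [coe_superEquiv h] at this
    simp only at this
    refine ⟨p.1, p.1.isLt, ?_⟩
    have e : z + ((p.1 : ℕ) : ℂ) * M.ω₂ = -(p.2 : ℂ) := by linear_combination this
    rw [e]
    exact L.lattice.neg_mem p.2.2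
  · rintro ⟨i, _, hi⟩
    have h1 := h.le hi
    have h2 : (i : ℂ) * M.ω₂ ∈ M.lattice := by
      rw [← nsmul_eq_mul]; exact M.lattice.smul_of_tower_mem i M.ω₂_mem_lattice
    have := M.lattice.sub_mem h1 h2
    rwa [add_sub_cancel_right] at this

lemma IsSuper.half (h : IsSuper L M N) (hN : Odd N) {T : ℂ} (hT : IsHalf L T) : IsHalf M T := by
  refine ⟨?_, h.le hT.two_mem⟩
  intro hmem
  -- N T ∈ L and 2 T ∈ L give T ∈ L
  apply hT.notMem
  have hNT : (N : ℂ) * T ∈ L.lattice := by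
    rw [PeriodPair.mem_lattice] at hmem ⊢
    obtain ⟨m, n, rfl⟩ := hmem
    refine ⟨N * m, n, ?_⟩
    rw [h.h1, ← h.h2]; push_cast; ring
  obtain ⟨k, hk⟩ := hN
  have h2 : (k : ℂ) * (2 * T) ∈ L.lattice := by
    rw [← nsmul_eq_mul]; exact L.lattice.smul_of_tower_mem k hT.two_mem
  have h3 := L.lattice.sub_mem hNT h2
  have e : (N : ℂ) * T - k * (2 * T) = T := by rw [hk]; push_cast; ring
  rwa [e] at h3

/-- the product -/
def HH (L : PeriodPair) (ω : ℂ) (N : ℕ) (e z : ℂ) : ℂ :=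
  ∏ i ∈ Finset.range N, (L.weierstrassP (z + i * ω) - e)

lemma HH_add (h : IsSuper L M N) (e z : ℂ) : HH L M.ω₂ N e (z + M.ω₂) = HH L M.ω₂ N e z := by
  unfold HH
  have h1 : ∀ i : ℕ, L.weierstrassP (z + M.ω₂ + i * M.ω₂) - e =
      L.weierstrassP (z + (i + 1 : ℕ) * M.ω₂) - e := by
    intro i; congr 2; push_cast; ring
  simp only [h1]
  obtain ⟨n, hn⟩ : ∃ n, N = n + 1 := ⟨N - 1, by have := NeZero.pos N; omega⟩
  rw [hn, Finset.prod_range_succ, Finset.prod_range_succ' (fun i : ℕ =>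
    L.weierstrassP (z + i * M.ω₂) - e) n]
  congr 2
  have h2 := L.weierstrassP_add_coe z ⟨L.ω₂, L.ω₂_mem_lattice⟩
  simp only at h2
  have h3 : z + ((n + 1 : ℕ) : ℂ) * M.ω₂ = z + L.ω₂ := by rw [← h.h2, hn]
  rw [h3, h2]; simp

lemma HH_periodic (h : IsSuper L M N) (e : ℂ) : ∀ l ∈ M.lattice, ∀ z,
    HH L M.ω₂ N e (z + l) = HH L M.ω₂ N e z := by
  intro l hl z
  rw [PeriodPair.mem_lattice] at hl
  obtain ⟨m, n, rfl⟩ := hl
  have p1 : Function.Periodic (HH L M.ω₂ N e) L.ω₁ := by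
    intro z
    unfold HH
    refine Finset.prod_congr rfl fun i _ => ?_
    have := L.weierstrassP_add_coe (z + i * M.ω₂) ⟨L.ω₁, L.ω₁_mem_lattice⟩
    simp only at this
    rw [← this]; congr 2; ring
  have p2 : Function.Periodic (HH L M.ω₂ N e) M.ω₂ := fun z => HH_add h e z
  rw [h.h1, ← add_assoc]
  have q2 := p2.int_mul n (z + m * L.ω₁)
  rw [q2]
  exact p1.int_mul m z

lemma meromorphic_HH (ω e : ℂ) : Meromorphic (HH L ω N e) := by
  intro z
  unfold HH
  apply MeromorphicAt.fun_prod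
  intro i _
  have : MeromorphicAt (fun u : ℂ => L.weierstrassP (u + i * ω)) z := by
    have := L.meromorphic_weierstrassP (z + i * ω)
    exact (meromorphicAt_fun_comp_add_const_iff_meromorphicAt).mpr this
  fun_prop

/-- limit of `(℘(u) - e)/(u-T)²` at a half period `T`, `e = ℘(T)`. -/
lemma IsHalf.tendsto_div_sq {T : ℂ} (h : IsHalf L T) :
    Tendsto (fun u => (L.weierstrassP u - L.weierstrassP T) / (u - T) ^ 2) (𝓝[≠] T)
      (𝓝 ((6 * L.weierstrassP T ^ 2 - L.g₂ / 2) / 2)) := by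
  -- write ℘(u) - ℘(T) = (u-T) k(u), ℘' ...
  have hana : AnalyticAt ℂ (fun u => L.weierstrassP u - L.weierstrassP T) T := by
    have := L.analyticOnNhd_weierstrassP T h.notMem
    fun_prop
  have h0 : (fun u => L.weierstrassP u - L.weierstrassP T) T = 0 := by simp
  have hd0 : deriv (fun u => L.weierstrassP u - L.weierstrassP T) T = 0 := by
    rw [deriv_sub_const, L.deriv_weierstrassP, h.dP_eq]
  have hord : (2 : ℕ) ≤ analyticOrderAt (fun u => L.weierstrassP u - L.weierstrassP T) T := by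
    rw [natCast_le_analyticOrderAt_iff_iteratedDeriv_eq_zero hana]
    intro i hi
    interval_cases i
    · simp
    · rw [iteratedDeriv_one]; exact hd0
  obtain ⟨g, hg, hgeq⟩ := (natCast_le_analyticOrderAt hana).mp hord
  have hgT : g T = (6 * L.weierstrassP T ^ 2 - L.g₂ / 2) / 2 := by
    have e1 : iteratedDeriv 2 (fun u => L.weierstrassP u - L.weierstrassP T) T =
        6 * L.weierstrassP T ^ 2 - L.g₂ / 2 := by
      rw [iteratedDeriv_succ, iteratedDeriv_one]
      have : deriv (fun u => L.weierstrassP u - L.weierstrassP T) = L.derivWeierstrassP := by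
        ext u
        rw [deriv_sub_const, L.deriv_weierstrassP]
      rw [this]
      exact (hasDerivAt_dP L h.notMem).deriv
    have e2 : iteratedDeriv 2 (fun u => L.weierstrassP u - L.weierstrassP T) T = 2 * g T := by
      have hev : (fun u => L.weierstrassP u - L.weierstrassP T) =ᶠ[𝓝 T]
          fun u => (u - T) ^ 2 * g u := by
        filter_upwards [hgeq] with u hu
        rw [hu, smul_eq_mul]
      rw [hev.iteratedDeriv_eq, iteratedDeriv_succ, iteratedDeriv_one]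
      have hd1 : deriv (fun u => (u - T) ^ 2 * g u) =ᶠ[𝓝 T]
          fun u => 2 * (u - T) * g u + (u - T) ^ 2 * deriv g u := by
        filter_upwards [hg.eventually_analyticAt] with u hu
        have h1 : HasDerivAt (fun u => (u - T) ^ 2) (2 * (u - T)) u := by
          have := ((hasDerivAt_id u).sub_const T).pow 2
          convert! this using 1
          simp
        exact (h1.mul hu.differentiableAt.hasDerivAt).deriv
      rw [hd1.deriv_eq]
      have h1 : HasDerivAt (fun u : ℂ => u - T) 1 T := (hasDerivAt_id T).sub_const T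
      have h2 := ((h1.const_mul 2).mul hg.differentiableAt.hasDerivAt).add
        ((h1.pow 2).mul hg.deriv.differentiableAt.hasDerivAt)
      refine Eq.trans ?_ (h2.deriv.trans ?_)
      · rfl
      · simp
    have := e1.symm.trans e2
    rw [this]; ring
  rw [← hgT]
  refine (hg.continuousAt.tendsto.mono_left nhdsWithin_le_nhds).congr' ?_
  filter_upwards [hgeq.filter_mono nhdsWithin_le_nhds, self_mem_nhdsWithin] with u hu hne
  have hne' : u - T ≠ 0 := sub_ne_zero.mpr hne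
  rw [hu, smul_eq_mul]
  field_simp

lemma tendsto_factor {ω : ℂ} {z : ℂ} (i : ℕ) (e : ℂ) (hz : z + i * ω ∉ L.lattice) :
    Tendsto (fun u => L.weierstrassP (u + i * ω) - e) (𝓝[≠] z)
      (𝓝 (L.weierstrassP (z + i * ω) - e)) := by
  have h1 : ContinuousAt L.weierstrassP (z + i * ω) :=
    (L.analyticOnNhd_weierstrassP _ hz).continuousAt
  have h2 : ContinuousAt (fun u : ℂ => L.weierstrassP (u + i * ω)) z :=
    ContinuousAt.comp (f := fun u : ℂ => u + i * ω) (g := L.weierstrassP) h1 (by fun_prop)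
  exact (h2.sub continuousAt_const).tendsto.mono_left nhdsWithin_le_nhds

/-- the product identity -/
theorem HH_eq (h : IsSuper L M N) (hN : Odd N) (hΔL : L.g₂ ^ 3 - 27 * L.g₃ ^ 2 ≠ 0)
    (hΔM : M.g₂ ^ 3 - 27 * M.g₃ ^ 2 ≠ 0) {T : ℂ} (hT : IsHalf L T) {z : ℂ}
    (hz : z ∉ M.lattice) (hzT : z - T ∉ M.lattice) :
    HH L M.ω₂ N (L.weierstrassP T) z = (M.weierstrassP z - M.weierstrassP T) *
      ∏ i ∈ Finset.Ico 1 N, (L.weierstrassP (i * M.ω₂) - L.weierstrassP T) := by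
  have hTM := h.half hN hT
  set e := L.weierstrassP T with he
  set R : ℂ → ℂ := fun u => HH L M.ω₂ N e u / (M.weierstrassP u - M.weierstrassP T) with hR
  set c0 := ∏ i ∈ Finset.Ico 1 N, (L.weierstrassP (i * M.ω₂) - e) with hc0
  have hmer : Meromorphic R := by
    intro u
    have h1 := meromorphic_HH (L := L) (N := N) M.ω₂ e u
    have h2 := M.meromorphic_weierstrassP u
    fun_prop
  have hper : ∀ l ∈ M.lattice, ∀ u, R (u + l) = R u := by
    intro l hl u
    simp only [hR]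
    rw [HH_periodic h e l hl u, M.weierstrassP_add_coe u ⟨l, hl⟩]
  have hsplit : ∀ u, HH L M.ω₂ N e u = (L.weierstrassP u - e) *
      ∏ i ∈ Finset.Ico 1 N, (L.weierstrassP (u + i * M.ω₂) - e) := by
    intro u
    rw [HH, Finset.range_eq_Ico, Finset.prod_eq_prod_Ico_succ_bot (NeZero.pos N)]
    simp
  have hnot : ∀ i ∈ Finset.Ico 1 N, (i : ℂ) * M.ω₂ ∉ L.lattice := by
    intro i hi
    rw [Finset.mem_Ico] at hi
    exact notMem_of_super h (by omega) hi.2
  -- limit at 0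
  have hlim0 : Tendsto R (𝓝[≠] 0) (𝓝 c0) := by
    have hid : Tendsto (fun z : ℂ => z) (𝓝[≠] 0) (𝓝 0) := nhdsWithin_le_nhds
    have h1 : Tendsto (fun u => u ^ 2 * (L.weierstrassP u - e)) (𝓝[≠] 0) (𝓝 (1 - 0 ^ 2 * e)) := by
      refine ((tendsto_sq_mul_P L).sub ((hid.pow 2).mul_const e)).congr fun u => by ring
    have h2 : Tendsto (fun u => u ^ 2 * (M.weierstrassP u - M.weierstrassP T)) (𝓝[≠] 0)
        (𝓝 (1 - 0 ^ 2 * M.weierstrassP T)) := by
      refine ((tendsto_sq_mul_P M).sub ((hid.pow 2).mul_const _)).congr fun u => by ring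
    have h3 : Tendsto (fun u => ∏ i ∈ Finset.Ico 1 N, (L.weierstrassP (u + i * M.ω₂) - e))
        (𝓝[≠] 0) (𝓝 c0) := by
      apply tendsto_finsetProd
      intro i hi
      have := tendsto_factor (L := L) (ω := M.ω₂) (z := 0) i e (by simpa using hnot i hi)
      simpa using this
    have h4 := (h1.mul h3).div h2 (by norm_num)
    have e4 : (1 - 0 ^ 2 * e) * c0 / (1 - 0 ^ 2 * M.weierstrassP T) = c0 := by norm_num
    rw [e4] at h4
    refine h4.congr' ?_
    filter_upwards [self_mem_nhdsWithin] with u hu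
    have hu0 : u ≠ 0 := hu
    simp only [Pi.div_apply, hR]
    rw [hsplit, mul_assoc]
    exact mul_div_mul_left _ _ (pow_ne_zero _ hu0)
  have hshift : ∀ a b : ℂ, a - b ∈ M.lattice → (∃ c, Tendsto R (𝓝[≠] b) (𝓝 c)) →
      ∃ c, Tendsto R (𝓝[≠] a) (𝓝 c) := by
    rintro a b hab ⟨c, hc⟩
    refine ⟨c, ?_⟩
    have h1 : Tendsto (fun u => u - (a - b)) (𝓝[≠] a) (𝓝[≠] b) := by
      rw [tendsto_nhdsWithin_iff]
      refine ⟨?_, ?_⟩
      · have : ContinuousAt (fun u : ℂ => u - (a - b)) a := by fun_prop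
        have := this.tendsto.mono_left (nhdsWithin_le_nhds (s := {a}ᶜ))
        simpa using this
      · filter_upwards [self_mem_nhdsWithin] with u hu
        have hu' : u ≠ a := hu
        intro hh
        apply hu'
        have : u - (a - b) = b := hh
        linear_combination this
    refine (hc.comp h1).congr fun u => ?_
    have := hper _ hab (u - (a - b))
    rw [sub_add_cancel] at this
    exact this.symm
  have hnotM : ∀ u, u ∉ M.lattice → ∀ i : ℕ, u + i * M.ω₂ ∉ L.lattice := by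
    intro u hu i hi
    apply hu
    have h1 := h.le hi
    have h2 : (i : ℂ) * M.ω₂ ∈ M.lattice := by
      rw [← nsmul_eq_mul]; exact M.lattice.smul_of_tower_mem i M.ω₂_mem_lattice
    have := M.lattice.sub_mem h1 h2
    rwa [add_sub_cancel_right] at this
  have hcontM : ∀ u, u ∉ M.lattice → Tendsto (fun v => M.weierstrassP v - M.weierstrassP T)
      (𝓝[≠] u) (𝓝 (M.weierstrassP u - M.weierstrassP T)) := by
    intro u hu
    have := tendsto_factor (L := M) (ω := 0) (z := u) 0 (M.weierstrassP T) (by simpa using hu)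
    simpa using this
  have hlimgen : ∀ u, u ∉ M.lattice → u - T ∉ M.lattice → Tendsto R (𝓝[≠] u) (𝓝 (R u)) := by
    intro u hu huT
    have hne : M.weierstrassP u - M.weierstrassP T ≠ 0 := by
      intro h0
      exact huT ((hTM.P_eq_iff hΔM hu).mp (by linear_combination h0))
    refine Tendsto.div ?_ (hcontM u hu) hne
    unfold HH
    apply tendsto_finsetProd
    intro i _
    exact tendsto_factor i e (hnotM u hu i)
  have hlim : ∀ u, ∃ c, Tendsto R (𝓝[≠] u) (𝓝 c) := by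
    intro u
    by_cases hu : u ∈ M.lattice
    · exact hshift u 0 (by simpa using hu) ⟨c0, hlim0⟩
    by_cases huT : u - T ∈ M.lattice
    · refine hshift u T huT ?_
      have h1 := hT.tendsto_div_sq
      have h2 := hTM.tendsto_div_sq
      have h3 : Tendsto (fun u => ∏ i ∈ Finset.Ico 1 N, (L.weierstrassP (u + i * M.ω₂) - e))
          (𝓝[≠] T) (𝓝 (∏ i ∈ Finset.Ico 1 N, (L.weierstrassP (T + i * M.ω₂) - e))) := by
        apply tendsto_finsetProd
        intro i _
        exact tendsto_factor i e (hnotM T hTM.notMem i)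
      have hne : (6 * M.weierstrassP T ^ 2 - M.g₂ / 2) / 2 ≠ 0 :=
        div_ne_zero (hTM.ddP_ne hΔM) two_ne_zero
      refine ⟨_, ((h1.mul h3).div h2 hne).congr' ?_⟩
      filter_upwards [self_mem_nhdsWithin] with v hv
      have hv0 : v - T ≠ 0 := sub_ne_zero.mpr hv
      simp only [Pi.div_apply, hR]
      rw [hsplit, ← he, div_mul_eq_mul_div, div_div_div_cancel_right₀ (pow_ne_zero _ hv0)]
    · exact ⟨_, hlimgen u hu huT⟩
  have hfin := liouville_lim M hmer hper hlim hlim0 z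
  have hRz : R z = c0 := tendsto_nhds_unique (hlimgen z hz hzT) hfin
  have hne : M.weierstrassP z - M.weierstrassP T ≠ 0 := by
    intro h0
    exact hzT ((hTM.P_eq_iff hΔM hz).mp (by linear_combination h0))
  simp only [hR] at hRz
  rw [div_eq_iff hne] at hRz
  rw [hRz]; ring

/-- `e'_S - e'_T` in terms of `L`. -/
theorem sub_half_eq (h : IsSuper L M N) (hN : Odd N) (hΔL : L.g₂ ^ 3 - 27 * L.g₃ ^ 2 ≠ 0)
    (hΔM : M.g₂ ^ 3 - 27 * M.g₃ ^ 2 ≠ 0) {S T : ℂ} (hS : IsHalf L S) (hT : IsHalf L T)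
    (hST : S - T ∉ L.lattice) :
    (M.weierstrassP S - M.weierstrassP T) *
      ∏ i ∈ Finset.Ico 1 N, ((L.weierstrassP (i * M.ω₂) - L.weierstrassP S) *
        (L.weierstrassP (i * M.ω₂) - L.weierstrassP T)) =
    (L.weierstrassP S - L.weierstrassP T) ^ N *
      ∏ i ∈ Finset.Ico 1 N, (L.weierstrassP (i * M.ω₂) - (-L.weierstrassP S - L.weierstrassP T)) := by
  have hSM := h.half hN hS
  have hSTM : S - T ∉ M.lattice := by
    intro hmem
    have h1 : IsHalf L (S - T) := ⟨hST, by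
      have := L.lattice.sub_mem hS.two_mem hT.two_mem
      convert this using 1; ring⟩
    exact (h.half hN h1).notMem hmem
  have hH := HH_eq h hN hΔL hΔM hT hSM.notMem hSTM
  have hnot : ∀ i ∈ Finset.Ico 1 N, (i : ℂ) * M.ω₂ ∉ L.lattice := by
    intro i hi
    rw [Finset.mem_Ico] at hi
    exact notMem_of_super h (by omega) hi.2
  have hmem : ∀ i : ℕ, (i : ℂ) * M.ω₂ ∈ M.lattice := by
    intro i
    rw [← nsmul_eq_mul]; exact M.lattice.smul_of_tower_mem i M.ω₂_mem_lattice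
  have hnotS : ∀ i : ℕ, (i : ℂ) * M.ω₂ - S ∉ L.lattice := by
    intro i hi
    apply hSM.notMem
    have := M.lattice.sub_mem (hmem i) (h.le hi)
    simpa using this
  rw [HH, Finset.range_eq_Ico, Finset.prod_eq_prod_Ico_succ_bot (NeZero.pos N)] at hH
  simp only [Nat.cast_zero, zero_mul, add_zero] at hH
  -- factor
  have hSTe : L.weierstrassP S - L.weierstrassP T ≠ 0 := by
    intro h0
    exact hST ((hT.P_eq_iff hΔL hS.notMem).mp (by linear_combination h0))
  have hcS := hS.cubic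
  have hcT := hT.cubic
  have hg2 : L.g₂ = 4 * (L.weierstrassP S ^ 2 + L.weierstrassP S * L.weierstrassP T +
      L.weierstrassP T ^ 2) := by
    apply mul_left_cancel₀ hSTe
    linear_combination hcT - hcS
  have hfac : ∀ i ∈ Finset.Ico 1 N,
      (L.weierstrassP (S + i * M.ω₂) - L.weierstrassP T) *
        (L.weierstrassP (i * M.ω₂) - L.weierstrassP S) =
      (L.weierstrassP S - L.weierstrassP T) *
        (L.weierstrassP (i * M.ω₂) - (-L.weierstrassP S - L.weierstrassP T)) := by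
    intro i hi
    have h1 := hS.P_add hΔL (hnot i hi) (hnotS i)
    rw [add_comm S]
    rw [hg2] at h1
    linear_combination h1
  have hprod : (∏ i ∈ Finset.Ico 1 N, (L.weierstrassP (S + i * M.ω₂) - L.weierstrassP T)) *
      ∏ i ∈ Finset.Ico 1 N, (L.weierstrassP (i * M.ω₂) - L.weierstrassP S) =
      (L.weierstrassP S - L.weierstrassP T) ^ (N - 1) *
      ∏ i ∈ Finset.Ico 1 N, (L.weierstrassP (i * M.ω₂) - (-L.weierstrassP S - L.weierstrassP T)) := by
    rw [← Finset.prod_mul_distrib, Finset.prod_congr rfl hfac, Finset.prod_mul_distrib,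
      Finset.prod_const, Nat.card_Ico]
  have hN1 : (L.weierstrassP S - L.weierstrassP T) ^ N =
      (L.weierstrassP S - L.weierstrassP T) * (L.weierstrassP S - L.weierstrassP T) ^ (N - 1) := by
    rw [← pow_succ', Nat.sub_add_cancel (NeZero.pos N)]
  rw [Finset.prod_mul_distrib, hN1]
  simp only [zero_add] at hH
  linear_combination (-(∏ i ∈ Finset.Ico 1 N, (L.weierstrassP (i * M.ω₂) - L.weierstrassP S))) * hH
    + (L.weierstrassP S - L.weierstrassP T) * hprod

/-- the three half periods -/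
lemma half_one (L : PeriodPair) : IsHalf L (L.ω₁ / 2) :=
  ⟨L.ω₁_div_two_notMem_lattice, by
    rw [mul_div_cancel₀ _ (two_ne_zero)]; exact L.ω₁_mem_lattice⟩

lemma half_two (L : PeriodPair) : IsHalf L (L.ω₂ / 2) :=
  ⟨L.ω₂_div_two_notMem_lattice, by
    rw [mul_div_cancel₀ _ (two_ne_zero)]; exact L.ω₂_mem_lattice⟩

lemma half_sum_notMem (L : PeriodPair) : L.ω₁ / 2 + L.ω₂ / 2 ∉ L.lattice := by
  have := (L.mul_ω₁_add_mul_ω₂_mem_lattice (α := 1 / 2) (β := 1 / 2)).not.mpr (by norm_num)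
  intro h
  apply this
  push_cast
  convert h using 1; ring

lemma half_three (L : PeriodPair) : IsHalf L (L.ω₁ / 2 + L.ω₂ / 2) :=
  ⟨half_sum_notMem L, by
    have := L.lattice.add_mem L.ω₁_mem_lattice L.ω₂_mem_lattice
    convert this using 1; ring⟩

lemma half_sub_notMem (L : PeriodPair) : L.ω₁ / 2 - L.ω₂ / 2 ∉ L.lattice := by
  intro h
  apply half_sum_notMem L
  have := L.lattice.add_mem h L.ω₂_mem_lattice
  convert this using 1; ring

/-- roots of the cubic -/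
structure IsRoots (g₂ g₃ e₁ e₂ e₃ : ℂ) : Prop where
  sum : e₁ + e₂ + e₃ = 0
  g2 : g₂ = -4 * (e₁ * e₂ + e₂ * e₃ + e₁ * e₃)
  g3 : g₃ = 4 * e₁ * e₂ * e₃

lemma isRoots_of {a b e₁ e₂ e₃ : ℂ} (h1 : 4 * e₁ ^ 3 - a * e₁ - b = 0)
    (h2 : 4 * e₂ ^ 3 - a * e₂ - b = 0) (h3 : 4 * e₃ ^ 3 - a * e₃ - b = 0) (h12 : e₁ - e₂ ≠ 0)
    (h23 : e₂ - e₃ ≠ 0) (h13 : e₁ - e₃ ≠ 0) : IsRoots a b e₁ e₂ e₃ := by
  have ha : a = 4 * (e₁ ^ 2 + e₁ * e₂ + e₂ ^ 2) := by
    apply mul_left_cancel₀ h12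
    linear_combination h2 - h1
  have ha' : a = 4 * (e₁ ^ 2 + e₁ * e₃ + e₃ ^ 2) := by
    apply mul_left_cancel₀ h13
    linear_combination h3 - h1
  have hs : e₁ + e₂ + e₃ = 0 := by
    apply mul_left_cancel₀ h23
    linear_combination (ha' - ha) / 4
  have e3 : e₃ = -e₁ - e₂ := by linear_combination hs
  subst e3
  refine ⟨hs, ?_, ?_⟩
  · rw [ha]; ring
  · have : b = 4 * e₁ ^ 3 - a * e₁ := by linear_combination -h1
    rw [this, ha]; ring

lemma IsRoots.disc {a b e₁ e₂ e₃ : ℂ} (h : IsRoots a b e₁ e₂ e₃) :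
    a ^ 3 - 27 * b ^ 2 = 16 * ((e₁ - e₂) * (e₂ - e₃) * (e₁ - e₃)) ^ 2 := by
  have e3 : e₃ = -e₁ - e₂ := by linear_combination h.sum
  rw [h.g2, h.g3, e3]; ring

lemma isRoots_P (L : PeriodPair) (hΔ : L.g₂ ^ 3 - 27 * L.g₃ ^ 2 ≠ 0) :
    IsRoots L.g₂ L.g₃ (L.weierstrassP (L.ω₁ / 2)) (L.weierstrassP (L.ω₂ / 2))
      (L.weierstrassP (L.ω₁ / 2 + L.ω₂ / 2)) := by
  have h1 := half_one L
  have h2 := half_two L
  have h3 := half_three L
  apply isRoots_of h1.cubic h2.cubic h3.cubic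
  · intro h0
    exact half_sub_notMem L ((h2.P_eq_iff hΔ h1.notMem).mp (by linear_combination h0))
  · intro h0
    have := (h3.P_eq_iff hΔ h2.notMem).mp (by linear_combination h0)
    apply h1.notMem
    have h4 := L.lattice.neg_mem this
    convert h4 using 1; ring
  · intro h0
    have := (h3.P_eq_iff hΔ h1.notMem).mp (by linear_combination h0)
    apply h2.notMem
    have h4 := L.lattice.neg_mem this
    convert h4 using 1; ring

/-- for odd `N`, the half periods of `L` give all half periods of `M` -/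
lemma isRoots_P' (h : IsSuper L M N) (hN : Odd N) (hΔM : M.g₂ ^ 3 - 27 * M.g₃ ^ 2 ≠ 0) :
    IsRoots M.g₂ M.g₃ (M.weierstrassP (L.ω₁ / 2)) (M.weierstrassP (L.ω₂ / 2))
      (M.weierstrassP (L.ω₁ / 2 + L.ω₂ / 2)) := by
  have h1 := h.half hN (half_one L)
  have h2 := h.half hN (half_two L)
  have h3 := h.half hN (half_three L)
  have h12 : L.ω₁ / 2 - L.ω₂ / 2 ∉ M.lattice := by
    have : IsHalf L (L.ω₁ / 2 - L.ω₂ / 2) := ⟨half_sub_notMem L, by
      have := L.lattice.sub_mem L.ω₁_mem_lattice L.ω₂_mem_lattice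
      convert this using 1; ring⟩
    exact (h.half hN this).notMem
  apply isRoots_of h1.cubic h2.cubic h3.cubic
  · intro h0
    exact h12 ((h2.P_eq_iff hΔM h1.notMem).mp (by linear_combination h0))
  · intro h0
    have := (h3.P_eq_iff hΔM h2.notMem).mp (by linear_combination h0)
    apply h1.notMem
    have h4 := M.lattice.neg_mem this
    convert h4 using 1; ring
  · intro h0
    have := (h3.P_eq_iff hΔM h1.notMem).mp (by linear_combination h0)
    apply h2.notMem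
    have h4 := M.lattice.neg_mem this
    convert h4 using 1; ring

/-- **the discriminant of a superlattice** -/
theorem disc_super (h : IsSuper L M N) (hN : Odd N) (hΔL : L.g₂ ^ 3 - 27 * L.g₃ ^ 2 ≠ 0)
    (hΔM : M.g₂ ^ 3 - 27 * M.g₃ ^ 2 ≠ 0) :
    (M.g₂ ^ 3 - 27 * M.g₃ ^ 2) * ∏ i ∈ Finset.Ico 1 N, L.derivWeierstrassP (i * M.ω₂) ^ 4 =
      (L.g₂ ^ 3 - 27 * L.g₃ ^ 2) ^ N := by
  have r := isRoots_P L hΔL
  have r' := isRoots_P' h hN hΔM
  have h1 := half_one L
  have h2 := half_two L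
  have h3 := half_three L
  have h13 : L.ω₁ / 2 - (L.ω₁ / 2 + L.ω₂ / 2) ∉ L.lattice := by
    intro hh
    apply h2.notMem
    have h4 := L.lattice.neg_mem hh
    convert h4 using 1; ring
  have h23 : L.ω₂ / 2 - (L.ω₁ / 2 + L.ω₂ / 2) ∉ L.lattice := by
    intro hh
    apply h1.notMem
    have h4 := L.lattice.neg_mem hh
    convert h4 using 1; ring
  have k12 := sub_half_eq h hN hΔL hΔM h1 h2 (half_sub_notMem L)
  have k13 := sub_half_eq h hN hΔL hΔM h1 h3 h13
  have k23 := sub_half_eq h hN hΔL hΔM h2 h3 h23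
  have hnot : ∀ i ∈ Finset.Ico 1 N, (i : ℂ) * M.ω₂ ∉ L.lattice := by
    intro i hi
    rw [Finset.mem_Ico] at hi
    exact notMem_of_super h (by omega) hi.2
  have hsq : ∀ i ∈ Finset.Ico 1 N, L.derivWeierstrassP (i * M.ω₂) ^ 2 =
      4 * ((L.weierstrassP (i * M.ω₂) - L.weierstrassP (L.ω₁ / 2)) *
        (L.weierstrassP (i * M.ω₂) - L.weierstrassP (L.ω₂ / 2)) *
        (L.weierstrassP (i * M.ω₂) - L.weierstrassP (L.ω₁ / 2 + L.ω₂ / 2))) := by
    intro i hi
    rw [L.derivWeierstrassP_sq _ (hnot i hi), r.g2, r.g3]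
    have e3 : L.weierstrassP (L.ω₁ / 2 + L.ω₂ / 2) =
      -L.weierstrassP (L.ω₁ / 2) - L.weierstrassP (L.ω₂ / 2) := by linear_combination r.sum
    rw [e3]; ring
  have hne : ∀ T : ℂ, IsHalf L T → ∀ i ∈ Finset.Ico 1 N,
      L.weierstrassP (i * M.ω₂) - L.weierstrassP T ≠ 0 := by
    intro T hT i hi h0
    have hm := (hT.P_eq_iff hΔL (hnot i hi)).mp (by linear_combination h0)
    apply (h.half hN hT).notMem
    have hmem : (i : ℂ) * M.ω₂ ∈ M.lattice := by
      rw [← nsmul_eq_mul]; exact M.lattice.smul_of_tower_mem i M.ω₂_mem_lattice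
    have := M.lattice.sub_mem hmem (h.le hm)
    simpa using this
  have ne1 := hne _ h1
  have ne2 := hne _ h2
  have ne3 := hne _ h3
  rw [r.disc, r'.disc]
  have s3 : -L.weierstrassP (L.ω₁ / 2) - L.weierstrassP (L.ω₂ / 2) =
    L.weierstrassP (L.ω₁ / 2 + L.ω₂ / 2) := by linear_combination -r.sum
  have s2 : -L.weierstrassP (L.ω₁ / 2) - L.weierstrassP (L.ω₁ / 2 + L.ω₂ / 2) =
    L.weierstrassP (L.ω₂ / 2) := by linear_combination -r.sum
  have s1 : -L.weierstrassP (L.ω₂ / 2) - L.weierstrassP (L.ω₁ / 2 + L.ω₂ / 2) =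
    L.weierstrassP (L.ω₁ / 2) := by linear_combination -r.sum
  rw [s3] at k12
  rw [s2] at k13
  rw [s1] at k23
  simp only [Finset.prod_mul_distrib] at k12 k13 k23
  have hsq4 : ∏ i ∈ Finset.Ico 1 N, L.derivWeierstrassP (i * M.ω₂) ^ 4 =
      16 ^ (N - 1) * ((∏ i ∈ Finset.Ico 1 N, (L.weierstrassP (i * M.ω₂) - L.weierstrassP (L.ω₁ / 2))) *
        (∏ i ∈ Finset.Ico 1 N, (L.weierstrassP (i * M.ω₂) - L.weierstrassP (L.ω₂ / 2))) *
        (∏ i ∈ Finset.Ico 1 N, (L.weierstrassP (i * M.ω₂) -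
          L.weierstrassP (L.ω₁ / 2 + L.ω₂ / 2)))) ^ 2 := by
    rw [← Finset.prod_mul_distrib, ← Finset.prod_mul_distrib, ← Finset.prod_pow]
    have : (16 : ℂ) ^ (N - 1) = ∏ _i ∈ Finset.Ico 1 N, (16 : ℂ) := by
      rw [Finset.prod_const, Nat.card_Ico]
    rw [this, ← Finset.prod_mul_distrib]
    refine Finset.prod_congr rfl fun i hi => ?_
    rw [show 4 = 2 * 2 from rfl, pow_mul, hsq i hi]
    ring
  have np1 : ∏ i ∈ Finset.Ico 1 N, (L.weierstrassP (i * M.ω₂) - L.weierstrassP (L.ω₁ / 2)) ≠ 0 :=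
    Finset.prod_ne_zero_iff.mpr ne1
  have np2 : ∏ i ∈ Finset.Ico 1 N, (L.weierstrassP (i * M.ω₂) - L.weierstrassP (L.ω₂ / 2)) ≠ 0 :=
    Finset.prod_ne_zero_iff.mpr ne2
  have np3 : ∏ i ∈ Finset.Ico 1 N, (L.weierstrassP (i * M.ω₂) -
      L.weierstrassP (L.ω₁ / 2 + L.ω₂ / 2)) ≠ 0 :=
    Finset.prod_ne_zero_iff.mpr ne3
  rw [hsq4]
  have h16 : (16 : ℂ) ^ N = 16 * 16 ^ (N - 1) := by
    rw [← pow_succ', Nat.sub_add_cancel (NeZero.pos N)]
  generalize (∏ i ∈ Finset.Ico 1 N, (L.weierstrassP (i * M.ω₂) - L.weierstrassP (L.ω₁ / 2))) = p1 at *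
  generalize (∏ i ∈ Finset.Ico 1 N, (L.weierstrassP (i * M.ω₂) - L.weierstrassP (L.ω₂ / 2))) = p2 at *
  generalize (∏ i ∈ Finset.Ico 1 N, (L.weierstrassP (i * M.ω₂) -
      L.weierstrassP (L.ω₁ / 2 + L.ω₂ / 2))) = p3 at *
  rw [mul_pow 16, h16, ← pow_mul, mul_comm 2 N, pow_mul]
  generalize (16 : ℂ) ^ (N - 1) = c at *
  have hprod : ((M.weierstrassP (L.ω₁ / 2) - M.weierstrassP (L.ω₂ / 2)) *
      (M.weierstrassP (L.ω₂ / 2) - M.weierstrassP (L.ω₁ / 2 + L.ω₂ / 2)) *
      (M.weierstrassP (L.ω₁ / 2) - M.weierstrassP (L.ω₁ / 2 + L.ω₂ / 2))) * (p1 * p2 * p3) =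
      ((L.weierstrassP (L.ω₁ / 2) - L.weierstrassP (L.ω₂ / 2)) *
      (L.weierstrassP (L.ω₂ / 2) - L.weierstrassP (L.ω₁ / 2 + L.ω₂ / 2)) *
      (L.weierstrassP (L.ω₁ / 2) - L.weierstrassP (L.ω₁ / 2 + L.ω₂ / 2))) ^ N := by
    apply mul_right_cancel₀ (mul_ne_zero (mul_ne_zero np1 np2) np3)
    have : ((M.weierstrassP (L.ω₁ / 2) - M.weierstrassP (L.ω₂ / 2)) * (p1 * p2)) *
      ((M.weierstrassP (L.ω₂ / 2) - M.weierstrassP (L.ω₁ / 2 + L.ω₂ / 2)) * (p2 * p3)) *
      ((M.weierstrassP (L.ω₁ / 2) - M.weierstrassP (L.ω₁ / 2 + L.ω₂ / 2)) * (p1 * p3)) =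
      ((L.weierstrassP (L.ω₁ / 2) - L.weierstrassP (L.ω₂ / 2)) ^ N * p3) *
      ((L.weierstrassP (L.ω₂ / 2) - L.weierstrassP (L.ω₁ / 2 + L.ω₂ / 2)) ^ N * p1) *
      ((L.weierstrassP (L.ω₁ / 2) - L.weierstrassP (L.ω₁ / 2 + L.ω₂ / 2)) ^ N * p2) := by
      rw [k12, k13, k23]
    rw [mul_pow, mul_pow]
    linear_combination this
  rw [← hprod]
  ring

end Fermat.Agent.H24
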