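import Mathlib
import Fermat.Agent.H24.Velu
import Fermat.Agent.H24.Prod

/-!
# Velu's invariants: the discriminant formula, descent to `ℚ̄`
-/

set_option autoImplicit false

open WeierstrassCurve WeierstrassCurve.Affine WeierstrassCurve.Affine.Point
open UpperHalfPlane hiding I
open ModularForm EisensteinSeries
open scoped MatrixGroups Real

noncomputable section

namespace Fermat.Agent.H24

open Fermat.Agent.H14 (pp G_pp gR coe_gR_smul)
open Fermat.Agent.H18 (jfun jfun_surjective jfun_mul_discriminant E4_cube_eq)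

lemma disc_pp_ne (τ : ℍ) (l : ℂ) (hl : l ≠ 0) :
    (pp τ l hl).g₂ ^ 3 - 27 * (pp τ l hl).g₃ ^ 2 ≠ 0 := by
  have h := delta_pp τ l hl
  have hpi : (π : ℂ) ≠ 0 := by exact_mod_cast Real.pi_ne_zero
  have hΔ0 : ModularForm.discriminant τ ≠ 0 := discriminant_ne_zero _
  have h1 : (2 * π / l) ^ 12 * ModularForm.discriminant τ ≠ 0 :=
    mul_ne_zero (pow_ne_zero _ (div_ne_zero (mul_ne_zero two_ne_zero hpi) hl)) hΔ0
  intro h0
  apply h1
  have : (1728 : ℂ) * ((2 * π / l) ^ 12 * ModularForm.discriminant τ) = 0 := by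
    rw [← h]; linear_combination 1728 * h0
  exact (mul_eq_zero.mp this).resolve_left (by norm_num)

/-- **the discriminant formula** over `ℂ` -/
theorem velu_disc {V : WeierstrassCurve ℂ} (hΔ : V.Δ ≠ 0) {N : ℕ} [NeZero N] (hN : N.Prime)
    (hN2 : N ≠ 2) {C : AddSubgroup V.toAffine.Point} (hC : Nat.card C = N) :
    veluD V.toAffine (C : Set V.toAffine.Point) *
      ∏ᶠ Q ∈ (C : Set V.toAffine.Point), ps Q ^ 4 = V.Δ ^ N := by
  obtain ⟨P, hPC, hP0, hPN⟩ := exists_gen_of_card hN hC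
  obtain ⟨τ, l, hl, h4, h6, hP⟩ := uniformise hΔ hN hN2 P hPN hP0
  have hN0 : (N : ℂ) ≠ 0 := by exact_mod_cast hN.ne_zero
  have hl' : l / N ≠ 0 := div_ne_zero hl hN0
  have hs := isSuper_pp τ l hl hl'
  have hPω : Phi h4 h6 hΔ (pp (gR N • τ) (l / N) hl').ω₂ = P := by rw [hP]; rfl
  have hmem : Phi h4 h6 hΔ (pp (gR N • τ) (l / N) hl').ω₂ ∈ C := by rw [hPω]; exact hPC
  have e4 := veluC4_complex h4 h6 hΔ hN hs hC hmem
  have e6 := veluC6_complex h4 h6 hΔ hN hs hC hmem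
  have hd := disc_super hs (hN.odd_of_ne_two hN2) (disc_pp_ne τ l hl) (disc_pp_ne _ _ hl')
  have eD : veluD V.toAffine (C : Set V.toAffine.Point) =
      (pp (gR N • τ) (l / N) hl').g₂ ^ 3 - 27 * (pp (gR N • τ) (l / N) hl').g₃ ^ 2 := by
    rw [veluD, e4, e6]; ring
  have eΔ : V.Δ = (pp τ l hl).g₂ ^ 3 - 27 * (pp τ l hl).g₃ ^ 2 := by
    have := V.c_relation
    rw [h4, h6] at this
    linear_combination this / 1728
  rw [eD, eΔ, ← hd]
  congr 1
  rw [finprod_subgroup hN hC hPC hP0, Finset.range_eq_Ico,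
    Finset.prod_eq_prod_Ico_succ_bot hN.pos, zero_nsmul, ps_zero, one_pow, one_mul]
  refine Finset.prod_congr rfl fun i hi => ?_
  rw [Finset.mem_Ico] at hi
  have h2 := notMem_of_super hs (i := i) (by omega) hi.2
  rw [← hPω, ← map_nsmul, nsmul_eq_mul, Phi_of_notMem h4 h6 hΔ h2, ps_some]
  congr 1
  have e1 : V.toAffine.a₁ = V.a₁ := rfl
  rw [e1]
  ring

section descent

variable {K : Type*} [Field K] [Algebra ℚ K] [DecidableEq K] {W : WeierstrassCurve.Affine ℚ}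

/-- image of a subgroup under a field embedding -/
lemma card_map_point (f : K →ₐ[ℚ] ℂ) (C : AddSubgroup (W⁄K).Point) :
    Nat.card (C.map (Point.map (W' := W) f)) = Nat.card C :=
  (Nat.card_congr (C.equivMapOfInjective _ (Point.map_injective (W' := W) f)).toEquiv).symm

theorem velu_disc' (f : K →ₐ[ℚ] ℂ) (hΔ : W.Δ ≠ 0) {N : ℕ} [NeZero N] (hN : N.Prime)
    (hN2 : N ≠ 2) {C : AddSubgroup (W⁄K).Point} (hC : Nat.card C = N) :
    veluD (W⁄K) (C : Set (W⁄K).Point) * ∏ᶠ Q ∈ (C : Set (W⁄K).Point), ps Q ^ 4 = (W⁄K).Δ ^ N := by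
  have hfin : Finite C := Nat.finite_of_card_ne_zero (by rw [hC]; exact hN.ne_zero)
  have hfin' : (C : Set (W⁄K).Point).Finite := Set.toFinite _
  have hΔ' : (W⁄ℂ).Δ ≠ 0 := by
    have : (W⁄ℂ).Δ = algebraMap ℚ ℂ W.Δ := WeierstrassCurve.map_Δ W _
    rw [this, Ne, map_eq_zero_iff _ (algebraMap ℚ ℂ).injective]; exact hΔ
  have h := velu_disc (V := (W⁄ℂ)) hΔ' hN hN2 (C := C.map (Point.map (W' := W) f))
    (by rw [card_map_point, hC])
  have e : ((C.map (Point.map (W' := W) f) : AddSubgroup (W⁄ℂ).Point) : Set (W⁄ℂ).Point) =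
    Point.map (W' := W) f '' (C : Set (W⁄K).Point) := rfl
  rw [e] at h
  apply f.toRingHom.injective
  show f _ = f _
  rw [map_mul, map_pow, ← prod_ps_map f hfin', map_Δ_eq, ← veluD_map f hfin']
  exact h

theorem exists_tau' (f : K →ₐ[ℚ] ℂ) (hΔ : W.Δ ≠ 0) {N : ℕ} [NeZero N] (hN : N.Prime)
    (hN2 : N ≠ 2) {C : AddSubgroup (W⁄K).Point} (hC : Nat.card C = N) :
    ∃ τ : ℍ, jfun τ = f ((W⁄K).c₄ ^ 3 / (W⁄K).Δ) ∧
      veluD (W⁄K) (C : Set (W⁄K).Point) ≠ 0 ∧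
      jfun (gR N • τ) = f (veluJ (W⁄K) (C : Set (W⁄K).Point)) := by
  have hfin : Finite C := Nat.finite_of_card_ne_zero (by rw [hC]; exact hN.ne_zero)
  have hfin' : (C : Set (W⁄K).Point).Finite := Set.toFinite _
  have hΔ' : (W⁄ℂ).Δ ≠ 0 := by
    have : (W⁄ℂ).Δ = algebraMap ℚ ℂ W.Δ := WeierstrassCurve.map_Δ W _
    rw [this, Ne, map_eq_zero_iff _ (algebraMap ℚ ℂ).injective]; exact hΔ
  obtain ⟨τ, h1, h2, h3⟩ := exists_tau (V := (W⁄ℂ)) hΔ' hN hN2 (C := C.map (Point.map (W' := W) f))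
    (by rw [card_map_point, hC])
  have e : ((C.map (Point.map (W' := W) f) : AddSubgroup (W⁄ℂ).Point) : Set (W⁄ℂ).Point) =
    Point.map (W' := W) f '' (C : Set (W⁄K).Point) := rfl
  rw [e] at h2 h3
  have h2' := veluD_map f hfin'
  have h3' := veluJ_map f hfin'
  refine ⟨τ, ?_, ?_, ?_⟩
  · rw [h1, map_div₀, map_pow, map_c4_eq, map_Δ_eq]
  · intro h0
    apply h2
    have : veluD (W⁄ℂ) (Point.map (W' := W) f '' (C : Set (W⁄K).Point)) = 0 := by
      rw [h2', h0, _root_.map_zero]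
    exact this
  · exact h3.trans h3'

end descent

end Fermat.Agent.H24
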