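import Mathlib
import Fermat.Agent.H18_ModPlace

/-!
# A smooth point of a plane model carries at most one place
-/

set_option autoImplicit false

noncomputable section

namespace Fermat.Agent.H24

open Polynomial AlgebraicCurve Fermat.Agent.H18

variable {K F : Type*} [Field K] [Field F] [Algebra K F]

/-- evaluation of a bivariate polynomial at `(u, v)`, the inner variable is sent to `u`. -/
def ev2 (u v : F) : K[X][X] →+* F := eval₂RingHom (aeval u : K[X] →ₐ[K] F).toRingHom v

@[simp] lemma ev2_C (u v : F) (p : K[X]) : ev2 u v (C p) = aeval u p := by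
  simp [ev2]

@[simp] lemma ev2_X (u v : F) : ev2 u v (X : K[X][X]) = v := by
  simp [ev2]

lemma exists_decomp (p : K[X][X]) (c y : K) : ∃ a b : K[X][X],
    p = C (C (p.evalEval c y)) + C (X - C c) * a + (X - C (C y)) * b := by
  obtain ⟨b, hb⟩ : (X - C (C y)) ∣ p - C (p.eval (C y)) := by
    rw [dvd_iff_isRoot]; simp
  obtain ⟨a, ha⟩ : (X - C c) ∣ p.eval (C y) - C ((p.eval (C y)).eval c) := by
    rw [dvd_iff_isRoot]; simp
  refine ⟨C a, b, ?_⟩
  have h1 : C (p.eval (C y)) = C (C (p.evalEval c y)) + C (X - C c) * C a := by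
    rw [← C_mul, ← C_add, ← ha]
    congr 1
    rw [evalEval]
    ring
  rw [← h1, ← hb]; ring

section

variable {x : Place K F} {u v : F} {c y : K}

/-- the place `x` lies over the point `(c, y)`. -/
structure IsOver (x : Place K F) (u v : F) (c y : K) : Prop where
  hu : 0 < x.ord (u - algebraMap K F c)
  hv : 0 < x.ord (v - algebraMap K F y)

lemma mem_of_pos {f : F} {a : K} (h : 0 < x.ord (f - algebraMap K F a)) :
    f ∈ x.toValuationSubring := by
  have h1 := mem_of_ord_nonneg x h.le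
  have h2 := x.toValuationSubring.add_mem _ _ h1 (x.algebraMap_mem' a)
  simpa using h2

lemma IsOver.ev2_mem (h : IsOver x u v c y) (p : K[X][X]) : ev2 u v p ∈ x.toValuationSubring := by
  have hu := mem_of_pos h.hu
  have hv := mem_of_pos h.hv
  have h1 : ∀ q : K[X], (aeval u q : F) ∈ x.toValuationSubring := by
    intro q
    induction q using Polynomial.induction_on' with
    | add p q hp hq => rw [map_add]; exact x.toValuationSubring.add_mem _ _ hp hq
    | monomial n a =>
      rw [aeval_monomial]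
      exact x.toValuationSubring.mul_mem _ _ (x.algebraMap_mem' a) (pow_mem hu n)
  induction p using Polynomial.induction_on' with
  | add p q hp hq => rw [map_add]; exact x.toValuationSubring.add_mem _ _ hp hq
  | monomial n a =>
    rw [← C_mul_X_pow_eq_monomial, map_mul, map_pow, ev2_C, ev2_X]
    exact x.toValuationSubring.mul_mem _ _ (h1 a) (pow_mem hv n)

lemma ne_zero_of_ord_pos {f : F} (h : 0 < x.ord f) : f ≠ 0 := by
  rintro rfl; simp at h

/-- the part of positive order -/
lemma IsOver.small (h : IsOver x u v c y) (a b : K[X][X]) :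
    ev2 u v (C (X - C c) * a + (X - C (C y)) * b) = 0 ∨
      1 ≤ x.ord (ev2 u v (C (X - C c) * a + (X - C (C y)) * b)) := by
  by_cases h0 : ev2 u v (C (X - C c) * a + (X - C (C y)) * b) = 0
  · exact Or.inl h0
  right
  rw [map_add] at h0 ⊢
  apply le_ord_add x h0
  · by_cases ha : ev2 u v a = 0
    · left; rw [map_mul, ha, mul_zero]
    · right
      rw [map_mul, ev2_C, map_sub, aeval_X, aeval_C, x.ord_mul (ne_zero_of_ord_pos h.hu) ha]
      have := ord_nonneg_of_mem x (h.ev2_mem a)
      have := h.hu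
      omega
  · by_cases hb : ev2 u v b = 0
    · left; rw [map_mul, hb, mul_zero]
    · right
      rw [map_mul, map_sub, ev2_X, ev2_C, aeval_C, x.ord_mul (ne_zero_of_ord_pos h.hv) hb]
      have := ord_nonneg_of_mem x (h.ev2_mem b)
      have := h.hv
      omega

lemma IsOver.unit (h : IsOver x u v c y) {p : K[X][X]} (hp : p.evalEval c y ≠ 0) :
    x.ord (ev2 u v p) = 0 ∧ ev2 u v p ≠ 0 := by
  obtain ⟨a, b, hab⟩ := exists_decomp p c y
  have h1 := h.small a b
  have h2 : ev2 u v p = algebraMap K F (p.evalEval c y) +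
      ev2 u v (C (X - C c) * a + (X - C (C y)) * b) := by
    conv_lhs => rw [hab, add_assoc, map_add, ev2_C, aeval_C]
  rw [h2]
  have h3 : algebraMap K F (p.evalEval c y) ≠ 0 :=
    (map_ne_zero_iff _ (algebraMap K F).injective).mpr hp
  have h4 := ord_add_eq_of_lt x h3 (g := ev2 u v (C (X - C c) * a + (X - C (C y)) * b))
    (h1.imp id fun h5 => by rw [ord_algebraMap]; omega)
  rw [ord_algebraMap] at h4
  exact h4

lemma IsOver.evalEval_eq_zero (h : IsOver x u v c y) {p : K[X][X]} (hp : ev2 u v p = 0) :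
    p.evalEval c y = 0 := by
  by_contra h0
  exact (h.unit h0).2 hp

/-- equality of places -/
theorem place_eq_of_sign' {v w : Place K F}
    (h : ∀ x : F, x ≠ 0 → (0 ≤ v.ord x ↔ 0 ≤ w.ord x)) : v = w := by
  apply Place.ext
  ext x
  rcases eq_or_ne x 0 with rfl | hx
  · simp [mem_iff]
  · rw [mem_iff, mem_iff, h x hx]

/-- division by the uniformiser `t`, where `ev2 T = t`. -/
theorem IsOver.factor (h : IsOver x u v c y) {T : K[X][X]} (hT : 0 < x.ord (ev2 u v T))
    (hdiv : ∀ p : K[X][X], p.evalEval c y = 0 → ∃ B q : K[X][X], B.evalEval c y ≠ 0 ∧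
      ev2 u v p * ev2 u v B = ev2 u v T * ev2 u v q) (n : ℕ) :
    ∀ p : K[X][X], ev2 u v p ≠ 0 → x.ord (ev2 u v p) ≤ n →
      ∃ (k : ℕ) (a b : K[X][X]), a.evalEval c y ≠ 0 ∧ b.evalEval c y ≠ 0 ∧
        ev2 u v p * ev2 u v a = ev2 u v T ^ k * ev2 u v b := by
  induction n with
  | zero =>
    intro p hp hn
    refine ⟨0, 1, p, by simp [evalEval], ?_, by simp⟩
    intro h0
    obtain ⟨B, q, hB, hq⟩ := hdiv p h0
    have hBu := h.unit hB
    have hq0 : ev2 u v q ≠ 0 := by
      intro h1
      rw [h1, mul_zero] at hq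
      exact (mul_ne_zero hp hBu.2) hq
    have h2 := congrArg x.ord hq
    rw [x.ord_mul hp hBu.2, x.ord_mul (ne_zero_of_ord_pos hT) hq0, hBu.1] at h2
    have := ord_nonneg_of_mem x (h.ev2_mem q)
    push_cast at hn
    omega
  | succ n ih =>
    intro p hp hn
    by_cases h0 : p.evalEval c y = 0
    · obtain ⟨B, q, hB, hq⟩ := hdiv p h0
      have hBu := h.unit hB
      have hq0 : ev2 u v q ≠ 0 := by
        intro h1
        rw [h1, mul_zero] at hq
        exact (mul_ne_zero hp hBu.2) hq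
      have h2 := congrArg x.ord hq
      rw [x.ord_mul hp hBu.2, x.ord_mul (ne_zero_of_ord_pos hT) hq0, hBu.1] at h2
      obtain ⟨k, a, b, ha, hb, hab⟩ := ih q hq0 (by push_cast at hn; omega)
      refine ⟨k + 1, B * a, b, ?_, hb, ?_⟩
      · rw [evalEval_mul]; exact mul_ne_zero hB ha
      · rw [map_mul, ← mul_assoc, hq, pow_succ]
        linear_combination (ev2 u v T) * hab
    · exact ⟨0, 1, p, by simp [evalEval], h0, by simp⟩

theorem IsOver.unique_of_div (hgen : ∀ f : F, f ≠ 0 → ∃ p q : K[X][X], ev2 u v p ≠ 0 ∧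
      ev2 u v q ≠ 0 ∧ f = ev2 u v p / ev2 u v q) {T : K[X][X]}
    (hdiv : ∀ p : K[X][X], p.evalEval c y = 0 → ∃ B q : K[X][X], B.evalEval c y ≠ 0 ∧
      ev2 u v p * ev2 u v B = ev2 u v T * ev2 u v q)
    {x x' : Place K F} (h : IsOver x u v c y) (h' : IsOver x' u v c y)
    (hT : 0 < x.ord (ev2 u v T)) (hT' : 0 < x'.ord (ev2 u v T)) : x = x' := by
  have key : ∀ p : K[X][X], ev2 u v p ≠ 0 → ∃ k : ℕ, x.ord (ev2 u v p) = k * x.ord (ev2 u v T) ∧
      x'.ord (ev2 u v p) = k * x'.ord (ev2 u v T) := by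
    intro p hp
    obtain ⟨k, a, b, ha, hb, hab⟩ := h.factor hT hdiv (x.ord (ev2 u v p)).toNat p hp
      (Int.self_le_toNat _)
    have hTn := ne_zero_of_ord_pos hT
    refine ⟨k, ?_, ?_⟩
    · have h2 := congrArg x.ord hab
      rw [x.ord_mul hp (h.unit ha).2, x.ord_mul (pow_ne_zero _ hTn) (h.unit hb).2, (h.unit ha).1,
        (h.unit hb).1, ord_pow] at h2
      linarith
    · have h2 := congrArg x'.ord hab
      rw [x'.ord_mul hp (h'.unit ha).2, x'.ord_mul (pow_ne_zero _ hTn) (h'.unit hb).2,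
        (h'.unit ha).1, (h'.unit hb).1, ord_pow] at h2
      linarith
  apply place_eq_of_sign'
  intro f hf
  obtain ⟨p, q, hp, hq, rfl⟩ := hgen f hf
  obtain ⟨k, k1, k2⟩ := key p hp
  obtain ⟨m, m1, m2⟩ := key q hq
  rw [div_eq_mul_inv, x.ord_mul hp (inv_ne_zero hq), x'.ord_mul hp (inv_ne_zero hq), x.ord_inv,
    x'.ord_inv, k1, k2, m1, m2]
  constructor
  · intro h3
    have h4 : 0 ≤ ((k : ℤ) - m) * x.ord (ev2 u v T) := by linarith
    have h5 : 0 ≤ (k : ℤ) - m := by
      by_contra h6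
      push Not at h6
      have := mul_neg_of_neg_of_pos h6 hT
      linarith
    have := mul_nonneg h5 hT'.le
    linarith
  · intro h3
    have h4 : 0 ≤ ((k : ℤ) - m) * x'.ord (ev2 u v T) := by linarith
    have h5 : 0 ≤ (k : ℤ) - m := by
      by_contra h6
      push Not at h6
      have := mul_neg_of_neg_of_pos h6 hT'
      linarith
    have := mul_nonneg h5 hT.le
    linarith

/-- **uniqueness of the place over a smooth point.** -/
theorem IsOver.unique (hgen : ∀ f : F, f ≠ 0 → ∃ p q : K[X][X], ev2 u v p ≠ 0 ∧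
      ev2 u v q ≠ 0 ∧ f = ev2 u v p / ev2 u v q) {Φ A B : K[X][X]} (hΦ : ev2 u v Φ = 0)
    (hAB : Φ = C (X - C c) * A + (X - C (C y)) * B)
    (hsm : A.evalEval c y ≠ 0 ∨ B.evalEval c y ≠ 0)
    {x x' : Place K F} (h : IsOver x u v c y) (h' : IsOver x' u v c y) : x = x' := by
  have hrel : ev2 u v (C (X - C c)) * ev2 u v A = -(ev2 u v (X - C (C y)) * ev2 u v B) := by
    rw [hAB, map_add, map_mul, map_mul] at hΦ
    linear_combination hΦ
  have eT1 : ev2 u v (C (X - C c)) = u - algebraMap K F c := by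
    rw [ev2_C, map_sub, aeval_X, aeval_C]
  have eT2 : ev2 u v (X - C (C y)) = v - algebraMap K F y := by
    rw [map_sub, ev2_X, ev2_C, aeval_C]
  have hdec : ∀ p : K[X][X], p.evalEval c y = 0 → ∃ a b : K[X][X],
      ev2 u v p = ev2 u v (C (X - C c)) * ev2 u v a + ev2 u v (X - C (C y)) * ev2 u v b := by
    intro p hp
    obtain ⟨a, b, hab⟩ := exists_decomp p c y
    refine ⟨a, b, ?_⟩
    conv_lhs => rw [hab, hp]
    simp
  rcases hsm with hA | hB
  · refine IsOver.unique_of_div hgen (T := X - C (C y)) ?_ h h' (by rw [eT2]; exact h.hv)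
      (by rw [eT2]; exact h'.hv)
    intro p hp
    obtain ⟨a, b, hab⟩ := hdec p hp
    refine ⟨A, b * A - a * B, hA, ?_⟩
    rw [map_sub (ev2 u v) (b * A), map_mul, map_mul, hab]
    linear_combination (ev2 u v a) * hrel
  · refine IsOver.unique_of_div hgen (T := C (X - C c)) ?_ h h' (by rw [eT1]; exact h.hu)
      (by rw [eT1]; exact h'.hu)
    intro p hp
    obtain ⟨a, b, hab⟩ := hdec p hp
    refine ⟨B, a * B - b * A, hB, ?_⟩
    rw [map_sub (ev2 u v) (a * B), map_mul, map_mul, hab]
    linear_combination (ev2 u v b) * hrel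

end

end Fermat.Agent.H24
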