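import Mathlib
import Fermat.Agent.H24.PlaceUniq
import Fermat.Agent.H18_ModDeg
import Fermat.Agent.Igusa.Degree
import Fermat.Agent.H14.Eval2

/-!
# The place of the modular function field attached to a point of the upper half plane
-/

set_option autoImplicit false

noncomputable section

namespace Fermat.Agent.H24

open Polynomial AlgebraicCurve Fermat.Agent.H18 Fermat.Agent.H02
open UpperHalfPlane hiding I
open ModularCurve (coeffMap qExpand jqModC coeffEmb jq laurentBaseChange modularFunctionFieldFull)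
open Fermat.Agent.H01 (ordAt)
open Fermat.Agent.H14 (gR coe_gR_smul)
open Fermat.Agent.Igusa (modPoly modPoly_eval modPoly_monic evZ)
open scoped MatrixGroups

variable {K : Type*} [Field K] [Algebra K ℂ] [IsAlgClosed K] [Algebra ℚ K] {N : ℕ} [NeZero N]

/-- pull back of an order function along an embedding of fields -/
def comapOrd {F F' : Type*} [Field F] [Field F'] [Algebra K F] [Algebra K F'] (o : OrdData K F')
    (e : F →ₐ[K] F') (hn : ∃ x, x ≠ 0 ∧ o.g (e x) ≠ 0) : OrdData K F where
  g x := o.g (e x)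
  mul x y hx hy := by
    rw [map_mul]
    exact o.mul _ _ ((map_ne_zero e).mpr hx) ((map_ne_zero e).mpr hy)
  add x y hx hy hxy := by
    rw [map_add]
    exact o.add _ _ ((map_ne_zero e).mpr hx) ((map_ne_zero e).mpr hy)
      (by rw [← map_add]; exact (map_ne_zero e).mpr hxy)
  const a ha := by
    rw [AlgHom.commutes]; exact o.const a ha
  nontriv := hn

omit [IsAlgClosed K] [Algebra ℚ K] in
lemma jN_apply (τ : ℍ) : jN N τ = jfun (gR N • τ) := by
  rw [jN]
  congr 1
  ext
  rw [IntStr.aff, ofComplex_apply_of_im_pos (by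
    have := τ.im_pos
    have hN : (0 : ℝ) < N := by exact_mod_cast NeZero.pos N
    simp only [Int.cast_zero, add_zero, Nat.cast_one, div_one, Complex.mul_im, Complex.natCast_re,
      Complex.natCast_im, zero_mul, UpperHalfPlane.coe_im]
    positivity)]
  rw [coe_gR_smul]
  simp

lemma gF_pos {τ : ℍ} {f : funAlg K N} (hf : f ≠ 0) (h0 : (f : ℍ → ℂ) τ = 0) :
    0 < (ptDomOrd K N τ).gF (ModField K N) (algebraMap (funAlg K N) (ModField K N) f) := by
  rw [(ptDomOrd K N τ).gF_algebraMap hf]
  have := ordAt_pos_of_zero (mdiff_of_mem f.2) (coe_ne_zero hf) h0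
  show 0 < (ordAt τ (f : ℍ → ℂ) : ℤ)
  exact_mod_cast this

/-- `j(N z) - y`. -/
def jNc (K : Type*) [Field K] [Algebra K ℂ] (N : ℕ) [NeZero N] (y : K) : funAlg K N :=
  ⟨jN N, jN_mem dvd_rfl⟩ - algebraMap K _ y

lemma jNc_ne_zero (y : K) : jNc K N y ≠ 0 := by
  intro h
  obtain ⟨z, hz⟩ := jfun_surjective (algebraMap K ℂ y + 1)
  -- choose τ with N τ = z
  have hN : (0 : ℝ) < N := by exact_mod_cast NeZero.pos N
  let τ : ℍ := ⟨(z : ℂ) / N, by
    rw [Complex.div_natCast_im]
    exact div_pos z.im_pos hN⟩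
  have h1 : gR N • τ = z := by
    ext
    rw [coe_gR_smul]
    show (N : ℂ) * ((z : ℂ) / N) = z
    have : (N : ℂ) ≠ 0 := by exact_mod_cast NeZero.ne N
    field_simp
  have h2 := congrFun (congrArg Subtype.val h) τ
  have h3 : jN N τ - algebraMap K ℂ y = 0 := h2
  rw [jN_apply, h1, hz] at h3
  simp at h3

/-- the order data on the function field of `X₀(N)` given by a point of the upper half plane. -/
def ptOrdF {τ : ℍ} {c : K} (hc : jfun τ = algebraMap K ℂ c) : OrdData K (Fb K N) :=
  comapOrd (ptOrd N hc) (embF K N) ⟨jB K N - algebraMap K _ c, by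
    intro h
    have h1 := congrArg (embF K N) h
    rw [map_sub, embF_jB, AlgHom.commutes, map_zero, sub_eq_zero] at h1
    exact transcendental_jM (K := K) (N := N) (by
      rw [h1]; exact isAlgebraic_algebraMap c), by
    rw [map_sub, embF_jB, AlgHom.commutes, ptOrd_g]
    have h2 : jM K N - algebraMap K (ModField K N) c =
        algebraMap (funAlg K N) (ModField K N) (jc K N c) := by
      rw [jc, map_sub, ← IsScalarTower.algebraMap_apply]; rfl
    rw [h2]
    exact (gF_pos (jc_ne_zero c) (by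
      show jfun τ - algebraMap K ℂ c = 0
      rw [hc, sub_self])).ne'⟩

lemma ptOrdF_g {τ : ℍ} {c : K} (hc : jfun τ = algebraMap K ℂ c) (f : Fb K N) :
    (ptOrdF hc).g f = (ptDomOrd K N τ).gF (ModField K N) (embF K N f) := rfl

lemma ord_toPlace_pos {F : Type*} [Field F] [Algebra K F] (o : OrdData K F) {f : F} (hf : f ≠ 0)
    (h : 0 < o.g f) : 0 < o.toPlace.ord f := by
  rw [o.g_eq_idx_mul_ord hf] at h
  have h1 : (0 : ℤ) < o.idx := by exact_mod_cast o.idx_pos
  exact (mul_pos_iff_of_pos_left h1).mp h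

/-- **existence of the place** -/
theorem exists_isOver {τ : ℍ} {c y : K} (hc : jfun τ = algebraMap K ℂ c)
    (hy : jfun (gR N • τ) = algebraMap K ℂ y) :
    ∃ x : Place K (Fb K N), IsOver x (jB K N) (jd N dvd_rfl) c y := by
  refine ⟨(ptOrdF hc).toPlace, ?_, ?_⟩
  · have h2 : embF K N (jB K N - algebraMap K _ c) =
        algebraMap (funAlg K N) (ModField K N) (jc K N c) := by
      rw [map_sub, embF_jB, AlgHom.commutes, jc, map_sub, ← IsScalarTower.algebraMap_apply]; rfl
    apply ord_toPlace_pos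
    · intro h
      rw [h, map_zero] at h2
      exact jc_ne_zero (N := N) c ((map_eq_zero_iff _ (IsFractionRing.injective (funAlg K N)
        (ModField K N))).mp h2.symm)
    · rw [ptOrdF_g, h2]
      exact gF_pos (jc_ne_zero c) (by
        show jfun τ - algebraMap K ℂ c = 0
        rw [hc, sub_self])
  · have h2 : embF K N (jd N dvd_rfl - algebraMap K _ y) =
        algebraMap (funAlg K N) (ModField K N) (jNc K N y) := by
      rw [map_sub, embF_jd, AlgHom.commutes, jNc, map_sub, ← IsScalarTower.algebraMap_apply]; rfl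
    apply ord_toPlace_pos
    · intro h
      rw [h, map_zero] at h2
      exact jNc_ne_zero (N := N) y ((map_eq_zero_iff _ (IsFractionRing.injective (funAlg K N)
        (ModField K N))).mp h2.symm)
    · rw [ptOrdF_g, h2]
      exact gF_pos (jNc_ne_zero y) (by
        show jN N τ - algebraMap K ℂ y = 0
        rw [jN_apply, hy, sub_self])

section gen

variable {F : Type*} [Field F] [Algebra K F] (u v : F)

omit [Algebra K ℂ] [IsAlgClosed K] [Algebra ℚ K] in
/-- the field of fractions of `K[u, v]` -/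
def ratSub : Subfield F where
  carrier := {f | ∃ p q : K[X][X], ev2 u v q ≠ 0 ∧ f = ev2 u v p / ev2 u v q}
  mul_mem' := by
    rintro _ _ ⟨p, q, hq, rfl⟩ ⟨p', q', hq', rfl⟩
    refine ⟨p * p', q * q', ?_, ?_⟩
    · rw [map_mul]; exact mul_ne_zero hq hq'
    · rw [map_mul, map_mul]; field_simp
  one_mem' := ⟨1, 1, by simp, by simp⟩
  add_mem' := by
    rintro _ _ ⟨p, q, hq, rfl⟩ ⟨p', q', hq', rfl⟩
    refine ⟨p * q' + q * p', q * q', ?_, ?_⟩
    · rw [map_mul]; exact mul_ne_zero hq hq'
    · rw [map_add, map_mul, map_mul, map_mul]; field_simp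
  zero_mem' := ⟨0, 1, by simp, by simp⟩
  neg_mem' := by
    rintro _ ⟨p, q, hq, rfl⟩
    refine ⟨-p, q, hq, ?_⟩
    rw [map_neg]; field_simp
  inv_mem' := by
    rintro _ ⟨p, q, hq, rfl⟩
    by_cases hp : ev2 u v p = 0
    · refine ⟨0, 1, by simp, ?_⟩
      rw [hp]; simp
    · exact ⟨q, p, hp, by rw [inv_div]⟩

end gen

omit [Algebra K ℂ] [IsAlgClosed K] [NeZero N] in
lemma val_ev2 (L : IntermediateField K (LaurentSeries K)) (u v : L) (p : K[X][X]) :
    ((ev2 u v p : L) : LaurentSeries K) = ev2 (u : LaurentSeries K) (v : LaurentSeries K) p := by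
  have : (L.val.toRingHom).comp (ev2 (K := K) u v) =
      ev2 (K := K) (u : LaurentSeries K) (v : LaurentSeries K) := by
    apply Polynomial.ringHom_ext
    · intro a
      show ((ev2 u v (C a) : L) : LaurentSeries K) = _
      rw [ev2_C, ev2_C]
      exact (Polynomial.aeval_algHom_apply L.val u a).symm
    · show ((ev2 u v X : L) : LaurentSeries K) = _
      rw [ev2_X, ev2_X]
  exact congrArg (fun f => f p) this

omit [Algebra K ℂ] [IsAlgClosed K] in
/-- for `N` prime the function field is generated by `j` and `j_N`. -/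
theorem exists_frac (hN : N.Prime) (f : Fb K N) (hf : f ≠ 0) : ∃ p q : K[X][X],
    ev2 (jB K N) (jd N dvd_rfl) p ≠ 0 ∧ ev2 (jB K N) (jd N dvd_rfl) q ≠ 0 ∧
    f = ev2 (jB K N) (jd N dvd_rfl) p / ev2 (jB K N) (jd N dvd_rfl) q := by
  have hmem : (f : LaurentSeries K) ∈ ratSub (K := K) ((jB K N : Fb K N) : LaurentSeries K)
      ((jd N dvd_rfl : Fb K N) : LaurentSeries K) := by
    refine laurentBaseChange_le ?_ ?_ f.2
    · intro c
      refine ⟨C (C c), 1, by simp, ?_⟩
      simp
    · intro d _ hd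
      rcases (Nat.dvd_prime hN).mp hd with rfl | rfl
      · refine ⟨C X, 1, by simp, ?_⟩
        rw [ev2_C, aeval_X, map_one, div_one, coe_jB]
        exact ModularCurve.qExpand_one_apply _
      · refine ⟨X, 1, by simp, ?_⟩
        rw [ev2_X, map_one, div_one]
        rfl
  obtain ⟨p, q, hq, hpq⟩ := hmem
  have hq' : ev2 (jB K N) (jd N dvd_rfl) q ≠ 0 := by
    intro h
    apply hq
    rw [← val_ev2, h]; rfl
  have hfe : f = ev2 (jB K N) (jd N dvd_rfl) p / ev2 (jB K N) (jd N dvd_rfl) q := by
    apply Subtype.ext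
    rw [hpq, ← val_ev2, ← val_ev2]
    rfl
  refine ⟨p, q, ?_, hq', hfe⟩
  intro h
  apply hf
  rw [hfe, h, zero_div]

/-- the modular polynomial over `K` -/
def PhiK (K : Type*) [Field K] (N : ℕ) [Fact N.Prime] : K[X][X] :=
  (modPoly N).map (mapRingHom (Int.castRingHom K))

omit [Algebra K ℂ] [IsAlgClosed K] [Algebra ℚ K] in
lemma ev2_PhiK {F : Type*} [Field F] [Algebra K F] (N : ℕ) [Fact N.Prime] (u v : F) :
    ev2 u v (PhiK K N) = (modPoly N).eval₂ (evZ u) v := by
  rw [PhiK, ev2, coe_eval₂RingHom, eval₂_map]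
  congr 1
  apply Polynomial.ringHom_ext
  · intro a; simp
  · simp

omit [Algebra K ℂ] [IsAlgClosed K] in
lemma ev2_PhiK_eq_zero [Fact N.Prime] : ev2 (jB K N) (jd N dvd_rfl) (PhiK K N) = 0 := by
  apply Subtype.ext
  rw [val_ev2, ev2_PhiK]
  have h := modPoly_eval N K 1
  have e1 : ((jB K N : Fb K N) : LaurentSeries K) = Igusa.jd K 1 := by
    rw [coe_jB, Igusa.jd_one]
  have e2 : ((jd N dvd_rfl : Fb K N) : LaurentSeries K) = Igusa.jd K (1 * N) := by
    rw [Igusa.jd_congr K (one_mul N)]
    rfl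
  rw [e1, e2]
  exact h

omit [Algebra K ℂ] [IsAlgClosed K] [Algebra ℚ K] in
/-- from the partial derivatives to the decomposition -/
lemma exists_smooth_decomp {Φ : K[X][X]} {c y : K} (h0 : Φ.evalEval c y = 0)
    (hsm : (derivative (Φ.eval (C y))).eval c ≠ 0 ∨
      (derivative (Φ.map (evalRingHom c))).eval y ≠ 0) :
    ∃ A B : K[X][X], Φ = C (X - C c) * A + (X - C (C y)) * B ∧
      (A.evalEval c y ≠ 0 ∨ B.evalEval c y ≠ 0) := by
  obtain ⟨A, B, hAB⟩ := exists_decomp Φ c y
  rw [h0] at hAB
  simp only [map_zero, zero_add] at hAB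
  refine ⟨A, B, hAB, ?_⟩
  rcases hsm with h | h
  · left
    intro hA
    apply h
    rw [hAB]
    simp only [eval_add, eval_mul, eval_C, eval_sub, eval_X, sub_self, zero_mul, add_zero,
      derivative_mul, derivative_sub, derivative_X, derivative_C, sub_zero, one_mul]
    exact hA
  · right
    intro hB
    apply h
    rw [hAB]
    simp only [Polynomial.map_add, Polynomial.map_mul, Polynomial.map_sub, map_C, map_X,
      coe_evalRingHom, eval_sub, eval_X, eval_C, sub_self, map_zero, zero_mul, zero_add,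
      derivative_mul, derivative_sub, derivative_X, derivative_C, sub_zero, one_mul, eval_add,
      eval_mul, add_zero]
    rw [← hB]
    exact map_evalRingHom_eval c y B

end Fermat.Agent.H24
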