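import Mathlib
import Fermat.Agent.H24.PlaceExist
import Fermat.Agent.H24.Velu2
import Fermat.Agent.H07.PhiDich
import Fermat.Agent.H09.TypeJ

/-!
# The rational place of the modular function field attached to an elliptic curve with a
Galois stable subgroup
-/

set_option autoImplicit false

noncomputable section

namespace Fermat.Agent.H24

open Polynomial AlgebraicCurve Fermat.Agent.H18 Fermat.Agent.H02 WeierstrassCurve
  WeierstrassCurve.Affine WeierstrassCurve.Affine.Point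
open ModularCurve (coeffMap qExpand jqModC laurentBaseChange modularFunctionFieldFull
  modularFunctionFieldBar arithmeticGalois coe_arithmeticGalois_smul coeffMap_jqModC
  coeffMap_qExpand baseAut_arithmeticGalois)
open Fermat.Agent.Igusa (modPoly evZ)

section gal

variable {L : Type*} [Field L] [Algebra ℚ L] {N : ℕ} [NeZero N]

lemma galois_smul_jd (σ : L ≃ₐ[ℚ] L) (d : ℕ) [NeZero d] (hd : d ∣ N) :
    arithmeticGalois (modularFunctionFieldFull N) σ • (jd d hd : Fb L N) = jd d hd := by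
  apply Subtype.ext
  rw [coe_arithmeticGalois_smul]
  show coeffMap _ (qExpand L d (jqModC L)) = qExpand L d (jqModC L)
  rw [coeffMap_qExpand, coeffMap_jqModC]

lemma IsOver.galois_smul (σ : L ≃ₐ[ℚ] L) {x : Place L (Fb L N)} {c y : L}
    (h : IsOver x (jB L N) (jd N dvd_rfl) c y) :
    IsOver (arithmeticGalois (modularFunctionFieldFull N) σ • x) (jB L N) (jd N dvd_rfl)
      (σ c) (σ y) := by
  constructor
  · have h1 := h.hu
    rw [← SemilinearAut.ord_smul (arithmeticGalois (modularFunctionFieldFull N) σ), smul_sub,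
      jB, galois_smul_jd, SemilinearAut.smul_algebraMap, baseAut_arithmeticGalois] at h1
    exact h1
  · have h1 := h.hv
    rw [← SemilinearAut.ord_smul (arithmeticGalois (modularFunctionFieldFull N) σ), smul_sub,
      galois_smul_jd, SemilinearAut.smul_algebraMap, baseAut_arithmeticGalois] at h1
    exact h1

end gal

section smooth

variable {K : Type*} [Field K] (N : ℕ) [Fact N.Prime]

lemma PhiK_eval (y : K) : (PhiK K N).eval (C y) = H07.phiX N y := by
  rw [PhiK, H07.phiX, eval_map]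

lemma PhiK_map (c : K) : (PhiK K N).map (evalRingHom c) = (modPoly N).map (evZ c) := by
  rw [PhiK, Polynomial.map_map]
  congr 1
  apply Polynomial.ringHom_ext
  · intro a; simp
  · simp

lemma PhiK_evalEval (c y : K) : (PhiK K N).evalEval c y = (modPoly N).eval₂ (evZ c) y := by
  rw [evalEval, PhiK_eval, H07.phiX_eval]

/-- over a pair `(c, y)` with `c` not integral there is at most one place. -/
theorem unique_of_notMem {K : Type*} [Field K] [Algebra ℚ K] {N : ℕ} [hN : Fact N.Prime]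
    (hN2 : N ≠ 2) (A : ValuationSubring K) {c y : K} (hc : c ∉ A) {x x' : Place K (Fb K N)}
    (h : IsOver x (jB K N) (jd N dvd_rfl) c y) (h' : IsOver x' (jB K N) (jd N dvd_rfl) c y) :
    x = x' := by
  have h0 : (PhiK K N).evalEval c y = 0 := h.evalEval_eq_zero ev2_PhiK_eq_zero
  have h0' := h0
  rw [PhiK_evalEval] at h0'
  obtain ⟨A', B', hAB, hsm⟩ := exists_smooth_decomp h0 (by
    rcases H07.dichotomy N A hN2 hc h0' with h1 | h1
    · right
      rw [PhiK_map]
      exact H07.derivY_ne_zero N A hN2 hc h0' h1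
    · left
      rw [PhiK_eval]
      exact H07.derivX_ne_zero N A hN2 hc h0' h1)
  exact IsOver.unique (exists_frac hN.out) ev2_PhiK_eq_zero hAB hsm h h'

end smooth

section main

local notation "Qb" => AlgebraicClosure ℚ

variable {N : ℕ} [hN : Fact N.Prime] {W : WeierstrassCurve ℤ}
  {C : AddSubgroup ((W.map (Int.castRingHom ℚ))⁄Qb).Point}

/-- **The place of `X₀(N)` attached to `(W, C)`.** -/
theorem exists_place (hN2 : N ≠ 2) (hΔ : W.Δ ≠ 0) {ℓ : ℕ} (hℓ : ℓ.Prime)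
    (hℓΔ : (ℓ : ℤ) ∣ W.Δ) (hℓc₄ : ¬ (ℓ : ℤ) ∣ W.c₄) (hC : Nat.card C = N)
    (hst : ∀ (σ : Qb ≃ₐ[ℚ] Qb), ∀ Q ∈ C, σ • Q ∈ C) :
    ∃ x : Place Qb (modularFunctionFieldBar N),
      IsOver x (jB Qb N) (jd N dvd_rfl)
        (((W.map (Int.castRingHom ℚ))⁄Qb).c₄ ^ 3 / ((W.map (Int.castRingHom ℚ))⁄Qb).Δ)
        (veluJ ((W.map (Int.castRingHom ℚ))⁄Qb) (C : Set _)) ∧
      ∀ σ : Qb ≃ₐ[ℚ] Qb, arithmeticGalois (modularFunctionFieldFull N) σ • x = x := by
  have halg : Algebra.IsAlgebraic ℚ Qb := AlgebraicClosure.isAlgebraic ℚ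
  let f : Qb →ₐ[ℚ] ℂ := IsAlgClosed.lift (R := ℚ) (S := Qb) (M := ℂ)
  have hΔQ : (W.map (Int.castRingHom ℚ)).Δ ≠ 0 := by
    rw [map_Δ]; simpa using hΔ
  obtain ⟨τ, h1, h2, h3⟩ := exists_tau' f hΔQ hN.out hN2 hC
  letI : Algebra Qb ℂ := f.toRingHom.toAlgebra
  obtain ⟨x, hx⟩ := exists_isOver (K := Qb) (N := N) h1 h3
  refine ⟨x, hx, fun σ => ?_⟩
  obtain ⟨A, hA⟩ := Fermat.Agent.H05.exists_liesOverPrime Qb hℓ
  have hcA : (((W.map (Int.castRingHom ℚ))⁄Qb).c₄ ^ 3 / ((W.map (Int.castRingHom ℚ))⁄Qb).Δ)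
      ∉ A := by
    rw [← A.valuation_le_one_iff, not_le]
    exact H09.one_lt_val_j hΔ hℓ hℓΔ hℓc₄ hA
  have hfin : (C : Set ((W.map (Int.castRingHom ℚ))⁄Qb).Point).Finite := by
    have : Finite C := Nat.finite_of_card_ne_zero (by rw [hC]; exact hN.out.ne_zero)
    exact Set.toFinite _
  have hCσ : Point.map (W' := W.map (Int.castRingHom ℚ)) (σ : Qb →ₐ[ℚ] Qb) ''
      (C : Set ((W.map (Int.castRingHom ℚ))⁄Qb).Point) = C := by
    refine Set.eq_of_subset_of_ncard_le ?_ ?_ hfin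
    · rintro _ ⟨Q, hQ, rfl⟩
      exact hst σ Q hQ
    · rw [Set.ncard_image_of_injective _ (Point.map_injective (σ : Qb →ₐ[ℚ] Qb))]
  have hy : σ (veluJ ((W.map (Int.castRingHom ℚ))⁄Qb) (C : Set _)) =
      veluJ ((W.map (Int.castRingHom ℚ))⁄Qb) (C : Set _) := by
    have h4 := veluJ_map (W := W.map (Int.castRingHom ℚ)) (σ : Qb →ₐ[ℚ] Qb) hfin
    rw [hCσ] at h4
    exact h4.symm
  have hc : σ (((W.map (Int.castRingHom ℚ))⁄Qb).c₄ ^ 3 / ((W.map (Int.castRingHom ℚ))⁄Qb).Δ) =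
      ((W.map (Int.castRingHom ℚ))⁄Qb).c₄ ^ 3 / ((W.map (Int.castRingHom ℚ))⁄Qb).Δ := by
    rw [map_div₀, map_pow]
    congr 2
    · exact map_c4_eq (W := W.map (Int.castRingHom ℚ)) (σ : Qb →ₐ[ℚ] Qb)
    · exact map_Δ_eq (W := W.map (Int.castRingHom ℚ)) (σ : Qb →ₐ[ℚ] Qb)
  have hxσ := hx.galois_smul σ
  rw [hy, hc] at hxσ
  exact unique_of_notMem hN2 A hcA hxσ hx

end main

end Fermat.Agent.H24
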