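import Mathlib
import Fermat.Agent.Frob.Generic

/-!
# The function field of a Weierstrass curve has a generic point
-/

set_option autoImplicit false

namespace Fermat.Agent.H24.GenC

open Polynomial WeierstrassCurve WeierstrassCurve.Affine

universe u v

section

variable {K : Type u} [Field K] (E : WeierstrassCurve.Affine K)

/-- the cubic polynomial -/
noncomputable def cub : K[X] := X ^ 3 + C E.a₂ * X ^ 2 + C E.a₄ * X + C E.a₆

/-- the linear polynomial -/
noncomputable def lin : K[X] := C E.a₁ * X + C E.a₃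

/-- norm polynomial -/
noncomputable def nm (p q : K[X]) : K[X] := p ^ 2 - p * q * lin E - q ^ 2 * cub E

/-- `Y` in the coordinate ring -/
noncomputable def yy : E.CoordinateRing := CoordinateRing.mk E X

lemma smul_def' (p : K[X]) (a : E.CoordinateRing) :
    p • a = algebraMap K[X] E.CoordinateRing p * a := Algebra.smul_def p a

lemma yy_sq : yy E * yy E = -(algebraMap K[X] E.CoordinateRing (lin E)) * yy E +
    algebraMap K[X] E.CoordinateRing (cub E) := by
  have h0 : CoordinateRing.mk E E.polynomial = 0 := AdjoinRoot.mk_self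
  have e : E.polynomial = X ^ 2 + C (C E.a₁ * X + C E.a₃) * X -
    C (X ^ 3 + C E.a₂ * X ^ 2 + C E.a₄ * X + C E.a₆) := rfl
  have h := (congrArg (CoordinateRing.mk E) e).symm.trans h0
  have hC : ∀ p : K[X], CoordinateRing.mk E (C p) = algebraMap K[X] E.CoordinateRing p :=
    fun p => rfl
  simp only [map_sub, map_add, map_mul, map_pow] at h
  have h2 : yy E ^ 2 + (algebraMap K[X] E.CoordinateRing (lin E)) * yy E -
      algebraMap K[X] E.CoordinateRing (cub E) = 0 := by
    rw [← hC, ← hC, yy, lin, cub]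
    simp only [map_add, map_mul, map_pow]
    exact h
  linear_combination h2

lemma nm_eq (p q : K[X]) :
    (algebraMap K[X] E.CoordinateRing p + algebraMap K[X] E.CoordinateRing q * yy E) *
      (algebraMap K[X] E.CoordinateRing (p - q * lin E) +
        algebraMap K[X] E.CoordinateRing (-q) * yy E) =
      algebraMap K[X] E.CoordinateRing (nm E p q) := by
  rw [nm]
  simp only [map_sub, map_mul, map_neg, map_pow]
  linear_combination (-(algebraMap K[X] E.CoordinateRing q) ^ 2) * yy_sq E

lemma exists_rep (f : E.CoordinateRing) : ∃ p q : K[X],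
    f = algebraMap K[X] E.CoordinateRing p + algebraMap K[X] E.CoordinateRing q * yy E := by
  obtain ⟨p, q, h⟩ := CoordinateRing.exists_smul_basis_eq f
  refine ⟨p, q, ?_⟩
  rw [← h, Algebra.smul_def, Algebra.smul_def, mul_one]
  rfl

lemma rep_eq_zero {p q : K[X]}
    (h : algebraMap K[X] E.CoordinateRing p + algebraMap K[X] E.CoordinateRing q * yy E = 0) :
    p = 0 ∧ q = 0 := by
  apply CoordinateRing.smul_basis_eq_zero (W' := E)
  rw [Algebra.smul_def, Algebra.smul_def, mul_one]
  exact h

lemma nm_ne_zero {p q : K[X]} (h : ¬ (p = 0 ∧ q = 0)) : nm E p q ≠ 0 := by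
  intro h0
  have h1 := nm_eq E p q
  rw [h0, map_zero] at h1
  rcases mul_eq_zero.mp h1 with h2 | h2
  · exact h (rep_eq_zero E h2)
  · have h3 := rep_eq_zero E h2
    have hq : q = 0 := neg_eq_zero.mp h3.2
    refine h ⟨?_, hq⟩
    have := h3.1
    rwa [hq, zero_mul, sub_zero] at this

end

section lift

variable {K : Type u} [Field K] {E : WeierstrassCurve.Affine K} {L : Type v} [Field L] [Algebra K L]

lemma eval_poly {x y : L} (h : (E⁄L).Equation x y) :
    E.polynomial.eval₂ (aeval x : K[X] →ₐ[K] L).toRingHom y = 0 := by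
  rw [equation_iff] at h
  rw [Affine.polynomial]
  simp only [eval₂_sub, eval₂_add, eval₂_pow, eval₂_X, eval₂_mul, eval₂_C]
  simp only [AlgHom.toRingHom_eq_coe, RingHom.coe_coe, map_add, map_mul, aeval_C, aeval_X, map_pow]
  have e1 : (E⁄L).a₁ = algebraMap K L E.a₁ := rfl
  have e2 : (E⁄L).a₂ = algebraMap K L E.a₂ := rfl
  have e3 : (E⁄L).a₃ = algebraMap K L E.a₃ := rfl
  have e4 : (E⁄L).a₄ = algebraMap K L E.a₄ := rfl
  have e6 : (E⁄L).a₆ = algebraMap K L E.a₆ := rfl
  rw [e1, e2, e3, e4, e6] at h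
  linear_combination h

/-- evaluation of the coordinate ring -/
noncomputable def ev {x y : L} (h : (E⁄L).Equation x y) : E.CoordinateRing →+* L :=
  AdjoinRoot.lift (aeval x : K[X] →ₐ[K] L).toRingHom y (eval_poly h)

lemma ev_algebraMap {x y : L} (h : (E⁄L).Equation x y) (p : K[X]) :
    ev h (algebraMap K[X] E.CoordinateRing p) = aeval x p := by
  have : algebraMap K[X] E.CoordinateRing p = AdjoinRoot.of E.polynomial p := rfl
  rw [this, ev, AdjoinRoot.lift_of]; rfl

lemma ev_yy {x y : L} (h : (E⁄L).Equation x y) : ev h (yy E) = y := by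
  have : yy E = AdjoinRoot.root E.polynomial := rfl
  rw [this, ev, AdjoinRoot.lift_root]

lemma ev_inj {x y : L} (h : (E⁄L).Equation x y) (hx : ∀ p : K[X], aeval x p = 0 → p = 0) :
    Function.Injective (ev h) := by
  rw [injective_iff_map_eq_zero]
  intro f hf
  obtain ⟨p, q, rfl⟩ := exists_rep E f
  by_contra hne
  have hpq : ¬ (p = 0 ∧ q = 0) := by
    rintro ⟨rfl, rfl⟩
    simp at hne
  apply nm_ne_zero E hpq
  apply hx
  rw [← ev_algebraMap h, ← nm_eq E p q, map_mul, hf, zero_mul]

end lift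

section FF

variable {K : Type u} [Field K] (E : WeierstrassCurve.Affine K)

/-- the function field -/
abbrev FFd : Type u := FractionRing E.CoordinateRing

/-- generic abscissa -/
noncomputable def gx : FFd E :=
  algebraMap E.CoordinateRing (FFd E) (algebraMap K[X] E.CoordinateRing X)

/-- generic ordinate -/
noncomputable def gy : FFd E := algebraMap E.CoordinateRing (FFd E) (yy E)

lemma algebraMap_comp (k : K) : algebraMap K (FFd E) k =
    algebraMap E.CoordinateRing (FFd E) (algebraMap K[X] E.CoordinateRing (C k)) := by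
  rw [IsScalarTower.algebraMap_apply K E.CoordinateRing (FFd E)]
  rfl

lemma aeval_gx (p : K[X]) : aeval (gx E) p =
    algebraMap E.CoordinateRing (FFd E) (algebraMap K[X] E.CoordinateRing p) := by
  induction p using Polynomial.induction_on' with
  | add p q hp hq => rw [map_add, hp, hq, map_add, map_add]
  | monomial n a =>
    rw [← C_mul_X_pow_eq_monomial]
    simp only [map_mul, aeval_C, map_pow, aeval_X, algebraMap_comp, gx]

lemma gx_inj (p : K[X]) (h : aeval (gx E) p = 0) : p = 0 := by
  rw [aeval_gx] at h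
  have h1 : algebraMap K[X] E.CoordinateRing p = 0 :=
    (IsFractionRing.injective E.CoordinateRing (FFd E)) (by rw [h, map_zero])
  have h2 := rep_eq_zero E (p := p) (q := 0) (by rw [h1, map_zero, zero_mul, add_zero])
  exact h2.1

lemma gequation : (E⁄(FFd E)).Equation (gx E) (gy E) := by
  rw [equation_iff]
  have h := congrArg (algebraMap E.CoordinateRing (FFd E)) (yy_sq E)
  simp only [map_mul, map_add, map_neg] at h
  have e1 : (E⁄(FFd E)).a₁ = algebraMap K _ E.a₁ := rfl
  have e2 : (E⁄(FFd E)).a₂ = algebraMap K _ E.a₂ := rfl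
  have e3 : (E⁄(FFd E)).a₃ = algebraMap K _ E.a₃ := rfl
  have e4 : (E⁄(FFd E)).a₄ = algebraMap K _ E.a₄ := rfl
  have e6 : (E⁄(FFd E)).a₆ = algebraMap K _ E.a₆ := rfl
  rw [e1, e2, e3, e4, e6, algebraMap_comp, algebraMap_comp, algebraMap_comp, algebraMap_comp,
    algebraMap_comp]
  rw [lin, cub] at h
  simp only [map_mul, map_add, map_pow] at h
  rw [gx, gy]
  linear_combination h

lemma exists_rep_FF (z : FFd E) : ∃ M P Q : K[X], M ≠ 0 ∧
    z * aeval (gx E) M = aeval (gx E) P + aeval (gx E) Q * gy E := by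
  obtain ⟨n, d, hd, rfl⟩ := IsFractionRing.div_surjective (A := E.CoordinateRing) z
  obtain ⟨p, q, rfl⟩ := exists_rep E d
  have hd0 := nonZeroDivisors.ne_zero hd
  have hpq : ¬ (p = 0 ∧ q = 0) := by
    rintro ⟨rfl, rfl⟩
    simp at hd0
  obtain ⟨P, Q, hPQ⟩ := exists_rep E (n * (algebraMap K[X] E.CoordinateRing (p - q * lin E) +
        algebraMap K[X] E.CoordinateRing (-q) * yy E))
  refine ⟨nm E p q, P, Q, nm_ne_zero E hpq, ?_⟩
  have hd1 : algebraMap E.CoordinateRing (FFd E) (algebraMap K[X] E.CoordinateRing p +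
      algebraMap K[X] E.CoordinateRing q * yy E) ≠ 0 := by
    intro h
    apply hd0
    exact (IsFractionRing.injective E.CoordinateRing (FFd E)) (by rw [h, map_zero])
  rw [aeval_gx, aeval_gx, aeval_gx, gy, ← map_mul, ← map_add, ← hPQ, ← nm_eq, div_mul_eq_mul_div,
    div_eq_iff hd1, map_mul, map_mul]
  ring

variable [E.IsElliptic]

lemma gy_ne : 2 * gy E + algebraMap K _ E.a₁ * gx E + algebraMap K _ E.a₃ ≠ 0 := by
  intro h
  have e : 2 * gy E + algebraMap K _ E.a₁ * gx E + algebraMap K _ E.a₃ =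
      algebraMap E.CoordinateRing (FFd E) (algebraMap K[X] E.CoordinateRing (lin E) +
        algebraMap K[X] E.CoordinateRing (C 2) * yy E) := by
    rw [lin]
    simp only [map_add, map_mul, gy, gx, algebraMap_comp, map_ofNat]
    ring
  rw [e] at h
  have h1 := (IsFractionRing.injective E.CoordinateRing (FFd E)) (h.trans (map_zero _).symm)
  obtain ⟨h2, h3⟩ := rep_eq_zero E h1
  have h2' : (2 : K) = 0 := by
    rwa [C_eq_zero] at h3
  rw [lin] at h2
  have ha1 : E.a₁ = 0 := by
    have := congrArg (fun p => p.coeff 1) h2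
    simpa using this
  have ha3 : E.a₃ = 0 := by
    have := congrArg (fun p => p.coeff 0) h2
    simpa using this
  have hΔ : E.Δ ≠ 0 := E.isUnit_Δ.ne_zero
  apply hΔ
  have e4 : (4 : K) = 0 := by linear_combination 2 * h2'
  have hb2 : E.b₂ = 0 := by
    rw [WeierstrassCurve.b₂, ha1]; linear_combination E.a₂ * e4
  have hb4 : E.b₄ = 0 := by
    rw [WeierstrassCurve.b₄, ha1]; linear_combination E.a₄ * h2'
  have hb6 : E.b₆ = 0 := by
    rw [WeierstrassCurve.b₆, ha3]; linear_combination E.a₆ * e4
  rw [WeierstrassCurve.Δ, hb2, hb4, hb6]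
  ring

end FF

section main

variable {F : Type v} [Field F] {K : Type u} [Field K] [Algebra F K]
  (W : WeierstrassCurve.Affine F)

lemma fixed_aux (E : WeierstrassCurve.Affine K) [E.IsElliptic] (τ : FFd E →ₐ[K] FFd E)
    (hx : τ (gx E) = gx E)
    (hy : τ (gy E) = -gy E - algebraMap K _ E.a₁ * gx E - algebraMap K _ E.a₃)
    (z : FFd E) (hz : τ z = z) : ∃ X Z : K[X], Z ≠ 0 ∧ z * aeval (gx E) Z = aeval (gx E) X := by
  obtain ⟨M, P, Q, hM, h⟩ := exists_rep_FF E z
  have h1 : ∀ p : K[X], τ (aeval (gx E) p) = aeval (gx E) p := by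
    intro p
    rw [← Polynomial.aeval_algHom_apply, hx]
  have h2 := congrArg τ h
  rw [map_mul, hz, h1, map_add, map_mul, h1, h1, hy, h] at h2
  have h3 : aeval (gx E) Q * (2 * gy E + algebraMap K _ E.a₁ * gx E + algebraMap K _ E.a₃) = 0 := by
    linear_combination h2
  rcases mul_eq_zero.mp h3 with h4 | h4
  · exact ⟨P, M, hM, by rw [h, h4, zero_mul, add_zero]⟩
  · exact absurd h4 (gy_ne E)

lemma lift_aux (E : WeierstrassCurve.Affine K) {x y : FFd E}
    (h : (E⁄(FFd E)).Equation x y) (hx : ∀ p : K[X], aeval x p = 0 → p = 0) :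
    ∃ s : FFd E →ₐ[K] FFd E, s (gx E) = x ∧ s (gy E) = y := by
  let g : E.CoordinateRing →ₐ[K] FFd E :=
    { ev h with
      commutes' := fun k => by
        show ev h (algebraMap K E.CoordinateRing k) = _
        have : algebraMap K E.CoordinateRing k = algebraMap K[X] E.CoordinateRing (C k) := rfl
        rw [this, ev_algebraMap, aeval_C] }
  have hg : Function.Injective g := ev_inj h hx
  refine ⟨IsFractionRing.liftAlgHom hg, ?_, ?_⟩
  · rw [gx, IsFractionRing.liftAlgHom_apply, IsFractionRing.lift_algebraMap]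
    show ev h _ = x
    rw [ev_algebraMap, aeval_X]
  · rw [gy, IsFractionRing.liftAlgHom_apply, IsFractionRing.lift_algebraMap]
    show ev h _ = y
    rw [ev_yy]

theorem exists_gen [W.IsElliptic] (K : Type u) [Field K] [Algebra F K] :
    ∃ (L : Type u) (_ : Field L) (_ : Algebra K L) (_ : Algebra F L) (_ : IsScalarTower F K L),
      Nonempty (Frob.Gen W K L) := by
  let E : WeierstrassCurve.Affine K := (W⁄K)
  haveI : E.IsElliptic := inferInstanceAs (W.map (algebraMap F K)).IsElliptic
  letI iF : Algebra F (FFd E) := ((algebraMap K (FFd E)).comp (algebraMap F K)).toAlgebra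
  have hst : @IsScalarTower F K (FFd E) _ _ iF.toSMul := by
    apply IsScalarTower.of_algebraMap_eq
    intro x; rfl
  refine ⟨FFd E, inferInstance, inferInstance, iF, hst, ?_⟩
  have hWL : @WeierstrassCurve.map F _ W (FFd E) _ (@algebraMap F (FFd E) _ _ iF) = (E⁄(FFd E)) := by
    rfl
  have ha1 : (E⁄(FFd E)).a₁ = algebraMap K _ E.a₁ := rfl
  have ha3 : (E⁄(FFd E)).a₃ = algebraMap K _ E.a₃ := rfl
  have hneg : (E⁄(FFd E)).Equation (gx E)
      (-gy E - (E⁄(FFd E)).a₁ * gx E - (E⁄(FFd E)).a₃) := by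
    have := (equation_neg (W' := (E⁄(FFd E))) (gx E) (gy E)).mpr (gequation E)
    rwa [negY] at this
  obtain ⟨τ, hτx, hτy⟩ := lift_aux E hneg (gx_inj E)
  exact ⟨{
    x := gx E
    y := gy E
    eqn := gequation E
    inj := gx_inj E
    τ := τ
    τx := hτx
    τy := hτy
    fixed := fixed_aux E τ hτx hτy
    lift := fun X Y h hX => lift_aux E h hX }⟩

end main

end Fermat.Agent.H24.GenC
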